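import Fermat.Agent.S41.H19_I3
import Fermat.Agent.Lib.FrobDensity.Main
import Fermat.Agent.Lib.EllFinite.Main

/-!
# S41 package I3 (helper19): non-Eisenstein, unconditional

`stmt_I3 : Stmt_I3` from item 61 (`Lib/FrobDensity/Main.lean`) and item 62
(`Lib/EllFinite/Main.lean`).
-/

set_option autoImplicit false

namespace Fermat.Agent.S41.H19

/-- **I3, non-Eisenstein** (unconditional): if `E[p]` is irreducible then it is not the case that
`a_ℓ(W) = 1 + ℓ` in `ZMod p` for all good primes `ℓ ∤ M`, `ℓ ≠ p`. -/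
theorem stmt_I3 : Stmt_I3 :=
  stmt_I3_of Fermat.Agent.Lib.FrobDensity.stmt_FD Fermat.Agent.Lib.EllFinite.stmt_main

end Fermat.Agent.S41.H19
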