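import Fermat.Agent.S41.H19_HeckeFormula
import Fermat.Agent.Betti.Defs

/-!
# S41, NEWLIFT leaf BRIDGE-T: `Tcoh N A ℓ = Betti.TB N A` for primes `ℓ ∤ N`

The transfer-type operator `Tcoh = cor1 ∘ res2` of `S41/Defs.lean` and the Betti Hecke operator
`TB` of `Betti/Defs.lean` (the operator represented by `heckeAlgebra.T` on the parabolic lattice)
coincide for primes `ℓ ∤ N`: both are `γ ↦ ∑ x (κ_j γ)` with `a_j γ = κ_j(γ) a_{s j}`,
`a_j = [[1, j], [0, ℓ]]`, `a_∞ = [[ℓ, 0], [0, 1]]` (`H19.Tcoh_eq_sum`).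

NB for `ℓ ∣ N` the operators `Tcoh N A ℓ` (double coset of `diag(ℓ,1)`) and `Betti.UB`
(double coset of `diag(1,ℓ)`) are different (adjoint to each other).
-/

set_option autoImplicit false

open scoped MatrixGroups
open CongruenceSubgroup Matrix Matrix.SpecialLinearGroup

namespace Fermat.Agent.S41.H20

open Fermat.Agent.S41 Fermat.Agent.S41.H19 Fermat.Agent.Betti
open P2MW.S_ModularForm_heckeT_slash_eq_self_of_mem_Gamma0.ModularForm.HeckeSlashInvariance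
open ModularForm

/-- the index bijection `Option (Fin ℓ) ≃ OnePoint (ZMod ℓ)` -/
noncomputable def idxEquiv (ℓ : ℕ) [NeZero ℓ] : Option (Fin ℓ) ≃ OnePoint (ZMod ℓ) :=
  Equiv.optionCongr (ZMod.finEquiv ℓ).toEquiv

theorem idxEquiv_none (ℓ : ℕ) [NeZero ℓ] : idxEquiv ℓ none = (OnePoint.infty : OnePoint (ZMod ℓ)) :=
  rfl

theorem idxEquiv_some (ℓ : ℕ) [NeZero ℓ] (j : Fin ℓ) :
    idxEquiv ℓ (some j) = ((ZMod.finEquiv ℓ j : ZMod ℓ) : OnePoint (ZMod ℓ)) := rfl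

theorem val_finEquiv (ℓ : ℕ) [NeZero ℓ] (j : Fin ℓ) : (ZMod.finEquiv ℓ j : ZMod ℓ).val = j := by
  rcases ℓ with _ | n
  · exact (NeZero.ne 0 rfl).elim
  · rfl

/-- The real matrix of `repT ℓ` at the index `idxEquiv ℓ j` is the integer matrix `aMat ℓ j`. -/
theorem val_repT_idxEquiv (ℓ : ℕ) [NeZero ℓ] (j : Option (Fin ℓ)) :
    ((repT ℓ (idxEquiv ℓ j) : GL (Fin 2) ℝ) : Matrix (Fin 2) (Fin 2) ℝ)
      = (aMat ℓ j).map (Int.cast : ℤ → ℝ) := by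
  have hℓ : ℓ ≠ 0 := NeZero.ne ℓ
  rcases j with _ | j
  · rw [idxEquiv_none]
    show ((heckeDiagMatrix ℓ : GL (Fin 2) ℝ) : Matrix (Fin 2) (Fin 2) ℝ) = _
    rw [val_heckeDiagMatrix hℓ]
    ext a b
    fin_cases a <;> fin_cases b <;> simp [aMat]
  · rw [idxEquiv_some]
    show ((heckeMatrix ℓ (ZMod.finEquiv ℓ j : ZMod ℓ).val : GL (Fin 2) ℝ) :
      Matrix (Fin 2) (Fin 2) ℝ) = _
    rw [val_heckeMatrix hℓ, val_finEquiv]
    ext a b
    fin_cases a <;> fin_cases b <;> simp [aMat]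

theorem val_incl (N : ℕ) (g : Gamma0 N) :
    ((incl N g : GL (Fin 2) ℝ) : Matrix (Fin 2) (Fin 2) ℝ) = (mat g).map (Int.cast : ℤ → ℝ) := by
  ext a b
  simp [incl_apply, mat]

theorem intCast_map_injective :
    Function.Injective (fun M : Matrix (Fin 2) (Fin 2) ℤ => M.map (Int.cast : ℤ → ℝ)) := by
  intro M M' h
  ext a b
  have := congrFun (congrFun h a) b
  simpa using this

/-- **BRIDGE-T**: `Tcoh N A ℓ = TB N A` for a prime `ℓ ∤ N`. -/
theorem Tcoh_eq_TB {N ℓ : ℕ} {A : Type*} [AddCommGroup A] (hN : 0 < N) (hℓ : ℓ.Prime)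
    (hℓN : ¬ ℓ ∣ N) (x : Additive (Gamma0 N) →+ A) :
    Tcoh N A ℓ x = TB N A hℓ hℓN x := by
  have : Fact ℓ.Prime := ⟨hℓ⟩
  have : NeZero ℓ := ⟨hℓ.ne_zero⟩
  refine AddMonoidHom.ext fun g' => ?_
  obtain ⟨g, rfl⟩ : ∃ g : Gamma0 N, Additive.ofMul g = g' := ⟨Additive.toMul g', rfl⟩
  set H := isHeckeFamily_T N hℓN with hH
  have key : ∀ j : Option (Fin ℓ),
      aMat ℓ j * mat g
        = mat (H.kap g (idxEquiv ℓ j)) * aMat ℓ ((idxEquiv ℓ).symm (H.perm g (idxEquiv ℓ j))) := by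
    intro j
    apply intCast_map_injective
    show (aMat ℓ j * mat g).map (Int.cast : ℤ → ℝ)
      = (mat (H.kap g (idxEquiv ℓ j))
          * aMat ℓ ((idxEquiv ℓ).symm (H.perm g (idxEquiv ℓ j)))).map (Int.cast : ℤ → ℝ)
    have h1 := congrArg (fun M : GL (Fin 2) ℝ => (M : Matrix (Fin 2) (Fin 2) ℝ))
      (H.rep_mul g (idxEquiv ℓ j))
    simp only [Units.val_mul] at h1
    rw [val_repT_idxEquiv, val_incl, val_incl] at h1
    have h2 : ((repT ℓ (H.perm g (idxEquiv ℓ j)) : GL (Fin 2) ℝ) : Matrix (Fin 2) (Fin 2) ℝ)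
        = (aMat ℓ ((idxEquiv ℓ).symm (H.perm g (idxEquiv ℓ j)))).map (Int.cast : ℤ → ℝ) := by
      rw [← val_repT_idxEquiv, Equiv.apply_symm_apply]
    rw [h2] at h1
    rw [Matrix.map_mul_intCast, Matrix.map_mul_intCast]
    exact h1
  rw [Tcoh_eq_sum hN hℓ hℓN x g _ _ key, TB_apply_apply]
  exact Fintype.sum_equiv (idxEquiv ℓ) _ _ (fun j => rfl)

end Fermat.Agent.S41.H20
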