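import Mathlib
import Fermat.Agent.S49.Lifting

/-!
# S41, NEWLIFT leaf CHAR: a characteristic zero eigensystem on the `U² = 1` part

Pure commutative algebra.  A commutative ring `R` acts faithfully on a finite dimensional complex
vector space `V` (cusp forms) and on a finitely generated torsion free `ℤ`-module `Λ` (the Betti
lattice).  If `c ∈ Λ`, `c ∉ pΛ`, is killed by `u² - 1` and is an eigenvector modulo `p` of a family
`t i` with eigenvalues `a i`, then there is a simultaneous eigenvector `v ∈ V` of `R` whose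
eigencharacter `χ` satisfies `χ(u)² = 1` and `χ(t i) ≡ a i` modulo a maximal ideal over `p` of the
ring of algebraic integers.
-/

set_option autoImplicit false

namespace Fermat.Agent.S41.H37

open Module

section Char

variable {R : Type*} [CommRing R]
variable {Λ : Type*} [AddCommGroup Λ]

/-- The ideal of the elements of `R` which map `c` into `p Λ`. -/
def congIdeal (ρ : R →+* Module.End ℤ Λ) (p : ℕ) (c : Λ) : Ideal R where
  carrier := {r | ∃ d : Λ, ρ r c = (p : ℤ) • d}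
  zero_mem' := ⟨0, by simp⟩
  add_mem' := by
    rintro r s ⟨d, hd⟩ ⟨e, he⟩
    exact ⟨d + e, by rw [map_add, LinearMap.add_apply, hd, he, smul_add]⟩
  smul_mem' := by
    rintro s r ⟨d, hd⟩
    refine ⟨ρ s d, ?_⟩
    rw [smul_eq_mul, map_mul, Module.End.mul_apply, hd, map_smul]

/-- The annihilator in `R` of the kernel of `ρ s`. -/
def annKer (ρ : R →+* Module.End ℤ Λ) (s : R) : Ideal R where
  carrier := {r | ∀ k : Λ, ρ s k = 0 → ρ r k = 0}
  zero_mem' := fun k _ => by simp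
  add_mem' := by
    intro r r' hr hr' k hk
    rw [map_add, LinearMap.add_apply, hr k hk, hr' k hk, add_zero]
  smul_mem' := by
    intro x r hr k hk
    rw [smul_eq_mul, map_mul, Module.End.mul_apply, hr k hk, map_zero]

theorem self_mem_annKer (ρ : R →+* Module.End ℤ Λ) (s : R) : s ∈ annKer ρ s := fun _ hk => hk

theorem annKer_le_congIdeal (ρ : R →+* Module.End ℤ Λ) (s : R) (p : ℕ) (c : Λ)
    (hc : ρ s c = 0) : annKer ρ s ≤ congIdeal ρ p c :=
  fun r hr => ⟨0, by rw [hr c hc, smul_zero]⟩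

theorem intCast_apply (ρ : R →+* Module.End ℤ Λ) (n : ℤ) (k : Λ) : ρ (n : R) k = n • k := by
  rw [map_intCast]
  simp

end Char

theorem char_exists
    {R : Type*} [CommRing R] {V : Type*} [AddCommGroup V] [Module ℂ V] [FiniteDimensional ℂ V]
    {Λ : Type*} [AddCommGroup Λ] [Module.Finite ℤ Λ]
    (htf : ∀ (n : ℤ) (x : Λ), n ≠ 0 → n • x = 0 → x = 0)
    (φ : R →+* Module.End ℂ V) (hφ : Function.Injective φ)
    (ρ : R →+* Module.End ℤ Λ) (hρ : Function.Injective ρ)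
    {p : ℕ} (c : Λ) (hc : ∀ d : Λ, c ≠ (p : ℤ) • d)
    (u : R) (hu : ρ (u ^ 2 - 1) c = 0)
    {ι : Type*} (t : ι → R) (a : ι → ℤ)
    (ht : ∀ i, ∃ d : Λ, ρ (t i) c - a i • c = (p : ℤ) • d) :
    ∃ (χ : R →+* ℂ) (v : V) (𝔪 : Ideal (integralClosure ℤ ℂ)),
      v ≠ 0 ∧ (∀ r, φ r v = χ r • v) ∧ χ u ^ 2 = 1 ∧ 𝔪.IsMaximal ∧
      ((p : ℕ) : integralClosure ℤ ℂ) ∈ 𝔪 ∧
      ∀ i, ∃ α : integralClosure ℤ ℂ, (α : ℂ) = χ (t i) ∧
        α - ((a i : ℤ) : integralClosure ℤ ℂ) ∈ 𝔪 := by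
  classical
  -- `R` is integral over `ℤ`
  have hint : ∀ r : R, IsIntegral ℤ r := by
    intro r
    have h1 : IsIntegral ℤ (ρ.toIntAlgHom r) := Algebra.IsIntegral.isIntegral _
    exact (isIntegral_algHom_iff ρ.toIntAlgHom hρ).mp h1
  have : Algebra.IsIntegral ℤ R := ⟨hint⟩
  set J : Ideal R := annKer ρ (u ^ 2 - 1) with hJ
  set I₀ : Ideal R := congIdeal ρ p c with hI₀
  have hJI : J ≤ I₀ := annKer_le_congIdeal ρ _ p c hu
  have hI₀top : I₀ ≠ ⊤ := by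
    intro h
    have h1 : (1 : R) ∈ I₀ := by rw [h]; trivial
    obtain ⟨d, hd⟩ := h1
    rw [map_one, Module.End.one_apply] at hd
    exact hc d hd
  obtain ⟨𝔫, h𝔫max, hI𝔫⟩ := Ideal.exists_le_maximal I₀ hI₀top
  have h𝔫prime : 𝔫.IsPrime := h𝔫max.isPrime
  obtain ⟨𝔭, h𝔭min, h𝔭𝔫⟩ := Ideal.exists_minimalPrimes_le (hJI.trans hI𝔫)
  have h𝔭prime : 𝔭.IsPrime := h𝔭min.1.1
  have hJ𝔭 : J ≤ 𝔭 := h𝔭min.1.2
  -- `𝔭` has characteristic zero
  have hchar : ∀ n : ℤ, (n : R) ∈ 𝔭 → n = 0 := by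
    intro n hn
    by_contra hn0
    rw [Ideal.minimalPrimes_eq_comap] at h𝔭min
    obtain ⟨𝔭', h𝔭', rfl⟩ := h𝔭min
    have h1 : Ideal.Quotient.mk J (n : R) ∈ 𝔭' := hn
    have h2 : Ideal.Quotient.mk J (n : R) ∈ nonZeroDivisors (R ⧸ J) := by
      rw [mem_nonZeroDivisors_iff_right]
      intro x hx
      obtain ⟨r, rfl⟩ := Ideal.Quotient.mk_surjective x
      rw [← map_mul, Ideal.Quotient.eq_zero_iff_mem] at hx
      rw [Ideal.Quotient.eq_zero_iff_mem]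
      intro k hk
      have h3 := hx k hk
      rw [map_mul, Module.End.mul_apply, intCast_apply, map_smul] at h3
      exact htf n _ hn0 h3
    exact (Set.disjoint_left.mp (Ideal.disjoint_nonZeroDivisors_of_mem_minimalPrimes h𝔭')) h1 h2
  -- hence `𝔭` is minimal among all primes of `R`
  have hmin : ∀ 𝔮 : Ideal R, 𝔮.IsPrime → 𝔮 ≤ 𝔭 → 𝔭 ≤ 𝔮 := by
    intro 𝔮 h𝔮 h𝔮𝔭
    have : IsDomain (R ⧸ 𝔮) := Ideal.Quotient.isDomain 𝔮
    have hbot : Ideal.map (Ideal.Quotient.mk 𝔮) 𝔭 = ⊥ := by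
      apply Ideal.eq_bot_of_comap_eq_bot (R := ℤ)
      rw [eq_bot_iff]
      intro n hn
      rw [Ideal.mem_comap] at hn
      have h1 : (n : R) ∈ Ideal.comap (Ideal.Quotient.mk 𝔮) (Ideal.map (Ideal.Quotient.mk 𝔮) 𝔭) := by
        rw [Ideal.mem_comap]
        simpa using hn
      rw [Ideal.comap_map_of_surjective _ Ideal.Quotient.mk_surjective, ← RingHom.ker_eq_comap_bot,
        Ideal.mk_ker, sup_eq_left.mpr h𝔮𝔭] at h1
      rw [Ideal.mem_bot]
      exact hchar n h1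
    intro x hx
    have h1 : Ideal.Quotient.mk 𝔮 x ∈ Ideal.map (Ideal.Quotient.mk 𝔮) 𝔭 := Ideal.mem_map_of_mem _ hx
    rw [hbot, Ideal.mem_bot, Ideal.Quotient.eq_zero_iff_mem] at h1
    exact h1
  obtain ⟨χ, v, hv0, hv, hker⟩ := Fermat.Agent.S49.exists_eigenvector_character φ hφ 𝔭
  have hkerprime : (RingHom.ker χ).IsPrime := RingHom.ker_isPrime χ
  have h𝔭ker : 𝔭 ≤ RingHom.ker χ := hmin _ hkerprime hker
  have hχu : χ u ^ 2 = 1 := by
    have h1 : u ^ 2 - 1 ∈ RingHom.ker χ := h𝔭ker (hJ𝔭 (self_mem_annKer ρ _))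
    rw [RingHom.mem_ker, map_sub, map_pow, map_one, sub_eq_zero] at h1
    exact h1
  obtain ⟨χ', 𝔪, hχ', h𝔪max, h𝔪⟩ :=
    Fermat.Agent.S49.exists_maximal_over hint χ 𝔫 (hker.trans h𝔭𝔫)
  refine ⟨χ, v, 𝔪, hv0, hv, hχu, h𝔪max, ?_, ?_⟩
  · have h1 : ((p : ℕ) : R) ∈ 𝔫 := by
      apply hI𝔫
      refine ⟨c, ?_⟩
      have := intCast_apply ρ (p : ℤ) c
      rw [Int.cast_natCast] at this
      exact this
    have h2 := h𝔪 _ h1
    rwa [map_natCast] at h2
  · intro i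
    refine ⟨χ' (t i), hχ' _, ?_⟩
    have h1 : t i - ((a i : ℤ) : R) ∈ 𝔫 := by
      apply hI𝔫
      obtain ⟨d, hd⟩ := ht i
      refine ⟨d, ?_⟩
      rw [map_sub, LinearMap.sub_apply, intCast_apply, hd]
    have h2 := h𝔪 _ h1
    rwa [map_sub, map_intCast] at h2

end Fermat.Agent.S41.H37
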