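import Fermat.Agent.S41.H20_NewLiftDefs
import Fermat.Agent.S41.H20_Bridge
import Fermat.Agent.S41.H37_Char
import Fermat.Agent.Betti.H76_MatrixRep
import Fermat.Agent.Betti.Basis
import Fermat.Agent.R.H99_Newform

/-!
# S41, NEWLIFT: the final assembly (short route)

`newlift_of : (Stmt_IHARA → Stmt_LLIFT) → Stmt_AL → Stmt_NEWLIFT`.

`M = N * q'`.  L-LIFT gives an integral parabolic class `y₁` killed by both trace maps with
`y₁ mod p = y`.  In the Betti lattice `Λ = Hom_par(Γ₀(M), ℤ)`, on which the Hecke algebra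
`R = heckeAlgebra M 2 ∅` acts faithfully (`Betti.H76.heckeRho`), the class `c = y₁` is not divisible
by `p`, is killed by `U_{q'}² - 1` (AL) and is an eigenvector modulo `p` of the `T_ℓ` with the
eigenvalues of `W` (BRIDGE-T).  `H37.char_exists` then gives a simultaneous eigenvector
`v ∈ S₂(Γ₀(M))` whose eigencharacter `χ` has `χ(U_{q'})² = 1` and `χ(T_ℓ) ≡ a_ℓ(W)`.
-/

set_option autoImplicit false

open scoped MatrixGroups
open WeierstrassCurve WeierstrassCurve.Affine WeierstrassCurve.Affine.Point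
open CongruenceSubgroup ModularCurve.Period CuspForm ModularFormClass

namespace Fermat.Agent.S41.H20

open Fermat.Agent.S41 Fermat.Agent.Betti Fermat.Agent.Betti.H76

section Lattice

variable {N : ℕ}

/-- A parabolic homomorphism to `ℤ` all of whose values are divisible by `p ≠ 0` is `p` times a
parabolic homomorphism. -/
theorem exists_eq_smul_of_forall_dvd {p : ℕ} (hp : p ≠ 0) (ψ : ParZ N)
    (h : ∀ γ : Additive (Gamma0 N), (p : ℤ) ∣ (ψ : Additive (Gamma0 N) →+ ℤ) γ) :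
    ∃ d : ParZ N, ψ = (p : ℤ) • d := by
  have hp' : (p : ℤ) ≠ 0 := by exact_mod_cast hp
  let d₀ : Additive (Gamma0 N) →+ ℤ :=
    { toFun := fun γ => (ψ : Additive (Gamma0 N) →+ ℤ) γ / (p : ℤ)
      map_zero' := by simp
      map_add' := fun γ δ => by
        show (ψ : Additive (Gamma0 N) →+ ℤ) (γ + δ) / (p : ℤ) = _
        rw [map_add, Int.add_ediv_of_dvd_left (h γ)] }
  have hd₀ : ∀ γ, (p : ℤ) * d₀ γ = (ψ : Additive (Gamma0 N) →+ ℤ) γ := fun γ =>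
    Int.mul_ediv_cancel' (h γ)
  have hpar : d₀ ∈ ParZ N := by
    rw [mem_parabolicHoms_iff]
    intro γ hγ
    have h1 : (ψ : Additive (Gamma0 N) →+ ℤ) (Additive.ofMul γ) = 0 :=
      (mem_parabolicHoms_iff.mp ψ.2) γ hγ
    have h2 := hd₀ (Additive.ofMul γ)
    rw [h1] at h2
    exact (mul_eq_zero.mp h2).resolve_left hp'
  refine ⟨⟨d₀, hpar⟩, ?_⟩
  apply Subtype.ext
  refine AddMonoidHom.ext fun γ => ?_
  show (ψ : Additive (Gamma0 N) →+ ℤ) γ = (p : ℤ) • d₀ γ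
  rw [smul_eq_mul, hd₀]

theorem parZ_torsionFree (n : ℤ) (x : ParZ N) (hn : n ≠ 0) (h : n • x = 0) : x = 0 := by
  apply Subtype.ext
  refine AddMonoidHom.ext fun γ => ?_
  have h1 : (n • (x : Additive (Gamma0 N) →+ ℤ)) γ = 0 := by
    have := congrArg (fun z : ParZ N => (z : Additive (Gamma0 N) →+ ℤ) γ) h
    simpa using this
  have h2 : n * (x : Additive (Gamma0 N) →+ ℤ) γ = 0 := by simpa using h1
  exact (mul_eq_zero.mp h2).resolve_left hn

theorem parZ_finite (N : ℕ) [NeZero N] : Module.Finite ℤ (ParZ N) := by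
  obtain ⟨r, b, hb⟩ := stmt_basis N
  exact Module.Finite.of_basis (parBasis hb)

end Lattice

/-- Reduction mod `p` commutes with `TB`. -/
theorem castAddHom_comp_TB {N : ℕ} {ℓ : ℕ} (hℓ : ℓ.Prime) (hℓN : ¬ ℓ ∣ N) (p : ℕ)
    (φ : Additive (Gamma0 N) →+ ℤ) :
    (Int.castAddHom (ZMod p)).comp (TB N ℤ hℓ hℓN φ)
      = TB N (ZMod p) hℓ hℓN ((Int.castAddHom (ZMod p)).comp φ) := by
  have : Fact ℓ.Prime := ⟨hℓ⟩
  exact ((isHeckeFamily_T N hℓN).heckeOp_comp (incl_injective N) (Int.castAddHom (ZMod p)) φ).symm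

/-- The `q`-coefficients at primes of the normalisation of a simultaneous eigenvector. -/
theorem qCoeff_normalized_eigenvector {M : ℕ} [NeZero M] (χ : heckeAlgebra M 2 ∅ →+* ℂ)
    (v : CuspForm (Gamma0 M) 2)
    (hv : ∀ T : heckeAlgebra M 2 ∅,
      (T : Module.End ℂ (CuspForm (Gamma0 M) 2)) v = χ T • v)
    (hb1 : qCoeff ⇑v 1 ≠ 0) {ℓ : ℕ} (hℓ : ℓ.Prime) :
    qCoeff ⇑((qCoeff ⇑v 1)⁻¹ • v) ℓ = Fermat.Agent.S49.eigenvalueAt χ ℓ := by
  have h := Fermat.Agent.S49.qCoeff_eigen_relation χ v hv hℓ 1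
  have hnd : ¬ ℓ ∣ 1 := fun h => hℓ.one_lt.ne' (Nat.dvd_one.mp h)
  rw [if_neg hnd, mul_zero, add_zero, mul_one] at h
  rw [Fermat.Agent.S49.qCoeff_smul, h]
  field_simp

/-- **NEWLIFT** from L-LIFT and AL. -/
theorem newlift_of (hL : Stmt_IHARA → Stmt_LLIFT) (hAL : Stmt_AL) : Stmt_NEWLIFT := by
  intro hIh E _ W hW p N q' hp hp2 hN hq' hq'N hq'p hirr y hy0 hycusp hyeig hc1 hc2
  obtain ⟨y₁, hy₁par, hy₁c1, hy₁c2, hy₁red⟩ :=
    hL hIh E W hW p N q' hp hp2 hN hq' hq'N hq'p hirr y hy0 hycusp hyeig hc1 hc2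
  have hM : NeZero (N * q') := ⟨(Nat.mul_pos hN hq'.pos).ne'⟩
  have hMpos : 0 < N * q' := Nat.mul_pos hN hq'.pos
  have hq'M : q' ∣ N * q' := Dvd.intro_left N rfl
  have hfd : FiniteDimensional ℂ (CuspForm (Gamma0 (N * q')) 2) :=
    Fermat.Agent.R.H99.finiteDimensional_cuspForm (N * q')
  have hfin : Module.Finite ℤ (ParZ (N * q')) := parZ_finite (N * q')
  -- the two faithful actions
  let φ : heckeAlgebra (N * q') 2 ∅ →+* Module.End ℂ (CuspForm (Gamma0 (N * q')) 2) :=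
    (heckeAlgebra (N * q') 2 ∅).val.toRingHom
  have hφ : Function.Injective φ := Subtype.val_injective
  let ρ := heckeRho (N * q') ∅
  have hρ : Function.Injective ρ := heckeRho_injective (N * q') ∅
  -- the class
  let c : ParZ (N * q') := ⟨y₁, mem_parabolicHoms_iff.mpr hy₁par⟩
  have hred : (Int.castAddHom (ZMod p)).comp y₁ = y :=
    AddMonoidHom.ext fun γ => hy₁red γ
  have hc : ∀ d : ParZ (N * q'), c ≠ (p : ℤ) • d := by
    intro d hcd
    apply hy0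
    refine AddMonoidHom.ext fun γ => ?_
    rw [← hy₁red γ]
    have h1 : y₁ γ = (p : ℤ) * (d : Additive (Gamma0 (N * q')) →+ ℤ) γ := by
      have := congrArg (fun z : ParZ (N * q') => (z : Additive (Gamma0 (N * q')) →+ ℤ) γ) hcd
      simpa using this
    rw [h1]
    simp
  -- `U_{q'}`
  let u : heckeAlgebra (N * q') 2 ∅ := heckeAlgebra.U hq' hq'M (Set.notMem_empty q')
  have hu : ρ (u ^ 2 - 1) c = 0 := by
    rw [map_sub, map_pow, map_one, LinearMap.sub_apply, Module.End.one_apply, pow_two,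
      Module.End.mul_apply, sub_eq_zero]
    apply Subtype.ext
    rw [heckeRho_U (N * q') ∅ hq' hq'M (Set.notMem_empty q') (ρ u c),
      heckeRho_U (N * q') ∅ hq' hq'M (Set.notMem_empty q') c]
    exact hAL N q' hN hq' hq'N ℤ y₁ hy₁c1 hy₁c2
  -- the `T_ℓ`
  let ι : Type := {ℓ : ℕ // ℓ.Prime ∧ W.IsGoodPrimeFor ℓ ∧ ¬ ℓ ∣ N * q' ∧ ℓ ≠ p}
  let t : ι → heckeAlgebra (N * q') 2 ∅ := fun i =>
    heckeAlgebra.T i.2.1 i.2.2.2.1 (Set.notMem_empty i.1)
  let a : ι → ℤ := fun i => W.apOfModel i.1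
  have ht : ∀ i, ∃ d : ParZ (N * q'), ρ (t i) c - a i • c = (p : ℤ) • d := by
    intro i
    apply exists_eq_smul_of_forall_dvd hp.ne_zero
    intro γ
    have h1 : ((ρ (t i) c - a i • c : ParZ (N * q')) : Additive (Gamma0 (N * q')) →+ ℤ)
        = TB (N * q') ℤ i.2.1 i.2.2.2.1 y₁ - a i • y₁ := by
      show ((ρ (t i) c : ParZ (N * q')) : Additive (Gamma0 (N * q')) →+ ℤ) - a i • y₁ = _
      rw [heckeRho_T (N * q') ∅ i.2.1 i.2.2.2.1 (Set.notMem_empty i.1) c]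
    rw [h1, ← ZMod.intCast_zmod_eq_zero_iff_dvd]
    have h2 : (Int.castAddHom (ZMod p)).comp (TB (N * q') ℤ i.2.1 i.2.2.2.1 y₁)
        = ((W.apOfModel i.1 : ℤ) : ZMod p) • y := by
      rw [castAddHom_comp_TB, hred, ← Tcoh_eq_TB hMpos i.2.1 i.2.2.2.1]
      exact hyeig i.1 i.2.1 i.2.2.1 i.2.2.2.1 i.2.2.2.2
    have h3 := congrArg (fun z : Additive (Gamma0 (N * q')) →+ ZMod p => z γ) h2
    simp only [AddMonoidHom.comp_apply, Int.coe_castAddHom, AddMonoidHom.smul_apply] at h3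
    show (((TB (N * q') ℤ i.2.1 i.2.2.2.1 y₁ - a i • y₁) γ : ℤ) : ZMod p) = 0
    rw [AddMonoidHom.sub_apply, AddMonoidHom.smul_apply, Int.cast_sub, h3, smul_eq_mul]
    show ((W.apOfModel i.1 : ℤ) : ZMod p) * y γ - (((W.apOfModel i.1 * y₁ γ : ℤ)) : ZMod p) = 0
    rw [Int.cast_mul, hy₁red γ, sub_self]
  obtain ⟨χ, v, 𝔪, hv0, hv, hχu, hmax, hp𝔪, hcong⟩ :=
    Fermat.Agent.S41.H37.char_exists parZ_torsionFree φ hφ ρ hρ c hc u hu t a ht
  have hv' : ∀ T : heckeAlgebra (N * q') 2 ∅,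
      (T : Module.End ℂ (CuspForm (Gamma0 (N * q')) 2)) v = χ T • v := fun T => hv T
  obtain ⟨hb1, hg⟩ := Fermat.Agent.R.H99.isNormalizedEigenform_of_eigenvector χ v hv0 hv'
  refine ⟨(qCoeff ⇑v 1)⁻¹ • v, 𝔪, hg, hmax, hp𝔪, ?_, ?_⟩
  · intro ℓ hℓ hgood hℓM hℓp
    obtain ⟨α, hα, hα𝔪⟩ := hcong ⟨ℓ, hℓ, hgood, hℓM, hℓp⟩
    refine ⟨α, ?_, hα𝔪⟩
    rw [hα, qCoeff_normalized_eigenvector χ v hv' hb1 hℓ,
      Fermat.Agent.S49.eigenvalueAt_of_not_dvd χ hℓ hℓM]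
  · show qCoeff ⇑((qCoeff ⇑v 1)⁻¹ • v) q' ^ 2 = 1
    rw [qCoeff_normalized_eigenvector χ v hv' hb1 hq',
      Fermat.Agent.S49.eigenvalueAt_of_dvd χ hq' hq'M]
    exact hχu

end Fermat.Agent.S41.H20
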