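import Mathlib
import Fermat.Prelude.Def_FLTPrelim_ModularRep
import Fermat.Prelude.Def_FreyPackage_LevelRaising

/-!
# S41 (level raising): shared definitions and interfaces

Route: Ribet's argument on the Betti cohomology `Hom(Gamma0 N, A)` (no Jacobians).

* `inclG N q : Gamma0 (N*q) →* Gamma0 N`   the inclusion,
* `conjG N q : Gamma0 (N*q) →* Gamma0 N`   `[[a,b],[c,d]] ↦ [[a, q*b],[c/q, d]]` (conjugation by `diag(q,1)`),
* `resAlong ι φ = φ ∘ ι`, `corAlong ι φ` = transfer (corestriction) along an injective `ι` of finite index,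
* `res1, res2, cor1, cor2` the four degeneracy maps between levels `N` and `N*q`,
* `Tcoh N ℓ = cor1 ∘ res2` the Hecke operator `T_ℓ` (`U_ℓ` if `ℓ ∣ N`) on `Hom(Gamma0 N, A)`,
* `IsCuspidalHom φ`: `φ` kills every parabolic and every elliptic element (`|trace| ≤ 2`).

The interfaces `Stmt_*` are `Prop`s; `Fermat/Agent/S41/Wiring.lean` proves the frozen statement S41 from them.
-/

set_option autoImplicit false

open scoped MatrixGroups

namespace Fermat.Agent.S41

open CongruenceSubgroup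

/-! ### The two homomorphisms `Gamma0 (N*q) →* Gamma0 N` -/

theorem gamma0_mul_le (N q : ℕ) : Gamma0 (N * q) ≤ Gamma0 N := by
  intro A hA
  rw [Gamma0_mem] at hA ⊢
  have h := (ZMod.intCast_zmod_eq_zero_iff_dvd _ _).mp hA
  exact (ZMod.intCast_zmod_eq_zero_iff_dvd _ _).mpr (dvd_trans (by push_cast; exact dvd_mul_right _ _) h)

/-- The inclusion `Gamma0 (N*q) →* Gamma0 N`. -/
def inclG (N q : ℕ) : Gamma0 (N * q) →* Gamma0 N :=
  Subgroup.inclusion (gamma0_mul_le N q)

/-- The matrix `[[a, q*b],[c/q, d]]`. -/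
def conjMat (q : ℕ) (A : Matrix (Fin 2) (Fin 2) ℤ) : Matrix (Fin 2) (Fin 2) ℤ :=
  !![A 0 0, (q : ℤ) * A 0 1; A 1 0 / (q : ℤ), A 1 1]

theorem conjMat_det {q : ℕ} {A : Matrix (Fin 2) (Fin 2) ℤ} (h : (q : ℤ) ∣ A 1 0) :
    (conjMat q A).det = A.det := by
  obtain ⟨c, hc⟩ := h
  rw [conjMat, Matrix.det_fin_two_of, Matrix.det_fin_two, hc]
  rcases eq_or_ne (q : ℤ) 0 with hq | hq
  · simp [hq]
  · rw [Int.mul_ediv_cancel_left _ hq]; ring

theorem conjMat_mul {q : ℕ} {A B : Matrix (Fin 2) (Fin 2) ℤ}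
    (hA : (q : ℤ) ∣ A 1 0) (hB : (q : ℤ) ∣ B 1 0) :
    conjMat q (A * B) = conjMat q A * conjMat q B := by
  obtain ⟨c, hc⟩ := hA
  obtain ⟨c', hc'⟩ := hB
  rcases eq_or_ne (q : ℤ) 0 with hq | hq
  · ext i j
    fin_cases i <;> fin_cases j <;>
      simp [conjMat, Matrix.mul_apply, Fin.sum_univ_two, hq, hc, hc']
  · have h10 : (A * B) 1 0 = (q : ℤ) * (c * B 0 0 + A 1 1 * c') := by
      rw [Matrix.mul_apply, Fin.sum_univ_two, hc, hc']; ring
    have e00 : (A * B) 0 0 = A 0 0 * B 0 0 + A 0 1 * B 1 0 := by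
      rw [Matrix.mul_apply, Fin.sum_univ_two]
    have e01 : (A * B) 0 1 = A 0 0 * B 0 1 + A 0 1 * B 1 1 := by
      rw [Matrix.mul_apply, Fin.sum_univ_two]
    have e11 : (A * B) 1 1 = A 1 0 * B 0 1 + A 1 1 * B 1 1 := by
      rw [Matrix.mul_apply, Fin.sum_univ_two]
    have dA : A 1 0 / (q : ℤ) = c := by rw [hc, Int.mul_ediv_cancel_left _ hq]
    have dB : B 1 0 / (q : ℤ) = c' := by rw [hc', Int.mul_ediv_cancel_left _ hq]
    have dAB : (A * B) 1 0 / (q : ℤ) = c * B 0 0 + A 1 1 * c' := by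
      rw [h10, Int.mul_ediv_cancel_left _ hq]
    ext i j
    fin_cases i <;> fin_cases j
    · show (conjMat q (A * B)) 0 0 = (conjMat q A * conjMat q B) 0 0
      rw [Matrix.mul_apply, Fin.sum_univ_two]
      simp only [conjMat, Matrix.of_apply, Matrix.cons_val', Matrix.cons_val_zero,
        Matrix.cons_val_one, Matrix.empty_val', Matrix.cons_val_fin_one]
      rw [e00, dB, hc']; ring
    · show (conjMat q (A * B)) 0 1 = (conjMat q A * conjMat q B) 0 1
      rw [Matrix.mul_apply, Fin.sum_univ_two]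
      simp only [conjMat, Matrix.of_apply, Matrix.cons_val', Matrix.cons_val_zero,
        Matrix.cons_val_one, Matrix.empty_val', Matrix.cons_val_fin_one]
      rw [e01]; ring
    · show (conjMat q (A * B)) 1 0 = (conjMat q A * conjMat q B) 1 0
      rw [Matrix.mul_apply, Fin.sum_univ_two]
      simp only [conjMat, Matrix.of_apply, Matrix.cons_val', Matrix.cons_val_zero,
        Matrix.cons_val_one, Matrix.empty_val', Matrix.cons_val_fin_one]
      rw [dAB, dA, dB]
    · show (conjMat q (A * B)) 1 1 = (conjMat q A * conjMat q B) 1 1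
      rw [Matrix.mul_apply, Fin.sum_univ_two]
      simp only [conjMat, Matrix.of_apply, Matrix.cons_val', Matrix.cons_val_zero,
        Matrix.cons_val_one, Matrix.empty_val', Matrix.cons_val_fin_one]
      rw [e11, dA, hc]; ring

theorem dvd_of_mem_gamma0_mul {N q : ℕ} {A : SL(2, ℤ)} (hA : A ∈ Gamma0 (N * q)) :
    ((N * q : ℕ) : ℤ) ∣ (A : Matrix (Fin 2) (Fin 2) ℤ) 1 0 :=
  (ZMod.intCast_zmod_eq_zero_iff_dvd _ _).mp (Gamma0_mem.mp hA)

theorem q_dvd_of_mem_gamma0_mul {N q : ℕ} {A : SL(2, ℤ)} (hA : A ∈ Gamma0 (N * q)) :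
    (q : ℤ) ∣ (A : Matrix (Fin 2) (Fin 2) ℤ) 1 0 :=
  dvd_trans (by push_cast; exact dvd_mul_left _ _) (dvd_of_mem_gamma0_mul hA)

/-- Conjugation by `diag(q,1)`: `[[a,b],[c,d]] ↦ [[a, q*b],[c/q, d]]`, as a map on `Gamma0 (N*q)`
with values in `SL(2,ℤ)`. -/
def conjSL (N q : ℕ) (A : Gamma0 (N * q)) : SL(2, ℤ) :=
  ⟨conjMat q ((A : SL(2, ℤ)) : Matrix (Fin 2) (Fin 2) ℤ), by
    rw [conjMat_det (q_dvd_of_mem_gamma0_mul A.2)]; exact (A : SL(2, ℤ)).2⟩

theorem conjSL_mem (N q : ℕ) (A : Gamma0 (N * q)) : conjSL N q A ∈ Gamma0 N := by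
  rw [Gamma0_mem]
  show (((conjMat q ((A : SL(2, ℤ)) : Matrix (Fin 2) (Fin 2) ℤ)) 1 0 : ℤ) : ZMod N) = 0
  obtain ⟨c, hc⟩ := dvd_of_mem_gamma0_mul A.2
  rw [(ZMod.intCast_zmod_eq_zero_iff_dvd _ _)]
  simp only [conjMat, Matrix.of_apply, Matrix.cons_val', Matrix.cons_val_zero, Matrix.cons_val_one,
    Matrix.empty_val', Matrix.cons_val_fin_one]
  rw [hc]
  rcases eq_or_ne (q : ℤ) 0 with hq | hq
  · simp [hq]
  · refine ⟨c, ?_⟩
    rw [show ((N * q : ℕ) : ℤ) * c = (q : ℤ) * ((N : ℤ) * c) by push_cast; ring,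
      Int.mul_ediv_cancel_left _ hq]

/-- Conjugation by `diag(q,1)` as a homomorphism `Gamma0 (N*q) →* Gamma0 N`. -/
def conjG (N q : ℕ) : Gamma0 (N * q) →* Gamma0 N where
  toFun A := ⟨conjSL N q A, conjSL_mem N q A⟩
  map_one' := by
    apply Subtype.ext
    apply Subtype.ext
    show conjMat q ((1 : SL(2, ℤ)) : Matrix (Fin 2) (Fin 2) ℤ) = 1
    ext i j
    fin_cases i <;> fin_cases j <;> simp [conjMat]
  map_mul' A B := by
    apply Subtype.ext
    apply Subtype.ext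
    show conjMat q (((A : SL(2, ℤ)) : Matrix (Fin 2) (Fin 2) ℤ) * ((B : SL(2, ℤ)) : Matrix (Fin 2) (Fin 2) ℤ))
      = conjMat q ((A : SL(2, ℤ)) : Matrix (Fin 2) (Fin 2) ℤ) * conjMat q ((B : SL(2, ℤ)) : Matrix (Fin 2) (Fin 2) ℤ)
    exact conjMat_mul (q_dvd_of_mem_gamma0_mul A.2) (q_dvd_of_mem_gamma0_mul B.2)

/-! ### Restriction and corestriction of additive characters -/

section ResCor

variable {H G : Type*} [Group H] [Group G] (A : Type*) [AddCommGroup A]

/-- Restriction of an additive character along `ι : H →* G`. -/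
def resAlong (ι : H →* G) (φ : Additive G →+ A) : Additive H →+ A :=
  φ.comp (MonoidHom.toAdditive ι)

@[simp] theorem resAlong_apply (ι : H →* G) (φ : Additive G →+ A) (h : H) :
    resAlong A ι φ (Additive.ofMul h) = φ (Additive.ofMul (ι h)) := rfl

open Classical in
/-- Corestriction (transfer) of an additive character along `ι : H →* G`, when `ι` is injective
with range of finite index; `0` otherwise. -/
noncomputable def corAlong (ι : H →* G) (φ : Additive H →+ A) : Additive G →+ A :=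
  if h : Function.Injective ι ∧ ι.range.FiniteIndex then
    haveI := h.2
    MonoidHom.toAdditiveLeft
      (MonoidHom.transfer
        ((AddMonoidHom.toMultiplicativeRight φ).comp (MonoidHom.ofInjective h.1).symm.toMonoidHom))
  else 0

end ResCor

section Degeneracy

variable (N q : ℕ) (A : Type*) [AddCommGroup A]

/-- first degeneracy map (restriction to `Gamma0 (N*q)`) -/
def res1 (φ : Additive (Gamma0 N) →+ A) : Additive (Gamma0 (N * q)) →+ A := resAlong A (inclG N q) φ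
/-- second degeneracy map (restriction along conjugation by `diag(q,1)`) -/
def res2 (φ : Additive (Gamma0 N) →+ A) : Additive (Gamma0 (N * q)) →+ A := resAlong A (conjG N q) φ
/-- first trace map (transfer along the inclusion) -/
noncomputable def cor1 (φ : Additive (Gamma0 (N * q)) →+ A) : Additive (Gamma0 N) →+ A :=
  corAlong A (inclG N q) φ
/-- second trace map (transfer along conjugation by `diag(q,1)`) -/
noncomputable def cor2 (φ : Additive (Gamma0 (N * q)) →+ A) : Additive (Gamma0 N) →+ A :=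
  corAlong A (conjG N q) φ

/-- The Hecke operator `T_ℓ` (or `U_ℓ` if `ℓ ∣ N`) on `Hom(Gamma0 N, A)`: `cor1 ∘ res2` through level `N*ℓ`. -/
noncomputable def Tcoh (ℓ : ℕ) (φ : Additive (Gamma0 N) →+ A) : Additive (Gamma0 N) →+ A :=
  cor1 N ℓ A (res2 N ℓ A φ)

end Degeneracy

/-- `φ` kills every parabolic and every elliptic element of `Γ` (all `γ` with `|trace γ| ≤ 2`).
For `A` without `6`-torsion (or `A` in which `6` is invertible) this is the prelude's `IsParabolicHom`. -/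
def IsCuspidalHom {A : Type*} [AddCommGroup A] (Γ : Subgroup SL(2, ℤ)) (φ : Additive Γ →+ A) : Prop :=
  ∀ γ : Γ, ((γ : SL(2, ℤ)) : Matrix (Fin 2) (Fin 2) ℤ).trace ^ 2 ≤ 4 → φ (Additive.ofMul γ) = 0

/-- The system of eigenvalues of `W` mod `p`: `T_ℓ x = a_ℓ(W) x` for every good prime `ℓ ∤ M`, `ℓ ≠ p`. -/
def IsEigenOf (W : WeierstrassCurve ℤ) (p M N : ℕ) (x : Additive (Gamma0 N) →+ ZMod p) : Prop :=
  ∀ ℓ : ℕ, ℓ.Prime → W.IsGoodPrimeFor ℓ → ¬ ℓ ∣ M → ℓ ≠ p →
    Tcoh N (ZMod p) ℓ x = ((W.apOfModel ℓ : ℤ) : ZMod p) • x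

end Fermat.Agent.S41
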