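import Mathlib
import Fermat.Agent.S41.Defs

/-!
# S41 package H (helper19): abstract transfer calculus

* `transfer_eq_prod` : explicit formula for Mathlib's `MonoidHom.transfer` from ANY system of
  coset representatives `t : I → G` and ANY solution `g * t i = t (σ i) * k i`.
* `corAlong_eq_sum` : the same for `corAlong` (S41/Defs.lean).
-/

set_option autoImplicit false

namespace Fermat.Agent.S41.H19

open Subgroup

section Mathlib

variable {G : Type*} [Group G] {K : Subgroup G} {B : Type*} [CommGroup B]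

/-- Explicit formula for the transfer. -/
theorem transfer_eq_prod [K.FiniteIndex] (ϕ : K →* B) {I : Type*} [Fintype I] (t : I → G)
    (ht : Function.Bijective (fun i => (t i : G ⧸ K))) (g : G) (σ : I → I) (k : I → K)
    (hk : ∀ i, g * t i = t (σ i) * k i) :
    MonoidHom.transfer ϕ g = ∏ i, ϕ (k i) := by
  classical
  let e : I ≃ G ⧸ K := Equiv.ofBijective _ ht
  have he : ∀ i, e i = (t i : G ⧸ K) := fun i => rfl
  let f : G ⧸ K → G := fun q => t (e.symm q)
  have hf : ∀ q, (f q : G ⧸ K) = q := fun q => e.apply_symm_apply q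
  have hfe : ∀ i, f (e i) = t i := fun i => by simp [f]
  let T : K.LeftTransversal := ⟨Set.range f, Subgroup.isComplement_range_left hf⟩
  have hσ : ∀ i, g • e i = e (σ i) := by
    intro i
    rw [he, he, MulAction.Quotient.smul_mk, smul_eq_mul, hk i]
    exact (QuotientGroup.mk_mul_of_mem _ (k i).2)
  let _ : Fintype (G ⧸ K) := K.fintypeQuotientOfFiniteIndex
  rw [MonoidHom.transfer_def ϕ T g]
  unfold Subgroup.leftTransversals.diff
  symm
  refine Fintype.prod_equiv (e.trans (MulAction.toPerm g)) _ _ ?_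
  intro i
  congr 1
  apply Subtype.ext
  simp only [Equiv.trans_apply, MulAction.toPerm_apply]
  rw [smul_apply_eq_smul_apply_inv_smul, inv_smul_smul]
  change (k i : G) = ((IsComplement.leftQuotientEquiv (Subgroup.isComplement_range_left hf)
    (g • e i) : G))⁻¹ * g • ((IsComplement.leftQuotientEquiv
      (Subgroup.isComplement_range_left hf) (e i) : G))
  rw [IsComplement.leftQuotientEquiv_apply hf, IsComplement.leftQuotientEquiv_apply hf, hσ, hfe,
    hfe, smul_eq_mul, hk i, inv_mul_cancel_left]

end Mathlib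

section Cor

variable {H G : Type*} [Group H] [Group G] {A : Type*} [AddCommGroup A]

/-- `t : I → G` is a system of representatives for the left cosets of `ι.range` in `G`. -/
structure IsReps (ι : H →* G) {I : Type*} (t : I → G) : Prop where
  inj : ∀ i j, (t i)⁻¹ * t j ∈ ι.range → i = j
  surj : ∀ g : G, ∃ i, (t i)⁻¹ * g ∈ ι.range

lemma IsReps.bijective {ι : H →* G} {I : Type*} {t : I → G} (ht : IsReps ι t) :
    Function.Bijective (fun i => (t i : G ⧸ ι.range)) := by
  constructor
  · intro i j hij
    exact ht.inj i j (QuotientGroup.eq.mp hij)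
  · intro q
    induction q using QuotientGroup.induction_on with
    | H g =>
      obtain ⟨i, hi⟩ := ht.surj g
      exact ⟨i, QuotientGroup.eq.mpr hi⟩

lemma IsReps.finiteIndex {ι : H →* G} {I : Type*} [Finite I] {t : I → G} (ht : IsReps ι t) :
    ι.range.FiniteIndex := by
  have : Finite (G ⧸ ι.range) := Finite.of_surjective _ ht.bijective.2
  exact Subgroup.finiteIndex_of_finite_quotient

/-- `Quotient.out` is a system of representatives. -/
lemma isReps_out (ι : H →* G) : IsReps ι (fun q : G ⧸ ι.range => q.out) := by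
  constructor
  · intro i j hij
    have := QuotientGroup.eq.mpr hij
    simpa using this
  · intro g
    refine ⟨(g : G ⧸ ι.range), ?_⟩
    apply QuotientGroup.eq.mp
    simp

/-- Explicit formula for `corAlong`. -/
theorem corAlong_eq_sum (ι : H →* G) (hι : Function.Injective ι) {I : Type*} [Fintype I]
    (t : I → G) (ht : IsReps ι t) (φ : Additive H →+ A) (g : G) (σ : I → I) (h : I → H)
    (hh : ∀ i, g * t i = t (σ i) * ι (h i)) :
    corAlong A ι φ (Additive.ofMul g) = ∑ i, φ (Additive.ofMul (h i)) := by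
  have hfin : ι.range.FiniteIndex := ht.finiteIndex
  unfold corAlong
  rw [dif_pos ⟨hι, hfin⟩]
  change Multiplicative.toAdd (MonoidHom.transfer _ g) = _
  rw [transfer_eq_prod _ t ht.bijective g σ (fun i => ⟨ι (h i), h i, rfl⟩) hh, toAdd_prod]
  refine Finset.sum_congr rfl fun i _ => ?_
  have : (MonoidHom.ofInjective hι).symm ⟨ι (h i), h i, rfl⟩ = h i := by
    apply (MonoidHom.ofInjective hι).injective
    rw [MulEquiv.apply_symm_apply]
    rfl
  simp [this]

/-- Any system of representatives admits a solution `g * t i = t (σ i) * ι (h i)`. -/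
lemma IsReps.exists_sol {ι : H →* G} {I : Type*} {t : I → G} (ht : IsReps ι t) (g : G) :
    ∃ (σ : I → I) (h : I → H), ∀ i, g * t i = t (σ i) * ι (h i) := by
  have : ∀ i, ∃ (j : I) (h : H), g * t i = t j * ι h := by
    intro i
    obtain ⟨j, h, hh⟩ := ht.surj (g * t i)
    exact ⟨j, h, by rw [hh, mul_inv_cancel_left]⟩
  choose σ h hh using this
  exact ⟨σ, h, hh⟩

lemma IsReps.sol_injective {ι : H →* G} {I : Type*} {t : I → G} (ht : IsReps ι t) {g : G}
    {σ : I → I} {h : I → H} (hh : ∀ i, g * t i = t (σ i) * ι (h i)) : Function.Injective σ := by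
  intro i j hij
  apply ht.inj
  refine ⟨(h i)⁻¹ * h j, ?_⟩
  have e1 : t i = g⁻¹ * (t (σ i) * ι (h i)) := by rw [← hh i, inv_mul_cancel_left]
  have e2 : t j = g⁻¹ * (t (σ j) * ι (h j)) := by rw [← hh j, inv_mul_cancel_left]
  rw [e1, e2, hij, map_mul, map_inv]
  group

lemma IsReps.sol_bijective {ι : H →* G} {I : Type*} [Finite I] {t : I → G} (ht : IsReps ι t)
    {g : G} {σ : I → I} {h : I → H} (hh : ∀ i, g * t i = t (σ i) * ι (h i)) :
    Function.Bijective σ :=
  Finite.injective_iff_bijective.mp (ht.sol_injective hh)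

/-- If `ι` is injective of finite index, `corAlong` is computed by the explicit formula with the
canonical representatives. -/
lemma corAlong_of_not {ι : H →* G} (h : ¬ (Function.Injective ι ∧ ι.range.FiniteIndex))
    (φ : Additive H →+ A) : corAlong A ι φ = 0 := by
  unfold corAlong
  rw [dif_neg h]

theorem corAlong_add (ι : H →* G) (φ ψ : Additive H →+ A) :
    corAlong A ι (φ + ψ) = corAlong A ι φ + corAlong A ι ψ := by
  classical
  by_cases h : Function.Injective ι ∧ ι.range.FiniteIndex
  · obtain ⟨hι, hfin⟩ := h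
    let _ : Fintype (G ⧸ ι.range) := ι.range.fintypeQuotientOfFiniteIndex
    apply AddMonoidHom.ext
    intro g
    obtain ⟨σ, k, hk⟩ := (isReps_out ι).exists_sol (Additive.toMul g)
    change corAlong A ι (φ + ψ) (Additive.ofMul (Additive.toMul g)) =
      corAlong A ι φ (Additive.ofMul (Additive.toMul g)) +
        corAlong A ι ψ (Additive.ofMul (Additive.toMul g))
    rw [corAlong_eq_sum ι hι _ (isReps_out ι) _ _ σ k hk,
      corAlong_eq_sum ι hι _ (isReps_out ι) _ _ σ k hk,
      corAlong_eq_sum ι hι _ (isReps_out ι) _ _ σ k hk, ← Finset.sum_add_distrib]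
    rfl
  · rw [corAlong_of_not h, corAlong_of_not h, corAlong_of_not h, add_zero]

theorem corAlong_smul {R : Type*} [Semiring R] [Module R A] (ι : H →* G) (c : R)
    (φ : Additive H →+ A) :
    corAlong A ι (c • φ) = c • corAlong A ι φ := by
  classical
  by_cases h : Function.Injective ι ∧ ι.range.FiniteIndex
  · obtain ⟨hι, hfin⟩ := h
    let _ : Fintype (G ⧸ ι.range) := ι.range.fintypeQuotientOfFiniteIndex
    apply AddMonoidHom.ext
    intro g
    obtain ⟨σ, k, hk⟩ := (isReps_out ι).exists_sol (Additive.toMul g)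
    change corAlong A ι (c • φ) (Additive.ofMul (Additive.toMul g)) =
      c • corAlong A ι φ (Additive.ofMul (Additive.toMul g))
    rw [corAlong_eq_sum ι hι _ (isReps_out ι) _ _ σ k hk,
      corAlong_eq_sum ι hι _ (isReps_out ι) _ _ σ k hk, Finset.smul_sum]
    rfl
  · rw [corAlong_of_not h, corAlong_of_not h, smul_zero]

theorem corAlong_neg (ι : H →* G) (φ : Additive H →+ A) :
    corAlong A ι (-φ) = - corAlong A ι φ := by
  have h := corAlong_add (A := A) ι φ (-φ)
  have h0 : corAlong A ι (0 : Additive H →+ A) = 0 := by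
    have := corAlong_add (A := A) ι 0 0
    rw [add_zero] at this
    exact left_eq_add.mp this
  rw [add_neg_cancel, h0] at h
  exact (neg_eq_of_add_eq_zero_right h.symm).symm

theorem corAlong_sub (ι : H →* G) (φ ψ : Additive H →+ A) :
    corAlong A ι (φ - ψ) = corAlong A ι φ - corAlong A ι ψ := by
  rw [sub_eq_add_neg, corAlong_add, corAlong_neg, ← sub_eq_add_neg]

/-- `cor ∘ res` is multiplication by the index. -/
theorem corAlong_resAlong (ι : H →* G) (hι : Function.Injective ι) [hfin : ι.range.FiniteIndex]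
    (φ : Additive G →+ A) :
    corAlong A ι (resAlong A ι φ) = ι.range.index • φ := by
  classical
  let _ : Fintype (G ⧸ ι.range) := ι.range.fintypeQuotientOfFiniteIndex
  apply AddMonoidHom.ext
  intro g
  obtain ⟨σ, k, hk⟩ := (isReps_out ι).exists_sol (Additive.toMul g)
  have hσ := (isReps_out ι).sol_bijective hk
  change corAlong A ι (resAlong A ι φ) (Additive.ofMul (Additive.toMul g)) = _
  rw [corAlong_eq_sum ι hι _ (isReps_out ι) _ _ σ k hk]
  have key : ∀ q : G ⧸ ι.range, resAlong A ι φ (Additive.ofMul (k q))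
      = φ g + (φ (Additive.ofMul q.out) - φ (Additive.ofMul (σ q).out)) := by
    intro q
    have h1 : ι (k q) = ((σ q).out)⁻¹ * (Additive.toMul g * q.out) := by
      rw [hk q, inv_mul_cancel_left]
    rw [resAlong_apply, h1]
    change φ (- Additive.ofMul (σ q).out + (g + Additive.ofMul q.out)) = _
    rw [map_add, map_neg, map_add]
    abel
  have hperm : ∑ q : G ⧸ ι.range, φ (Additive.ofMul (σ q).out)
      = ∑ q : G ⧸ ι.range, φ (Additive.ofMul q.out) :=
    Equiv.sum_comp (Equiv.ofBijective σ hσ) (fun q => φ (Additive.ofMul q.out))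
  rw [Finset.sum_congr rfl (fun q _ => key q), Finset.sum_add_distrib, Finset.sum_sub_distrib,
    hperm, sub_self, add_zero, Finset.sum_const, Finset.card_univ, Subgroup.index_eq_card,
    Nat.card_eq_fintype_card]
  rfl

/-- Transport of `corAlong` along conjugation by `g₀ ∈ G`: if `ι'.range = g₀ ι.range g₀⁻¹` and
`φ'`, `φ` correspond, then `corAlong ι' φ' = corAlong ι φ`. -/
theorem corAlong_transport {H' : Type*} [Group H'] (ι : H →* G) (ι' : H' →* G)
    (hι : Function.Injective ι) (hι' : Function.Injective ι') [hfin : ι.range.FiniteIndex]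
    (g₀ : G)
    (hsurj : ∀ h : H, ∃ h' : H', ι' h' = g₀ * ι h * g₀⁻¹)
    (hsub : ∀ h' : H', ∃ h : H, ι' h' = g₀ * ι h * g₀⁻¹)
    (φ : Additive H →+ A) (φ' : Additive H' →+ A)
    (hφ : ∀ (h : H) (h' : H'), ι' h' = g₀ * ι h * g₀⁻¹ →
      φ' (Additive.ofMul h') = φ (Additive.ofMul h)) :
    corAlong A ι' φ' = corAlong A ι φ := by
  classical
  let _ : Fintype (G ⧸ ι.range) := ι.range.fintypeQuotientOfFiniteIndex
  have ht := isReps_out ι
  have ht' : IsReps ι' (fun q : G ⧸ ι.range => q.out * g₀⁻¹) := by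
    constructor
    · rintro i j ⟨h', hh'⟩
      obtain ⟨h, hh⟩ := hsub h'
      apply ht.inj
      refine ⟨h, ?_⟩
      have : ι h = g₀⁻¹ * ι' h' * g₀ := by rw [hh]; group
      rw [this, hh']
      group
    · intro g
      obtain ⟨i, h, hh⟩ := ht.surj (g * g₀)
      obtain ⟨h', hh'⟩ := hsurj h
      refine ⟨i, h', ?_⟩
      rw [hh', hh]
      group
  apply AddMonoidHom.ext
  intro x
  obtain ⟨σ, k, hk⟩ := ht.exists_sol (Additive.toMul x)
  choose k' hk' using fun q => hsurj (k q)
  change corAlong A ι' φ' (Additive.ofMul (Additive.toMul x))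
    = corAlong A ι φ (Additive.ofMul (Additive.toMul x))
  rw [corAlong_eq_sum ι hι _ ht _ _ σ k hk, corAlong_eq_sum ι' hι' _ ht' _ _ σ k' (fun q => by
    rw [hk' q, ← mul_assoc, hk q]; group)]
  exact Finset.sum_congr rfl fun q _ => hφ _ _ (hk' q)

/-- The Mackey formula in the transitive case. -/
theorem corAlong_mackey {K P : Type*} [Group K] [Group P] (ιH : H →* G) (r : K →* G)
    (a : P →* K) (b : P →* H) (hιH : Function.Injective ιH) (ha : Function.Injective a)
    [hfin : ιH.range.FiniteIndex]
    (hcomm : ∀ p, r (a p) = ιH (b p))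
    (hpull : ∀ (k : K) (h : H), r k = ιH h → ∃ p, a p = k)
    (hidx : Nat.card (G ⧸ ιH.range) ≤ Nat.card (K ⧸ a.range))
    (ψ : Additive H →+ A) :
    resAlong A r (corAlong A ιH ψ) = corAlong A a (resAlong A b ψ) := by
  classical
  have hfinG : Finite (G ⧸ ιH.range) := Subgroup.finite_quotient_of_finiteIndex
  have ht := isReps_out a
  have hinj : Function.Injective (fun q : K ⧸ a.range => (r q.out : G ⧸ ιH.range)) := by
    intro i j hij
    have h1 : (r i.out)⁻¹ * r j.out ∈ ιH.range := QuotientGroup.eq.mp hij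
    obtain ⟨h, hh⟩ := h1
    obtain ⟨p, hp⟩ := hpull (i.out⁻¹ * j.out) h (by rw [map_mul, map_inv, hh])
    exact ht.inj i j ⟨p, hp⟩
  have hfinK : Finite (K ⧸ a.range) := Finite.of_injective _ hinj
  have hbij := hinj.bijective_of_nat_card_le hidx
  let _ : Fintype (K ⧸ a.range) := Fintype.ofFinite _
  have htG : IsReps ιH (fun q : K ⧸ a.range => r q.out) := by
    constructor
    · intro i j hij
      exact hinj (QuotientGroup.eq.mpr hij)
    · intro g
      obtain ⟨i, hi⟩ := hbij.2 (g : G ⧸ ιH.range)
      exact ⟨i, QuotientGroup.eq.mp hi⟩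
  have hfa : a.range.FiniteIndex := ht.finiteIndex
  apply AddMonoidHom.ext
  intro x
  obtain ⟨σ, p, hp⟩ := ht.exists_sol (Additive.toMul x)
  change corAlong A ιH ψ (Additive.ofMul (r (Additive.toMul x)))
    = corAlong A a (resAlong A b ψ) (Additive.ofMul (Additive.toMul x))
  rw [corAlong_eq_sum a ha _ ht _ _ σ p hp, corAlong_eq_sum ιH hιH _ htG _ _ σ (fun q => b (p q))
    (fun q => by rw [← hcomm, ← map_mul, ← map_mul, hp q])]
  rfl

end Cor

end Fermat.Agent.S41.H19
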