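import Fermat.Agent.S41.H19_RelIndex

/-!
# S41 package H (helper19): the matrix computations

* `conjG_injective`, traces of `inclG`, `conjG`;
* the Atkin–Lehner elements `g0, g1 ∈ Gamma0 N` attached to `q u + N v = 1` and the relations
  `conjG h' = g0 * inclG h * g0⁻¹  →  inclG h' = g1 * conjG h * g1⁻¹` (`AL_swap`),
  `AL_sub`, `AL_surj` (the range of `conjG` is the `g0`-conjugate of the range of `inclG`).
-/

set_option autoImplicit false

open scoped MatrixGroups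
open CongruenceSubgroup Matrix

namespace Fermat.Agent.S41.H19

open Fermat.Agent.S41

/-- The integer matrix of an element of `Gamma0 N`. -/
abbrev mat {N : ℕ} (γ : Gamma0 N) : Matrix (Fin 2) (Fin 2) ℤ :=
  ((γ : SL(2, ℤ)) : Matrix (Fin 2) (Fin 2) ℤ)

lemma mat_injective {N : ℕ} : Function.Injective (mat (N := N)) := fun _ _ h =>
  Subtype.ext (Subtype.ext h)

@[simp] lemma mat_mul {N : ℕ} (γ γ' : Gamma0 N) : mat (γ * γ') = mat γ * mat γ' := rfl

@[simp] lemma mat_one {N : ℕ} : mat (1 : Gamma0 N) = 1 := rfl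

lemma mat_det {N : ℕ} (γ : Gamma0 N) : (mat γ).det = 1 := (γ : SL(2, ℤ)).2

lemma mat_det' {N : ℕ} (γ : Gamma0 N) : mat γ 0 0 * mat γ 1 1 - mat γ 0 1 * mat γ 1 0 = 1 := by
  have := mat_det γ
  rwa [Matrix.det_fin_two] at this

lemma mat_dvd {N : ℕ} (γ : Gamma0 N) : (N : ℤ) ∣ mat γ 1 0 :=
  (ZMod.intCast_zmod_eq_zero_iff_dvd _ _).mp (Gamma0_mem.mp γ.2)

@[simp] lemma mat_inclG (N q : ℕ) (γ : Gamma0 (N * q)) : mat (inclG N q γ) = mat γ := rfl

@[simp] lemma mat_conjG (N q : ℕ) (γ : Gamma0 (N * q)) : mat (conjG N q γ) = conjMat q (mat γ) := rfl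

/-- Constructor for elements of `SL(2, ℤ)`. -/
def mkSL (a b c d : ℤ) (h : a * d - b * c = 1) : SL(2, ℤ) :=
  ⟨!![a, b; c, d], by rw [Matrix.det_fin_two_of]; exact h⟩

/-- Constructor for elements of `Gamma0 N`. -/
def mkG0 (N : ℕ) (a b c d : ℤ) (h : a * d - b * c = 1) (hc : (N : ℤ) ∣ c) : Gamma0 N :=
  ⟨mkSL a b c d h, by
    rw [Gamma0_mem, ZMod.intCast_zmod_eq_zero_iff_dvd]
    simpa [mkSL] using hc⟩

@[simp] lemma mat_mkG0 (N : ℕ) (a b c d : ℤ) (h : a * d - b * c = 1) (hc : (N : ℤ) ∣ c) :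
    mat (mkG0 N a b c d h hc) = !![a, b; c, d] := rfl

/-- `diag(q, 1)`. -/
def Dq (q : ℕ) : Matrix (Fin 2) (Fin 2) ℤ := !![(q : ℤ), 0; 0, 1]

lemma conjMat_Dq {q : ℕ} {A : Matrix (Fin 2) (Fin 2) ℤ} (h : (q : ℤ) ∣ A 1 0) :
    conjMat q A * Dq q = Dq q * A := by
  obtain ⟨c, hc⟩ := h
  rcases eq_or_ne (q : ℤ) 0 with hq | hq
  · ext i j
    fin_cases i <;> fin_cases j <;>
      simp [conjMat, Dq, Matrix.mul_apply, Fin.sum_univ_two, hq, hc]
  · ext i j
    fin_cases i <;> fin_cases j <;>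
      simp [conjMat, Dq, Matrix.mul_apply, Fin.sum_univ_two, hc, Int.mul_ediv_cancel_left _ hq] <;>
      ring

lemma Dq_cancel_left {q : ℕ} (hq : q ≠ 0) {X Y : Matrix (Fin 2) (Fin 2) ℤ}
    (h : Dq q * X = Dq q * Y) : X = Y := by
  have hq' : (q : ℤ) ≠ 0 := by exact_mod_cast hq
  have h00 := congrFun (congrFun h 0) 0
  have h01 := congrFun (congrFun h 0) 1
  have h10 := congrFun (congrFun h 1) 0
  have h11 := congrFun (congrFun h 1) 1
  simp only [Dq, Matrix.mul_apply, Fin.sum_univ_two, Matrix.of_apply, Matrix.cons_val',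
    Matrix.cons_val_zero, Matrix.cons_val_one, Matrix.empty_val', Matrix.cons_val_fin_one,
    zero_mul, add_zero, zero_add, one_mul] at h00 h01 h10 h11
  ext i j
  fin_cases i <;> fin_cases j
  · exact mul_left_cancel₀ hq' h00
  · exact mul_left_cancel₀ hq' h01
  · exact h10
  · exact h11

lemma Dq_cancel_right {q : ℕ} (hq : q ≠ 0) {X Y : Matrix (Fin 2) (Fin 2) ℤ}
    (h : X * Dq q = Y * Dq q) : X = Y := by
  have hq' : (q : ℤ) ≠ 0 := by exact_mod_cast hq
  have h00 := congrFun (congrFun h 0) 0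
  have h01 := congrFun (congrFun h 0) 1
  have h10 := congrFun (congrFun h 1) 0
  have h11 := congrFun (congrFun h 1) 1
  simp only [Dq, Matrix.mul_apply, Fin.sum_univ_two, Matrix.of_apply, Matrix.cons_val',
    Matrix.cons_val_zero, Matrix.cons_val_one, Matrix.empty_val', Matrix.cons_val_fin_one,
    mul_zero, add_zero, zero_add, mul_one] at h00 h01 h10 h11
  ext i j
  fin_cases i <;> fin_cases j
  · exact mul_right_cancel₀ hq' h00
  · exact h01
  · exact mul_right_cancel₀ hq' h10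
  · exact h11

theorem conjG_injective (N q : ℕ) (hq : q ≠ 0) : Function.Injective (conjG N q) := by
  intro γ γ' h
  apply mat_injective
  apply Dq_cancel_left hq
  rw [← conjMat_Dq (q_dvd_of_mem_gamma0_mul γ.2), ← conjMat_Dq (q_dvd_of_mem_gamma0_mul γ'.2)]
  have := congrArg mat h
  rw [mat_conjG, mat_conjG] at this
  rw [this]

lemma trace_conjMat (q : ℕ) (A : Matrix (Fin 2) (Fin 2) ℤ) : (conjMat q A).trace = A.trace := by
  simp [conjMat, Matrix.trace_fin_two]

/-! ### The range of `conjG` -/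

/-- Elements of `Gamma0 N` with upper right entry divisible by `q` are in the range of `conjG`. -/
theorem exists_conjG_eq {N q : ℕ} (hq : q ≠ 0) (β : Gamma0 N) (hβ : (q : ℤ) ∣ mat β 0 1) :
    ∃ h' : Gamma0 (N * q), conjG N q h' = β := by
  have hq' : (q : ℤ) ≠ 0 := by exact_mod_cast hq
  obtain ⟨b, hb⟩ := hβ
  obtain ⟨c, hc⟩ := mat_dvd β
  have hdet := mat_det' β
  refine ⟨mkG0 (N * q) (mat β 0 0) b ((q : ℤ) * mat β 1 0) (mat β 1 1) ?_ ?_, ?_⟩
  · rw [hb] at hdet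
    linear_combination hdet
  · rw [hc]
    exact ⟨c, by push_cast; ring⟩
  · apply mat_injective
    rw [mat_conjG, mat_mkG0]
    ext i j
    fin_cases i <;> fin_cases j <;>
      simp [conjMat, hb, Int.mul_ediv_cancel_left _ hq']

/-! ### Atkin–Lehner elements -/

section AL

variable {N q : ℕ} {u v : ℤ} (huv : (q : ℤ) * u + (N : ℤ) * v = 1)

/-- `g0 = [[q, v], [-N, u]] ∈ Gamma0 N`. -/
def g0 : Gamma0 N :=
  mkG0 N q v (-(N : ℤ)) u (by linear_combination huv) (dvd_neg.mpr dvd_rfl)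

/-- `g1 = [[1, v], [-N, q u]] ∈ Gamma0 N`. -/
def g1 : Gamma0 N :=
  mkG0 N 1 v (-(N : ℤ)) ((q : ℤ) * u) (by linear_combination huv) (dvd_neg.mpr dvd_rfl)

lemma mat_g0 : mat (g0 huv) = !![(q : ℤ), v; -(N : ℤ), u] := rfl

lemma mat_g1 : mat (g1 huv) = !![1, v; -(N : ℤ), (q : ℤ) * u] := rfl

lemma Dq_g1_Dq : Dq q * mat (g1 huv) * Dq q = (q : ℤ) • mat (g0 huv) := by
  rw [mat_g0, mat_g1]
  ext i j
  fin_cases i <;> fin_cases j <;>
    simp [Dq, Matrix.mul_apply, Fin.sum_univ_two] <;> ring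

include huv in
lemma isCoprime_q_N : IsCoprime (q : ℤ) (N : ℤ) := ⟨u, v, by linear_combination huv⟩

include huv in
lemma isCoprime_q_v : IsCoprime (q : ℤ) v := ⟨u, N, by linear_combination huv⟩

/-- The swap relation. -/
theorem AL_swap (hq : q ≠ 0) (h h' : Gamma0 (N * q))
    (hrel : conjG N q h' = g0 huv * inclG N q h * (g0 huv)⁻¹) :
    inclG N q h' = g1 huv * conjG N q h * (g1 huv)⁻¹ := by
  have hq' : (q : ℤ) ≠ 0 := by exact_mod_cast hq
  have e1 : conjMat q (mat h') * mat (g0 huv) = mat (g0 huv) * mat h := by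
    have : conjG N q h' * g0 huv = g0 huv * inclG N q h := by rw [hrel]; group
    have := congrArg mat this
    simpa using this
  have e2 : mat h' * mat (g1 huv) = mat (g1 huv) * conjMat q (mat h) := by
    apply Dq_cancel_left hq
    apply Dq_cancel_right hq
    calc Dq q * (mat h' * mat (g1 huv)) * Dq q
        = (Dq q * mat h') * mat (g1 huv) * Dq q := by simp only [Matrix.mul_assoc]
      _ = (conjMat q (mat h') * Dq q) * mat (g1 huv) * Dq q := by
          rw [conjMat_Dq (q_dvd_of_mem_gamma0_mul h'.2)]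
      _ = conjMat q (mat h') * (Dq q * mat (g1 huv) * Dq q) := by simp only [Matrix.mul_assoc]
      _ = (q : ℤ) • (conjMat q (mat h') * mat (g0 huv)) := by
          rw [Dq_g1_Dq, Matrix.mul_smul]
      _ = (q : ℤ) • (mat (g0 huv) * mat h) := by rw [e1]
      _ = (Dq q * mat (g1 huv) * Dq q) * mat h := by rw [Dq_g1_Dq, Matrix.smul_mul]
      _ = Dq q * mat (g1 huv) * (Dq q * mat h) := by simp only [Matrix.mul_assoc]
      _ = Dq q * mat (g1 huv) * (conjMat q (mat h) * Dq q) := by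
          rw [conjMat_Dq (q_dvd_of_mem_gamma0_mul h.2)]
      _ = Dq q * (mat (g1 huv) * conjMat q (mat h)) * Dq q := by simp only [Matrix.mul_assoc]
  have e3 : inclG N q h' * g1 huv = g1 huv * conjG N q h := by
    apply mat_injective
    simpa using e2
  rw [← e3]
  group

/-- The range of `conjG` is contained in the `g0`-conjugate of the range of `inclG`. -/
theorem AL_sub (h' : Gamma0 (N * q)) :
    ∃ h : Gamma0 (N * q), conjG N q h' = g0 huv * inclG N q h * (g0 huv)⁻¹ := by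
  obtain ⟨β, hβ⟩ : ∃ β : Gamma0 N, β = (g0 huv)⁻¹ * conjG N q h' * g0 huv := ⟨_, rfl⟩
  have e1 : g0 huv * β = conjG N q h' * g0 huv := by rw [hβ]; group
  have e2 : mat (g0 huv) * mat β = conjMat q (mat h') * mat (g0 huv) := congrArg mat e1
  rw [mat_g0] at e2
  have e00 := congrFun (congrFun e2 0) 0
  simp only [conjMat, Matrix.mul_apply, Fin.sum_univ_two, Matrix.of_apply, Matrix.cons_val',
    Matrix.cons_val_zero, Matrix.cons_val_one, Matrix.empty_val', Matrix.cons_val_fin_one] at e00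
  have hqv : (q : ℤ) ∣ v * mat β 1 0 :=
    ⟨mat h' 0 0 - (N : ℤ) * mat h' 0 1 - mat β 0 0, by linear_combination e00⟩
  have hq10 : (q : ℤ) ∣ mat β 1 0 := (isCoprime_q_v huv).dvd_of_dvd_mul_left hqv
  have hNq : ((N * q : ℕ) : ℤ) ∣ mat β 1 0 := by
    push_cast
    exact (isCoprime_q_N huv).symm.mul_dvd (mat_dvd β) hq10
  refine ⟨⟨(β : SL(2, ℤ)), ?_⟩, ?_⟩
  · rw [Gamma0_mem, ZMod.intCast_zmod_eq_zero_iff_dvd]
    exact hNq
  · have : inclG N q ⟨(β : SL(2, ℤ)), by
        rw [Gamma0_mem, ZMod.intCast_zmod_eq_zero_iff_dvd]; exact hNq⟩ = β := rfl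
    rw [this, hβ]
    group

/-- The range of `conjG` contains the `g0`-conjugate of the range of `inclG`. -/
theorem AL_surj (hq : q ≠ 0) (h : Gamma0 (N * q)) :
    ∃ h' : Gamma0 (N * q), conjG N q h' = g0 huv * inclG N q h * (g0 huv)⁻¹ := by
  obtain ⟨β, hβ⟩ : ∃ β : Gamma0 N, β = g0 huv * inclG N q h * (g0 huv)⁻¹ := ⟨_, rfl⟩
  rw [← hβ]
  have e1 : β * g0 huv = g0 huv * inclG N q h := by rw [hβ]; group
  have e2 : mat β * mat (g0 huv) = mat (g0 huv) * mat h := congrArg mat e1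
  rw [mat_g0] at e2
  have e00 := congrFun (congrFun e2 0) 0
  simp only [Matrix.mul_apply, Fin.sum_univ_two, Matrix.of_apply, Matrix.cons_val',
    Matrix.cons_val_zero, Matrix.cons_val_one, Matrix.empty_val', Matrix.cons_val_fin_one] at e00
  obtain ⟨c, hc⟩ := q_dvd_of_mem_gamma0_mul h.2
  have hc' : mat h 1 0 = (q : ℤ) * c := hc
  have hqN : (q : ℤ) ∣ (N : ℤ) * mat β 0 1 :=
    ⟨mat β 0 0 - mat h 0 0 - v * c, by rw [hc'] at e00; linear_combination -e00⟩
  have hq01 : (q : ℤ) ∣ mat β 0 1 := (isCoprime_q_N huv).dvd_of_dvd_mul_left hqN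
  exact exists_conjG_eq hq β hq01

end AL

end Fermat.Agent.S41.H19
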