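import Fermat.Agent.S41.H19_Transfer

/-!
# S41 / L-LIFT: more transfer calculus

* `corAlong_comp` : transitivity of the corestriction, `cor_{ι ∘ κ} = cor_ι ∘ cor_κ`.
* `corAlong_map`  : the corestriction commutes with a change of coefficients.
* `resAlong_map`  : the restriction commutes with a change of coefficients.
* `corAlong_congr`: `corAlong` only depends on the homomorphism.
-/

set_option autoImplicit false

namespace Fermat.Agent.S41.H77

open Fermat.Agent.S41 Fermat.Agent.S41.H19

section

variable {P H G : Type*} [Group P] [Group H] [Group G] {A : Type*} [AddCommGroup A]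

/-- Products of representatives are representatives for the composite. -/
theorem isReps_comp (κ : P →* H) (ι : H →* G) (hι : Function.Injective ι)
    {I J : Type*} {t : I → G} {s : J → H} (ht : IsReps ι t) (hs : IsReps κ s) :
    IsReps (ι.comp κ) (fun ij : I × J => t ij.1 * ι (s ij.2)) := by
  constructor
  · rintro ⟨i, j⟩ ⟨i', j'⟩ ⟨p, hp⟩
    simp only [MonoidHom.comp_apply] at hp
    have hi : i = i' := by
      apply ht.inj
      refine ⟨s j * κ p * (s j')⁻¹, ?_⟩
      rw [map_mul, map_mul, hp, map_inv]
      group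
    subst hi
    have hj : j = j' := by
      apply hs.inj
      refine ⟨p, ?_⟩
      apply hι
      rw [hp, map_mul, map_inv]
      group
    rw [hj]
  · intro g
    obtain ⟨i, h, hh⟩ := ht.surj g
    obtain ⟨j, p, hp⟩ := hs.surj h
    refine ⟨(i, j), p, ?_⟩
    simp only [MonoidHom.comp_apply]
    rw [hp, map_mul, map_inv, hh]
    group

/-- Transitivity of the corestriction. -/
theorem corAlong_comp (κ : P →* H) (ι : H →* G) (hκ : Function.Injective κ)
    (hι : Function.Injective ι) [hfκ : κ.range.FiniteIndex] [hfι : ι.range.FiniteIndex]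
    (φ : Additive P →+ A) :
    corAlong A (ι.comp κ) φ = corAlong A ι (corAlong A κ φ) := by
  classical
  let _ : Fintype (G ⧸ ι.range) := ι.range.fintypeQuotientOfFiniteIndex
  let _ : Fintype (H ⧸ κ.range) := κ.range.fintypeQuotientOfFiniteIndex
  have ht := isReps_out ι
  have hs := isReps_out κ
  have hts := isReps_comp κ ι hι ht hs
  apply AddMonoidHom.ext
  intro x
  obtain ⟨σ, h, hh⟩ := ht.exists_sol (Additive.toMul x)
  have hex : ∀ i, ∃ (τ : (H ⧸ κ.range) → (H ⧸ κ.range)) (p : (H ⧸ κ.range) → P),
      ∀ j, h i * j.out = (τ j).out * κ (p j) := fun i => hs.exists_sol (h i)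
  choose τ p hp using hex
  change corAlong A (ι.comp κ) φ (Additive.ofMul (Additive.toMul x))
    = corAlong A ι (corAlong A κ φ) (Additive.ofMul (Additive.toMul x))
  rw [corAlong_eq_sum ι hι _ ht _ _ σ h hh,
    corAlong_eq_sum (ι.comp κ) (hι.comp hκ) _ hts _ _ (fun ij => (σ ij.1, τ ij.1 ij.2))
      (fun ij => p ij.1 ij.2) (fun ij => by
        simp only [MonoidHom.comp_apply]
        rw [← mul_assoc, hh ij.1, mul_assoc, ← map_mul, hp ij.1 ij.2, map_mul, mul_assoc]),
    Fintype.sum_prod_type]
  refine Finset.sum_congr rfl fun i _ => ?_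
  rw [corAlong_eq_sum κ hκ _ hs _ _ (τ i) (p i) (hp i)]

end

section Coeff

variable {H G : Type*} [Group H] [Group G] {A B : Type*} [AddCommGroup A] [AddCommGroup B]

/-- The corestriction commutes with a change of coefficients. -/
theorem corAlong_map (ι : H →* G) (f : A →+ B) (φ : Additive H →+ A) :
    corAlong B ι (f.comp φ) = f.comp (corAlong A ι φ) := by
  classical
  by_cases h : Function.Injective ι ∧ ι.range.FiniteIndex
  · obtain ⟨hι, hfin⟩ := h
    let _ : Fintype (G ⧸ ι.range) := ι.range.fintypeQuotientOfFiniteIndex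
    apply AddMonoidHom.ext
    intro g
    obtain ⟨σ, k, hk⟩ := (isReps_out ι).exists_sol (Additive.toMul g)
    change corAlong B ι (f.comp φ) (Additive.ofMul (Additive.toMul g)) =
      f (corAlong A ι φ (Additive.ofMul (Additive.toMul g)))
    rw [corAlong_eq_sum ι hι _ (isReps_out ι) _ _ σ k hk,
      corAlong_eq_sum ι hι _ (isReps_out ι) _ _ σ k hk, map_sum]
    rfl
  · rw [corAlong_of_not h, corAlong_of_not h]
    ext x
    simp

/-- The restriction commutes with a change of coefficients. -/
theorem resAlong_map (ι : H →* G) (f : A →+ B) (φ : Additive G →+ A) :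
    resAlong B ι (f.comp φ) = f.comp (resAlong A ι φ) := rfl

end Coeff

end Fermat.Agent.S41.H77
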