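import Fermat.Agent.S41.H37_IharaOrbit

/-!
# S41, Ihara's lemma by the Kummer–Hecke route: leaf B (Step 3)

`stmt_IhB : Ihara.Stmt_IhB`: for period functions `F₁, F₂` of cuspidal classes `x₁, x₂` on `Γ₀(N)`
with `F₁(r) + F₂(q r) = 0` on `X = {r : den r prime to N}`, the function `F₁` is invariant under
`r ↦ q² r` and under all translations by `ℤ[1/q]`.

Proof: with `q² u + N w = 1`, `g₂ = [q², w; -N, u]`, `a₁ = [q u, -w; N, q]` one has
`a₁ (g₂ (q r) / q) = q² r`, whence `F₁(q² r) = F₁(r) + τ`, `τ = x₁(a₁) - x₂(g₂)`; `r = 0` gives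
`τ = 0`.  Translations: `F₁(r + z/q^k) = F₁(q^{2k} r + q^k z) = F₁(q^{2k} r) = F₁(r)`.
-/

set_option autoImplicit false

open Finset
open scoped MatrixGroups
open CongruenceSubgroup Matrix

namespace Fermat.Agent.S41.H37

open Fermat.Agent.S41 Fermat.Agent.S41.H19 Fermat.Agent.S41.Ihara

/-- For `g ∈ Gamma0 N`, `N ≥ 2` and `r` with denominator prime to `N`: the denominator `c r + d`
does not vanish and `g r` has denominator prime to `N`. -/
theorem mob_inX {N : ℕ} (hN : 2 ≤ N) (g : Gamma0 N) {r : ℚ} (hr : InX N r) :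
    ((mat g 1 0 : ℚ) * r + (mat g 1 1 : ℚ)) ≠ 0 ∧ InX N (mob (mat g) r) := by
  set a := mat g 0 0 with ha
  set b := mat g 0 1 with hb
  set c := mat g 1 0 with hc
  set d := mat g 1 1 with hd
  have hdet : a * d - b * c = 1 := mat_det' g
  obtain ⟨c', hc'⟩ : (N : ℤ) ∣ c := mat_dvd g
  set D : ℤ := c * r.num + d * r.den with hD
  set A : ℤ := a * r.num + b * r.den with hA
  have hdN : IsCoprime d (N : ℤ) := ⟨a, -b * c', by rw [hc'] at hdet; linear_combination hdet⟩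
  have hrN : IsCoprime (r.den : ℤ) (N : ℤ) := by
    have : Nat.Coprime r.den N := hr
    exact Nat.isCoprime_iff_coprime.2 this
  have hDN : IsCoprime D (N : ℤ) := by
    have h1 : IsCoprime (d * r.den) (N : ℤ) := hdN.mul_left hrN
    have h2 : D = d * r.den + (c' * r.num) * N := by rw [hD, hc']; ring
    rw [h2]
    exact h1.add_mul_right_left _
  have hD0 : D ≠ 0 := by
    intro h0
    rw [h0] at hDN
    have hu : IsUnit (N : ℤ) := isCoprime_zero_left.1 hDN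
    have : (N : ℤ) = 1 ∨ (N : ℤ) = -1 := Int.isUnit_iff.1 hu
    omega
  have hden0 : (r.den : ℚ) ≠ 0 := by exact_mod_cast r.den_nz
  have hrd : r * (r.den : ℚ) = (r.num : ℚ) := Rat.mul_den_eq_num r
  have hcd : (c : ℚ) * r + (d : ℚ) = (D : ℚ) / (r.den : ℚ) := by
    rw [hD, eq_div_iff hden0]; push_cast
    linear_combination (c : ℚ) * hrd
  constructor
  · rw [hcd]
    exact div_ne_zero (by exact_mod_cast hD0) hden0
  · have hmob : mob (mat g) r = (A : ℚ) / (D : ℚ) := by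
      unfold mob
      rw [← ha, ← hb, ← hc, ← hd, hcd]
      have : (a : ℚ) * r + (b : ℚ) = (A : ℚ) / (r.den : ℚ) := by
        rw [hA, eq_div_iff hden0]; push_cast
        linear_combination (a : ℚ) * hrd
      rw [this]
      have hDq : (D : ℚ) ≠ 0 := by exact_mod_cast hD0
      field_simp
    unfold InX
    rw [hmob]
    have h1 : (((A : ℚ) / (D : ℚ)).den : ℤ) ∣ D := by
      have := Rat.den_dvd A D
      rwa [Rat.divInt_eq_div] at this
    have h2 : IsCoprime ((((A : ℚ) / (D : ℚ)).den : ℤ)) (N : ℤ) := hDN.of_isCoprime_of_dvd_left h1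
    exact Nat.isCoprime_iff_coprime.1 h2

/-- A period function of a cuspidal class is invariant under integer translations. -/
theorem periodFn_add_int {p N : ℕ} (x : Additive (Gamma0 N) →+ ZMod p) (F : ℚ → ZMod p)
    (hx : IsCuspidalHom (Gamma0 N) x) (hF : IsPeriodFn x F) (r : ℚ) (hr : InX N r) (z : ℤ) :
    F (r + z) = F r := by
  set g : Gamma0 N := mkG0 N 1 z 0 1 (by ring) (dvd_zero _) with hg
  have h1 := hF g r hr
  have h2 : x (Additive.ofMul g) = 0 := by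
    apply hx g
    show (mat g).trace ^ 2 ≤ 4
    rw [hg, mat_mkG0, Matrix.trace_fin_two_of]
    norm_num
  have h3 : mob (mat g) r = r + z := by
    unfold mob
    rw [hg, mat_mkG0]
    simp
  rw [h3, h2, add_zero] at h1
  exact h1

/-- Step 3 of the Kummer–Hecke proof: `F₁(q² r) = F₁(r) + τ` with `τ` independent of `r`. -/
theorem exists_tau {p N q : ℕ} (hN : 2 ≤ N) (hqN : q.Coprime N) (hq0 : q ≠ 0)
    (x₁ x₂ : Additive (Gamma0 N) →+ ZMod p) (F₁ F₂ : ℚ → ZMod p)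
    (hF₁ : IsPeriodFn x₁ F₁) (hF₂ : IsPeriodFn x₂ F₂)
    (hrel : ∀ r, InX N r → F₁ r + F₂ ((q : ℚ) * r) = 0) :
    ∃ τ : ZMod p, ∀ r, InX N r → F₁ ((q : ℚ) ^ 2 * r) = F₁ r + τ := by
  have hcop : IsCoprime ((q : ℤ) ^ 2) (N : ℤ) := (Nat.isCoprime_iff_coprime.2 hqN).pow_left
  obtain ⟨u, w, huw⟩ := hcop
  set g₂ : Gamma0 N :=
    mkG0 N ((q : ℤ) ^ 2) w (-(N : ℤ)) u (by linear_combination huw) (dvd_neg.mpr dvd_rfl) with hg₂
  set a₁ : Gamma0 N := mkG0 N ((q : ℤ) * u) (-w) N q (by linear_combination huw) dvd_rfl with ha₁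
  refine ⟨x₁ (Additive.ofMul a₁) - x₂ (Additive.ofMul g₂), fun r hr => ?_⟩
  have hq0' : (q : ℚ) ≠ 0 := by exact_mod_cast hq0
  have hN0 : (N : ℚ) ≠ 0 := by
    have : N ≠ 0 := by omega
    exact_mod_cast this
  have huwQ : (u : ℚ) * (q : ℚ) ^ 2 + (w : ℚ) * (N : ℚ) = 1 := by exact_mod_cast huw
  have hw : (w : ℚ) = (1 - (u : ℚ) * (q : ℚ) ^ 2) / (N : ℚ) := by
    rw [eq_div_iff hN0]; linear_combination huwQ
  have hqr : InX N ((q : ℚ) * r) := inX_mul (inX_natCast N q) hr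
  obtain ⟨hD, hs₂⟩ := mob_inX hN g₂ hqr
  have e1 : F₂ (mob (mat g₂) ((q : ℚ) * r)) = F₂ ((q : ℚ) * r) + x₂ (Additive.ofMul g₂) :=
    hF₂ g₂ _ hqr
  set s₂ : ℚ := mob (mat g₂) ((q : ℚ) * r) with hs₂def
  set s : ℚ := s₂ / (q : ℚ) with hsdef
  have hs : InX N s := by
    rw [hsdef, div_eq_mul_inv]; exact inX_mul hs₂ (inX_inv_natCast hqN)
  have e2 : F₁ s + F₂ ((q : ℚ) * s) = 0 := hrel s hs
  have e3 : (q : ℚ) * s = s₂ := by rw [hsdef]; field_simp
  have e4 := hrel r hr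
  obtain ⟨hD', -⟩ := mob_inX hN a₁ hs
  have e6 : F₁ (mob (mat a₁) s) = F₁ s + x₁ (Additive.ofMul a₁) := hF₁ a₁ s hs
  have hDq : (-(N : ℚ)) * ((q : ℚ) * r) + (u : ℚ) ≠ 0 := by
    have := hD
    rw [hg₂, mat_mkG0] at this
    simpa using this
  have hs₂v : s₂ = ((q : ℚ) ^ 2 * ((q : ℚ) * r) + (w : ℚ)) / ((-(N : ℚ)) * ((q : ℚ) * r) + (u : ℚ)) := by
    rw [hs₂def]; unfold mob; rw [hg₂, mat_mkG0]; simp
  have hD'q : (N : ℚ) * s + (q : ℚ) ≠ 0 := by
    have := hD'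
    rw [ha₁, mat_mkG0] at this
    simpa using this
  have e5 : mob (mat a₁) s = (q : ℚ) ^ 2 * r := by
    unfold mob
    rw [ha₁, mat_mkG0]
    simp only [Matrix.of_apply, Matrix.cons_val', Matrix.cons_val_zero, Matrix.cons_val_one,
      Matrix.empty_val', Matrix.cons_val_fin_one, Int.cast_mul, Int.cast_natCast, Int.cast_neg]
    rw [div_eq_iff hD'q]
    have hDq' : (u : ℚ) - (q : ℚ) * r * (N : ℚ) ≠ 0 := by
      intro h; apply hDq; linear_combination h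
    have hs₂v' : s₂ = ((q : ℚ) ^ 3 * r + (w : ℚ)) / ((u : ℚ) - (q : ℚ) * r * (N : ℚ)) := by
      rw [hs₂v]; congr 1 <;> ring
    rw [hsdef, hs₂v', hw]
    field_simp
    ring
  rw [e5] at e6
  rw [e6]
  have e7 : F₁ s = F₁ r - x₂ (Additive.ofMul g₂) := by
    rw [e3, e1] at e2
    linear_combination e2 - e4
  rw [e7]; ring

/-- **Leaf B** of the Kummer–Hecke proof of Ihara's lemma (Step 3): `F₁` is invariant under
`r ↦ q² r` and under translations by `ℤ[1/q]`. -/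
theorem stmt_IhB : Stmt_IhB := by
  intro p N q _hp _hp2 hN hq hqN _hqp _es _ℓ₀ _hℓ₀ _ha x₁ x₂ F₁ F₂ hx₁ _hx₂ hF₁ hF₂ _hE₁ _hE₂ hrel
  have hqNc : q.Coprime N := (Nat.Prime.coprime_iff_not_dvd hq).2 hqN
  have hper₁ := periodFn_add_int x₁ F₁ hx₁ hF₁
  obtain ⟨τ, hτ⟩ := exists_tau hN hqNc hq.ne_zero x₁ x₂ F₁ F₂ hF₁ hF₂ hrel
  have h0 : InX N 0 := by unfold InX; simp
  have hτ0 : τ = 0 := by
    have := hτ 0 h0
    simpa using this
  have hq2 : ∀ r, InX N r → F₁ ((q : ℚ) ^ 2 * r) = F₁ r := fun r hr => by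
    rw [hτ r hr, hτ0, add_zero]
  refine ⟨hq2, ?_⟩
  intro r t hr ht
  have htX : InX N t := inZq_inX hq.ne_zero hqNc ht
  obtain ⟨k, z, rfl⟩ := inZq_exists hq.ne_zero ht
  have hq0' : (q : ℚ) ≠ 0 := by exact_mod_cast hq.ne_zero
  have hpow := inv_pow hqNc F₁ hq2 k
  have h1 : (q : ℚ) ^ (2 * k) * (r + (z : ℚ) / (q : ℚ) ^ k)
      = (q : ℚ) ^ (2 * k) * r + (((q : ℤ) ^ k * z : ℤ) : ℚ) := by
    push_cast
    have hqk : (q : ℚ) ^ k ≠ 0 := pow_ne_zero _ hq0'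
    rw [two_mul, pow_add]
    field_simp
  have hX : InX N ((q : ℚ) ^ (2 * k) * r) := by
    have : InX N (((q ^ (2 * k) : ℕ) : ℚ)) := inX_natCast N _
    rw [Nat.cast_pow] at this
    exact inX_mul this hr
  rw [← hpow (r + (z : ℚ) / (q : ℚ) ^ k) (inX_add hr htX), h1, hper₁ _ hX, hpow r hr]

end Fermat.Agent.S41.H37
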