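import Mathlib
import Fermat.Prelude.Def_FLTPrelim_Ramification
import Fermat.Prelude.Def_EllipticCurve_FrobeniusTrace

/-!
# I2 leaf D, sub-leaf D-KUM (helper41): Kummer theory statements

`ζ` a primitive `M`-th root of unity in `ℚ̄`, `p ∣ M` an odd prime, `q` a prime, `y ^ p = q`.

* `Stmt_KumA`  : some automorphism fixes `ζ` and moves `y`.
* `Stmt_KumHom`: on every subgroup `H` fixing `ζ`, `g ↦ g y / y` is a homomorphism to a group of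
  order `p` (`Multiplicative (ZMod p)`), with kernel `{g | g y = y}`.
* `Stmt_KumB1` : a Frobenius at `ℓ ∤ M` fixing `ζ` has `ℓ ≡ 1 mod M`.
* `Stmt_KumB2` : a Frobenius at `ℓ ≠ p, q` with `p ∣ ℓ - 1` moving `y` has
  `q ^ ((ℓ - 1) / p) ≠ 1` in `ZMod ℓ`.
-/

set_option autoImplicit false

namespace Fermat.Agent.S41.H41

/-- D-KUM (a): there is an automorphism of `ℚ̄` fixing `ζ_M` and moving `q^(1/p)`. -/
def Stmt_KumA : Prop :=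
  ∀ (p q M : ℕ), p.Prime → p ≠ 2 → q.Prime → 0 < M → p ∣ M →
    ∀ (ζ y : AlgebraicClosure ℚ), IsPrimitiveRoot ζ M → y ^ p = (q : AlgebraicClosure ℚ) →
      ∃ σ : AlgebraicClosure ℚ ≃ₐ[ℚ] AlgebraicClosure ℚ, σ ζ = ζ ∧ σ y ≠ y

/-- D-KUM (hom): the Kummer character `g ↦ g y / y` on any subgroup fixing `ζ_M`. -/
def Stmt_KumHom : Prop :=
  ∀ (p q M : ℕ), p.Prime → q.Prime → 0 < M → p ∣ M →
    ∀ (ζ y : AlgebraicClosure ℚ), IsPrimitiveRoot ζ M → y ^ p = (q : AlgebraicClosure ℚ) →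
      ∀ H : Subgroup (AlgebraicClosure ℚ ≃ₐ[ℚ] AlgebraicClosure ℚ), (∀ g ∈ H, g ζ = ζ) →
        ∃ κ : H →* Multiplicative (ZMod p), ∀ g : H, κ g = 1 ↔ (g : AlgebraicClosure ℚ ≃ₐ[ℚ]
          AlgebraicClosure ℚ) y = y

/-- D-KUM (b1): a Frobenius element at `ℓ ∤ M` which fixes `ζ_M` has `ℓ ≡ 1 mod M`. -/
def Stmt_KumB1 : Prop :=
  ∀ (ℓ M : ℕ), ℓ.Prime → 0 < M → ¬ ℓ ∣ M →
    ∀ (A : ValuationSubring (AlgebraicClosure ℚ))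
      (σ : AlgebraicClosure ℚ ≃ₐ[ℚ] AlgebraicClosure ℚ),
      A.LiesOverPrime ℓ → A.IsFrobeniusAt σ ℓ →
      ∀ ζ : AlgebraicClosure ℚ, IsPrimitiveRoot ζ M → σ ζ = ζ → ℓ % M = 1 % M

/-- D-KUM (b2): a Frobenius element at `ℓ` (`ℓ ≠ p`, `ℓ ≠ q`, `p ∣ ℓ - 1`) which moves
`y = q^(1/p)` has `q ^ ((ℓ - 1) / p) ≠ 1` in `ZMod ℓ`. -/
def Stmt_KumB2 : Prop :=
  ∀ (ℓ p q : ℕ), ℓ.Prime → p.Prime → q.Prime → ℓ ≠ p → ℓ ≠ q → p ∣ ℓ - 1 →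
    ∀ (A : ValuationSubring (AlgebraicClosure ℚ))
      (σ : AlgebraicClosure ℚ ≃ₐ[ℚ] AlgebraicClosure ℚ),
      A.LiesOverPrime ℓ → A.IsFrobeniusAt σ ℓ →
      ∀ y : AlgebraicClosure ℚ, y ^ p = (q : AlgebraicClosure ℚ) → σ y ≠ y →
        (q : ZMod ℓ) ^ ((ℓ - 1) / p) ≠ 1

end Fermat.Agent.S41.H41
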