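import Mathlib
import Fermat.Agent.S41.H41_KumDefs
import Fermat.Agent.R.H2_Cyc

/-!
# D-KUM (a): the Kummer extension `ℚ(ζ_M, q^(1/p))` (helper41)

* `stmt_KumA` : some automorphism of `ℚ̄` fixes `ζ_M` and moves `y = q^(1/p)`.
  Elementary proof: otherwise all automorphisms commute on `y` (commutators fix `ζ_M`), and
  twisting `y` by a suitable `p`-th root of unity gives a rational `p`-th root of `q`.
* `stmt_KumHom` : the Kummer character `g ↦ g y / y` on a subgroup fixing `ζ_M`.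
-/

set_option autoImplicit false
set_option linter.style.haveILetI false

namespace Fermat.Agent.S41.H41

open Fermat.Agent.R.H2

/-- Every `p`-th root of unity is a power of a primitive one. -/
theorem exists_pow_eq_of_pow_eq_one {p : ℕ} {ω u : AlgebraicClosure ℚ} (hp : 0 < p)
    (hω : IsPrimitiveRoot ω p) (hu : u ^ p = 1) : ∃ i : ℕ, ω ^ i = u := by
  haveI : NeZero p := ⟨hp.ne'⟩
  obtain ⟨i, -, hi⟩ := hω.eq_pow_of_pow_eq_one hu
  exact ⟨i, hi⟩

/-- Automorphisms commute on roots of unity. -/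
theorem map_map_root_comm {M : ℕ} (hM : 0 < M) {ζ : AlgebraicClosure ℚ}
    (hζ : IsPrimitiveRoot ζ M) (g h : AlgebraicClosure ℚ ≃ₐ[ℚ] AlgebraicClosure ℚ) :
    g (h ζ) = h (g ζ) := by
  obtain ⟨a, ha⟩ := exists_pow_eq_of_pow_eq_one hM hζ
    (show (g ζ) ^ M = 1 by rw [← map_pow, hζ.pow_eq_one, map_one])
  obtain ⟨b, hb⟩ := exists_pow_eq_of_pow_eq_one hM hζ
    (show (h ζ) ^ M = 1 by rw [← map_pow, hζ.pow_eq_one, map_one])
  rw [← ha, ← hb, map_pow, map_pow, ← ha, ← hb, ← pow_mul, ← pow_mul, mul_comm]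

/-- A prime is not a `p`-th power of a rational number (`p ≥ 2`). -/
theorem prime_ne_rat_pow {p q : ℕ} (hp : 1 < p) (hq : q.Prime) (r : ℚ) : r ^ p ≠ (q : ℚ) := by
  intro hrp
  haveI : Fact q.Prime := ⟨hq⟩
  have hr0 : r ≠ 0 := by
    rintro rfl
    rw [zero_pow (by omega)] at hrp
    exact hq.ne_zero (by exact_mod_cast hrp.symm)
  have h5 : padicValRat q (r ^ p) = p * padicValRat q r := padicValRat.pow (p := q) (q := r) (k := p)
  rw [hrp] at h5
  have h6 : padicValRat q (q : ℚ) = 1 := padicValRat.self hq.one_lt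
  rw [h6] at h5
  have h7 : (p : ℤ) ∣ 1 := ⟨_, h5⟩
  have h8 := Int.eq_one_of_dvd_one (by positivity) h7
  omega

/-- **D-KUM (a).** -/
theorem stmt_KumA : Stmt_KumA := by
  intro p q M hp hp2 hq hM hpM ζ y hζ hy
  haveI : Algebra.IsAlgebraic ℚ (AlgebraicClosure ℚ) := AlgebraicClosure.isAlgebraic ℚ
  haveI : IsAlgClosure ℚ (AlgebraicClosure ℚ) := ⟨inferInstance, inferInstance⟩
  haveI : IsGalois ℚ (AlgebraicClosure ℚ) := inferInstance
  by_contra hcon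
  push Not at hcon
  have hq0 : (q : AlgebraicClosure ℚ) ≠ 0 := by exact_mod_cast hq.ne_zero
  have hy0 : y ≠ 0 := by
    rintro rfl
    rw [zero_pow hp.ne_zero] at hy
    exact hq0 hy.symm
  -- all automorphisms commute on `y`
  have hcomm : ∀ g h : AlgebraicClosure ℚ ≃ₐ[ℚ] AlgebraicClosure ℚ, g (h y) = h (g y) := by
    intro g h
    have h1 : ((h * g)⁻¹ * (g * h)) ζ = ζ := by
      rw [AlgEquiv.mul_apply, AlgEquiv.mul_apply g h, map_map_root_comm hM hζ g h,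
        ← AlgEquiv.mul_apply h g, ← AlgEquiv.mul_apply, inv_mul_cancel, AlgEquiv.one_apply]
    have h2 := hcon _ h1
    have h3 := congrArg (h * g) h2
    rw [← AlgEquiv.mul_apply, mul_inv_cancel_left, AlgEquiv.mul_apply, AlgEquiv.mul_apply] at h3
    exact h3
  obtain ⟨d, hd⟩ := hpM
  have hω : IsPrimitiveRoot (ζ ^ d) p := IsPrimitiveRoot.pow hM hζ (by rw [hd, mul_comm])
  obtain ⟨g₀, hg₀⟩ := exists_algEquiv_ne_of_isPrimitiveRoot hp hp2 hω
  haveI : NeZero p := ⟨hp.ne_zero⟩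
  obtain ⟨k, hk, hgk⟩ : ∃ k < p, (ζ ^ d) ^ k = g₀ (ζ ^ d) :=
    hω.eq_pow_of_pow_eq_one (by rw [← map_pow, hω.pow_eq_one, map_one])
  have hk1 : k ≠ 1 := by
    rintro rfl
    rw [pow_one] at hgk
    exact hg₀ hgk.symm
  have hk0 : k ≠ 0 := by
    rintro rfl
    rw [pow_zero] at hgk
    have h1 : g₀ (ζ ^ d) = g₀ 1 := by rw [← hgk, map_one]
    have h2 := g₀.injective h1
    exact hω.ne_one hp.one_lt h2
  have hroot : ∀ u : AlgebraicClosure ℚ, u ^ p = 1 → g₀ u = u ^ k := by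
    intro u hu
    obtain ⟨i, rfl⟩ := exists_pow_eq_of_pow_eq_one hp.pos hω hu
    rw [map_pow, ← hgk, ← pow_mul, mul_comm, pow_mul]
  have hβp : ∀ h : AlgebraicClosure ℚ ≃ₐ[ℚ] AlgebraicClosure ℚ, (h y * y⁻¹) ^ p = 1 := by
    intro h
    rw [mul_pow, inv_pow, ← map_pow, hy, map_natCast]
    exact mul_inv_cancel₀ hq0
  have hβy : ∀ h : AlgebraicClosure ℚ ≃ₐ[ℚ] AlgebraicClosure ℚ, h y = (h y * y⁻¹) * y := by
    intro h
    rw [mul_assoc, inv_mul_cancel₀ hy0, mul_one]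
  have hβ0 : ∀ h : AlgebraicClosure ℚ ≃ₐ[ℚ] AlgebraicClosure ℚ, h y * y⁻¹ ≠ 0 := by
    intro h
    refine mul_ne_zero ?_ (inv_ne_zero hy0)
    rw [Ne, map_eq_zero_iff h h.injective]
    exact hy0
  have hkey : ∀ h : AlgebraicClosure ℚ ≃ₐ[ℚ] AlgebraicClosure ℚ,
      (h y * y⁻¹) ^ k * (g₀ y * y⁻¹) = h (g₀ y * y⁻¹) * (h y * y⁻¹) := by
    intro h
    have h1 := hcomm g₀ h
    have h2 : g₀ (h y) = (h y * y⁻¹) ^ k * ((g₀ y * y⁻¹) * y) := by
      conv_lhs => rw [hβy h, map_mul, hroot _ (hβp h), hβy g₀]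
    have h3 : h (g₀ y) = h (g₀ y * y⁻¹) * ((h y * y⁻¹) * y) := by
      conv_lhs => rw [hβy g₀, map_mul, hβy h]
    rw [h2, h3] at h1
    apply mul_right_cancel₀ hy0
    linear_combination h1
  have hcop : Nat.Coprime (k - 1) p := by
    apply Nat.Coprime.symm
    rw [Nat.Prime.coprime_iff_not_dvd hp]
    intro hdvd
    have := Nat.le_of_dvd (by omega) hdvd
    omega
  obtain ⟨c, -, hc⟩ := Nat.exists_mul_mod_eq_one_of_coprime hcop hp.one_lt
  have hz : ((g₀ y * y⁻¹) ^ c) ^ p = 1 := by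
    rw [← pow_mul, mul_comm c p, pow_mul, hβp g₀, one_pow]
  have hz0 : (g₀ y * y⁻¹) ^ c ≠ 0 := pow_ne_zero _ (hβ0 g₀)
  have hhz : ∀ h : AlgebraicClosure ℚ ≃ₐ[ℚ] AlgebraicClosure ℚ,
      h ((g₀ y * y⁻¹) ^ c) = (h y * y⁻¹) * (g₀ y * y⁻¹) ^ c := by
    intro h
    have h2 : h (g₀ y * y⁻¹) = (h y * y⁻¹) ^ (k - 1) * (g₀ y * y⁻¹) := by
      have h3 := hkey h
      have h4 : (h y * y⁻¹) ^ k = (h y * y⁻¹) ^ (k - 1) * (h y * y⁻¹) := by
        rw [← pow_succ]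
        congr 1
        omega
      rw [h4] at h3
      apply mul_right_cancel₀ (hβ0 h)
      rw [← h3]
      ring
    rw [map_pow, h2, mul_pow, ← pow_mul]
    have h4 : (h y * y⁻¹) ^ ((k - 1) * c) = h y * y⁻¹ := by
      conv_lhs => rw [← Nat.div_add_mod ((k - 1) * c) p, hc, pow_add, pow_mul, hβp h, one_pow,
        one_mul, pow_one]
    rw [h4]
  have hfix : ∀ h : AlgebraicClosure ℚ ≃ₐ[ℚ] AlgebraicClosure ℚ,
      h (y * ((g₀ y * y⁻¹) ^ c)⁻¹) = y * ((g₀ y * y⁻¹) ^ c)⁻¹ := by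
    intro h
    rw [map_mul, map_inv₀, hhz h]
    have h1 := hβ0 h
    rw [mul_inv, ← mul_assoc]
    congr 1
    rw [mul_inv, inv_inv, ← mul_assoc, mul_inv_cancel₀, one_mul]
    rw [Ne, map_eq_zero_iff h h.injective]
    exact hy0
  have hmem : y * ((g₀ y * y⁻¹) ^ c)⁻¹ ∈ (⊥ : IntermediateField ℚ (AlgebraicClosure ℚ)) :=
    (InfiniteGalois.mem_bot_iff_fixed _).2 hfix
  obtain ⟨r, hr⟩ := IntermediateField.mem_bot.1 hmem
  have hrp : r ^ p = (q : ℚ) := by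
    apply (algebraMap ℚ (AlgebraicClosure ℚ)).injective
    rw [map_pow, hr, mul_pow, inv_pow, hz, inv_one, mul_one, hy, map_natCast]
  exact prime_ne_rat_pow hp.one_lt hq r hrp

end Fermat.Agent.S41.H41
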