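import Mathlib
import Fermat.Agent.S41.H41_KumDefs
import Fermat.Agent.R.H2_Cyc

/-!
# D-KUM (b): Frobenius elements and Kummer conditions (helper41)

* `stmt_KumB1` : a Frobenius at `ℓ ∤ M` fixing a primitive `M`-th root of unity has `ℓ ≡ 1 mod M`.
* `stmt_KumB2` : a Frobenius at `ℓ` moving `q^(1/p)` has `q ^ ((ℓ - 1) / p) ≠ 1` in `ZMod ℓ`.
-/

set_option autoImplicit false

namespace Fermat.Agent.S41.H41

open Fermat.Agent.R.H89 Fermat.Agent.R.H2

/-- **D-KUM (b1).** -/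
theorem stmt_KumB1 : Stmt_KumB1 := by
  intro ℓ M hℓ hM hℓM A σ hA hσ ζ hζ hfix
  have hcop : M.Coprime ℓ := (Nat.Coprime.symm ((Nat.Prime.coprime_iff_not_dvd hℓ).2 hℓM))
  have h1 : σ ζ = ζ ^ ℓ := Fermat.Agent.R.H2.stmt_FrobCyc ℓ hℓ A hA σ hσ M hcop ζ hζ.pow_eq_one
  have h2 : ζ ^ ℓ = ζ ^ 1 := by rw [pow_one, ← h1, hfix]
  have hfin : IsOfFinOrder ζ := isOfFinOrder_iff_pow_eq_one.2 ⟨M, hM, hζ.pow_eq_one⟩
  have h3 := (hfin.pow_eq_pow_iff_modEq).1 h2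
  rw [← hζ.eq_orderOf] at h3
  exact h3

/-- **D-KUM (b2).** -/
theorem stmt_KumB2 : Stmt_KumB2 := by
  intro ℓ p q hℓ hp hq hℓp hℓq hdvd A σ hA hσ y hy hmove hpow
  apply hmove
  obtain ⟨e, he⟩ := hdvd
  have hediv : (ℓ - 1) / p = e := by
    rw [he]; exact Nat.mul_div_cancel_left e hp.pos
  rw [hediv] at hpow
  -- `q ^ e ≡ 1 mod ℓ`
  have hmod : q ^ e ≡ 1 [MOD ℓ] := by
    rw [← ZMod.natCast_eq_natCast_iff]
    push_cast
    exact hpow
  have hq1 : 1 ≤ q ^ e := Nat.one_le_pow _ _ hq.pos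
  have hdvd' : ℓ ∣ q ^ e - 1 := (Nat.modEq_iff_dvd' hq1).1 hmod.symm
  obtain ⟨k, hk⟩ := hdvd'
  have hqe : (q : AlgebraicClosure ℚ) ^ e = 1 + (ℓ : AlgebraicClosure ℚ) * k := by
    have h : q ^ e = 1 + ℓ * k := by omega
    have := congrArg (fun n : ℕ => (n : AlgebraicClosure ℚ)) h
    simpa using this
  have hℓA : (ℓ : AlgebraicClosure ℚ) ∈ A.nonunits := hA
  have hpA : (p : AlgebraicClosure ℚ) ∉ A.nonunits :=
    h89_prime_not_mem_nonunits A hp hℓ hℓp hA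
  have hqA : (q : AlgebraicClosure ℚ) ∉ A.nonunits :=
    h89_prime_not_mem_nonunits A hq hℓ hℓq hA
  have hvq : A.valuation (q : AlgebraicClosure ℚ) = 1 :=
    le_antisymm (h89_valuation_natCast_le_one A q) (not_lt.1 (by rwa [A.mem_nonunits_iff] at hqA))
  have hvy : A.valuation y = 1 := by
    have h : A.valuation y ^ p = 1 := by rw [← map_pow, hy, hvq]
    exact (pow_eq_one_iff.1 h).resolve_right hp.ne_zero
  have hyA : y ∈ A := by rw [← A.valuation_le_one_iff, hvy]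
  have hy0 : y ≠ 0 := by
    rintro rfl
    rw [map_zero] at hvy
    exact zero_ne_one hvy
  have h1 := h89_frob_sub_mem A hσ hyA
  -- `y ^ ℓ = y * q ^ e`
  have hℓeq : ℓ = 1 + p * e := by have := hℓ.one_lt; omega
  have hyℓ : y ^ ℓ = y * (1 + (ℓ : AlgebraicClosure ℚ) * k) := by
    conv_lhs => rw [hℓeq]
    rw [pow_add, pow_one, pow_mul, hy, hqe]
  -- `σ y - y ∈ 𝔪`
  have h2 : σ y - y ∈ A.nonunits := by
    have h3 : σ y - y = (σ y - y ^ ℓ) + y * ((ℓ : AlgebraicClosure ℚ) * k) := by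
      rw [hyℓ]; ring
    rw [h3, A.mem_nonunits_iff]
    refine Valuation.map_add_lt _ (A.mem_nonunits_iff.1 h1) ?_
    rw [map_mul, map_mul, hvy, one_mul]
    calc A.valuation (ℓ : AlgebraicClosure ℚ) * A.valuation (k : AlgebraicClosure ℚ)
        ≤ A.valuation (ℓ : AlgebraicClosure ℚ) * 1 :=
          mul_le_mul_right (h89_valuation_natCast_le_one A k) _
      _ < 1 := by rw [mul_one]; exact A.mem_nonunits_iff.1 hℓA
  -- `w = σ y / y` is a `p`-th root of unity congruent to `1`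
  have hw : (σ y * y⁻¹) ^ (p ^ 1) = 1 := by
    rw [pow_one, mul_pow, inv_pow, ← map_pow, hy, map_natCast]
    exact mul_inv_cancel₀ (by exact_mod_cast hq.ne_zero)
  have hw1 : σ y * y⁻¹ - 1 ∈ A.nonunits := by
    have h3 : σ y * y⁻¹ - 1 = (σ y - y) * y⁻¹ := by field_simp
    rw [h3, A.mem_nonunits_iff, map_mul, map_inv₀, hvy, inv_one, mul_one]
    exact A.mem_nonunits_iff.1 h2
  have h4 := h89_eq_one_of_sub_one_mem A p hpA hw hw1
  field_simp at h4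
  exact h4

end Fermat.Agent.S41.H41
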