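import Mathlib
import Fermat.Agent.S41.H41_KumA

/-!
# D-KUM (hom): the Kummer character (helper41)

`stmt_KumHom`: for `y ^ p = q` and a subgroup `H` of the absolute Galois group fixing a primitive
`M`-th root of unity (`p ∣ M`), the map `g ↦ g y / y` is a homomorphism
`H →* Multiplicative (ZMod p)` with kernel `{g | g y = y}`.
-/

set_option autoImplicit false
set_option linter.style.haveILetI false

namespace Fermat.Agent.S41.H41

/-- The exponent (in `ZMod p`) of a power of `ω`; `0` for junk input. -/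
noncomputable def rootIdx (p : ℕ) (ω u : AlgebraicClosure ℚ) : ZMod p :=
  open Classical in
  if h : ∃ i : ℕ, ω ^ i = u then ((Classical.choose h : ℕ) : ZMod p) else 0

theorem rootIdx_pow {p : ℕ} (hp : 0 < p) {ω : AlgebraicClosure ℚ} (hω : IsPrimitiveRoot ω p)
    (n : ℕ) : rootIdx p ω (ω ^ n) = (n : ZMod p) := by
  have h : ∃ i : ℕ, ω ^ i = ω ^ n := ⟨n, rfl⟩
  rw [rootIdx, dif_pos h]
  have h1 := Classical.choose_spec h
  have hfin : IsOfFinOrder ω := isOfFinOrder_iff_pow_eq_one.2 ⟨p, hp, hω.pow_eq_one⟩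
  have h2 := hfin.pow_eq_pow_iff_modEq.1 h1
  rw [← hω.eq_orderOf] at h2
  exact (ZMod.natCast_eq_natCast_iff _ _ _).2 h2

/-- **D-KUM (hom).** -/
theorem stmt_KumHom : Stmt_KumHom := by
  intro p q M hp hq hM hpM ζ y hζ hy H hH
  have hq0 : (q : AlgebraicClosure ℚ) ≠ 0 := by exact_mod_cast hq.ne_zero
  have hy0 : y ≠ 0 := by
    rintro rfl
    rw [zero_pow hp.ne_zero] at hy
    exact hq0 hy.symm
  obtain ⟨d, hd⟩ := hpM
  have hω : IsPrimitiveRoot (ζ ^ d) p := IsPrimitiveRoot.pow hM hζ (by rw [hd, mul_comm])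
  have hHroot : ∀ g ∈ H, ∀ u : AlgebraicClosure ℚ, u ^ p = 1 → g u = u := by
    intro g hg u hu
    obtain ⟨i, rfl⟩ := exists_pow_eq_of_pow_eq_one hp.pos hω hu
    rw [map_pow, map_pow, hH g hg]
  have hβp : ∀ h : AlgebraicClosure ℚ ≃ₐ[ℚ] AlgebraicClosure ℚ, (h y * y⁻¹) ^ p = 1 := by
    intro h
    rw [mul_pow, inv_pow, ← map_pow, hy, map_natCast]
    exact mul_inv_cancel₀ hq0
  have hβmul : ∀ g h : AlgebraicClosure ℚ ≃ₐ[ℚ] AlgebraicClosure ℚ, g ∈ H →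
      (g * h) y * y⁻¹ = (g y * y⁻¹) * (h y * y⁻¹) := by
    intro g h hg
    have h1 : h y = (h y * y⁻¹) * y := by
      rw [mul_assoc, inv_mul_cancel₀ hy0, mul_one]
    rw [AlgEquiv.mul_apply]
    conv_lhs => rw [h1, map_mul, hHroot g hg _ (hβp h)]
    ring
  refine ⟨{ toFun := fun g => Multiplicative.ofAdd (rootIdx p (ζ ^ d)
              ((g : AlgebraicClosure ℚ ≃ₐ[ℚ] AlgebraicClosure ℚ) y * y⁻¹))
            map_one' := ?_
            map_mul' := ?_ }, ?_⟩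
  · show Multiplicative.ofAdd (rootIdx p (ζ ^ d)
      ((1 : AlgebraicClosure ℚ ≃ₐ[ℚ] AlgebraicClosure ℚ) y * y⁻¹)) = 1
    rw [AlgEquiv.one_apply, mul_inv_cancel₀ hy0, ← pow_zero (ζ ^ d), rootIdx_pow hp.pos hω,
      Nat.cast_zero, ofAdd_zero]
  · intro g h
    obtain ⟨i, hi⟩ := exists_pow_eq_of_pow_eq_one hp.pos hω (hβp g)
    obtain ⟨j, hj⟩ := exists_pow_eq_of_pow_eq_one hp.pos hω (hβp h)
    show Multiplicative.ofAdd (rootIdx p (ζ ^ d)
      (((g * h : H) : AlgebraicClosure ℚ ≃ₐ[ℚ] AlgebraicClosure ℚ) y * y⁻¹)) =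
      Multiplicative.ofAdd (rootIdx p (ζ ^ d)
        ((g : AlgebraicClosure ℚ ≃ₐ[ℚ] AlgebraicClosure ℚ) y * y⁻¹)) *
      Multiplicative.ofAdd (rootIdx p (ζ ^ d)
        ((h : AlgebraicClosure ℚ ≃ₐ[ℚ] AlgebraicClosure ℚ) y * y⁻¹))
    rw [Subgroup.coe_mul, hβmul _ _ g.2, ← hi, ← hj, ← pow_add, rootIdx_pow hp.pos hω,
      rootIdx_pow hp.pos hω, rootIdx_pow hp.pos hω, Nat.cast_add, ofAdd_add]
  · intro g
    obtain ⟨i, hi⟩ := exists_pow_eq_of_pow_eq_one hp.pos hω (hβp g)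
    show Multiplicative.ofAdd (rootIdx p (ζ ^ d)
      ((g : AlgebraicClosure ℚ ≃ₐ[ℚ] AlgebraicClosure ℚ) y * y⁻¹)) = 1 ↔ _
    rw [← hi, rootIdx_pow hp.pos hω, ofAdd_eq_one, ZMod.natCast_eq_zero_iff,
      ← hω.pow_eq_one_iff_dvd, hi]
    constructor
    · intro h1
      have h2 : (g : AlgebraicClosure ℚ ≃ₐ[ℚ] AlgebraicClosure ℚ) y =
          ((g : AlgebraicClosure ℚ ≃ₐ[ℚ] AlgebraicClosure ℚ) y * y⁻¹) * y := by
        rw [mul_assoc, inv_mul_cancel₀ hy0, mul_one]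
      rw [h2, h1, one_mul]
    · intro h1
      rw [h1, mul_inv_cancel₀ hy0]

end Fermat.Agent.S41.H41
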