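import Mathlib

/-!
# S41 / I2 leaf D, sub-leaf D-GRP (helper78): statements

A pure group / linear algebra lemma.  `k` a field with `2 ≠ 0`, `V` a plane over `k`,
`ρ : G →* End_k V`, `H ≤ G` containing all commutators of `G`, and a subset `D ⊆ H`
(in the application `D = {g ∈ H | g y ≠ y}`) such that

* `D` is nonempty,
* for `g ∈ H` and `s ∈ D` at least two of `g`, `g * s`, `g * s * s` lie in `D`,
* every `ρ g`, `g ∈ D`, has trace `2` and determinant `1`,

and an involution `c ∈ G` with `det ρ c = -1`.  Then `ρ` has a stable line (conclusion in the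
same shape as `Fermat.Agent.S41.H19.stable_line`).

`Stmt_DGRP` is the version with a homomorphism `κ : H →* A` (`A` without elements of order two
in the image) and `D = {κ ≠ 1}`.  Both are proved in `Fermat/Agent/S41/H78_DGrp.lean`
(universe polymorphic theorems `dgrp_pred`, `dgrp`).
-/

set_option autoImplicit false

namespace Fermat.Agent.S41.H78

open Module

/-- D-GRP, predicate form. -/
def Stmt_DGRP_pred : Prop :=
  ∀ (k : Type) [Field k], (2 : k) ≠ 0 →
  ∀ (V : Type) [AddCommGroup V] [Module k V], finrank k V = 2 →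
  ∀ (G : Type) [Group G] (ρ : G →* (V →ₗ[k] V)) (H : Subgroup G),
    (∀ g g' : G, g * g' * g⁻¹ * g'⁻¹ ∈ H) →
  ∀ (D : G → Prop), (∀ s, D s → s ∈ H) → (∃ s, D s) →
    (∀ g s, g ∈ H → D s →
      (D g ∧ D (g * s)) ∨ (D g ∧ D (g * s * s)) ∨ (D (g * s) ∧ D (g * s * s))) →
    (∀ g, D g → LinearMap.trace k V (ρ g) = 2 ∧ LinearMap.det (ρ g) = 1) →
    (∃ c : G, c * c = 1 ∧ LinearMap.det (ρ c) = -1) →
    ∃ v : V, v ≠ 0 ∧ ∀ g, ∃ a : k, ρ g v = a • v

/-- D-GRP, homomorphism form. -/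
def Stmt_DGRP : Prop :=
  ∀ (k : Type) [Field k], (2 : k) ≠ 0 →
  ∀ (V : Type) [AddCommGroup V] [Module k V], finrank k V = 2 →
  ∀ (G : Type) [Group G] (ρ : G →* (V →ₗ[k] V)) (H : Subgroup G),
    (∀ g g' : G, g * g' * g⁻¹ * g'⁻¹ ∈ H) →
  ∀ (A : Type) [Group A] (κ : H →* A),
    (∀ g : H, κ g * κ g = 1 → κ g = 1) → (∃ s : H, κ s ≠ 1) →
    (∀ g : H, κ g ≠ 1 →
      LinearMap.trace k V (ρ g) = 2 ∧ LinearMap.det (ρ (g : G)) = 1) →
    (∃ c : G, c * c = 1 ∧ LinearMap.det (ρ c) = -1) →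
    ∃ v : V, v ≠ 0 ∧ ∀ g, ∃ a : k, ρ g v = a • v

end Fermat.Agent.S41.H78
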