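import Fermat.Agent.S41.H19_I3Core
import Fermat.Agent.S41.H78_DGrpStmt

/-!
# S41 / I2 leaf D, sub-leaf D-GRP (helper78): proofs

`dgrp_pred`, `dgrp` (universe polymorphic) and `stmt_DGRP_pred : Stmt_DGRP_pred`,
`stmt_DGRP : Stmt_DGRP`.
-/

set_option autoImplicit false

namespace Fermat.Agent.S41.H78

open Module
open Fermat.Agent.S41.H19 (end_CH_two mem_span_of_ker trace_one_two rho_inv_mul rho_mul_inv)

variable {k : Type*} [Field k] {V : Type*} [AddCommGroup V] [Module k V]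

/-- A square-zero endomorphism of a plane has determinant zero. -/
lemma det_eq_zero_of_sq_zero (hV : finrank k V = 2) {N : V →ₗ[k] V} (hNN : N * N = 0) :
    LinearMap.det N = 0 := by
  have h1 : LinearMap.det (N * N) = 0 := by
    rw [hNN, LinearMap.det_zero, hV]
    norm_num
  rw [map_mul] at h1
  exact mul_self_eq_zero.mp h1

/-- For a square-zero `N` on a plane and an invertible `X`: `N X N = tr (X N) • N`. -/
lemma sq_zero_sandwich (hV : finrank k V = 2) {N X X' : V →ₗ[k] V} (hNN : N * N = 0)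
    (hX : X' * X = 1) : N * X * N = LinearMap.trace k V (X * N) • N := by
  have hch := end_CH_two hV (X * N)
  have hdet : LinearMap.det (X * N) = 0 := by
    rw [map_mul, det_eq_zero_of_sq_zero hV hNN, mul_zero]
  rw [hdet, zero_smul, sub_zero] at hch
  calc N * X * N = (X' * X) * (N * X * N) := by rw [hX, one_mul]
    _ = X' * ((X * N) * (X * N)) := by simp only [mul_assoc]
    _ = X' * (LinearMap.trace k V (X * N) • (X * N)) := by rw [hch]
    _ = LinearMap.trace k V (X * N) • ((X' * X) * N) := by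
        rw [mul_smul_comm, mul_assoc]
    _ = LinearMap.trace k V (X * N) • N := by rw [hX, one_mul]

section

variable {G : Type*} [Group G]

/-- Case 1: some element of `D` acts nontrivially. -/
lemma dgrp_case1 (h2 : (2 : k) ≠ 0) (hV : finrank k V = 2) (ρ : G →* (V →ₗ[k] V))
    (H : Subgroup G) (hcomm : ∀ g g' : G, g * g' * g⁻¹ * g'⁻¹ ∈ H)
    (D : G → Prop) (hDH : ∀ s, D s → s ∈ H)
    (hD2 : ∀ g s, g ∈ H → D s →
      (D g ∧ D (g * s)) ∨ (D g ∧ D (g * s * s)) ∨ (D (g * s) ∧ D (g * s * s)))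
    (hU : ∀ g, D g → LinearMap.trace k V (ρ g) = 2 ∧ LinearMap.det (ρ g) = 1)
    (s : G) (hs : D s) (hne : ρ s ≠ 1) :
    ∃ v : V, v ≠ 0 ∧ ∀ g, ∃ a : k, ρ g v = a • v := by
  have hfin : Module.Finite k V := Module.finite_of_finrank_eq_succ hV
  obtain ⟨htrU, hdetU⟩ := hU s hs
  set N : V →ₗ[k] V := ρ s - 1 with hN
  have hUs : ρ s = 1 + N := by rw [hN]; abel
  have hNN : N * N = 0 := by
    have hch := end_CH_two hV (ρ s)
    rw [htrU, hdetU, one_smul] at hch
    have : N * N = ρ s * ρ s - (2 : k) • ρ s + 1 := by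
      rw [hN, sub_mul, mul_sub, mul_one, one_mul, two_smul]
      abel
    rw [this, hch]
    abel
  have hN0 : N ≠ 0 := sub_ne_zero.mpr hne
  obtain ⟨w, hw⟩ : ∃ w, N w ≠ 0 := by
    by_contra hcon
    push Not at hcon
    exact hN0 (LinearMap.ext fun w => by simpa using hcon w)
  set v : V := N w with hvdef
  have hNv : N v = 0 := by
    rw [hvdef, ← Module.End.mul_apply, hNN]
    rfl
  have hker : ∀ x, N x = 0 → ∃ c : k, x = c • v := fun x hx => mem_span_of_ker hV hN0 hw hNv hx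
  -- elements of `H` preserve the line
  have hH : ∀ g, g ∈ H → N (ρ g v) = 0 := by
    intro g hg
    have e1 : ρ (g * s) = ρ g + ρ g * N := by
      rw [map_mul, hUs, mul_add, mul_one]
    have e2 : ρ (g * s * s) = ρ g + (2 : k) • (ρ g * N) := by
      rw [map_mul, map_mul, hUs, mul_assoc]
      have : (1 + N) * (1 + N) = 1 + (2 : k) • N := by
        rw [add_mul, mul_add, mul_add, one_mul, mul_one, one_mul, hNN, two_smul]
        abel
      rw [this, mul_add, mul_one, mul_smul_comm]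
    have t1 : LinearMap.trace k V (ρ (g * s)) =
        LinearMap.trace k V (ρ g) + LinearMap.trace k V (ρ g * N) := by
      rw [e1, map_add]
    have t2 : LinearMap.trace k V (ρ (g * s * s)) =
        LinearMap.trace k V (ρ g) + 2 * LinearMap.trace k V (ρ g * N) := by
      rw [e2, map_add, map_smul, smul_eq_mul]
    have hτ : LinearMap.trace k V (ρ g * N) = 0 := by
      rcases hD2 g s hg hs with ⟨h0, h1⟩ | ⟨h0, h1⟩ | ⟨h0, h1⟩
      · have a0 := (hU _ h0).1
        have a1 := (hU _ h1).1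
        rw [t1, a0] at a1
        exact add_eq_left.mp a1
      · have a0 := (hU _ h0).1
        have a1 := (hU _ h1).1
        rw [t2, a0] at a1
        have := add_eq_left.mp a1
        exact (mul_eq_zero.mp this).resolve_left h2
      · have a0 := (hU _ h0).1
        have a1 := (hU _ h1).1
        rw [t1] at a0
        rw [t2] at a1
        linear_combination a1 - a0
    have hsw := sq_zero_sandwich hV hNN (rho_inv_mul ρ g)
    rw [hτ, zero_smul] at hsw
    have : N (ρ g v) = (N * ρ g * N) w := by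
      rw [hvdef, Module.End.mul_apply, Module.End.mul_apply]
    rw [this, hsw]
    rfl
  refine ⟨v, hw, fun g => ?_⟩
  -- `h = g⁻¹ s g ∈ H`
  have hsH : s ∈ H := hDH s hs
  have hh : g⁻¹ * s * g ∈ H := by
    have h1 := hcomm g⁻¹ s
    have h2' := H.mul_mem h1 hsH
    have : g⁻¹ * s * g⁻¹⁻¹ * s⁻¹ * s = g⁻¹ * s * g := by group
    rwa [this] at h2'
  obtain ⟨a, ha⟩ := hker _ (hH _ hh)
  set u : V := ρ g v with hu
  have hsu : ρ s u = a • u := by
    have : s * g = g * (g⁻¹ * s * g) := by group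
    rw [hu, ← Module.End.mul_apply, ← map_mul, this, map_mul, Module.End.mul_apply, ha,
      map_smul]
  have hNu : N u = (a - 1) • u := by
    rw [hN, LinearMap.sub_apply, hsu, Module.End.one_apply, sub_smul, one_smul]
  have hu0 : u ≠ 0 := by
    intro h0
    apply hw
    have : v = ρ g⁻¹ u := by
      rw [hu, ← Module.End.mul_apply, rho_inv_mul, Module.End.one_apply]
    rw [this, h0, map_zero]
  have hNNu : N (N u) = 0 := by
    rw [← Module.End.mul_apply, hNN]
    rfl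
  have ha1 : a - 1 = 0 := by
    by_contra hne1
    rw [hNu, map_smul, hNu, smul_smul] at hNNu
    rcases smul_eq_zero.mp hNNu with h | h
    · exact hne1 (mul_self_eq_zero.mp h)
    · exact hu0 h
  rw [ha1, zero_smul] at hNu
  exact hker u hNu

/-- Case 2: abelian image and an involution of determinant `-1`. -/
lemma dgrp_case2 (h2 : (2 : k) ≠ 0) (hV : finrank k V = 2) (ρ : G →* (V →ₗ[k] V))
    (hab : ∀ g g' : G, ρ g * ρ g' = ρ g' * ρ g)
    (c : G) (hcc : c * c = 1) (hdet : LinearMap.det (ρ c) = -1) :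
    ∃ v : V, v ≠ 0 ∧ ∀ g, ∃ a : k, ρ g v = a • v := by
  have hfin : Module.Finite k V := Module.finite_of_finrank_eq_succ hV
  set X : V →ₗ[k] V := ρ c with hX
  have hXX : X * X = 1 := by rw [hX, ← map_mul, hcc, map_one]
  have hne : (-1 : k) ≠ 1 := by
    intro h
    apply h2
    have : (2 : k) = 1 - (-1) := by ring
    rw [this, h, sub_self]
  have hX1 : X - 1 ≠ 0 := by
    intro h
    have : X = 1 := sub_eq_zero.mp h
    rw [this, map_one] at hdet
    exact hne hdet.symm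
  have hX2 : X + 1 ≠ 0 := by
    intro h
    have : X = (-1 : k) • (1 : V →ₗ[k] V) := by
      rw [neg_smul, one_smul]
      exact eq_neg_of_add_eq_zero_left h
    rw [this, LinearMap.det_smul, hV, map_one] at hdet
    apply hne
    rw [← hdet]
    ring
  have hprod : (X - 1) * (X + 1) = 0 := by
    rw [sub_mul, mul_add, mul_one, one_mul, hXX]
    abel
  obtain ⟨w, hw⟩ : ∃ w, (X + 1) w ≠ 0 := by
    by_contra hcon
    push Not at hcon
    exact hX2 (LinearMap.ext fun w => by simpa using hcon w)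
  set v : V := (X + 1) w with hvdef
  have hXv : (X - 1) v = 0 := by
    rw [hvdef, ← Module.End.mul_apply, hprod]
    rfl
  refine ⟨v, hw, fun g => ?_⟩
  apply mem_span_of_ker hV hX1 hw hXv
  have hcomm' : (X - 1) * ρ g = ρ g * (X - 1) := by
    rw [sub_mul, mul_sub, one_mul, mul_one, hX, hab]
  rw [← Module.End.mul_apply, hcomm', Module.End.mul_apply, hXv, map_zero]

/-- **D-GRP, predicate form.** -/
theorem dgrp_pred (h2 : (2 : k) ≠ 0) (hV : finrank k V = 2) (ρ : G →* (V →ₗ[k] V))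
    (H : Subgroup G) (hcomm : ∀ g g' : G, g * g' * g⁻¹ * g'⁻¹ ∈ H)
    (D : G → Prop) (hDH : ∀ s, D s → s ∈ H) (hex : ∃ s, D s)
    (hD2 : ∀ g s, g ∈ H → D s →
      (D g ∧ D (g * s)) ∨ (D g ∧ D (g * s * s)) ∨ (D (g * s) ∧ D (g * s * s)))
    (hU : ∀ g, D g → LinearMap.trace k V (ρ g) = 2 ∧ LinearMap.det (ρ g) = 1)
    (hc : ∃ c : G, c * c = 1 ∧ LinearMap.det (ρ c) = -1) :
    ∃ v : V, v ≠ 0 ∧ ∀ g, ∃ a : k, ρ g v = a • v := by
  by_cases hcase : ∃ s, D s ∧ ρ s ≠ 1
  · obtain ⟨s, hs, hne⟩ := hcase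
    exact dgrp_case1 h2 hV ρ H hcomm D hDH hD2 hU s hs hne
  · push Not at hcase
    obtain ⟨s₀, hs₀⟩ := hex
    have hs₀1 : ρ s₀ = 1 := hcase s₀ hs₀
    have hH1 : ∀ g, g ∈ H → ρ g = 1 := by
      intro g hg
      rcases hD2 g s₀ hg hs₀ with ⟨h0, _⟩ | ⟨h0, _⟩ | ⟨h0, _⟩
      · exact hcase g h0
      · exact hcase g h0
      · have := hcase _ h0
        rwa [map_mul, hs₀1, mul_one] at this
    have hab : ∀ g g' : G, ρ g * ρ g' = ρ g' * ρ g := by
      intro g g'
      have e : g * g' = (g * g' * g⁻¹ * g'⁻¹) * (g' * g) := by group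
      rw [← map_mul, e, map_mul, hH1 _ (hcomm g g'), one_mul, map_mul]
    obtain ⟨c, hcc, hdet⟩ := hc
    exact dgrp_case2 h2 hV ρ hab c hcc hdet

/-- **D-GRP, homomorphism form.** -/
theorem dgrp (h2 : (2 : k) ≠ 0) (hV : finrank k V = 2) (ρ : G →* (V →ₗ[k] V))
    (H : Subgroup G) (hcomm : ∀ g g' : G, g * g' * g⁻¹ * g'⁻¹ ∈ H)
    {A : Type*} [Group A] (κ : H →* A)
    (hodd : ∀ g : H, κ g * κ g = 1 → κ g = 1) (hex : ∃ s : H, κ s ≠ 1)
    (hU : ∀ g : H, κ g ≠ 1 →
      LinearMap.trace k V (ρ g) = 2 ∧ LinearMap.det (ρ (g : G)) = 1)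
    (hc : ∃ c : G, c * c = 1 ∧ LinearMap.det (ρ c) = -1) :
    ∃ v : V, v ≠ 0 ∧ ∀ g, ∃ a : k, ρ g v = a • v := by
  refine dgrp_pred h2 hV ρ H hcomm (fun g => ∃ h : g ∈ H, κ ⟨g, h⟩ ≠ 1)
    (fun s hs => hs.1) ?_ ?_ ?_ hc
  · obtain ⟨s, hs⟩ := hex
    exact ⟨s, s.2, hs⟩
  · rintro g s hg ⟨hsH, hs⟩
    have hgs : g * s ∈ H := H.mul_mem hg hsH
    have hgss : g * s * s ∈ H := H.mul_mem hgs hsH
    have e1 : κ ⟨g * s, hgs⟩ = κ ⟨g, hg⟩ * κ ⟨s, hsH⟩ := by
      rw [← map_mul]; rfl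
    have e2 : κ ⟨g * s * s, hgss⟩ = κ ⟨g, hg⟩ * κ ⟨s, hsH⟩ * κ ⟨s, hsH⟩ := by
      rw [← map_mul, ← map_mul]; rfl
    by_cases c0 : κ ⟨g, hg⟩ = 1
    · -- then `g s` and `g s s` are in `D`
      right; right
      refine ⟨⟨hgs, ?_⟩, ⟨hgss, ?_⟩⟩
      · rw [e1, c0, one_mul]; exact hs
      · rw [e2, c0, one_mul]
        intro h
        exact hs (hodd _ h)
    · by_cases c1 : κ ⟨g * s, hgs⟩ = 1
      · right; left
        refine ⟨⟨hg, c0⟩, ⟨hgss, ?_⟩⟩
        rw [e2, ← e1, c1, one_mul]; exact hs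
      · left
        exact ⟨⟨hg, c0⟩, ⟨hgs, c1⟩⟩
  · rintro g ⟨hg, hκ⟩
    exact hU ⟨g, hg⟩ hκ

end

theorem stmt_DGRP_pred : Stmt_DGRP_pred := by
  intro k _ h2 V _ _ hV G _ ρ H hcomm D hDH hex hD2 hU hc
  exact dgrp_pred h2 hV ρ H hcomm D hDH hex hD2 hU hc

theorem stmt_DGRP : Stmt_DGRP := by
  intro k _ h2 V _ _ hV G _ ρ H hcomm A _ κ hodd hex hU hc
  exact dgrp h2 hV ρ H hcomm κ hodd hex hU hc

end Fermat.Agent.S41.H78
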