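import Fermat.Agent.S41.H61_Cheb
import Fermat.Agent.S41.H41_KumA
import Fermat.Agent.S41.H41_KumHom
import Fermat.Agent.S41.H41_KumB
import Fermat.Agent.S41.H78_DGrp

/-!
# S41, I2 leaf D (Step 5, auxiliary primes): `stmt_IhD : Stmt_IhD`, unconditional

Inputs: D-KUM (helper41), D-GRP (helper78), two-sided Frobenius density (item 61, helper47),
item 62 (`Lib/EllFinite`), assembly `H61_Cheb.lean` (helper61).
-/

set_option autoImplicit false

namespace Fermat.Agent.S41.H61

/-- **I2 leaf D** (auxiliary primes for the Kummer–Hecke proof of Ihara's lemma). -/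
theorem stmt_IhD : Fermat.Agent.S41.Ihara.Stmt_IhD :=
  stmt_IhD_of Fermat.Agent.S41.H41.stmt_KumA Fermat.Agent.S41.H41.stmt_KumHom
    Fermat.Agent.S41.H41.stmt_KumB1 Fermat.Agent.S41.H41.stmt_KumB2
    Fermat.Agent.S41.H78.stmt_DGRP Fermat.Agent.Lib.FrobDensity.H47.stmt_FD2
    Fermat.Agent.Lib.EllFinite.stmt_main

end Fermat.Agent.S41.H61
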