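import Fermat.Agent.S41.H19_IharaStep2
import Fermat.Agent.S41.H19_I3Final
import Fermat.Agent.S41.H37_IharaInv
import Fermat.Agent.S41.H37_IharaOrbit
import Fermat.Agent.S41.H61_ChebFinal

/-!
# S41, Ihara's lemma (Kummer–Hecke route of helper39): final assembly (helper19)

`stmt_IHARA : Stmt_IHARA`.

* `N = 1`: `SL(2,ℤ)` is generated by `S` (elliptic) and `T` (parabolic), so every cuspidal hom is `0`.
* `N ≥ 2`: `ℓ₀` with `a_ℓ₀ ≠ ℓ₀ + 1` from `stmt_I3` (non-Eisenstein); leaf A (`exists_period_fns`)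
  gives `F_i = Pfn x_i + κ_i`; leaf B gives the invariance of `F₁` under `r ↦ q² r` and under
  translations by `ℤ[1/q]`; for `r ∈ X` with `r.den = q^e m`, `k = φ(m)`, leaf D gives an auxiliary
  prime `ℓ ≡ 1 mod m (2k) p` with `a_ℓ ≠ 2` and `q^((ℓ-1)/p) ≠ 1 mod ℓ`; then `F₁ + κ'` is an exact
  eigenfunction of `TT ℓ` and leaf C at `r` and at `0` gives `F₁ r = F₁ 0`, i.e. `Pfn x₁ r = 0`.
-/

set_option autoImplicit false

open scoped MatrixGroups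
open CongruenceSubgroup Matrix
open WeierstrassCurve WeierstrassCurve.Affine WeierstrassCurve.Affine.Point

namespace Fermat.Agent.S41.Ihara

open Fermat.Agent.S41 Fermat.Agent.S41.H19

/-! ### Level one -/

section LevelOne

variable {A : Type*} [AddCommGroup A]

lemma mem_Gamma0_one (g : SL(2, ℤ)) : g ∈ Gamma0 1 := by
  rw [Gamma0_mem]
  exact Subsingleton.elim _ _

theorem eq_zero_of_level_one (x : Additive (Gamma0 1) →+ A)
    (hx : IsCuspidalHom (Gamma0 1) x) : x = 0 := by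
  let ι : SL(2, ℤ) →* Gamma0 1 :=
    { toFun := fun g => ⟨g, mem_Gamma0_one g⟩
      map_one' := rfl
      map_mul' := fun _ _ => rfl }
  let f : SL(2, ℤ) →* Multiplicative A := (AddMonoidHom.toMultiplicativeRight x).comp ι
  have hf : ∀ g : SL(2, ℤ), f g = Multiplicative.ofAdd (x (Additive.ofMul (ι g))) := fun _ => rfl
  have hS : ModularGroup.S ∈ f.ker := by
    rw [MonoidHom.mem_ker, hf, hx (ι ModularGroup.S) (by
      show ((ModularGroup.S : SL(2, ℤ)) : Matrix (Fin 2) (Fin 2) ℤ).trace ^ 2 ≤ 4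
      rw [Matrix.trace_fin_two]
      simp [ModularGroup.S])]
    rfl
  have hT : ModularGroup.T ∈ f.ker := by
    rw [MonoidHom.mem_ker, hf, hx (ι ModularGroup.T) (by
      show ((ModularGroup.T : SL(2, ℤ)) : Matrix (Fin 2) (Fin 2) ℤ).trace ^ 2 ≤ 4
      rw [Matrix.trace_fin_two]
      simp [ModularGroup.T])]
    rfl
  have hle : Subgroup.closure {ModularGroup.S, ModularGroup.T} ≤ f.ker := by
    rw [Subgroup.closure_le]
    intro g hg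
    rcases hg with rfl | hg
    · exact hS
    · rw [Set.mem_singleton_iff] at hg
      rw [hg]
      exact hT
  rw [SpecialLinearGroup.SL2Z_generators] at hle
  apply AddMonoidHom.ext
  intro g
  have h1 : (Additive.toMul g : Gamma0 1).1 ∈ f.ker := hle (Subgroup.mem_top _)
  rw [MonoidHom.mem_ker, hf] at h1
  exact h1

end LevelOne

/-! ### Arithmetic of the auxiliary prime -/

section Arith

/-- `p ∣ ord_ℓ(q^(2k))` when `2 k p ∣ ℓ - 1` and `q^((ℓ-1)/p) ≠ 1 mod ℓ`. -/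
lemma dvd_orderOf_of_pow_ne_one {p q ℓ k : ℕ} (hp : p.Prime) (hℓ : ℓ.Prime) (hqℓ : ¬ ℓ ∣ q)
    (hdvd : 2 * k * p ∣ ℓ - 1) (hne : (q : ZMod ℓ) ^ ((ℓ - 1) / p) ≠ 1) :
    p ∣ orderOf ((q : ZMod ℓ) ^ (2 * k)) := by
  have : Fact ℓ.Prime := ⟨hℓ⟩
  obtain ⟨t, ht⟩ := hdvd
  have hq0 : (q : ZMod ℓ) ≠ 0 := by
    intro h0
    exact hqℓ ((ZMod.natCast_eq_zero_iff q ℓ).mp h0)
  have hdiv : (ℓ - 1) / p = 2 * k * t := by
    rw [ht, show 2 * k * p * t = p * (2 * k * t) by ring, Nat.mul_div_cancel_left _ hp.pos]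
  have h1 : ((q : ZMod ℓ) ^ (2 * k)) ^ t ≠ 1 := by
    rw [← pow_mul, ← hdiv]
    exact hne
  have h2 : ((q : ZMod ℓ) ^ (2 * k)) ^ (p * t) = 1 := by
    rw [← pow_mul, show 2 * k * (p * t) = ℓ - 1 by rw [ht]; ring]
    exact ZMod.pow_card_sub_one_eq_one hq0
  have h3 : orderOf ((q : ZMod ℓ) ^ (2 * k)) ∣ p * t := orderOf_dvd_of_pow_eq_one h2
  by_contra hnd
  have hcop : (orderOf ((q : ZMod ℓ) ^ (2 * k))).Coprime p :=
    ((Nat.Prime.coprime_iff_not_dvd hp).mpr hnd).symm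
  exact h1 (orderOf_dvd_iff_pow_eq_one.mp (hcop.dvd_of_dvd_mul_left h3))

/-- The prime-to-`q` part `m` of the denominator of `r`. -/
lemma exists_prime_to_q_part {q : ℕ} (hq : q.Prime) (r : ℚ) :
    ∃ m : ℕ, 0 < m ∧ InZq q ((m : ℚ) * r) ∧ m.Coprime q := by
  obtain ⟨e, m, hm, hden⟩ := Nat.exists_eq_pow_mul_and_not_dvd r.den_nz q hq.ne_one
  have hm0 : 0 < m := by
    rcases Nat.eq_zero_or_pos m with h0 | h
    · exfalso
      rw [h0, mul_zero] at hden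
      exact r.den_nz hden
    · exact h
  refine ⟨m, hm0, ⟨e, ?_⟩, ((Nat.Prime.coprime_iff_not_dvd hq).mpr hm).symm⟩
  have h1 : ((q : ℚ) ^ e * (m : ℚ)) = (r.den : ℚ) := by exact_mod_cast hden.symm
  have h2 : (q : ℚ) ^ e * ((m : ℚ) * r) = (r.num : ℚ) := by
    rw [← mul_assoc, h1, mul_comm, Rat.mul_den_eq_num]
  rw [h2]
  simp

lemma pow_two_mul_totient_mod {q m : ℕ} (h : m.Coprime q) :
    q ^ (2 * m.totient) % m = 1 % m := by
  have h1 : q ^ m.totient ≡ 1 [MOD m] := Nat.ModEq.pow_totient h.symm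
  have h2 : (q ^ m.totient) ^ 2 ≡ 1 ^ 2 [MOD m] := h1.pow 2
  rw [one_pow, ← pow_mul, mul_comm] at h2
  exact h2

end Arith

/-! ### The assembly -/

theorem stmt_IHARA_of (hB : Stmt_IhB) (hC : Stmt_IhC) (hD : Stmt_IhD) (hI3 : Stmt_I3) :
    Stmt_IHARA := by
  intro E _ W hW p N q hp hp2 hN hq hqN hqp hirr x₁ x₂ hx₁ hx₂ heig hrel
  have : Fact p.Prime := ⟨hp⟩
  rcases Nat.lt_or_ge N 2 with hN1 | hN2
  · have h1 : N = 1 := by omega
    subst h1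
    exact eq_zero_of_level_one x₁ hx₁
  -- the non-Eisenstein prime `ℓ₀`
  have h3 := hI3 E W hW p (N * q) hp (Nat.mul_pos hN hq.pos) hirr
  push Not at h3
  obtain ⟨ℓ₀, hℓ₀, hgood₀, hℓ₀M, hℓ₀p, ha₀⟩ := h3
  obtain ⟨a₀, ha₀def⟩ : ∃ a₀ : ZMod p, a₀ = ((W.apOfModel ℓ₀ : ℤ) : ZMod p) := ⟨_, rfl⟩
  rw [← ha₀def] at ha₀
  have ha₀' : a₀ ≠ (ℓ₀ : ZMod p) + 1 := by rwa [add_comm]
  have hℓ₀N : ¬ ℓ₀ ∣ N := fun h => hℓ₀M (dvd_mul_of_dvd_left h q)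
  have hℓ₀q : ℓ₀ ≠ q := fun h => hℓ₀M (h ▸ dvd_mul_left _ _)
  have h1 : Tcoh N (ZMod p) ℓ₀ x₁ = a₀ • x₁ := by
    rw [ha₀def]
    exact heig ℓ₀ hℓ₀ hgood₀ hℓ₀M hℓ₀p
  obtain ⟨κ₁, κ₂, hP₁, hP₂, hE₁, hE₂, hD0⟩ :=
    exists_period_fns hp hN2 hq hqN hqp hℓ₀ hℓ₀N hℓ₀q a₀ ha₀' x₁ x₂ hx₁ hx₂ h1 hrel
  -- leaf B
  let es : EigSys p N q :=
    { P := fun ℓ => ℓ = ℓ₀
      a := fun _ => a₀
      prime := fun ℓ h => h ▸ hℓ₀
      not_dvd := fun ℓ h => h ▸ hℓ₀M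
      ne_p := fun ℓ h => h ▸ hℓ₀p }
  have hes₁ : IsEigFn es (fun s => Pfn x₁ s + κ₁) := by
    intro ℓ hℓ r hr
    have hℓ' : ℓ = ℓ₀ := hℓ
    subst hℓ'
    exact hE₁ r hr
  have hes₂ : IsEigFn es (fun s => Pfn x₂ s + κ₂) := by
    intro ℓ hℓ r hr
    have hℓ' : ℓ = ℓ₀ := hℓ
    subst hℓ'
    exact hE₂ r hr
  obtain ⟨hinv, hper⟩ := hB p N q hp hp2 hN2 hq hqN hqp es ℓ₀ rfl ha₀' x₁ x₂
    (fun s => Pfn x₁ s + κ₁) (fun s => Pfn x₂ s + κ₂) hx₁ hx₂ hP₁ hP₂ hes₁ hes₂ hD0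
  -- the key claim
  have key : ∀ r, InX N r → Pfn x₁ r = Pfn x₁ 0 := by
    intro r hr
    obtain ⟨m, hm0, hmr, hmq⟩ := exists_prime_to_q_part hq r
    have hk0 : 0 < m.totient := Nat.totient_pos.mpr hm0
    have hM0 : 0 < m * (2 * m.totient) * p := by
      have := hp.pos
      positivity
    obtain ⟨ℓ, hℓ, hℓS, hgood, hℓM, hqℓ, haℓ⟩ := hD E W hW p q hp hp2 hq hqp hirr
      (m * (2 * m.totient) * p) hM0 (dvd_mul_left _ _) (N * q * p).primeFactors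
    have hNqp0 : N * q * p ≠ 0 := by
      have := hp.pos
      have := hq.pos
      positivity
    have hℓndvd : ¬ ℓ ∣ N * q * p := fun h => hℓS (Nat.mem_primeFactors.mpr ⟨hℓ, h, hNqp0⟩)
    have hℓNq : ¬ ℓ ∣ N * q := fun h => hℓndvd (dvd_mul_of_dvd_left h p)
    have hℓN : ¬ ℓ ∣ N := fun h => hℓNq (dvd_mul_of_dvd_left h q)
    have hℓq : ¬ ℓ ∣ q := fun h => hℓNq (dvd_mul_of_dvd_right h N)
    have hℓp : ℓ ≠ p := fun h => hℓndvd (h ▸ dvd_mul_left _ _)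
    -- `M ∣ ℓ - 1`
    have hMdvd : m * (2 * m.totient) * p ∣ ℓ - 1 :=
      (Nat.modEq_iff_dvd' hℓ.one_le).mp (Nat.ModEq.symm hℓM)
    have hℓm : ℓ % m = 1 % m :=
      Nat.ModEq.of_dvd (Dvd.intro _ (mul_assoc m (2 * m.totient) p).symm) hℓM
    have h2kp : 2 * m.totient * p ∣ ℓ - 1 :=
      dvd_trans ⟨m, by ring⟩ hMdvd
    have hpℓ : p ∣ ℓ - 1 := dvd_trans (dvd_mul_left _ _) hMdvd
    have hℓ1 : (ℓ : ZMod p) = 1 := by
      have h0 : ((ℓ - 1 : ℕ) : ZMod p) = 0 := (ZMod.natCast_eq_zero_iff _ _).mpr hpℓ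
      rw [Nat.cast_sub hℓ.one_le, Nat.cast_one, sub_eq_zero] at h0
      exact h0
    have hord : p ∣ orderOf ((q : ZMod ℓ) ^ (2 * m.totient)) :=
      dvd_orderOf_of_pow_ne_one hp hℓ hℓq h2kp hqℓ
    obtain ⟨a, hadef⟩ : ∃ a : ZMod p, a = ((W.apOfModel ℓ : ℤ) : ZMod p) := ⟨_, rfl⟩
    rw [← hadef] at haℓ
    have ha : a ≠ (ℓ : ZMod p) + 1 := by
      rw [hℓ1]
      intro h
      apply haℓ
      rw [h]
      norm_num
    have hTa : Tcoh N (ZMod p) ℓ x₁ = a • x₁ := by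
      rw [hadef]
      exact heig ℓ hℓ hgood hℓNq hℓp
    -- `F₁` is an eigenfunction of `TT ℓ` up to a constant
    have hTT : ∀ s, InX N s → TT ℓ (fun s => Pfn x₁ s + κ₁) s
        = a * (Pfn x₁ s + κ₁) + (TT ℓ (Pfn x₁) 0 + (((ℓ : ZMod p) + 1) - a) * κ₁) := by
      intro s hs
      rw [TT_add_const, TT_Pfn hN2 hℓ hℓN x₁ hx₁ a hTa hs, smul_eq_mul]
      ring
    obtain ⟨κ', hκ'⟩ := exists_const_eig (p := p) ℓ a
      (TT ℓ (Pfn x₁) 0 + (((ℓ : ZMod p) + 1) - a) * κ₁) ha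
    have hE' : ∀ s, InX N s → TT ℓ (fun s => (Pfn x₁ s + κ₁) + κ') s
        = a * ((Pfn x₁ s + κ₁) + κ') :=
      fun s hs => hκ' (fun s => Pfn x₁ s + κ₁) s (hTT s hs)
    have hinv' : ∀ s, InX N s → (fun s => (Pfn x₁ s + κ₁) + κ') ((q : ℚ) ^ 2 * s)
        = (fun s => (Pfn x₁ s + κ₁) + κ') s := by
      intro s hs
      have := hinv s hs
      simp only at this ⊢
      rw [this]
    have hper' : ∀ s t, InX N s → InZq q t → (fun s => (Pfn x₁ s + κ₁) + κ') (s + t)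
        = (fun s => (Pfn x₁ s + κ₁) + κ') s := by
      intro s t hs ht
      have := hper s t hs ht
      simp only at this ⊢
      rw [this]
    have hmod := pow_two_mul_totient_mod hmq
    have hCr := hC p N q hp hN2 hq hqN hqp (fun s => (Pfn x₁ s + κ₁) + κ') hinv' hper' ℓ a hℓ hℓNq
      hℓp hE' r m m.totient hr hm0 hmr hmq hmod hℓm hord
    have hC0 := hC p N q hp hN2 hq hqN hqp (fun s => (Pfn x₁ s + κ₁) + κ') hinv' hper' ℓ a hℓ hℓNq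
      hℓp hE' 0 m m.totient (inX_zero N) hm0 ⟨0, by simp⟩ hmq hmod hℓm hord
    have ha2 : a - 2 ≠ 0 := sub_ne_zero.mpr haℓ
    have e1 := (mul_eq_zero.mp hCr).resolve_left ha2
    have e2 := (mul_eq_zero.mp hC0).resolve_left ha2
    linear_combination e1 - e2
  -- conclusion
  apply AddMonoidHom.ext
  intro g
  have h5 := Pfn_mob_zero hN2 x₁ hx₁ (Additive.toMul g)
  rw [key _ (inX_mob (Additive.toMul g) (inX_zero N)), Pfn_zero hN2 x₁ hx₁] at h5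
  exact h5.symm

/-- **Ihara's lemma** (with the non-Eisenstein condition), unconditional. -/
theorem stmt_IHARA : Stmt_IHARA :=
  stmt_IHARA_of Fermat.Agent.S41.H37.stmt_IhB Fermat.Agent.S41.H37.stmt_IhC
    Fermat.Agent.S41.H61.stmt_IhD Fermat.Agent.S41.H19.stmt_I3

end Fermat.Agent.S41.Ihara
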