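import Fermat.Agent.S41.Defs

/-!
# S41 (level raising): the top-level interfaces

`Stmt_SUPP`    : the eigensystem of `f` mod `𝔪` occurs in `Hom_cusp(Gamma0 N, F_p)`.
`Stmt_REL`     : formal relations between `res1, res2, cor1, cor2, Tcoh`.
`Stmt_IHARA`   : Ihara's lemma + non-Eisenstein: the kernel of `(x₁,x₂) ↦ res1 x₁ + res2 x₂` has no
                 class with the eigenvalues of `W` when `W[p]` is irreducible.
`Stmt_NEWLIFT` : a nonzero class of level `N q'` killed by both trace maps, with the eigenvalues of `W`,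
                 lifts to a `q'`-new normalised eigenform (Poincare duality + Ihara + Deligne-Serre +
                 Eichler-Shimura + Atkin-Lehner).
-/

set_option autoImplicit false

open scoped MatrixGroups
open WeierstrassCurve WeierstrassCurve.Affine WeierstrassCurve.Affine.Point
open CongruenceSubgroup

namespace Fermat.Agent.S41

/-- The congruence hypothesis of S41 (`f ≡ W` mod `𝔪` at good primes `ℓ ∤ N`, `ℓ ≠ p`). -/
def CongTo (W : WeierstrassCurve ℤ) (p N : ℕ) (f : CuspForm (Gamma0 N) 2)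
    (𝔪 : Ideal (integralClosure ℤ ℂ)) : Prop :=
  ∀ ℓ : ℕ, ℓ.Prime → W.IsGoodPrimeFor ℓ → ¬ ℓ ∣ N → ℓ ≠ p →
    ∃ a : integralClosure ℤ ℂ, (a : ℂ) = ModularFormClass.qCoeff f ℓ ∧
      a - ((W.apOfModel ℓ : ℤ) : integralClosure ℤ ℂ) ∈ 𝔪

/-- The conclusion of S41. -/
def Concl (W : WeierstrassCurve ℤ) (p N q' : ℕ) : Prop :=
  ∃ (g : CuspForm (Gamma0 (N * q')) 2) (𝔪' : Ideal (integralClosure ℤ ℂ)),
    g.IsNormalizedEigenform ∧ 𝔪'.IsMaximal ∧ (p : integralClosure ℤ ℂ) ∈ 𝔪' ∧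
    CongTo W p (N * q') g 𝔪' ∧ g.IsNewAt q'

/-- SUPP: the eigensystem of `f` mod `𝔪` occurs in `Hom_cusp(Gamma0 N, F_p)`, with
`T_{q'} = ε (q'+1)`, `ε = ±1`. -/
def Stmt_SUPP : Prop :=
  ∀ (W : WeierstrassCurve ℤ) (p N q' : ℕ), p.Prime → p ≠ 2 → 0 < N → q'.Prime → ¬ q' ∣ N → q' ≠ p →
    ∀ (f : CuspForm (Gamma0 N) 2) (𝔪 : Ideal (integralClosure ℤ ℂ)),
    f.IsNormalizedEigenform → 𝔪.IsMaximal → (p : integralClosure ℤ ℂ) ∈ 𝔪 →
    CongTo W p N f 𝔪 →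
    (∃ a : integralClosure ℤ ℂ, (a : ℂ) = ModularFormClass.qCoeff f q' ∧
      a ^ 2 - ((q' : integralClosure ℤ ℂ) + 1) ^ 2 ∈ 𝔪) →
    ∃ (ε : ℤ) (x : Additive (Gamma0 N) →+ ZMod p), (ε = 1 ∨ ε = -1) ∧ x ≠ 0 ∧
      IsCuspidalHom (Gamma0 N) x ∧ IsEigenOf W p N N x ∧
      Tcoh N (ZMod p) q' x = ((ε * ((q' : ℤ) + 1) : ℤ) : ZMod p) • x

/-- REL: for `x` of level `N` with `T_{q'} x = ε (q'+1) x`, the class `y = res1 x - ε res2 x` of level
`N q'` is cuspidal, has the same eigenvalues, and is killed by both trace maps. -/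
def Stmt_REL : Prop :=
  ∀ (W : WeierstrassCurve ℤ) (p N q' : ℕ), p.Prime → 0 < N → q'.Prime → ¬ q' ∣ N → q' ≠ p →
    ∀ (ε : ℤ), (ε = 1 ∨ ε = -1) → ∀ x : Additive (Gamma0 N) →+ ZMod p,
    IsCuspidalHom (Gamma0 N) x → IsEigenOf W p N N x →
    Tcoh N (ZMod p) q' x = ((ε * ((q' : ℤ) + 1) : ℤ) : ZMod p) • x →
    IsCuspidalHom (Gamma0 (N * q')) (res1 N q' (ZMod p) x - (ε : ZMod p) • res2 N q' (ZMod p) x) ∧
    IsEigenOf W p (N * q') (N * q') (res1 N q' (ZMod p) x - (ε : ZMod p) • res2 N q' (ZMod p) x) ∧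
    cor1 N q' (ZMod p) (res1 N q' (ZMod p) x - (ε : ZMod p) • res2 N q' (ZMod p) x) = 0 ∧
    cor2 N q' (ZMod p) (res1 N q' (ZMod p) x - (ε : ZMod p) • res2 N q' (ZMod p) x) = 0

/-- IHARA (+ non-Eisenstein): if `W[p]` is irreducible, a cuspidal class `x₁` with the eigenvalues of `W`
cannot satisfy `res1 x₁ + res2 x₂ = 0` unless `x₁ = 0`. -/
def Stmt_IHARA : Prop :=
  ∀ (E : WeierstrassCurve ℚ) [E.IsElliptic] (W : WeierstrassCurve ℤ), W.IsIntegralModelOf E →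
    ∀ (p N q' : ℕ), p.Prime → p ≠ 2 → 0 < N → q'.Prime → ¬ q' ∣ N → q' ≠ p →
    GaloisRepIsIrreducible (K := AlgebraicClosure ℚ) ℚ E p →
    ∀ x₁ x₂ : Additive (Gamma0 N) →+ ZMod p,
    IsCuspidalHom (Gamma0 N) x₁ → IsCuspidalHom (Gamma0 N) x₂ →
    IsEigenOf W p (N * q') N x₁ →
    res1 N q' (ZMod p) x₁ + res2 N q' (ZMod p) x₂ = 0 → x₁ = 0

/-- NEWLIFT: a nonzero cuspidal class of level `N q'` with the eigenvalues of `W` (where `W[p]` is
irreducible), killed by both trace maps, produces the `q'`-new eigenform of S41.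
(Ihara's lemma is available to the proof as the hypothesis `Stmt_IHARA`.) -/
def Stmt_NEWLIFT : Prop :=
  Stmt_IHARA →
  ∀ (E : WeierstrassCurve ℚ) [E.IsElliptic] (W : WeierstrassCurve ℤ), W.IsIntegralModelOf E →
    ∀ (p N q' : ℕ), p.Prime → p ≠ 2 → 0 < N → q'.Prime → ¬ q' ∣ N → q' ≠ p →
    GaloisRepIsIrreducible (K := AlgebraicClosure ℚ) ℚ E p →
    ∀ y : Additive (Gamma0 (N * q')) →+ ZMod p, y ≠ 0 →
    IsCuspidalHom (Gamma0 (N * q')) y → IsEigenOf W p (N * q') (N * q') y →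
    cor1 N q' (ZMod p) y = 0 → cor2 N q' (ZMod p) y = 0 →
    Concl W p N q'

end Fermat.Agent.S41
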