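import Fermat.Agent.S41.H19_RelDeg
import Fermat.Agent.S41.Interfaces

/-!
# S41 package H (helper19): `stmt_REL : Stmt_REL`

For `x` of level `N` with `T_{q'} x = ε (q'+1) x`, the class `y = res1 x - ε res2 x` of level `N q'`
is cuspidal, has the same eigenvalues, and is killed by both trace maps.
-/

set_option autoImplicit false

open scoped MatrixGroups
open CongruenceSubgroup Matrix

namespace Fermat.Agent.S41.H19

open Fermat.Agent.S41

section Linear

variable {H G : Type*} [Group H] [Group G] {A : Type*} [AddCommGroup A]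
  {R : Type*} [Semiring R] [Module R A]

lemma resAlong_sub (ι : H →* G) (φ ψ : Additive G →+ A) :
    resAlong A ι (φ - ψ) = resAlong A ι φ - resAlong A ι ψ := rfl

lemma resAlong_smul (ι : H →* G) (c : R) (φ : Additive G →+ A) :
    resAlong A ι (c • φ) = c • resAlong A ι φ := rfl

end Linear

section Tcoh

variable {A : Type*} [AddCommGroup A] {R : Type*} [Semiring R] [Module R A]

lemma Tcoh_sub (N ℓ : ℕ) (φ ψ : Additive (Gamma0 N) →+ A) :
    Tcoh N A ℓ (φ - ψ) = Tcoh N A ℓ φ - Tcoh N A ℓ ψ := by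
  unfold Tcoh cor1 res2
  rw [resAlong_sub, corAlong_sub]

lemma Tcoh_smul (N ℓ : ℕ) (c : R) (φ : Additive (Gamma0 N) →+ A) :
    Tcoh N A ℓ (c • φ) = c • Tcoh N A ℓ φ := by
  unfold Tcoh cor1 res2
  rw [resAlong_smul, corAlong_smul]

end Tcoh

/-- **Package H**: the formal relations between `res1, res2, cor1, cor2, Tcoh`. -/
theorem stmt_REL : Stmt_REL := by
  intro W p N q' hp hN hq' hq'N hq'p ε hε x hxc hxe hxT
  have hεε : (ε : ZMod p) * (ε : ZMod p) = 1 := by
    rcases hε with rfl | rfl <;> simp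
  refine ⟨?_, ?_, ?_, ?_⟩
  · -- cuspidal
    intro γ hγ
    have h1 : x (Additive.ofMul (inclG N q' γ)) = 0 := hxc _ hγ
    have h2 : x (Additive.ofMul (conjG N q' γ)) = 0 := by
      apply hxc
      have : ((conjG N q' γ : Gamma0 N) : SL(2, ℤ)).1 = conjMat q' (mat γ) := rfl
      rw [this, trace_conjMat]
      exact hγ
    change x (Additive.ofMul (inclG N q' γ)) - (ε : ZMod p) • x (Additive.ofMul (conjG N q' γ)) = 0
    rw [h1, h2, smul_zero, sub_zero]
  · -- eigenvalues
    intro ℓ hℓ hg hℓd hℓp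
    have hℓN : ¬ ℓ ∣ N := fun h => hℓd (dvd_mul_of_dvd_left h q')
    have hℓq : ℓ ≠ q' := fun h => hℓd (h ▸ dvd_mul_left ℓ N)
    have hx := hxe ℓ hℓ hg hℓN hℓp
    rw [Tcoh_sub, Tcoh_smul, Tcoh_res1 hN hq' hℓ hℓN hℓq, Tcoh_res2 hN hq' hℓ hℓN hℓq, hx]
    unfold res1 res2
    rw [resAlong_smul, resAlong_smul, smul_sub, smul_comm]
  · -- first trace
    unfold cor1
    rw [corAlong_sub, corAlong_smul]
    change cor1 N q' (ZMod p) (res1 N q' (ZMod p) x)
      - (ε : ZMod p) • Tcoh N (ZMod p) q' x = 0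
    rw [cor1_res1 hN hq' hq'N, hxT, smul_smul, ← Nat.cast_smul_eq_nsmul (ZMod p), ← sub_smul]
    have : (((q' + 1 : ℕ) : ZMod p)) - (ε : ZMod p) * ((ε * ((q' : ℤ) + 1) : ℤ) : ZMod p) = 0 := by
      push_cast
      linear_combination (-(q' : ZMod p) - 1) * hεε
    rw [this, zero_smul]
  · -- second trace
    unfold cor2
    rw [corAlong_sub, corAlong_smul]
    change cor2 N q' (ZMod p) (res1 N q' (ZMod p) x)
      - (ε : ZMod p) • cor2 N q' (ZMod p) (res2 N q' (ZMod p) x) = 0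
    rw [cor2_res1 hN hq' hq'N, cor2_res2 hN hq' hq'N, hxT, ← Nat.cast_smul_eq_nsmul (ZMod p),
      smul_smul, ← sub_smul]
    have : ((ε * ((q' : ℤ) + 1) : ℤ) : ZMod p) - (ε : ZMod p) * ((q' + 1 : ℕ) : ZMod p) = 0 := by
      push_cast
      ring
    rw [this, zero_smul]

end Fermat.Agent.S41.H19
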