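import Fermat.Agent.S41.Interfaces
import Fermat.Agent.Betti.Defs

/-!
# S41, NEWLIFT (short route of helper39): interfaces of the leaves consumed by the final assembly

`M = N * q'`.  See the board note "S41 NEWLIFT short route + split".

* `Stmt_LLIFT` (helper77): a nonzero cuspidal class `y : Γ₀(M) → ZMod p` with the eigenvalues of `W`,
  killed by both trace maps, is the reduction mod `p` of a parabolic `y₁ : Γ₀(M) → ℤ` which is killed
  by both trace maps (with `ℤ`-coefficients).  (Its proof uses dual Ihara, hence `Stmt_IHARA`.)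
* `Stmt_AL` (helper39): on `ker cor1 ∩ ker cor2` the Betti operator `U_q` (the operator of the Hecke
  algebra: cosets `[[1, j], [0, q]]`) is an involution.  NB `Tcoh (N*q) A q` is the ADJOINT operator
  (cosets of `Γ diag(q,1) Γ`); the two agree on `ker cor1 ∩ ker cor2`.
-/

set_option autoImplicit false

open scoped MatrixGroups
open WeierstrassCurve WeierstrassCurve.Affine WeierstrassCurve.Affine.Point
open CongruenceSubgroup ModularCurve.Period

namespace Fermat.Agent.S41.H20

open Fermat.Agent.S41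

/-- **L-LIFT**: lifting a new eigenclass mod `p` to an integral new class. -/
def Stmt_LLIFT : Prop :=
  ∀ (E : WeierstrassCurve ℚ) [E.IsElliptic] (W : WeierstrassCurve ℤ), W.IsIntegralModelOf E →
    ∀ (p N q' : ℕ), p.Prime → p ≠ 2 → 0 < N → q'.Prime → ¬ q' ∣ N → q' ≠ p →
    GaloisRepIsIrreducible (K := AlgebraicClosure ℚ) ℚ E p →
    ∀ y : Additive (Gamma0 (N * q')) →+ ZMod p, y ≠ 0 →
    IsCuspidalHom (Gamma0 (N * q')) y → IsEigenOf W p (N * q') (N * q') y →
    cor1 N q' (ZMod p) y = 0 → cor2 N q' (ZMod p) y = 0 →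
    ∃ y₁ : Additive (Gamma0 (N * q')) →+ ℤ, IsParabolicHom (Gamma0 (N * q')) y₁ ∧
      cor1 N q' ℤ y₁ = 0 ∧ cor2 N q' ℤ y₁ = 0 ∧
      ∀ γ : Additive (Gamma0 (N * q')), ((y₁ γ : ℤ) : ZMod p) = y γ

/-- **AL**: `U_q ∘ U_q = 1` on the classes killed by both trace maps (`q ∤ N`, level `N * q`). -/
def Stmt_AL : Prop :=
  ∀ (N q : ℕ) [NeZero (N * q)], 0 < N → q.Prime → ¬ q ∣ N →
    ∀ (A : Type) [AddCommGroup A] (φ : Additive (Gamma0 (N * q)) →+ A),
    cor1 N q A φ = 0 → cor2 N q A φ = 0 →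
    Betti.UB (N * q) A (Dvd.intro_left N rfl) (Betti.UB (N * q) A (Dvd.intro_left N rfl) φ) = φ

end Fermat.Agent.S41.H20
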