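import Fermat.Agent.S41.H39_AL
import Fermat.Agent.S41.H20_NewLiftDefs

/-!
# S41, package AL (helper39): the interface statement `H20.Stmt_AL`
-/

set_option autoImplicit false

open scoped MatrixGroups
open CongruenceSubgroup

namespace Fermat.Agent.S41.H39

open Fermat.Agent.S41

/-- **AL**: `U_q ∘ U_q = 1` on the classes killed by both trace maps. -/
theorem stmt_AL : Fermat.Agent.S41.H20.Stmt_AL := by
  intro N q _ hN hq hqN A _ φ h1 h2
  exact al_main hN hq hqN _ φ h1 h2

end Fermat.Agent.S41.H39
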