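import Fermat.Agent.S41.H19_HeckeFormula
import Fermat.Agent.Betti.Defs

/-!
# S41, package S (helper98): `Tcoh = TB`

The Hecke operator `Tcoh N A ℓ = cor1 ∘ res2` of `S41/Defs.lean` (transfer through level `N ℓ`)
is the Betti Hecke operator `TB N A hℓ hℓN` of `Betti/Defs.lean` (helper20), for every prime
`ℓ ∤ N`, `N > 0`.
-/

set_option autoImplicit false

open scoped MatrixGroups
open CongruenceSubgroup Matrix Matrix.SpecialLinearGroup ModularForm

namespace Fermat.Agent.S41.H98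

open Fermat.Agent.S41 Fermat.Agent.S41.H19 Fermat.Agent.Betti
open P2MW.S_ModularForm_heckeT_slash_eq_self_of_mem_Gamma0.ModularForm.HeckeSlashInvariance

/-- The index equivalence `Option (Fin ℓ) ≃ OnePoint (ZMod ℓ)`. -/
def idxEquiv (ℓ : ℕ) [NeZero ℓ] : Option (Fin ℓ) ≃ OnePoint (ZMod ℓ) where
  toFun j := j.elim (none : Option (ZMod ℓ)) (fun i => some ((i : ℕ) : ZMod ℓ))
  invFun y := Option.elim (α := ZMod ℓ) y (none : Option (Fin ℓ))
    (fun z => some ⟨z.val, ZMod.val_lt z⟩)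
  left_inv j := by
    rcases j with _ | i
    · rfl
    · show some (⟨((i : ℕ) : ZMod ℓ).val, _⟩ : Fin ℓ) = some i
      congr 1
      apply Fin.ext
      exact ZMod.val_natCast_of_lt i.2
  right_inv y := by
    rcases y with _ | z
    · rfl
    · show (some (((⟨z.val, ZMod.val_lt z⟩ : Fin ℓ) : ℕ) : ZMod ℓ) : Option (ZMod ℓ)) = some z
      congr 1
      exact ZMod.natCast_zmod_val z

theorem coe_incl (N : ℕ) (g : Gamma0 N) :
    ((incl N g : GL (Fin 2) ℝ) : Matrix (Fin 2) (Fin 2) ℝ) = (mat g).map (Int.castRingHom ℝ) := by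
  ext i j
  simp [incl]

theorem coe_repT (ℓ : ℕ) [NeZero ℓ] (j : Option (Fin ℓ)) :
    ((repT ℓ (idxEquiv ℓ j) : GL (Fin 2) ℝ) : Matrix (Fin 2) (Fin 2) ℝ)
      = (aMat ℓ j).map (Int.castRingHom ℝ) := by
  have hℓ : ℓ ≠ 0 := NeZero.ne ℓ
  rcases j with _ | i
  · show ((heckeDiagMatrix ℓ : GL (Fin 2) ℝ) : Matrix (Fin 2) (Fin 2) ℝ) = _
    rw [val_heckeDiagMatrix hℓ]
    ext a b
    fin_cases a <;> fin_cases b <;> simp [aMat]
  · show ((heckeMatrix ℓ (((i : ℕ) : ZMod ℓ)).val : GL (Fin 2) ℝ) : Matrix (Fin 2) (Fin 2) ℝ) = _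
    rw [val_heckeMatrix hℓ, ZMod.val_natCast_of_lt i.2]
    ext a b
    fin_cases a <;> fin_cases b <;> simp [aMat]

/-- **Bridge**: the two definitions of the Hecke operator `T_ℓ` agree. -/
theorem Tcoh_eq_TB {N ℓ : ℕ} (hN : 0 < N) (hℓ : ℓ.Prime) (hℓN : ¬ ℓ ∣ N)
    (A : Type*) [AddCommGroup A] (x : Additive (Gamma0 N) →+ A) :
    Tcoh N A ℓ x = TB N A hℓ hℓN x := by
  have : Fact ℓ.Prime := ⟨hℓ⟩
  have : NeZero ℓ := ⟨hℓ.ne_zero⟩
  refine AddMonoidHom.ext fun g' => ?_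
  obtain ⟨g, rfl⟩ : ∃ g : Gamma0 N, Additive.ofMul g = g' := ⟨Additive.toMul g', rfl⟩
  rw [TB_apply_apply]
  set H := isHeckeFamily_T N hℓN with hH
  have key : ∀ j : Option (Fin ℓ), aMat ℓ j * mat g
      = mat (H.kap g (idxEquiv ℓ j)) * aMat ℓ ((idxEquiv ℓ).symm (H.perm g (idxEquiv ℓ j))) := by
    intro j
    have h1 := H.rep_mul g (idxEquiv ℓ j)
    have h2 := congrArg (fun X : GL (Fin 2) ℝ => (X : Matrix (Fin 2) (Fin 2) ℝ)) h1
    simp only [Units.val_mul] at h2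
    have h3 : H.perm g (idxEquiv ℓ j)
        = idxEquiv ℓ ((idxEquiv ℓ).symm (H.perm g (idxEquiv ℓ j))) := by simp
    rw [h3, coe_repT, coe_repT, coe_incl, coe_incl, ← Matrix.map_mul, ← Matrix.map_mul] at h2
    exact Matrix.map_injective (Int.cast_injective (α := ℝ)) h2
  rw [Tcoh_eq_sum hN hℓ hℓN x g _ _ key]
  exact Equiv.sum_comp (idxEquiv ℓ) (fun y => x (Additive.ofMul (H.kap g y)))

end Fermat.Agent.S41.H98
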