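import Fermat.Agent.S41.H98_SuppAlg
import Fermat.Agent.S41.H98_SuppBridge
import Fermat.Agent.S41.Interfaces
import Fermat.Agent.Betti.Basis
import Fermat.Agent.Betti.H76_MatrixRep
import Fermat.Agent.Betti.H76_AlgEig
import Fermat.Agent.R.H99_EigenChar
import Fermat.Agent.S16.H38_Chi

/-!
# S41, package S (helper98): `Stmt_SUPP`

The eigensystem of a normalised eigenform `f` of level `N` modulo a maximal ideal `𝔪` over `p`
occurs in `Hom_cusp(Gamma0 N, ZMod p)`: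

* `stmt_SUPP : Fermat.Agent.S41.Stmt_SUPP`.

Ingredients: the universal basis `b` of `Hom_par(Gamma0 N, ℤ)` and the faithful matrix
representation of the Hecke algebra (helper20, helper76), the eigen-character of `f` (helper99),
the common complex eigenvector (helper76), the reduction of eigensystems
(`exists_eigenvector_mod`), and `Tcoh = TB` (`Tcoh_eq_TB`).
-/

set_option autoImplicit false

open scoped MatrixGroups
open CongruenceSubgroup Matrix

namespace Fermat.Agent.S41.H98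

open Fermat.Agent.S41 Fermat.Agent.Betti ModularCurve ModularCurve.Period

section Basis

variable {N r : ℕ} (b : Fin r → (Additive (Gamma0 N) →+ ℤ)) {p : ℕ}

/-- The class `∑ i, w i • (b i mod p)`. -/
noncomputable def xOf (w : Fin r → ZMod p) : Additive (Gamma0 N) →+ ZMod p :=
  ∑ i, (AddMonoidHom.mulLeft (w i)).comp ((Int.castAddHom (ZMod p)).comp (b i))

theorem xOf_apply (w : Fin r → ZMod p) (γ : Additive (Gamma0 N)) :
    xOf b w γ = ∑ i, w i * ((b i γ : ℤ) : ZMod p) := by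
  simp [xOf]

theorem xOf_smul (c : ZMod p) (w : Fin r → ZMod p) : xOf b (c • w) = c • xOf b w := by
  refine AddMonoidHom.ext fun γ => ?_
  rw [AddMonoidHom.smul_apply, xOf_apply, xOf_apply, Finset.smul_sum]
  refine Finset.sum_congr rfl fun i _ => ?_
  simp [mul_assoc]

variable {b}

/-- The elements of a parabolic basis kill all elements with `trace² ≤ 4`. -/
theorem parBasis_cuspidal (hb : IsParBasis N b) (i : Fin r) (γ : Gamma0 N)
    (hγ : ((γ : SL(2, ℤ)) : Matrix (Fin 2) (Fin 2) ℤ).trace ^ 2 ≤ 4) :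
    b i (Additive.ofMul γ) = 0 := by
  rcases eq_or_lt_of_le hγ with h4 | h4
  · exact hb.1 i γ h4
  · have h12 : (γ : SL(2, ℤ)) ^ 12 = 1 := Fermat.Agent.S16.H38.pow_twelve_eq_one_of_trace _ h4
    have h12' : γ ^ 12 = 1 := Subtype.ext h12
    have h1 : (12 : ℕ) • b i (Additive.ofMul γ) = 0 := by
      rw [← map_nsmul, ← ofMul_pow, h12', ofMul_one, map_zero]
    have h2 : (12 : ℤ) * b i (Additive.ofMul γ) = 0 := by
      rw [← h1]; simp
    rcases mul_eq_zero.mp h2 with h | h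
    · norm_num at h
    · exact h

theorem xOf_cuspidal (hb : IsParBasis N b) (w : Fin r → ZMod p) :
    IsCuspidalHom (Gamma0 N) (xOf b w) := by
  intro γ hγ
  rw [xOf_apply]
  refine Finset.sum_eq_zero fun i _ => ?_
  rw [parBasis_cuspidal hb i γ hγ]
  simp

/-- A parabolic basis stays linearly independent modulo `p`. -/
theorem xOf_ne_zero [Fact p.Prime] (hb : IsParBasis N b) {w : Fin r → ZMod p} (hw : w ≠ 0) :
    xOf b w ≠ 0 := by
  have hp : p.Prime := Fact.out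
  have hp0 : (p : ℤ) ≠ 0 := by exact_mod_cast hp.ne_zero
  intro hx
  apply hw
  -- the integral lift
  set wt : Fin r → ℤ := fun i => ((w i).val : ℤ) with hwt
  have hwt' : ∀ i, ((wt i : ℤ) : ZMod p) = w i := fun i => by
    rw [hwt]; push_cast; exact ZMod.natCast_zmod_val (w i)
  set y : Additive (Gamma0 N) →+ ℤ := ∑ i, wt i • b i with hy
  have hyapp : ∀ γ, y γ = ∑ i, b i γ • wt i := fun γ => by
    rw [hy, AddMonoidHom.finsetSum_apply]
    refine Finset.sum_congr rfl fun i _ => ?_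
    rw [AddMonoidHom.smul_apply, smul_eq_mul, smul_eq_mul, mul_comm]
  have hdvd : ∀ γ, (p : ℤ) ∣ y γ := fun γ => by
    rw [← ZMod.intCast_zmod_eq_zero_iff_dvd, hyapp]
    have := congrArg (fun f : Additive (Gamma0 N) →+ ZMod p => f γ) hx
    simp only [AddMonoidHom.zero_apply] at this
    rw [xOf_apply] at this
    rw [← this]
    push_cast
    refine Finset.sum_congr rfl fun i _ => ?_
    rw [smul_eq_mul]
    push_cast
    rw [hwt', mul_comm]
  let y' : Additive (Gamma0 N) →+ ℤ :=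
    { toFun := fun γ => y γ / (p : ℤ)
      map_zero' := by simp
      map_add' := fun γ δ => by
        show y (γ + δ) / (p : ℤ) = y γ / (p : ℤ) + y δ / (p : ℤ)
        rw [map_add, Int.add_ediv_of_dvd_left (hdvd γ)] }
  have hy'app : ∀ γ, y γ = (p : ℤ) * y' γ := fun γ =>
    (Int.mul_ediv_cancel' (hdvd γ)).symm
  have hypar : IsParabolicHom (Gamma0 N) y := by
    intro γ hγ
    rw [hyapp]
    refine Finset.sum_eq_zero fun i _ => ?_
    rw [hb.1 i γ hγ, zero_smul]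
  have hy'par : IsParabolicHom (Gamma0 N) y' := by
    intro γ hγ
    have h1 := hy'app (Additive.ofMul γ)
    rw [hypar γ hγ] at h1
    rcases mul_eq_zero.mp h1.symm with h | h
    · exact absurd h hp0
    · exact h
  obtain ⟨a, ha, -⟩ := hb.2 ℤ y' hy'par
  obtain ⟨a₂, -, huniq⟩ := hb.2 ℤ y hypar
  have h1 : wt = a₂ := huniq wt hyapp
  have h2 : (fun i => (p : ℤ) * a i) = a₂ := huniq _ (fun γ => by
    rw [hy'app, ha γ, Finset.mul_sum]
    refine Finset.sum_congr rfl fun i _ => ?_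
    simp only [smul_eq_mul]
    ring)
  funext i
  have h3 : wt i = (p : ℤ) * a i := by
    rw [h1, ← h2]
  rw [Pi.zero_apply, ← hwt' i, h3]
  push_cast
  simp

end Basis

section Hecke

variable {N r : ℕ} {b : Fin r → (Additive (Gamma0 N) →+ ℤ)} {p : ℕ}

/-- The Betti Hecke operator on `xOf b w` in terms of its matrix on the basis `b`. -/
theorem TB_xOf {ℓ : ℕ} (hℓ : ℓ.Prime) (hℓN : ¬ ℓ ∣ N) (Mℓ : Matrix (Fin r) (Fin r) ℤ)
    (hM : ∀ j, TB N ℤ hℓ hℓN (b j) = ∑ i, Mℓ i j • b i) (w : Fin r → ZMod p) :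
    TB N (ZMod p) hℓ hℓN (xOf b w)
      = xOf b ((Mℓ.map (Int.cast : ℤ → ZMod p)).mulVec w) := by
  have : Fact ℓ.Prime := ⟨hℓ⟩
  have hcomp : ∀ j, TB N (ZMod p) hℓ hℓN
      ((AddMonoidHom.mulLeft (w j)).comp ((Int.castAddHom (ZMod p)).comp (b j)))
      = (AddMonoidHom.mulLeft (w j)).comp ((Int.castAddHom (ZMod p)).comp
          (TB N ℤ hℓ hℓN (b j))) := by
    intro j
    rw [← AddMonoidHom.comp_assoc, ← AddMonoidHom.comp_assoc]
    exact (isHeckeFamily_T N hℓN).heckeOp_comp (incl_injective N) _ (b j)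
  refine AddMonoidHom.ext fun γ => ?_
  rw [xOf, map_sum, AddMonoidHom.finsetSum_apply, xOf_apply]
  simp only [hcomp, hM]
  simp only [AddMonoidHom.comp_apply, AddMonoidHom.finsetSum_apply, AddMonoidHom.smul_apply,
    AddMonoidHom.coe_mulLeft, Int.coe_castAddHom, Matrix.mulVec, dotProduct, Matrix.map_apply,
    smul_eq_mul]
  push_cast
  simp only [Finset.mul_sum, Finset.sum_mul]
  rw [Finset.sum_comm]
  refine Finset.sum_congr rfl fun i _ => Finset.sum_congr rfl fun j _ => ?_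
  ring

end Hecke

section Main

open CuspForm

/-- **SUPP**: the eigensystem of `f` modulo `𝔪` occurs in `Hom_cusp(Gamma0 N, ZMod p)`. -/
theorem stmt_SUPP : Stmt_SUPP := by
  intro W p N q' hp _ hN hq' hq'N _ f 𝔪 hf h𝔪 hp𝔪 hcong hq
  have : NeZero N := ⟨hN.ne'⟩
  have : Fact p.Prime := ⟨hp⟩
  obtain ⟨r, b, hb⟩ := Fermat.Agent.Betti.stmt_basis N
  obtain ⟨M, hMinj, hMT, -⟩ := Fermat.Agent.Betti.H76.stmt_matrixRep N (∅ : Set ℕ) r b hb
  set χ : heckeAlgebra N 2 (∅ : Set ℕ) →+* integralClosure ℤ ℂ :=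
    Fermat.Agent.R.H99.eigenChar (∅ : Set ℕ) hf with hχ
  have hχT : ∀ (ℓ : ℕ) (hℓ : ℓ.Prime) (hℓN : ¬ ℓ ∣ N),
      ((χ (heckeAlgebra.T hℓ hℓN (Set.notMem_empty ℓ)) : integralClosure ℤ ℂ) : ℂ)
        = ModularFormClass.qCoeff f ℓ := fun ℓ hℓ hℓN =>
    Fermat.Agent.R.H99.eigenCharC_T (∅ : Set ℕ) hf hℓ hℓN (Set.notMem_empty ℓ)
  obtain ⟨v, hv0, hv⟩ := Fermat.Agent.Betti.H76.stmt_algEig (heckeAlgebra N 2 (∅ : Set ℕ)) r M
    hMinj ℂ ((algebraMap (integralClosure ℤ ℂ) ℂ).comp χ)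
  have hv' : ∀ t, ((M t).map (Int.cast : ℤ → ℂ)).mulVec v
      = ((χ t : integralClosure ℤ ℂ) : ℂ) • v := fun t => hv t
  -- the sign `ε`
  obtain ⟨a, ha, ha2⟩ := hq
  have hχq : χ (heckeAlgebra.T hq' hq'N (Set.notMem_empty q')) = a :=
    Subtype.ext (by rw [hχT q' hq' hq'N, ha])
  have hprime : 𝔪.IsPrime := h𝔪.isPrime
  have hfac : (a - ((q' : integralClosure ℤ ℂ) + 1)) * (a + ((q' : integralClosure ℤ ℂ) + 1)) ∈ 𝔪 := by
    have : (a - ((q' : integralClosure ℤ ℂ) + 1)) * (a + ((q' : integralClosure ℤ ℂ) + 1))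
        = a ^ 2 - ((q' : integralClosure ℤ ℂ) + 1) ^ 2 := by ring
    rw [this]
    exact ha2
  obtain ⟨ε, hε, hεm⟩ : ∃ ε : ℤ, (ε = 1 ∨ ε = -1) ∧
      a - (((ε * ((q' : ℤ) + 1) : ℤ)) : integralClosure ℤ ℂ) ∈ 𝔪 := by
    rcases hprime.mem_or_mem hfac with h | h
    · refine ⟨1, Or.inl rfl, ?_⟩
      have : (((1 * ((q' : ℤ) + 1) : ℤ)) : integralClosure ℤ ℂ)
          = (q' : integralClosure ℤ ℂ) + 1 := by push_cast; ring
      rw [this]
      exact h
    · refine ⟨-1, Or.inr rfl, ?_⟩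
      have : a - ((((-1) * ((q' : ℤ) + 1) : ℤ)) : integralClosure ℤ ℂ)
          = a + ((q' : integralClosure ℤ ℂ) + 1) := by push_cast; ring
      rw [this]
      exact h
  -- the index set of the Hecke operators
  let ι := Option {ℓ : ℕ // ℓ.Prime ∧ ¬ ℓ ∣ N ∧ W.IsGoodPrimeFor ℓ ∧ ℓ ≠ p}
  let t : ι → heckeAlgebra N 2 (∅ : Set ℕ) := fun j =>
    j.elim (heckeAlgebra.T hq' hq'N (Set.notMem_empty q'))
      (fun ℓ => heckeAlgebra.T ℓ.2.1 ℓ.2.2.1 (Set.notMem_empty ℓ.1))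
  let c : ι → ℤ := fun j => j.elim (ε * ((q' : ℤ) + 1)) (fun ℓ => W.apOfModel ℓ.1)
  have hc : ∀ j, χ (t j) - ((c j : ℤ) : integralClosure ℤ ℂ) ∈ 𝔪 := by
    intro j
    rcases j with _ | ℓ
    · show χ (heckeAlgebra.T hq' hq'N (Set.notMem_empty q'))
        - (((ε * ((q' : ℤ) + 1) : ℤ)) : integralClosure ℤ ℂ) ∈ 𝔪
      rw [hχq]
      exact hεm
    · show χ (heckeAlgebra.T ℓ.2.1 ℓ.2.2.1 (Set.notMem_empty ℓ.1))
        - (((W.apOfModel ℓ.1 : ℤ)) : integralClosure ℤ ℂ) ∈ 𝔪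
      obtain ⟨a', ha', ha'm⟩ := hcong ℓ.1 ℓ.2.1 ℓ.2.2.2.1 ℓ.2.2.1 ℓ.2.2.2.2
      have : χ (heckeAlgebra.T ℓ.2.1 ℓ.2.2.1 (Set.notMem_empty ℓ.1)) = a' :=
        Subtype.ext (by rw [hχT ℓ.1 ℓ.2.1 ℓ.2.2.1, ha'])
      rw [this]
      exact ha'm
  obtain ⟨w, hw0, hw⟩ := exists_eigenvector_mod M χ v hv0 hv' 𝔪 h𝔪.ne_top hp𝔪 t c hc
  refine ⟨ε, xOf b w, hε, xOf_ne_zero hb hw0, xOf_cuspidal hb w, ?_, ?_⟩
  · intro ℓ hℓ hgood hℓN hℓp
    rw [Tcoh_eq_TB hN hℓ hℓN, TB_xOf hℓ hℓN (M (heckeAlgebra.T hℓ hℓN (Set.notMem_empty ℓ)))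
      (hMT ℓ hℓ hℓN (Set.notMem_empty ℓ)) w]
    have := hw (some ⟨ℓ, hℓ, hℓN, hgood, hℓp⟩)
    rw [show ((M (heckeAlgebra.T hℓ hℓN (Set.notMem_empty ℓ))).map (Int.cast : ℤ → ZMod p)).mulVec w
      = ((W.apOfModel ℓ : ℤ) : ZMod p) • w from this, xOf_smul]
  · rw [Tcoh_eq_TB hN hq' hq'N, TB_xOf hq' hq'N (M (heckeAlgebra.T hq' hq'N (Set.notMem_empty q')))
      (hMT q' hq' hq'N (Set.notMem_empty q')) w]
    have := hw none
    rw [show ((M (heckeAlgebra.T hq' hq'N (Set.notMem_empty q'))).map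
        (Int.cast : ℤ → ZMod p)).mulVec w
      = (((ε * ((q' : ℤ) + 1) : ℤ)) : ZMod p) • w from this, xOf_smul]

end Main

end Fermat.Agent.S41.H98
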