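import Fermat.Agent.S41.Wiring
import Fermat.Agent.S41.H98_Supp
import Fermat.Agent.S41.H19_Rel
import Fermat.Agent.S41.H19_IharaFinal
import Fermat.Agent.S41.H20_NewLift
import Fermat.Agent.S41.H39_ALFinal

/-!
# S41 (level raising): final assembly, modulo the leaf L-LIFT

`result_of_llift`: the frozen statement S41 from `Stmt_IHARA → H20.Stmt_LLIFT` alone; all other
inputs are proved: `H98.stmt_SUPP`, `H19.stmt_REL`, `Ihara.stmt_IHARA` (Kummer–Hecke proof of Ihara's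
lemma), `H20.newlift_of`, `H39.stmt_AL`.
-/

set_option autoImplicit false

open scoped MatrixGroups
open WeierstrassCurve WeierstrassCurve.Affine WeierstrassCurve.Affine.Point
open CongruenceSubgroup

namespace Fermat.Agent.S41

theorem result_of_llift (hL : Stmt_IHARA → H20.Stmt_LLIFT)
    (E : WeierstrassCurve ℚ) [E.IsElliptic] {W : WeierstrassCurve ℤ} (hW : W.IsIntegralModelOf E)
    {p N q' : ℕ} (hp : p.Prime) (hp2 : p ≠ 2) (hN : 0 < N) (hq' : q'.Prime) (hq'N : ¬ q' ∣ N) (hq'p : q' ≠ p)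
    (hirr : GaloisRepIsIrreducible (K := AlgebraicClosure ℚ) ℚ E p)
    (f : CuspForm (CongruenceSubgroup.Gamma0 N) 2) (𝔪 : Ideal (integralClosure ℤ ℂ))
    (hf : f.IsNormalizedEigenform) (hmax : 𝔪.IsMaximal) (hpm : (p : integralClosure ℤ ℂ) ∈ 𝔪)
    (hcong : ∀ ℓ : ℕ, ℓ.Prime → W.IsGoodPrimeFor ℓ → ¬ ℓ ∣ N → ℓ ≠ p →
      ∃ a : integralClosure ℤ ℂ, (a : ℂ) = ModularFormClass.qCoeff f ℓ ∧
        a - ((W.apOfModel ℓ : ℤ) : integralClosure ℤ ℂ) ∈ 𝔪)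
    (hLR : ∃ a : integralClosure ℤ ℂ, (a : ℂ) = ModularFormClass.qCoeff f q' ∧
      a ^ 2 - ((q' : integralClosure ℤ ℂ) + 1) ^ 2 ∈ 𝔪) :
    ∃ (g : CuspForm (CongruenceSubgroup.Gamma0 (N * q')) 2) (𝔪' : Ideal (integralClosure ℤ ℂ)),
      g.IsNormalizedEigenform ∧ 𝔪'.IsMaximal ∧ (p : integralClosure ℤ ℂ) ∈ 𝔪' ∧
      (∀ ℓ : ℕ, ℓ.Prime → W.IsGoodPrimeFor ℓ → ¬ ℓ ∣ N * q' → ℓ ≠ p →
        ∃ a : integralClosure ℤ ℂ, (a : ℂ) = ModularFormClass.qCoeff g ℓ ∧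
          a - ((W.apOfModel ℓ : ℤ) : integralClosure ℤ ℂ) ∈ 𝔪') ∧
      g.IsNewAt q' :=
  result_of_inputs H98.stmt_SUPP H19.stmt_REL Ihara.stmt_IHARA
    (H20.newlift_of hL H39.stmt_AL) E hW hp hp2 hN hq' hq'N hq'p hirr f 𝔪 hf hmax hpm hcong hLR

end Fermat.Agent.S41
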