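import Fermat.Agent.S41.H19_RelDeg

/-!
# S41 (helper19): the explicit formula for the Hecke operator `Tcoh`

For a prime `ℓ ∤ N`, `N > 0`, with the classical right coset representatives
`a_j = [[1, j], [0, ℓ]]` (`j < ℓ`), `a_∞ = [[ℓ, 0], [0, 1]]`:

* `Tcoh_eq_sum` : if `a_j * g = γ_j * a_{s j}` for all `j` (integer matrices, `γ_j ∈ Gamma0 N`)
  then `Tcoh N A ℓ x g = ∑ j, x (γ j)`;
* `exists_hecke_sol` : such `s, γ` exist for every `g ∈ Gamma0 N`.
-/

set_option autoImplicit false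

open scoped MatrixGroups
open CongruenceSubgroup Matrix

namespace Fermat.Agent.S41.H19

open Fermat.Agent.S41

/-- The classical right coset representatives of `Γ diag(1,ℓ) Γ`. -/
def aMat (ℓ : ℕ) : Option (Fin ℓ) → Matrix (Fin 2) (Fin 2) ℤ
  | some j => !![1, (j : ℕ); 0, (ℓ : ℤ)]
  | none => !![(ℓ : ℤ), 0; 0, 1]

lemma aMat_none (ℓ : ℕ) : aMat ℓ none = Dq ℓ := rfl

lemma mat_mul_inv {N : ℕ} (t : Gamma0 N) : mat t * mat t⁻¹ = 1 := by
  rw [← mat_mul, mul_inv_cancel, mat_one]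

lemma mat_inv_mul {N : ℕ} (t : Gamma0 N) : mat t⁻¹ * mat t = 1 := by
  rw [← mat_mul, inv_mul_cancel, mat_one]

lemma mat_cancel_right {N : ℕ} (t : Gamma0 N) {X Y : Matrix (Fin 2) (Fin 2) ℤ}
    (h : X * mat t = Y * mat t) : X = Y := by
  have := congrArg (· * mat t⁻¹) h
  simpa [Matrix.mul_assoc, mat_mul_inv] using this

lemma mat_cancel_left {N : ℕ} (t : Gamma0 N) {X Y : Matrix (Fin 2) (Fin 2) ℤ}
    (h : mat t * X = mat t * Y) : X = Y := by
  have := congrArg (mat t⁻¹ * ·) h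
  simpa [← Matrix.mul_assoc, mat_inv_mul] using this

/-- Distinct `a_j` lie in distinct right cosets of `SL(2, ℤ)`. -/
lemma aMat_coset {ℓ : ℕ} (hℓ : 2 ≤ ℓ) {N : ℕ} (K : Gamma0 N) (i j : Option (Fin ℓ))
    (h : mat K * aMat ℓ j = aMat ℓ i) : i = j := by
  have hℓ' : (2 : ℤ) ≤ (ℓ : ℤ) := by exact_mod_cast hℓ
  have h00 := congrFun (congrFun h 0) 0
  have h01 := congrFun (congrFun h 0) 1
  have h10 := congrFun (congrFun h 1) 0
  have h11 := congrFun (congrFun h 1) 1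
  rcases i with _ | i <;> rcases j with _ | j <;>
    simp only [aMat, Matrix.mul_apply, Fin.sum_univ_two, Matrix.of_apply, Matrix.cons_val',
      Matrix.cons_val_zero, Matrix.cons_val_one, Matrix.empty_val', Matrix.cons_val_fin_one,
      mul_zero, mul_one, add_zero, zero_add] at h00 h01 h10 h11
  · rfl
  · -- i = none, j = some: K10 = 0, K10 j + K11 ℓ = 1
    exfalso
    rw [h10, zero_mul, zero_add] at h11
    have : (ℓ : ℤ) ∣ 1 := ⟨mat K 1 1, by linear_combination -h11⟩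
    have := Int.le_of_dvd one_pos this
    omega
  · -- i = some, j = none: K00 ℓ = 1
    exfalso
    have : (ℓ : ℤ) ∣ 1 := ⟨mat K 0 0, by linear_combination -h00⟩
    have := Int.le_of_dvd one_pos this
    omega
  · -- both some
    congr 1
    rw [h00, one_mul] at h01
    have hd : (ℓ : ℤ) ∣ ((i : ℕ) : ℤ) - ((j : ℕ) : ℤ) := ⟨mat K 0 1, by linear_combination -h01⟩
    have hi := i.2
    have hj := j.2
    apply Fin.ext
    have h1 : ((i : ℕ) : ℤ) % (ℓ : ℤ) = ((j : ℕ) : ℤ) % (ℓ : ℤ) :=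
      Int.emod_eq_emod_iff_emod_sub_eq_zero.mpr (Int.emod_eq_zero_of_dvd hd)
    rw [Int.emod_eq_of_lt (by positivity) (by exact_mod_cast hi),
      Int.emod_eq_of_lt (by positivity) (by exact_mod_cast hj)] at h1
    exact_mod_cast h1

/-! ### Explicit representatives of `Gamma0 N / Gamma0 (N ℓ)` -/

section Reps

variable {N ℓ : ℕ} {u v : ℤ} (huv : (ℓ : ℤ) * u + (N : ℤ) * v = 1)

/-- Representatives `t_j` of `Gamma0 N / Gamma0 (N ℓ)` with `a_j t_j = c_j diag(ℓ,1)`. -/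
def tRep : Option (Fin ℓ) → Gamma0 N
  | some j => mkG0 N ((ℓ : ℤ) * u - ((j : ℕ) : ℤ) * N) (-v - ((j : ℕ) : ℤ)) N 1
      (by linear_combination huv) dvd_rfl
  | none => 1

/-- The elements `c_j ∈ Gamma0 N` with `a_j t_j = c_j diag(ℓ,1)`. -/
def cRep : Option (Fin ℓ) → Gamma0 N
  | some _ => mkG0 N u (-v) N ℓ (by linear_combination huv) dvd_rfl
  | none => 1

lemma aMat_tRep (j : Option (Fin ℓ)) :
    aMat ℓ j * mat (tRep huv j) = mat (cRep huv j) * Dq ℓ := by
  rcases j with _ | j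
  · simp [tRep, cRep, aMat_none]
  · simp only [tRep, cRep, aMat, mat_mkG0, Dq]
    ext a b
    fin_cases a <;> fin_cases b <;> simp [Matrix.mul_apply, Fin.sum_univ_two] <;> ring

lemma tRep_inj (hℓ : 2 ≤ ℓ) (i j : Option (Fin ℓ))
    (h : (tRep huv i)⁻¹ * tRep huv j ∈ (inclG N ℓ).range) : i = j := by
  obtain ⟨h, hh⟩ := h
  have e1 : tRep huv i * inclG N ℓ h = tRep huv j := by rw [hh]; group
  have e1' : mat (tRep huv i) * mat h = mat (tRep huv j) := congrArg mat e1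
  obtain ⟨K, hK⟩ : ∃ K : Gamma0 N, K = cRep huv i * conjG N ℓ h * (cRep huv j)⁻¹ := ⟨_, rfl⟩
  have e2 : K * cRep huv j = cRep huv i * conjG N ℓ h := by rw [hK]; group
  have e2' : mat K * mat (cRep huv j) = mat (cRep huv i) * conjMat ℓ (mat h) := congrArg mat e2
  apply aMat_coset hℓ K
  apply mat_cancel_right (tRep huv j)
  calc mat K * aMat ℓ j * mat (tRep huv j)
      = mat K * (aMat ℓ j * mat (tRep huv j)) := by rw [Matrix.mul_assoc]
    _ = mat K * mat (cRep huv j) * Dq ℓ := by rw [aMat_tRep, Matrix.mul_assoc]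
    _ = mat (cRep huv i) * (conjMat ℓ (mat h) * Dq ℓ) := by rw [e2', Matrix.mul_assoc]
    _ = mat (cRep huv i) * Dq ℓ * mat h := by
        rw [conjMat_Dq (q_dvd_of_mem_gamma0_mul h.2), Matrix.mul_assoc]
    _ = aMat ℓ i * (mat (tRep huv i) * mat h) := by rw [← aMat_tRep, Matrix.mul_assoc]
    _ = aMat ℓ i * mat (tRep huv j) := by rw [e1']

theorem isReps_tRep (hN : 0 < N) (hℓ : ℓ.Prime) (hℓN : ¬ ℓ ∣ N) :
    IsReps (inclG N ℓ) (tRep huv) := by
  have := finiteIndex_inclG hN hℓ hℓN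
  have hfin : Finite (Gamma0 N ⧸ (inclG N ℓ).range) := Subgroup.finite_quotient_of_finiteIndex
  have hinj : Function.Injective
      (fun i : Option (Fin ℓ) => (tRep huv i : Gamma0 N ⧸ (inclG N ℓ).range)) := by
    intro i j hij
    exact tRep_inj huv hℓ.two_le i j (QuotientGroup.eq.mp hij)
  have hcard : Nat.card (Gamma0 N ⧸ (inclG N ℓ).range) ≤ Nat.card (Option (Fin ℓ)) := by
    rw [← Subgroup.index_eq_card, index_inclG hN hℓ hℓN, Nat.card_eq_fintype_card,
      Fintype.card_option, Fintype.card_fin]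
  have hbij := hinj.bijective_of_nat_card_le hcard
  constructor
  · exact tRep_inj huv hℓ.two_le
  · intro g
    obtain ⟨i, hi⟩ := hbij.2 (g : Gamma0 N ⧸ (inclG N ℓ).range)
    exact ⟨i, QuotientGroup.eq.mp hi⟩

end Reps

/-! ### The formula -/

section Formula

variable {N ℓ : ℕ} {A : Type*} [AddCommGroup A]

lemma hecke_sol_injective (hℓ : 2 ≤ ℓ) (g : Gamma0 N) (s : Option (Fin ℓ) → Option (Fin ℓ))
    (γ : Option (Fin ℓ) → Gamma0 N)
    (h : ∀ j, aMat ℓ j * mat g = mat (γ j) * aMat ℓ (s j)) : Function.Injective s := by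
  intro j j' hjj'
  apply aMat_coset hℓ (γ j * (γ j')⁻¹)
  apply mat_cancel_right g
  rw [h j, hjj', mat_mul, Matrix.mul_assoc, Matrix.mul_assoc, h j', ← Matrix.mul_assoc (mat (γ j')⁻¹),
    mat_inv_mul, Matrix.one_mul]

/-- **Explicit formula for the Hecke operator** `T_ℓ` on `Hom(Gamma0 N, A)`, `ℓ ∤ N` prime. -/
theorem Tcoh_eq_sum (hN : 0 < N) (hℓ : ℓ.Prime) (hℓN : ¬ ℓ ∣ N) (x : Additive (Gamma0 N) →+ A)
    (g : Gamma0 N) (s : Option (Fin ℓ) → Option (Fin ℓ)) (γ : Option (Fin ℓ) → Gamma0 N)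
    (h : ∀ j, aMat ℓ j * mat g = mat (γ j) * aMat ℓ (s j)) :
    Tcoh N A ℓ x (Additive.ofMul g) = ∑ j, x (Additive.ofMul (γ j)) := by
  obtain ⟨u, v, huv⟩ := exists_bezout hℓ hℓN
  have ht := isReps_tRep huv hN hℓ hℓN
  have hs : Function.Bijective s :=
    Finite.injective_iff_bijective.mp (hecke_sol_injective hℓ.two_le g s γ h)
  let e : Option (Fin ℓ) ≃ Option (Fin ℓ) := Equiv.ofBijective s hs
  have key : ∀ i, ∃ hi : Gamma0 (N * ℓ),
      g * tRep huv i = tRep huv (e.symm i) * inclG N ℓ hi ∧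
      conjG N ℓ hi = (cRep huv (e.symm i))⁻¹ * γ (e.symm i) * cRep huv i := by
    intro i
    obtain ⟨j, hj⟩ : ∃ j, j = e.symm i := ⟨_, rfl⟩
    rw [← hj]
    have hsj : s j = i := by rw [hj]; exact e.apply_symm_apply i
    obtain ⟨h₀, hh₀⟩ : ∃ h₀ : Gamma0 N, h₀ = (tRep huv j)⁻¹ * g * tRep huv i := ⟨_, rfl⟩
    obtain ⟨k, hk⟩ : ∃ k : Gamma0 N, k = (cRep huv j)⁻¹ * γ j * cRep huv i := ⟨_, rfl⟩
    have e1 : tRep huv j * h₀ = g * tRep huv i := by rw [hh₀]; group
    have e1' : mat (tRep huv j) * mat h₀ = mat g * mat (tRep huv i) := congrArg mat e1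
    have e2 : cRep huv j * k = γ j * cRep huv i := by rw [hk]; group
    have e2' : mat (cRep huv j) * mat k = mat (γ j) * mat (cRep huv i) := congrArg mat e2
    have e3 : Dq ℓ * mat h₀ = mat k * Dq ℓ := by
      apply mat_cancel_left (cRep huv j)
      calc mat (cRep huv j) * (Dq ℓ * mat h₀)
          = (mat (cRep huv j) * Dq ℓ) * mat h₀ := by rw [Matrix.mul_assoc]
        _ = aMat ℓ j * (mat (tRep huv j) * mat h₀) := by rw [← aMat_tRep, Matrix.mul_assoc]
        _ = (aMat ℓ j * mat g) * mat (tRep huv i) := by rw [e1', Matrix.mul_assoc]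
        _ = mat (γ j) * (aMat ℓ i * mat (tRep huv i)) := by rw [h j, hsj, Matrix.mul_assoc]
        _ = (mat (γ j) * mat (cRep huv i)) * Dq ℓ := by rw [aMat_tRep, Matrix.mul_assoc]
        _ = mat (cRep huv j) * (mat k * Dq ℓ) := by rw [← e2', Matrix.mul_assoc]
    have h10 : mat h₀ 1 0 = (ℓ : ℤ) * mat k 1 0 := by
      have := congrFun (congrFun e3 1) 0
      simpa [Dq, Matrix.mul_apply, Fin.sum_univ_two, mul_comm] using this
    have hmem : (h₀ : SL(2, ℤ)) ∈ Gamma0 (N * ℓ) := by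
      rw [Gamma0_mem, ZMod.intCast_zmod_eq_zero_iff_dvd]
      obtain ⟨c, hc⟩ := mat_dvd k
      exact ⟨c, by change mat h₀ 1 0 = _; rw [h10, hc]; push_cast; ring⟩
    refine ⟨⟨(h₀ : SL(2, ℤ)), hmem⟩, e1.symm, ?_⟩
    rw [← hk]
    apply mat_injective
    rw [mat_conjG]
    apply Dq_cancel_right hℓ.ne_zero
    rw [conjMat_Dq (q_dvd_of_mem_gamma0_mul hmem)]
    exact e3
  choose hh hh1 hh2 using key
  unfold Tcoh cor1
  rw [corAlong_eq_sum (inclG N ℓ) (inclG_injective N ℓ) (tRep huv) ht _ g (fun i => e.symm i) hh hh1]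
  have hterm : ∀ i, res2 N ℓ A x (Additive.ofMul (hh i))
      = x (Additive.ofMul (γ (e.symm i)))
        + (x (Additive.ofMul (cRep huv i)) - x (Additive.ofMul (cRep huv (e.symm i)))) := by
    intro i
    change x (Additive.ofMul (conjG N ℓ (hh i))) = _
    rw [hh2 i]
    change x (-Additive.ofMul (cRep huv (e.symm i)) + Additive.ofMul (γ (e.symm i))
      + Additive.ofMul (cRep huv i)) = _
    rw [map_add, map_add, map_neg]
    abel
  have hp1 : ∑ i, x (Additive.ofMul (γ (e.symm i))) = ∑ j, x (Additive.ofMul (γ j)) :=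
    Equiv.sum_comp e.symm (fun j => x (Additive.ofMul (γ j)))
  have hp2 : ∑ i, x (Additive.ofMul (cRep huv (e.symm i)))
      = ∑ j, x (Additive.ofMul (cRep huv j)) :=
    Equiv.sum_comp e.symm (fun j => x (Additive.ofMul (cRep huv j)))
  rw [Finset.sum_congr rfl (fun i _ => hterm i), Finset.sum_add_distrib, Finset.sum_sub_distrib,
    hp1, hp2, sub_self, add_zero]

/-- Existence of the data `(s, γ)` in `Tcoh_eq_sum`. -/
theorem exists_hecke_sol (hN : 0 < N) (hℓ : ℓ.Prime) (hℓN : ¬ ℓ ∣ N) (g : Gamma0 N) :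
    ∃ (s : Option (Fin ℓ) → Option (Fin ℓ)) (γ : Option (Fin ℓ) → Gamma0 N),
      ∀ j, aMat ℓ j * mat g = mat (γ j) * aMat ℓ (s j) := by
  obtain ⟨u, v, huv⟩ := exists_bezout hℓ hℓN
  have ht := isReps_tRep huv hN hℓ hℓN
  obtain ⟨σ, k, hk⟩ := ht.exists_sol g
  have hσ := ht.sol_bijective hk
  let e : Option (Fin ℓ) ≃ Option (Fin ℓ) := Equiv.ofBijective σ hσ
  refine ⟨fun j => e.symm j, fun j => cRep huv j * conjG N ℓ (k (e.symm j)) * (cRep huv (e.symm j))⁻¹,
    fun j => ?_⟩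
  obtain ⟨i, hi⟩ : ∃ i, i = e.symm j := ⟨_, rfl⟩
  change aMat ℓ j * mat g
    = mat (cRep huv j * conjG N ℓ (k (e.symm j)) * (cRep huv (e.symm j))⁻¹) * aMat ℓ (e.symm j)
  rw [← hi]
  have hσi : σ i = j := by rw [hi]; exact e.apply_symm_apply j
  have e1 : mat g * mat (tRep huv i) = mat (tRep huv j) * mat (k i) := by
    have := congrArg mat (hk i)
    rw [hσi] at this
    exact this
  apply mat_cancel_right (tRep huv i)
  rw [mat_mul, mat_mul, mat_conjG]
  calc aMat ℓ j * mat g * mat (tRep huv i)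
      = aMat ℓ j * (mat g * mat (tRep huv i)) := by rw [Matrix.mul_assoc]
    _ = (aMat ℓ j * mat (tRep huv j)) * mat (k i) := by rw [e1, Matrix.mul_assoc]
    _ = mat (cRep huv j) * (Dq ℓ * mat (k i)) := by rw [aMat_tRep, Matrix.mul_assoc]
    _ = mat (cRep huv j) * (conjMat ℓ (mat (k i)) * Dq ℓ) := by
        rw [conjMat_Dq (q_dvd_of_mem_gamma0_mul (k i).2)]
    _ = mat (cRep huv j) * conjMat ℓ (mat (k i)) * (mat (cRep huv i)⁻¹ * (mat (cRep huv i) * Dq ℓ)) := by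
        rw [← Matrix.mul_assoc (mat (cRep huv i)⁻¹), mat_inv_mul, Matrix.one_mul, Matrix.mul_assoc]
    _ = mat (cRep huv j) * conjMat ℓ (mat (k i)) * mat (cRep huv i)⁻¹ * aMat ℓ i * mat (tRep huv i) := by
        rw [← aMat_tRep]
        simp only [Matrix.mul_assoc]

end Formula

end Fermat.Agent.S41.H19
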