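import Fermat.Agent.S41.H19_I3Core
import Fermat.Agent.L.H19_TorsLevel
import Fermat.Agent.R.Defs
import Fermat.Agent.Lib.EllFinite.Defs
import Fermat.Prelude.Def_FLTPrelim_Modularity

/-!
# S41 package I3 (helper19): non-Eisenstein

`Stmt_I3`: if `E[p]` is irreducible then the system `ℓ ↦ a_ℓ(W) mod p` is not Eisenstein:
it is NOT the case that `a_ℓ(W) = 1 + ℓ` in `ZMod p` for all good primes `ℓ ∤ M`, `ℓ ≠ p`.

`stmt_I3_of : Stmt_FD → Stmt_main → Stmt_I3` (Frobenius density, item 61, and trace/determinant of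
Frobenius on `E[p]`, item 62).  The unconditional form is in `H19_I3Final.lean`.

Proof: by items 61 and 62 and `E[p]` finite, every `g ∈ G_ℚ` acts on `E[p]` as a power of a
Frobenius at a good prime, so `tr ρ(g) = 1 + det ρ(g)` for all `g`; then `stable_line`
(elementary linear algebra, valid in every characteristic) gives a Galois-stable line.
-/

set_option autoImplicit false

open WeierstrassCurve WeierstrassCurve.Affine WeierstrassCurve.Affine.Point

namespace Fermat.Agent.S41.H19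

/-- I3, non-Eisenstein. -/
def Stmt_I3 : Prop :=
  ∀ (E : WeierstrassCurve ℚ) [E.IsElliptic] (W : WeierstrassCurve ℤ), W.IsIntegralModelOf E →
    ∀ (p M : ℕ), p.Prime → 0 < M →
    GaloisRepIsIrreducible (K := AlgebraicClosure ℚ) ℚ E p →
    ¬ ∀ ℓ : ℕ, ℓ.Prime → W.IsGoodPrimeFor ℓ → ¬ ℓ ∣ M → ℓ ≠ p →
        ((W.apOfModel ℓ : ℤ) : ZMod p) = 1 + (ℓ : ZMod p)

theorem stmt_I3_of (hFD : Fermat.Agent.R.Stmt_FD) (hmain : Fermat.Agent.Lib.EllFinite.Stmt_main) :
    Stmt_I3 := by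
  intro E _ W hW p M hp hM hirr hall
  have : Fact p.Prime := ⟨hp⟩
  obtain ⟨C, hC⟩ := hW
  -- the discriminant
  have hΔ : W.Δ ≠ 0 := by
    have h1 : E.Δ ≠ 0 := E.isUnit_Δ.ne_zero
    have h2 : (C • E).Δ ≠ 0 := by
      rw [WeierstrassCurve.variableChange_Δ]
      exact mul_ne_zero (pow_ne_zero _ (Units.ne_zero _)) h1
    rw [hC, WeierstrassCurve.map_Δ] at h2
    intro h0
    exact h2 (by rw [h0, _root_.map_zero])
  -- irreducibility for the integral model
  have hirr' : GaloisRepIsIrreducible (K := AlgebraicClosure ℚ) ℚ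
      (W.map (Int.castRingHom ℚ)).toAffine p :=
    Fermat.Agent.L.H19.irreducible_of_variableChange hC p hirr
  -- the bad set
  set S : Finset ℕ := (M * p * W.Δ.natAbs).primeFactors with hS
  have hgood : ∀ ℓ : ℕ, ℓ.Prime → ℓ ∉ S → W.IsGoodPrimeFor ℓ ∧ ¬ ℓ ∣ M ∧ ℓ ≠ p := by
    intro ℓ hℓ hℓS
    have hne : M * p * W.Δ.natAbs ≠ 0 :=
      mul_ne_zero (mul_ne_zero hM.ne' hp.ne_zero) (Int.natAbs_ne_zero.mpr hΔ)
    have hnd : ¬ ℓ ∣ M * p * W.Δ.natAbs := fun hd =>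
      hℓS (by rw [hS, Nat.mem_primeFactors]; exact ⟨hℓ, hd, hne⟩)
    refine ⟨?_, ?_, ?_⟩
    · intro hd
      apply hnd
      exact Dvd.dvd.mul_left (Int.natCast_dvd.mp hd) _
    · intro hd
      exact hnd (Dvd.dvd.mul_right (Dvd.dvd.mul_right hd p) _)
    · intro hd
      apply hnd
      rw [hd]
      exact Dvd.dvd.mul_right (dvd_mul_left p M) _
  -- dimension two
  obtain ⟨ℓ₀, A₀, σ₀, j₀, hℓ₀, hℓ₀S, hA₀, hσ₀, -⟩ := hFD S ⊥ inferInstance 1
  have hfr := (hmain W p ℓ₀ hℓ₀ (hgood ℓ₀ hℓ₀ hℓ₀S).2.2.symm (hgood ℓ₀ hℓ₀ hℓ₀S).1 A₀ hA₀ σ₀ hσ₀).1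
  have : Module.Finite (ZMod p) (Submodule.torsionBy ℤ
      ((W.map (Int.castRingHom ℚ)).toAffine⁄(AlgebraicClosure ℚ)).Point p) :=
    Module.finite_of_finrank_eq_succ hfr
  have : Finite (Submodule.torsionBy ℤ
      ((W.map (Int.castRingHom ℚ)).toAffine⁄(AlgebraicClosure ℚ)).Point p) :=
    Module.finite_of_finite (ZMod p)
  have halg : Algebra.IsAlgebraic ℚ (AlgebraicClosure ℚ) := AlgebraicClosure.isAlgebraic ℚ
  obtain ⟨L, hL, hLg⟩ := Fermat.Agent.L.H19.exists_finite_level (F := ℚ) (K := AlgebraicClosure ℚ)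
    (W.map (Int.castRingHom ℚ)) p
  -- trace = 1 + det everywhere
  have htr : ∀ g : AlgebraicClosure ℚ ≃ₐ[ℚ] AlgebraicClosure ℚ,
      LinearMap.trace (ZMod p) _ (galoisRepModuleEnd ℚ (W.map (Int.castRingHom ℚ)).toAffine p g)
        = 1 + LinearMap.det (galoisRepModuleEnd ℚ (W.map (Int.castRingHom ℚ)).toAffine p g) := by
    intro g
    obtain ⟨ℓ, A, σ, j, hℓ, hℓS, hA, hσ, hj⟩ := hFD S L hL g
    obtain ⟨hg, hℓM, hℓp⟩ := hgood ℓ hℓ hℓS
    obtain ⟨-, htrσ, hdetσ⟩ := hmain W p ℓ hℓ hℓp.symm hg A hA σ hσ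
    have hρ : galoisRepModuleEnd ℚ (W.map (Int.castRingHom ℚ)).toAffine p g
        = (galoisRepModuleEnd ℚ (W.map (Int.castRingHom ℚ)).toAffine p σ) ^ j := by
      rw [← map_pow]
      apply LinearMap.ext
      intro v
      exact (hLg (σ ^ j) g hj v).symm
    rw [hρ]
    apply trace_pow_of_trace_eq hfr
    rw [← galoisTrace_def, htrσ, hdetσ, hall ℓ hℓ hg hℓM hℓp]
  obtain ⟨v, hv0, hv⟩ := stable_line hfr _ htr
  -- the stable line contradicts irreducibility
  have hst : IsGaloisStable ℚ (Submodule.span (ZMod p) {v}) := by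
    intro σ x hx
    obtain ⟨a, rfl⟩ := Submodule.mem_span_singleton.mp hx
    obtain ⟨c, hc⟩ := hv σ
    rw [galoisRepModuleEnd_apply] at hc
    rw [smul_comm, hc, smul_smul]
    exact Submodule.smul_mem _ _ (Submodule.mem_span_singleton_self v)
  rcases hirr'.2 _ hst with h0 | h1
  · apply hv0
    have : v ∈ Submodule.span (ZMod p) {v} := Submodule.mem_span_singleton_self v
    rw [h0] at this
    exact (Submodule.mem_bot _).mp this
  · have h2 : Module.finrank (ZMod p) (Submodule.span (ZMod p) {v}) = 1 :=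
      finrank_span_singleton hv0
    rw [h1, finrank_top, hfr] at h2
    exact absurd h2 (by norm_num)

end Fermat.Agent.S41.H19
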