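import Mathlib

/-!
# S41 package I3 (helper19), linear algebra core

`stable_line`: a two-dimensional representation `ρ` of a group over ANY field all of whose
elements satisfy `tr ρ(g) = 1 + det ρ(g)` has a stable line.  (Elementary: if some `u ≠ 1` has
determinant `1` then `ker (u - 1)` is stable, by a trace computation with `u · g u g⁻¹`;
otherwise the image is abelian and `ker (g - 1)` is stable for any `g ≠ 1`.)

`trace_pow_of_trace_eq`: `tr M = 1 + det M ⟹ tr (M ^ j) = 1 + det (M ^ j)`.
-/

set_option autoImplicit false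

namespace Fermat.Agent.S41.H19

open Module

variable {k : Type*} [Field k] {V : Type*} [AddCommGroup V] [Module k V]

/-! ### Cayley–Hamilton in dimension two -/

lemma matrix_CH_two (M : Matrix (Fin 2) (Fin 2) k) :
    M * M = M.trace • M - M.det • (1 : Matrix (Fin 2) (Fin 2) k) := by
  ext i j
  fin_cases i <;> fin_cases j <;>
    simp [Matrix.mul_apply, Fin.sum_univ_two, Matrix.trace_fin_two, Matrix.det_fin_two] <;> ring

lemma end_CH_two (hV : finrank k V = 2) (f : V →ₗ[k] V) :
    f * f = LinearMap.trace k V f • f - LinearMap.det f • (1 : V →ₗ[k] V) := by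
  have hfin : Module.Finite k V := Module.finite_of_finrank_eq_succ hV
  let b : Module.Basis (Fin 2) k V := Module.finBasisOfFinrankEq k V hV
  let T : (V →ₗ[k] V) ≃ₐ[k] Matrix (Fin 2) (Fin 2) k := LinearMap.toMatrixAlgEquiv b
  apply T.injective
  have h1 : T f = LinearMap.toMatrix b b f := rfl
  rw [map_mul, map_sub, map_smul, map_smul, map_one, h1, LinearMap.trace_eq_matrix_trace k b,
    ← LinearMap.det_toMatrix b]
  exact matrix_CH_two _

/-- A nonzero endomorphism of a plane killing `v ≠ 0` has kernel the line through `v`. -/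
lemma mem_span_of_ker (hV : finrank k V = 2) {f : V →ₗ[k] V} (hf : f ≠ 0) {v : V} (hv : v ≠ 0)
    (hfv : f v = 0) {x : V} (hfx : f x = 0) : ∃ c : k, x = c • v := by
  by_contra hcon
  push Not at hcon
  have hli : LinearIndependent k ![v, x] := by
    rw [LinearIndependent.pair_iff]
    intro s t hst
    have ht : t = 0 := by
      by_contra ht
      apply hcon (-(t⁻¹ * s))
      have : t • x = -(s • v) := eq_neg_of_add_eq_zero_right hst
      calc x = t⁻¹ • (t • x) := by rw [smul_smul, inv_mul_cancel₀ ht, one_smul]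
        _ = -(t⁻¹ * s) • v := by rw [this, smul_neg, smul_smul, neg_smul]
    rw [ht, zero_smul, add_zero, smul_eq_zero] at hst
    exact ⟨hst.resolve_right hv, ht⟩
  let b : Module.Basis (Fin 2) k V :=
    basisOfLinearIndependentOfCardEqFinrank hli (by simp [hV])
  have hb : ∀ i, b i = ![v, x] i := fun i => by
    simp only [b, coe_basisOfLinearIndependentOfCardEqFinrank]
  apply hf
  apply b.ext
  intro i
  rw [hb]
  fin_cases i
  · simpa using hfv
  · simpa using hfx

/-! ### Powers -/

/-- If `tr f = 1 + det f` on a plane then `tr (f ^ j) = 1 + det (f ^ j)` for all `j`. -/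
lemma trace_pow_of_trace_eq (hV : finrank k V = 2) (f : V →ₗ[k] V)
    (hf : LinearMap.trace k V f = 1 + LinearMap.det f) (j : ℕ) :
    LinearMap.trace k V (f ^ j) = 1 + LinearMap.det (f ^ j) := by
  have hfin : Module.Finite k V := Module.finite_of_finrank_eq_succ hV
  set d : k := LinearMap.det f with hd
  have hrec : ∀ j, f ^ (j + 2) = (1 + d) • f ^ (j + 1) - d • f ^ j := by
    intro j
    have hch := end_CH_two hV f
    rw [hf] at hch
    calc f ^ (j + 2) = f ^ j * (f * f) := by rw [pow_add, pow_two]
      _ = (1 + d) • (f ^ j * f) - d • (f ^ j * 1) := by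
          rw [hch, mul_sub, mul_smul_comm, mul_smul_comm]
      _ = (1 + d) • f ^ (j + 1) - d • f ^ j := by rw [mul_one, pow_succ]
  have h1 : LinearMap.trace k V (1 : V →ₗ[k] V) = 2 := by
    rw [LinearMap.trace_one, hV]; norm_num
  have key : ∀ j, LinearMap.trace k V (f ^ j) = 1 + d ^ j ∧
      LinearMap.trace k V (f ^ (j + 1)) = 1 + d ^ (j + 1) := by
    intro j
    induction j with
    | zero =>
      refine ⟨?_, ?_⟩
      · rw [pow_zero, pow_zero, h1]; norm_num
      · rw [zero_add, pow_one, pow_one, hf]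
    | succ j ih =>
      refine ⟨ih.2, ?_⟩
      rw [hrec, map_sub, map_smul, map_smul, ih.1, ih.2, smul_eq_mul, smul_eq_mul]
      ring
  rw [(key j).1, map_pow]

/-! ### The stable line -/

section StableLine

variable {G : Type*} [Group G] (hV : finrank k V = 2) (ρ : G →* (V →ₗ[k] V))
  (h : ∀ g, LinearMap.trace k V (ρ g) = 1 + LinearMap.det (ρ g))

include hV in
lemma trace_one_two : LinearMap.trace k V (1 : V →ₗ[k] V) = 2 := by
  have hfin : Module.Finite k V := Module.finite_of_finrank_eq_succ hV
  rw [LinearMap.trace_one, hV]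
  norm_num

lemma rho_inv_mul (g : G) : ρ g⁻¹ * ρ g = 1 := by
  rw [← map_mul, inv_mul_cancel, map_one]

lemma rho_mul_inv (g : G) : ρ g * ρ g⁻¹ = 1 := by
  rw [← map_mul, mul_inv_cancel, map_one]

include hV h in
/-- Case A: a nontrivial element of determinant one. -/
lemma stable_line_caseA (u : G) (hdet : LinearMap.det (ρ u) = 1) (hne : ρ u ≠ 1) :
    ∃ v : V, v ≠ 0 ∧ ∀ g, ∃ c : k, ρ g v = c • v := by
  have hfin : Module.Finite k V := Module.finite_of_finrank_eq_succ hV
  have htrU : LinearMap.trace k V (ρ u) = 2 := by rw [h u, hdet]; norm_num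
  set N : V →ₗ[k] V := ρ u - 1 with hN
  have hU : ρ u = 1 + N := by rw [hN]; abel
  have hNN : N * N = 0 := by
    have hch := end_CH_two hV (ρ u)
    rw [htrU, hdet, one_smul] at hch
    have : N * N = ρ u * ρ u - (2 : k) • ρ u + 1 := by
      rw [hN, sub_mul, mul_sub, mul_one, one_mul, two_smul]
      abel
    rw [this, hch]
    abel
  have hN0 : N ≠ 0 := sub_ne_zero.mpr hne
  have htrN : LinearMap.trace k V N = 0 := by
    rw [hN, map_sub, htrU, trace_one_two hV, sub_self]
  obtain ⟨w, hw⟩ : ∃ w, N w ≠ 0 := by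
    by_contra hcon
    push Not at hcon
    exact hN0 (LinearMap.ext fun w => by simpa using hcon w)
  set v : V := N w with hvdef
  have hNv : N v = 0 := by
    rw [hvdef, ← Module.End.mul_apply, hNN]
    rfl
  have hker : ∀ x, N x = 0 → ∃ c : k, x = c • v := fun x hx => mem_span_of_ker hV hN0 hw hNv hx
  refine ⟨v, hw, fun g => ?_⟩
  by_contra hcon
  push Not at hcon
  set v' : V := ρ g v with hv'def
  have hv'0 : v' ≠ 0 := fun h0 => hcon 0 (by rw [h0, zero_smul])
  set N' : V →ₗ[k] V := ρ g * N * ρ g⁻¹ with hN'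
  have hN'N' : N' * N' = 0 := by
    have : N' * N' = ρ g * (N * (ρ g⁻¹ * ρ g) * N) * ρ g⁻¹ := by
      rw [hN']; simp only [mul_assoc]
    rw [this, rho_inv_mul, mul_one, hNN, mul_zero, zero_mul]
  have hN'v' : N' v' = 0 := by
    rw [hN', hv'def, Module.End.mul_apply, Module.End.mul_apply, ← Module.End.mul_apply (ρ g⁻¹),
      rho_inv_mul, Module.End.one_apply, hNv, map_zero]
  have hN'0 : N' ≠ 0 := by
    intro h0
    apply hN0
    have : N = ρ g⁻¹ * N' * ρ g := by
      rw [hN']
      calc N = (ρ g⁻¹ * ρ g) * N * (ρ g⁻¹ * ρ g) := by rw [rho_inv_mul, one_mul, mul_one]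
        _ = ρ g⁻¹ * (ρ g * N * ρ g⁻¹) * ρ g := by simp only [mul_assoc]
    rw [this, h0, mul_zero, zero_mul]
  have hker' : ∀ x, N' x = 0 → ∃ c : k, x = c • v' :=
    fun x hx => mem_span_of_ker hV hN'0 hv'0 hN'v' hx
  have hU' : ρ (g * u * g⁻¹) = 1 + N' := by
    rw [map_mul, map_mul, hU, hN', mul_add, add_mul, mul_one, rho_mul_inv]
  have htrN' : LinearMap.trace k V N' = 0 := by
    have h1 := h (g * u * g⁻¹)
    have hd : LinearMap.det (ρ (g * u * g⁻¹)) = 1 := by
      rw [map_mul, map_mul, map_mul, map_mul, hdet, mul_one, ← map_mul, rho_mul_inv, map_one]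
    rw [hd, hU', map_add, trace_one_two hV] at h1
    have : (2 : k) + LinearMap.trace k V N' = 2 := by rw [h1]; norm_num
    exact add_eq_left.mp this
  have htrNN' : LinearMap.trace k V (N * N') = 0 := by
    have h1 := h (u * (g * u * g⁻¹))
    have hd : LinearMap.det (ρ (u * (g * u * g⁻¹))) = 1 := by
      rw [map_mul ρ, map_mul, hdet, one_mul, map_mul ρ, map_mul ρ, map_mul, map_mul, hdet,
        mul_one, ← map_mul, rho_mul_inv, map_one]
    rw [hd, map_mul ρ, hU', hU] at h1
    have e : (1 + N) * (1 + N') = 1 + N + N' + N * N' := by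
      rw [add_mul, mul_add, mul_add, one_mul, mul_one, one_mul]
      abel
    rw [e, map_add, map_add, map_add, trace_one_two hV, htrN, htrN'] at h1
    have : (2 : k) + LinearMap.trace k V (N * N') = 2 := by
      linear_combination h1
    exact add_eq_left.mp this
  -- the basis `(v, v')`
  have hli : LinearIndependent k ![v, v'] := by
    rw [LinearIndependent.pair_iff]
    intro s t hst
    have ht : t = 0 := by
      by_contra ht
      apply hcon (-(t⁻¹ * s))
      have : t • v' = -(s • v) := eq_neg_of_add_eq_zero_right hst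
      calc v' = t⁻¹ • (t • v') := by rw [smul_smul, inv_mul_cancel₀ ht, one_smul]
        _ = -(t⁻¹ * s) • v := by rw [this, smul_neg, smul_smul, neg_smul]
    rw [ht, zero_smul, add_zero, smul_eq_zero] at hst
    exact ⟨hst.resolve_right hw, ht⟩
  let b : Module.Basis (Fin 2) k V :=
    basisOfLinearIndependentOfCardEqFinrank hli (by simp [hV])
  have hb : ∀ i, b i = ![v, v'] i := fun i => by
    simp only [b, coe_basisOfLinearIndependentOfCardEqFinrank]
  have hb0 : b 0 = v := by rw [hb]; rfl
  have hb1 : b 1 = v' := by rw [hb]; rfl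
  obtain ⟨c, hc⟩ : ∃ c : k, (N * N') v = c • v := by
    apply hker
    rw [← Module.End.mul_apply, ← mul_assoc, hNN, zero_mul]
    rfl
  have hNN'v' : (N * N') v' = 0 := by
    rw [Module.End.mul_apply, hN'v', map_zero]
  have htrc : LinearMap.trace k V (N * N') = c := by
    have e0 : (N * N') (b 0) = c • b 0 := by rw [hb0]; exact hc
    have e1 : (N * N') (b 1) = 0 := by rw [hb1]; exact hNN'v'
    rw [LinearMap.trace_eq_matrix_trace k b, Matrix.trace_fin_two, LinearMap.toMatrix_apply,
      LinearMap.toMatrix_apply, e0, e1]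
    simp
  have hc0 : c = 0 := by rw [← htrc, htrNN']
  rw [hc0, zero_smul, Module.End.mul_apply] at hc
  obtain ⟨e, he⟩ := hker (N' v) hc
  obtain ⟨e', he'⟩ : ∃ e' : k, N' v = e' • v' := by
    apply hker'
    rw [← Module.End.mul_apply, hN'N']
    rfl
  have hee : e • v + (-e') • v' = 0 := by
    rw [← he, he', neg_smul, add_neg_cancel]
  have he0 := (LinearIndependent.pair_iff.mp hli e (-e') hee).1
  rw [he0, zero_smul] at he
  obtain ⟨c', hc'⟩ := hker' v he
  have hc'0 : c' ≠ 0 := by
    intro h0
    rw [h0, zero_smul] at hc'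
    exact hw hc'
  apply hcon c'⁻¹
  rw [hc', smul_smul, inv_mul_cancel₀ hc'0, one_smul]

include hV h in
/-- A two-dimensional representation with `tr ρ(g) = 1 + det ρ(g)` for all `g` has a stable
line. -/
theorem stable_line : ∃ v : V, v ≠ 0 ∧ ∀ g, ∃ c : k, ρ g v = c • v := by
  have hfin : Module.Finite k V := Module.finite_of_finrank_eq_succ hV
  have hnt : Nontrivial V := Module.nontrivial_of_finrank_eq_succ hV
  by_cases hA : ∃ u, LinearMap.det (ρ u) = 1 ∧ ρ u ≠ 1
  · obtain ⟨u, hdet, hne⟩ := hA
    exact stable_line_caseA hV ρ h u hdet hne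
  · push Not at hA
    have hcomm : ∀ g g', ρ g * ρ g' = ρ g' * ρ g := by
      intro g g'
      have h1 := hA (g * g' * g⁻¹ * g'⁻¹) (by
        rw [map_mul ρ, map_mul ρ, map_mul ρ, map_mul, map_mul, map_mul, mul_right_comm _ _
          (LinearMap.det (ρ g⁻¹)), ← map_mul, rho_mul_inv, map_one, one_mul, ← map_mul,
          rho_mul_inv, map_one])
      have h2 : ρ (g * g') = ρ (g * g' * g⁻¹ * g'⁻¹) * ρ (g' * g) := by
        rw [← map_mul]
        congr 1
        group
      rw [← map_mul, h2, h1, one_mul, map_mul]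
    by_cases hall : ∀ g, ρ g = 1
    · obtain ⟨v, hv⟩ := exists_ne (0 : V)
      exact ⟨v, hv, fun g => ⟨1, by rw [hall g, one_smul]; rfl⟩⟩
    · push Not at hall
      obtain ⟨g₀, hg₀⟩ := hall
      set X : V →ₗ[k] V := ρ g₀ with hX
      set d : k := LinearMap.det X with hd
      have htr : LinearMap.trace k V X = 1 + d := h g₀
      have hprod : (X - 1) * (X - d • 1) = 0 := by
        have hch := end_CH_two hV X
        rw [htr] at hch
        rw [sub_mul, mul_sub, mul_sub, hch, mul_smul_comm, mul_one, one_mul, one_mul, add_smul,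
          one_smul]
        abel
      have hXd : X - d • 1 ≠ 0 := by
        intro h0
        have hXe : X = d • 1 := sub_eq_zero.mp h0
        have h1 : LinearMap.trace k V X = d * 2 := by
          rw [hXe, map_smul, trace_one_two hV, smul_eq_mul]
        rw [htr] at h1
        have hd1 : d = 1 := by linear_combination -h1
        apply hg₀
        rw [hXe, hd1, one_smul]
      have hX1 : X - 1 ≠ 0 := sub_ne_zero.mpr hg₀
      obtain ⟨w, hw⟩ : ∃ w, (X - d • 1) w ≠ 0 := by
        by_contra hcon
        push Not at hcon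
        exact hXd (LinearMap.ext fun w => by simpa using hcon w)
      set v : V := (X - d • 1) w with hvdef
      have hXv : (X - 1) v = 0 := by
        rw [hvdef, ← Module.End.mul_apply, hprod]
        rfl
      refine ⟨v, hw, fun g => ?_⟩
      apply mem_span_of_ker hV hX1 hw hXv
      have hc : (X - 1) * ρ g = ρ g * (X - 1) := by
        rw [sub_mul, mul_sub, hX, hcomm, one_mul, mul_one]
      rw [← Module.End.mul_apply, hc, Module.End.mul_apply, hXv, map_zero]

end StableLine

end Fermat.Agent.S41.H19
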