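import Fermat.Agent.S41.H19_HeckeFormula
import Fermat.Agent.S41.Interfaces

/-!
# S41, Ihara's lemma by the Kummer–Hecke route (helper39's proof): definitions and leaf interfaces

Notation: `InX N r` : the rational `r` has denominator prime to `N`; `mob M r` : Möbius action of an
integer matrix on `ℚ`; `TT ℓ f` : the Hecke operator `f ↦ (r ↦ ∑_{j<ℓ} f((r+j)/ℓ) + f(ℓ r))` on
functions on `ℚ`.

Leaves (all for `2 ≤ N`, `q ∤ N` prime, `p` an odd prime, `p ≠ q`; `a : ℕ → ZMod p` the system of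
eigenvalues, `P : ℕ → Prop` the set of allowed primes):

* `Stmt_IhA` (Steps 0–2): period functions `F₁, F₂` with `F_i(g r) = F_i(r) + x_i(g)`, exact
  eigenfunctions of all `TT ℓ`, and `F₁(r) + F₂(q r) = 0`.
* `Stmt_IhB` (Step 3): `F₁(q² r) = F₁(r)` and `F₁(r + t) = F₁(r)` for `t ∈ ℤ[1/q]`.
* `Stmt_IhC` (Step 4): the orbit sum: `(a_ℓ - 2) F(r) = 0` for the auxiliary primes `ℓ`.
* `Stmt_IhD` (Step 5): existence of the auxiliary primes (Frobenius density in a Kummer extension).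
-/

set_option autoImplicit false

open scoped MatrixGroups
open CongruenceSubgroup Matrix
open WeierstrassCurve WeierstrassCurve.Affine WeierstrassCurve.Affine.Point

namespace Fermat.Agent.S41.Ihara

open Fermat.Agent.S41 Fermat.Agent.S41.H19

/-- Rationals with denominator prime to `N`. -/
def InX (N : ℕ) (r : ℚ) : Prop := r.den.Coprime N

/-- Möbius action of an integer matrix on `ℚ` (junk value `0` if the denominator vanishes). -/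
def mob (M : Matrix (Fin 2) (Fin 2) ℤ) (r : ℚ) : ℚ :=
  ((M 0 0 : ℚ) * r + (M 0 1 : ℚ)) / ((M 1 0 : ℚ) * r + (M 1 1 : ℚ))

/-- The Hecke operator `T_ℓ` on functions on `ℚ`. -/
def TT (ℓ : ℕ) {A : Type*} [AddCommMonoid A] (f : ℚ → A) (r : ℚ) : A :=
  ∑ j ∈ Finset.range ℓ, f ((r + (j : ℚ)) / (ℓ : ℚ)) + f ((ℓ : ℚ) * r)

/-- `t ∈ ℤ[1/q]`. -/
def InZq (q : ℕ) (t : ℚ) : Prop := ∃ k : ℕ, ((q : ℚ) ^ k * t).den = 1

/-- An abstract system of Hecke eigenvalues mod `p`, on a set `P` of primes. -/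
structure EigSys (p N q : ℕ) where
  /-- the allowed primes -/
  P : ℕ → Prop
  /-- the eigenvalues -/
  a : ℕ → ZMod p
  prime : ∀ ℓ, P ℓ → ℓ.Prime
  not_dvd : ∀ ℓ, P ℓ → ¬ ℓ ∣ N * q
  ne_p : ∀ ℓ, P ℓ → ℓ ≠ p

/-- `F` is a period function for `x`. -/
def IsPeriodFn {p N : ℕ} (x : Additive (Gamma0 N) →+ ZMod p) (F : ℚ → ZMod p) : Prop :=
  ∀ (g : Gamma0 N) (r : ℚ), InX N r → F (mob (mat g) r) = F r + x (Additive.ofMul g)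

/-- `F` is an exact eigenfunction of all `TT ℓ`, `ℓ ∈ P`, on `X`. -/
def IsEigFn {p N q : ℕ} (es : EigSys p N q) (F : ℚ → ZMod p) : Prop :=
  ∀ ℓ, es.P ℓ → ∀ r, InX N r → TT ℓ F r = es.a ℓ * F r

/-- **Leaf A** (Steps 0, 1, 2). -/
def Stmt_IhA : Prop :=
  ∀ (p N q : ℕ), p.Prime → p ≠ 2 → 2 ≤ N → q.Prime → ¬ q ∣ N → q ≠ p →
    ∀ (es : EigSys p N q) (ℓ₀ : ℕ), es.P ℓ₀ → es.a ℓ₀ ≠ (ℓ₀ : ZMod p) + 1 →
    ∀ x₁ x₂ : Additive (Gamma0 N) →+ ZMod p,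
    IsCuspidalHom (Gamma0 N) x₁ → IsCuspidalHom (Gamma0 N) x₂ →
    (∀ ℓ, es.P ℓ → Tcoh N (ZMod p) ℓ x₁ = es.a ℓ • x₁) →
    res1 N q (ZMod p) x₁ + res2 N q (ZMod p) x₂ = 0 →
    ∃ F₁ F₂ : ℚ → ZMod p, IsPeriodFn x₁ F₁ ∧ IsPeriodFn x₂ F₂ ∧ IsEigFn es F₁ ∧ IsEigFn es F₂ ∧
      ∀ r, InX N r → F₁ r + F₂ ((q : ℚ) * r) = 0

/-- **Leaf B** (Step 3). -/
def Stmt_IhB : Prop :=
  ∀ (p N q : ℕ), p.Prime → p ≠ 2 → 2 ≤ N → q.Prime → ¬ q ∣ N → q ≠ p →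
    ∀ (es : EigSys p N q) (ℓ₀ : ℕ), es.P ℓ₀ → es.a ℓ₀ ≠ (ℓ₀ : ZMod p) + 1 →
    ∀ (x₁ x₂ : Additive (Gamma0 N) →+ ZMod p) (F₁ F₂ : ℚ → ZMod p),
    IsCuspidalHom (Gamma0 N) x₁ → IsCuspidalHom (Gamma0 N) x₂ →
    IsPeriodFn x₁ F₁ → IsPeriodFn x₂ F₂ → IsEigFn es F₁ → IsEigFn es F₂ →
    (∀ r, InX N r → F₁ r + F₂ ((q : ℚ) * r) = 0) →
    (∀ r, InX N r → F₁ ((q : ℚ) ^ 2 * r) = F₁ r) ∧
    (∀ r t, InX N r → InZq q t → F₁ (r + t) = F₁ r)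

/-- **Leaf C** (Step 4): the orbit sum.  `m` is a multiple of the prime-to-`q` part of the
denominator of `r`, and `v = q ^ (2 k) ≡ 1 mod m`. -/
def Stmt_IhC : Prop :=
  ∀ (p N q : ℕ), p.Prime → 2 ≤ N → q.Prime → ¬ q ∣ N → q ≠ p →
    ∀ (F : ℚ → ZMod p),
    (∀ r, InX N r → F ((q : ℚ) ^ 2 * r) = F r) →
    (∀ r t, InX N r → InZq q t → F (r + t) = F r) →
    ∀ (ℓ : ℕ) (a : ZMod p), ℓ.Prime → ¬ ℓ ∣ N * q → ℓ ≠ p →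
    (∀ r, InX N r → TT ℓ F r = a * F r) →
    ∀ (r : ℚ) (m k : ℕ), InX N r → 0 < m → InZq q ((m : ℚ) * r) → m.Coprime q →
      q ^ (2 * k) % m = 1 % m → ℓ % m = 1 % m →
      p ∣ orderOf ((q : ZMod ℓ) ^ (2 * k)) →
      (a - 2) * F r = 0

/-- **Leaf D** (Step 5): auxiliary primes. -/
def Stmt_IhD : Prop :=
  ∀ (E : WeierstrassCurve ℚ) [E.IsElliptic] (W : WeierstrassCurve ℤ), W.IsIntegralModelOf E →
    ∀ (p q : ℕ), p.Prime → p ≠ 2 → q.Prime → q ≠ p →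
    GaloisRepIsIrreducible (K := AlgebraicClosure ℚ) ℚ E p →
    ∀ (M : ℕ), 0 < M → p ∣ M → ∀ S : Finset ℕ,
    ∃ ℓ : ℕ, ℓ.Prime ∧ ℓ ∉ S ∧ W.IsGoodPrimeFor ℓ ∧ ℓ % M = 1 % M ∧
      (q : ZMod ℓ) ^ ((ℓ - 1) / p) ≠ 1 ∧ ((W.apOfModel ℓ : ℤ) : ZMod p) ≠ 2

end Fermat.Agent.S41.Ihara
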