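import Fermat.Agent.S41.H19_IharaDefs

/-!
# S41, Ihara leaf A (helper19): Möbius action on `X = {r : den r prime to N}` and the period
function `P_x`
-/

set_option autoImplicit false

open scoped MatrixGroups
open CongruenceSubgroup Matrix

namespace Fermat.Agent.S41.Ihara

open Fermat.Agent.S41 Fermat.Agent.S41.H19

/-! ### `InX` -/

lemma inX_of_eq_div {N : ℕ} {r : ℚ} (n m : ℤ) (hm : IsCoprime m (N : ℤ)) (h : r = (n : ℚ) / (m : ℚ)) :
    InX N r := by
  have h1 : ((Rat.divInt n m).den : ℤ) ∣ m := Rat.den_dvd n m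
  rw [Rat.divInt_eq_div] at h1
  rw [← h] at h1
  have h2 : IsCoprime (r.den : ℤ) (N : ℤ) := hm.of_isCoprime_of_dvd_left h1
  exact Nat.isCoprime_iff_coprime.mp h2

lemma InX.isCoprime {N : ℕ} {r : ℚ} (h : InX N r) : IsCoprime (r.den : ℤ) (N : ℤ) :=
  Nat.isCoprime_iff_coprime.mpr h

lemma inX_zero (N : ℕ) : InX N 0 := by
  unfold InX
  simp

lemma inX_intCast (N : ℕ) (n : ℤ) : InX N (n : ℚ) := by
  unfold InX
  simp

lemma ne_zero_of_isCoprime {N : ℕ} (hN : 2 ≤ N) {m : ℤ} (hm : IsCoprime m (N : ℤ)) : m ≠ 0 := by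
  rintro rfl
  have := isCoprime_zero_left.mp hm
  have h1 : (N : ℤ) ∣ 1 := this.dvd
  have h2 := Int.le_of_dvd one_pos h1
  omega

/-! ### `mob` -/

lemma mob_one (r : ℚ) : mob 1 r = r := by
  simp [mob]

lemma mob_mul (M M' : Matrix (Fin 2) (Fin 2) ℤ) (r : ℚ)
    (h : (M' 1 0 : ℚ) * r + (M' 1 1 : ℚ) ≠ 0) : mob (M * M') r = mob M (mob M' r) := by
  simp only [mob, Matrix.mul_apply, Fin.sum_univ_two]
  push_cast
  have e1 : (M 1 0 : ℚ) * (((M' 0 0 : ℚ) * r + M' 0 1) / ((M' 1 0 : ℚ) * r + M' 1 1)) + M 1 1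
      = ((M 1 0 : ℚ) * ((M' 0 0 : ℚ) * r + M' 0 1) + M 1 1 * ((M' 1 0 : ℚ) * r + M' 1 1))
        / ((M' 1 0 : ℚ) * r + M' 1 1) := by
    rw [mul_div_assoc', div_add' _ _ _ h]
  have e2 : (M 0 0 : ℚ) * (((M' 0 0 : ℚ) * r + M' 0 1) / ((M' 1 0 : ℚ) * r + M' 1 1)) + M 0 1
      = ((M 0 0 : ℚ) * ((M' 0 0 : ℚ) * r + M' 0 1) + M 0 1 * ((M' 1 0 : ℚ) * r + M' 1 1))
        / ((M' 1 0 : ℚ) * r + M' 1 1) := by
    rw [mul_div_assoc', div_add' _ _ _ h]
  rw [e1, e2, div_div_div_cancel_right₀ h]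
  congr 1 <;> ring

section Gamma0

variable {N : ℕ}

lemma isCoprime_mat11 (g : Gamma0 N) : IsCoprime (mat g 1 1) (N : ℤ) := by
  obtain ⟨c, hc⟩ := mat_dvd g
  have hdet := mat_det' g
  refine ⟨mat g 0 0, -(mat g 0 1 * c), ?_⟩
  rw [hc] at hdet
  linear_combination hdet

/-- Numerator and denominator of `g r`. -/
lemma mob_eq_div (g : Gamma0 N) (r : ℚ) :
    mob (mat g) r = ((mat g 0 0 * r.num + mat g 0 1 * r.den : ℤ) : ℚ)
      / ((mat g 1 0 * r.num + mat g 1 1 * r.den : ℤ) : ℚ) := by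
  have hd : (r.den : ℚ) ≠ 0 := by exact_mod_cast r.den_nz
  conv_lhs => rw [mob, ← Rat.num_div_den r]
  push_cast
  field_simp

lemma isCoprime_denom (g : Gamma0 N) {r : ℚ} (hr : InX N r) :
    IsCoprime (mat g 1 0 * r.num + mat g 1 1 * r.den) (N : ℤ) := by
  obtain ⟨c, hc⟩ := mat_dvd g
  have h1 : IsCoprime (mat g 1 1 * (r.den : ℤ)) (N : ℤ) := (isCoprime_mat11 g).mul_left hr.isCoprime
  rw [hc]
  have : (N : ℤ) * c * r.num + mat g 1 1 * r.den = mat g 1 1 * r.den + (c * r.num) * N := by ring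
  rw [this]
  exact (IsCoprime.add_mul_right_left_iff).mpr h1

lemma denom_ne_zero (hN : 2 ≤ N) (g : Gamma0 N) {r : ℚ} (hr : InX N r) :
    (mat g 1 0 : ℚ) * r + (mat g 1 1 : ℚ) ≠ 0 := by
  have hd : (r.den : ℚ) ≠ 0 := by exact_mod_cast r.den_nz
  have h1 := ne_zero_of_isCoprime hN (isCoprime_denom g hr)
  intro h0
  apply h1
  have h2 : ((mat g 1 0 * r.num + mat g 1 1 * r.den : ℤ) : ℚ) = 0 := by
    push_cast
    have : (r.num : ℚ) = r * r.den := (Rat.mul_den_eq_num r).symm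
    rw [this]
    linear_combination (r.den : ℚ) * h0
  exact_mod_cast h2

lemma inX_mob (g : Gamma0 N) {r : ℚ} (hr : InX N r) : InX N (mob (mat g) r) :=
  inX_of_eq_div _ _ (isCoprime_denom g hr) (mob_eq_div g r)

lemma mob_mat_mul (hN : 2 ≤ N) (g h : Gamma0 N) {r : ℚ} (hr : InX N r) :
    mob (mat (g * h)) r = mob (mat g) (mob (mat h) r) := by
  rw [mat_mul, mob_mul _ _ _ (denom_ne_zero hN h hr)]

/-- `X = Gamma0 N · 0`. -/
lemma exists_mob_zero {r : ℚ} (hr : InX N r) : ∃ g : Gamma0 N, mob (mat g) 0 = r := by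
  have h1 : IsCoprime (r.den : ℤ) (r.num * N) := by
    apply IsCoprime.mul_right _ hr.isCoprime
    have := r.reduced
    exact (Int.isCoprime_iff_gcd_eq_one.mpr (by
      rw [Int.gcd_comm]
      exact_mod_cast this))
  obtain ⟨a, c, hac⟩ := h1
  refine ⟨mkG0 N a r.num (-(c * N)) r.den (by linear_combination hac) ⟨-c, by ring⟩, ?_⟩
  rw [mat_mkG0]
  simp only [mob, Matrix.of_apply, Matrix.cons_val', Matrix.cons_val_zero, Matrix.cons_val_one,
    Matrix.empty_val', Matrix.cons_val_fin_one, mul_zero, zero_add]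
  push_cast
  exact Rat.num_div_den r

lemma mob_zero (g : Gamma0 N) : mob (mat g) 0 = (mat g 0 1 : ℚ) / (mat g 1 1 : ℚ) := by
  simp [mob]

lemma mat11_ne_zero (hN : 2 ≤ N) (g : Gamma0 N) : mat g 1 1 ≠ 0 :=
  ne_zero_of_isCoprime hN (isCoprime_mat11 g)

end Gamma0

/-! ### The period function -/

section Period

variable {N : ℕ} {A : Type*} [AddCommGroup A]

/-- Elements of `Gamma0 N` with the same image of `0` have the same value under a cuspidal hom. -/
lemma cusp_eq_of_mob_zero_eq (hN : 2 ≤ N) (x : Additive (Gamma0 N) →+ A)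
    (hx : IsCuspidalHom (Gamma0 N) x) (g g' : Gamma0 N) (h : mob (mat g) 0 = mob (mat g') 0) :
    x (Additive.ofMul g) = x (Additive.ofMul g') := by
  rw [mob_zero, mob_zero] at h
  have h11 : (mat g 1 1 : ℚ) ≠ 0 := by exact_mod_cast mat11_ne_zero hN g
  have h11' : (mat g' 1 1 : ℚ) ≠ 0 := by exact_mod_cast mat11_ne_zero hN g'
  rw [div_eq_div_iff h11 h11'] at h
  have hz : mat g 0 1 * mat g' 1 1 = mat g' 0 1 * mat g 1 1 := by exact_mod_cast h
  obtain ⟨k, hk⟩ : ∃ k : Gamma0 N, k = g⁻¹ * g' := ⟨_, rfl⟩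
  have e1 : g * k = g' := by rw [hk]; group
  have e1' : mat g * mat k = mat g' := congrArg mat e1
  have e01 := congrFun (congrFun e1' 0) 1
  have e11 := congrFun (congrFun e1' 1) 1
  simp only [Matrix.mul_apply, Fin.sum_univ_two] at e01 e11
  have hdet := mat_det' g
  have hk01 : mat k 0 1 = 0 := by
    have : (mat g 0 0 * mat g 1 1 - mat g 0 1 * mat g 1 0) * mat k 0 1 = 0 := by
      rw [← e01, ← e11] at hz
      linear_combination -hz
    rw [hdet, one_mul] at this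
    exact this
  have hdk := mat_det' k
  rw [hk01, zero_mul, sub_zero] at hdk
  have htr : (mat k).trace ^ 2 ≤ 4 := by
    rw [Matrix.trace_fin_two]
    rcases Int.eq_one_or_neg_one_of_mul_eq_one' hdk with ⟨h1, h2⟩ | ⟨h1, h2⟩ <;>
      rw [h1, h2] <;> norm_num
  have hxk : x (Additive.ofMul k) = 0 := hx k htr
  rw [← e1]
  change x (Additive.ofMul g) = x (Additive.ofMul g + Additive.ofMul k)
  rw [map_add, hxk, add_zero]

open Classical in
/-- The period function `P_x` of a cuspidal hom `x`: `P_x (g · 0) = x g`. -/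
noncomputable def Pfn (x : Additive (Gamma0 N) →+ A) (r : ℚ) : A :=
  if h : ∃ g : Gamma0 N, mob (mat g) 0 = r then x (Additive.ofMul h.choose) else 0

lemma Pfn_mob_zero (hN : 2 ≤ N) (x : Additive (Gamma0 N) →+ A)
    (hx : IsCuspidalHom (Gamma0 N) x) (g : Gamma0 N) :
    Pfn x (mob (mat g) 0) = x (Additive.ofMul g) := by
  have h : ∃ g' : Gamma0 N, mob (mat g') 0 = mob (mat g) 0 := ⟨g, rfl⟩
  unfold Pfn
  rw [dif_pos h]
  exact cusp_eq_of_mob_zero_eq hN x hx _ _ h.choose_spec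

lemma Pfn_mob (hN : 2 ≤ N) (x : Additive (Gamma0 N) →+ A)
    (hx : IsCuspidalHom (Gamma0 N) x) (g : Gamma0 N) {r : ℚ} (hr : InX N r) :
    Pfn x (mob (mat g) r) = Pfn x r + x (Additive.ofMul g) := by
  obtain ⟨h, rfl⟩ := exists_mob_zero hr
  rw [← mob_mat_mul hN g h (inX_zero N), Pfn_mob_zero hN x hx, Pfn_mob_zero hN x hx]
  change x (Additive.ofMul g + Additive.ofMul h) = _
  rw [map_add, add_comm]

lemma Pfn_zero (hN : 2 ≤ N) (x : Additive (Gamma0 N) →+ A)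
    (hx : IsCuspidalHom (Gamma0 N) x) : Pfn x 0 = 0 := by
  have := Pfn_mob_zero hN x hx 1
  rw [mat_one, mob_one] at this
  rw [this]
  exact map_zero x

end Period

end Fermat.Agent.S41.Ihara
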