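import Fermat.Agent.S41.H19_IharaTT
import Fermat.Agent.S41.H19_Rel

/-!
# S41, Ihara leaf A (helper19): Step 0 — `x₂` is an eigenvector too

If `res1 x₁ + res2 x₂ = 0` and `T_ℓ x₁ = a x₁` then `T_ℓ x₂ = a x₂` (`ℓ ∤ N` prime, `ℓ ≠ q`,
`q ≠ p`).  No cuspidality is needed: `z = T_ℓ x₂ - a x₂` vanishes on the range of `conjG`, which
contains `u(q) = u(1)^q`, and `Gamma0 N` is generated by this range and `u(1)`.
-/

set_option autoImplicit false

open scoped MatrixGroups
open CongruenceSubgroup Matrix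

namespace Fermat.Agent.S41.Ihara

open Fermat.Agent.S41 Fermat.Agent.S41.H19

/-- The translation `u(n) = [[1, n], [0, 1]]`. -/
def uMat (N : ℕ) (n : ℤ) : Gamma0 N := mkG0 N 1 n 0 1 (by ring) (dvd_zero _)

lemma mat_uMat (N : ℕ) (n : ℤ) : mat (uMat N n) = !![1, n; 0, 1] := rfl

lemma uMat_add (N : ℕ) (n m : ℤ) : uMat N (n + m) = uMat N n * uMat N m := by
  apply mat_injective
  rw [mat_mul, mat_uMat, mat_uMat, mat_uMat]
  ext i j
  fin_cases i <;> fin_cases j <;> simp [Matrix.mul_apply, Fin.sum_univ_two, add_comm]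

lemma mob_uMat (N : ℕ) (n : ℤ) (r : ℚ) : mob (mat (uMat N n)) r = r + (n : ℚ) := by
  simp [mob, mat_uMat]

lemma trace_uMat (N : ℕ) (n : ℤ) : (mat (uMat N n)).trace ^ 2 ≤ 4 := by
  rw [mat_uMat, Matrix.trace_fin_two]
  norm_num

section Hom

variable {N : ℕ} {A : Type*} [AddCommGroup A]

/-- `n ↦ z (u(n))` is additive. -/
lemma hom_uMat (z : Additive (Gamma0 N) →+ A) (n : ℤ) :
    z (Additive.ofMul (uMat N n)) = n • z (Additive.ofMul (uMat N 1)) := by
  let f : ℤ →+ A :=
    { toFun := fun n => z (Additive.ofMul (uMat N n))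
      map_zero' := by
        have : uMat N 0 = 1 := by
          apply mat_injective
          rw [mat_uMat, mat_one]
          ext i j
          fin_cases i <;> fin_cases j <;> simp
        rw [this]
        exact map_zero z
      map_add' := fun n m => by
        rw [uMat_add]
        exact map_add z _ _ }
  have := map_zsmul f n 1
  simpa [f] using this

/-- A hom vanishing on the range of `conjG` and on `u(1)` vanishes. -/
theorem eq_zero_of_conjG {q : ℕ} (hq : q.Prime) (z : Additive (Gamma0 N) →+ A)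
    (h1 : ∀ h : Gamma0 (N * q), z (Additive.ofMul (conjG N q h)) = 0)
    (h2 : z (Additive.ofMul (uMat N 1)) = 0) : z = 0 := by
  have hu : ∀ n : ℤ, z (Additive.ofMul (uMat N n)) = 0 := fun n => by
    rw [hom_uMat, h2, smul_zero]
  have hβ : ∀ β : Gamma0 N, (q : ℤ) ∣ mat β 0 1 → z (Additive.ofMul β) = 0 := by
    intro β hβ
    obtain ⟨h', rfl⟩ := exists_conjG_eq hq.ne_zero β hβ
    exact h1 h'
  have hq' : Prime (q : ℤ) := Nat.prime_iff_prime_int.mp hq
  -- the case `q ∤ a`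
  have hcase : ∀ g : Gamma0 N, ¬ (q : ℤ) ∣ mat g 0 0 → z (Additive.ofMul g) = 0 := by
    intro g hg
    have hcop : IsCoprime (mat g 0 0) (q : ℤ) :=
      ((Prime.coprime_iff_not_dvd hq').mpr hg).symm
    obtain ⟨s, t, hst⟩ := hcop
    have hb : (q : ℤ) ∣ mat (g * uMat N (-(s * mat g 0 1))) 0 1 := by
      rw [mat_mul, mat_uMat]
      simp only [Matrix.mul_apply, Fin.sum_univ_two, Matrix.of_apply, Matrix.cons_val',
        Matrix.cons_val_zero, Matrix.cons_val_one, Matrix.empty_val', Matrix.cons_val_fin_one]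
      exact ⟨t * mat g 0 1, by linear_combination (-(mat g 0 1)) * hst⟩
    have := hβ _ hb
    change z (Additive.ofMul g + Additive.ofMul (uMat N (-(s * mat g 0 1)))) = 0 at this
    rw [map_add, hu, add_zero] at this
    exact this
  apply AddMonoidHom.ext
  intro g
  change z (Additive.ofMul (Additive.toMul g)) = 0
  obtain ⟨g, rfl⟩ : ∃ g' : Gamma0 N, Additive.ofMul g' = g := ⟨Additive.toMul g, rfl⟩
  by_cases hg : (q : ℤ) ∣ mat g 0 0
  · have hc : ¬ (q : ℤ) ∣ mat g 1 0 := by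
      intro hc
      have hdet := mat_det' g
      have : (q : ℤ) ∣ 1 := by
        rw [← hdet]
        exact dvd_sub (Dvd.dvd.mul_right hg _) (Dvd.dvd.mul_left hc _)
      exact hq'.not_dvd_one this
    have hg' : ¬ (q : ℤ) ∣ mat (uMat N 1 * g) 0 0 := by
      rw [mat_mul, mat_uMat]
      simp only [Matrix.mul_apply, Fin.sum_univ_two, Matrix.of_apply, Matrix.cons_val',
        Matrix.cons_val_zero, Matrix.cons_val_one, Matrix.empty_val', Matrix.cons_val_fin_one,
        one_mul]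
      intro h
      exact hc ((dvd_add_right hg).mp h)
    have := hcase _ hg'
    change z (Additive.ofMul (uMat N 1) + Additive.ofMul g) = 0 at this
    rw [map_add, h2, zero_add] at this
    exact this
  · exact hcase g hg

end Hom

section Step0

variable {N q ℓ p : ℕ}

lemma Tcoh_neg {A : Type*} [AddCommGroup A] (N ℓ : ℕ) (φ : Additive (Gamma0 N) →+ A) :
    Tcoh N A ℓ (-φ) = - Tcoh N A ℓ φ := by
  have := Tcoh_sub (A := A) N ℓ 0 φ
  have h0 : Tcoh N A ℓ (0 : Additive (Gamma0 N) →+ A) = 0 := by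
    have := Tcoh_sub (A := A) N ℓ 0 0
    rw [sub_zero, sub_self] at this
    exact this
  rw [zero_sub, h0, zero_sub] at this
  exact this

/-- **Step 0**: `x₂` is an eigenvector with the same eigenvalue. -/
theorem eigen_x2 (hN : 0 < N) (hq : q.Prime) (hp : p.Prime) (hqp : q ≠ p)
    (hℓ : ℓ.Prime) (hℓN : ¬ ℓ ∣ N) (hℓq : ℓ ≠ q)
    (x₁ x₂ : Additive (Gamma0 N) →+ ZMod p) (a : ZMod p)
    (h1 : Tcoh N (ZMod p) ℓ x₁ = a • x₁)
    (hrel : res1 N q (ZMod p) x₁ + res2 N q (ZMod p) x₂ = 0) :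
    Tcoh N (ZMod p) ℓ x₂ = a • x₂ := by
  have : Fact p.Prime := ⟨hp⟩
  have hx2 : res2 N q (ZMod p) x₂ = - res1 N q (ZMod p) x₁ := by
    rw [eq_neg_iff_add_eq_zero, add_comm]
    exact hrel
  have hres : res2 N q (ZMod p) (Tcoh N (ZMod p) ℓ x₂ - a • x₂) = 0 := by
    have e1 : res2 N q (ZMod p) (Tcoh N (ZMod p) ℓ x₂ - a • x₂)
        = res2 N q (ZMod p) (Tcoh N (ZMod p) ℓ x₂) - a • res2 N q (ZMod p) x₂ := rfl
    have e2 : res1 N q (ZMod p) (a • x₁) = a • res1 N q (ZMod p) x₁ := rfl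
    rw [e1, ← Tcoh_res2 hN hq hℓ hℓN hℓq, hx2, Tcoh_neg, Tcoh_res1 hN hq hℓ hℓN hℓq, h1, e2,
      smul_neg, sub_neg_eq_add, neg_add_cancel]
  rw [← sub_eq_zero]
  apply eq_zero_of_conjG hq
  · intro h
    have := congrArg (fun φ => φ (Additive.ofMul h)) hres
    exact this
  · -- `u(q)` is in the range of `conjG`
    have hq0 : ((q : ℕ) : ZMod p) ≠ 0 := by
      intro h0
      have := (ZMod.natCast_eq_zero_iff q p).mp h0
      exact hqp ((Nat.prime_dvd_prime_iff_eq hp hq).mp this).symm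
    obtain ⟨h', hh'⟩ := exists_conjG_eq (N := N) hq.ne_zero (uMat N q) (by
      rw [mat_uMat]; simp)
    have hz : (Tcoh N (ZMod p) ℓ x₂ - a • x₂) (Additive.ofMul (uMat N q)) = 0 := by
      rw [← hh']
      have := congrArg (fun φ => φ (Additive.ofMul h')) hres
      exact this
    rw [hom_uMat, zsmul_eq_mul] at hz
    have hq0' : ((q : ℤ) : ZMod p) ≠ 0 := by
      rw [Int.cast_natCast]; exact hq0
    exact (mul_eq_zero.mp hz).resolve_left hq0'

end Step0

end Fermat.Agent.S41.Ihara
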