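import Mathlib

/-!
# Reindexing sums of periodic functions over `Finset.range ℓ` (helper19)

* `sum_range_reindex` : for `G : ℤ → A` with `G (n + ℓ) = G n` and `u` prime to `ℓ`:
  `∑ j < ℓ, G (u j + c) = ∑ j < ℓ, G j`.
* `sum_range_range_mul` : `∑ j < a, ∑ j' < b, G (j + a j') = ∑ n < a b, G n`.
-/

set_option autoImplicit false

namespace Fermat.Agent.S41.H19

variable {A : Type*} [AddCommMonoid A]

lemma sum_range_eq_sum_zmod (ℓ : ℕ) [NeZero ℓ] (H : ZMod ℓ → A) :
    ∑ j ∈ Finset.range ℓ, H (j : ZMod ℓ) = ∑ z : ZMod ℓ, H z := by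
  refine Finset.sum_nbij' (fun j => (j : ZMod ℓ)) (fun z => z.val) ?_ ?_ ?_ ?_ ?_
  · intro j _
    exact Finset.mem_univ _
  · intro z _
    exact Finset.mem_range.mpr (ZMod.val_lt z)
  · intro j hj
    exact ZMod.val_natCast_of_lt (Finset.mem_range.mp hj)
  · intro z _
    exact ZMod.natCast_zmod_val z
  · intro j _
    rfl

omit [AddCommMonoid A] in
lemma periodic_eq_of_intCast_eq (ℓ : ℕ) (G : ℤ → A) (hG : ∀ n, G (n + ℓ) = G n) {n m : ℤ}
    (h : (n : ZMod ℓ) = (m : ZMod ℓ)) : G n = G m := by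
  have hp : Function.Periodic G (ℓ : ℤ) := hG
  obtain ⟨k, hk⟩ := (ZMod.intCast_eq_intCast_iff_dvd_sub n m ℓ).mp h
  have : m = n + k * ℓ := by linarith
  rw [this]
  exact ((hp.int_mul k) n).symm

/-- Reindexing a sum of a periodic function by an affine map `j ↦ u j + c`, `u` prime to `ℓ`. -/
theorem sum_range_reindex (ℓ : ℕ) [NeZero ℓ] (G : ℤ → A) (hG : ∀ n, G (n + ℓ) = G n) (u c : ℤ)
    (hu : IsCoprime u (ℓ : ℤ)) :
    ∑ j ∈ Finset.range ℓ, G (u * (j : ℤ) + c) = ∑ j ∈ Finset.range ℓ, G (j : ℤ) := by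
  obtain ⟨a, b, hab⟩ := hu
  have hau : (a : ZMod ℓ) * (u : ZMod ℓ) = 1 := by
    have := congrArg (Int.cast : ℤ → ZMod ℓ) hab
    push_cast at this
    simpa using this
  let H : ZMod ℓ → A := fun z => G (z.val : ℤ)
  have hH : ∀ n : ℤ, G n = H (n : ZMod ℓ) := by
    intro n
    apply periodic_eq_of_intCast_eq ℓ G hG
    simp
  let e : ZMod ℓ ≃ ZMod ℓ :=
    { toFun := fun z => (u : ZMod ℓ) * z + (c : ZMod ℓ)
      invFun := fun z => (a : ZMod ℓ) * (z - (c : ZMod ℓ))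
      left_inv := fun z => by
        change (a : ZMod ℓ) * ((u : ZMod ℓ) * z + (c : ZMod ℓ) - (c : ZMod ℓ)) = z
        rw [add_sub_cancel_right, ← mul_assoc, hau, one_mul]
      right_inv := fun z => by
        change (u : ZMod ℓ) * ((a : ZMod ℓ) * (z - (c : ZMod ℓ))) + (c : ZMod ℓ) = z
        rw [← mul_assoc, mul_comm (u : ZMod ℓ), hau, one_mul, sub_add_cancel] }
  calc ∑ j ∈ Finset.range ℓ, G (u * (j : ℤ) + c)
      = ∑ j ∈ Finset.range ℓ, H (e (j : ZMod ℓ)) := by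
        refine Finset.sum_congr rfl fun j _ => ?_
        rw [hH]
        congr 1
        push_cast
        rfl
    _ = ∑ z : ZMod ℓ, H (e z) := sum_range_eq_sum_zmod ℓ (fun z => H (e z))
    _ = ∑ z : ZMod ℓ, H z := Equiv.sum_comp e H
    _ = ∑ j ∈ Finset.range ℓ, H (j : ZMod ℓ) := (sum_range_eq_sum_zmod ℓ H).symm
    _ = ∑ j ∈ Finset.range ℓ, G (j : ℤ) := by
        refine Finset.sum_congr rfl fun j _ => ?_
        rw [hH]
        simp

theorem sum_range_range_mul (a b : ℕ) (G : ℕ → A) :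
    ∑ j ∈ Finset.range a, ∑ j' ∈ Finset.range b, G (j + a * j')
      = ∑ n ∈ Finset.range (a * b), G n := by
  induction b with
  | zero => simp
  | succ b ih =>
    rw [Nat.mul_succ, Finset.sum_range_add, ← ih, ← Finset.sum_add_distrib]
    refine Finset.sum_congr rfl fun j _ => ?_
    rw [Finset.sum_range_succ, add_comm j (a * b)]

end Fermat.Agent.S41.H19
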