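import Fermat.Agent.S41.H19_IharaStep0
import Fermat.Agent.S41.H19_SumReindex

/-!
# S41, Ihara leaf A (helper19): Steps 1 and 2

For cuspidal `x₁, x₂ : Hom(Gamma0 N, F_p)` with `res1 x₁ + res2 x₂ = 0`, eigenvectors of `T_ℓ₀`
with eigenvalue `a₀ ≠ ℓ₀ + 1`:

* Step 1: `F_i = Pfn x_i + κ_i` is an exact eigenfunction of `TT ℓ₀` for a suitable constant `κ_i`;
* Step 2: `D(r) = F₁(r) + F₂(q r)` is invariant under `Gamma0 (N q)`, hence constant on the two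
  `Gamma0 (N q)`-orbits of `X_N` (`q ∤ den r`, `q ∣ den r`), which are stable under the `ℓ₀ + 1`
  branches of `TT ℓ₀`; so `(a₀ - ℓ₀ - 1) D = 0` and `D = 0`.
-/

set_option autoImplicit false

open scoped MatrixGroups
open CongruenceSubgroup Matrix

namespace Fermat.Agent.S41.Ihara

open Fermat.Agent.S41 Fermat.Agent.S41.H19

/-! ### Closure properties of `InX` -/

section InX

variable {N : ℕ}

lemma inX_add_int {r : ℚ} (hr : InX N r) (n : ℤ) : InX N (r + (n : ℚ)) := by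
  have := inX_mob (uMat N n) hr
  rwa [mob_uMat] at this

lemma inX_int_mul {r : ℚ} (hr : InX N r) (n : ℤ) : InX N ((n : ℚ) * r) := by
  refine inX_of_eq_div (n * r.num) r.den hr.isCoprime ?_
  push_cast
  rw [mul_div_assoc, Rat.num_div_den]

lemma inX_nat_mul {r : ℚ} (hr : InX N r) (n : ℕ) : InX N ((n : ℚ) * r) := by
  have := inX_int_mul hr (n : ℤ)
  simpa using this

lemma inX_div_nat {ℓ : ℕ} (hℓ : ℓ.Coprime N) {r : ℚ} (hr : InX N r) : InX N (r / (ℓ : ℚ)) := by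
  rcases Nat.eq_zero_or_pos ℓ with h0 | hpos
  · subst h0
    simpa using inX_zero N
  · have := inX_mob_aMat hℓ (some ⟨0, hpos⟩) hr
    rw [mob_aMat_some] at this
    simpa using this

lemma inX_mul_iff (q : ℕ) (r : ℚ) : InX (N * q) r ↔ InX N r ∧ InX q r := by
  unfold InX
  exact Nat.coprime_mul_iff_right

lemma inX_prime_iff {q : ℕ} (hq : q.Prime) (r : ℚ) : InX q r ↔ ¬ q ∣ r.den := by
  unfold InX
  rw [Nat.coprime_comm, Nat.Prime.coprime_iff_not_dvd hq]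

lemma inX_inv_nat {q : ℕ} (hq : q.Coprime N) : InX N ((q : ℚ)⁻¹) := by
  have := inX_div_nat hq (inX_intCast N 1)
  simpa using this

end InX

/-! ### `TT` of sums and constants -/

section TTlin

variable {A : Type*} [AddCommGroup A]

lemma TT_add (ℓ : ℕ) (f g : ℚ → A) (r : ℚ) :
    TT ℓ (fun s => f s + g s) r = TT ℓ f r + TT ℓ g r := by
  simp only [TT, Finset.sum_add_distrib]
  abel

lemma TT_const (ℓ : ℕ) (c : A) (r : ℚ) : TT ℓ (fun _ => c) r = (ℓ + 1) • c := by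
  simp only [TT, Finset.sum_const, Finset.card_range, add_smul, one_smul]

lemma TT_add_const {p : ℕ} (ℓ : ℕ) (f : ℚ → ZMod p) (κ : ZMod p) (r : ℚ) :
    TT ℓ (fun s => f s + κ) r = TT ℓ f r + ((ℓ : ZMod p) + 1) * κ := by
  rw [TT_add ℓ f (fun _ => κ) r, TT_const, nsmul_eq_mul]
  push_cast
  rfl

/-- Correcting an eigenfunction up to a constant into an exact eigenfunction. -/
lemma exists_const_eig {p : ℕ} [Fact p.Prime] (ℓ : ℕ) (a c : ZMod p)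
    (ha : a ≠ (ℓ : ZMod p) + 1) :
    ∃ κ : ZMod p, ∀ (f : ℚ → ZMod p) (r : ℚ), TT ℓ f r = a * f r + c →
      TT ℓ (fun s => f s + κ) r = a * (f r + κ) := by
  have hne : a - ((ℓ : ZMod p) + 1) ≠ 0 := sub_ne_zero.mpr ha
  refine ⟨c / (a - ((ℓ : ZMod p) + 1)), fun f r h => ?_⟩
  rw [TT_add_const, h]
  field_simp
  ring

end TTlin

/-! ### `ℤ`-periodic functions and `TT` of `F(q ·)` -/

section Comp

variable {N : ℕ} {A : Type*} [AddCommGroup A]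

/-- A period function of a cuspidal hom is `ℤ`-periodic on `X`. -/
lemma periodFn_add_int {p : ℕ} (x : Additive (Gamma0 N) →+ ZMod p)
    (hx : IsCuspidalHom (Gamma0 N) x) (F : ℚ → ZMod p) (hF : IsPeriodFn x F) {r : ℚ}
    (hr : InX N r) (n : ℤ) : F (r + (n : ℚ)) = F r := by
  have h := hF (uMat N n) r hr
  rw [mob_uMat, hx (uMat N n) (trace_uMat N n), add_zero] at h
  exact h

/-- `TT ℓ (F (q ·)) r = TT ℓ F (q r)` for a `ℤ`-periodic `F`. -/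
lemma TT_comp_mul {ℓ q : ℕ} (hℓ : ℓ.Prime) (hℓN : ℓ.Coprime N) (hqℓ : q.Coprime ℓ) (F : ℚ → A)
    (hF : ∀ r, InX N r → ∀ n : ℤ, F (r + (n : ℚ)) = F r) {r : ℚ} (hr : InX N r) :
    TT ℓ (fun s => F ((q : ℚ) * s)) r = TT ℓ F ((q : ℚ) * r) := by
  have : NeZero ℓ := ⟨hℓ.ne_zero⟩
  have hℓ0 : (ℓ : ℚ) ≠ 0 := by exact_mod_cast hℓ.ne_zero
  have hqr : InX N ((q : ℚ) * r) := inX_nat_mul hr q
  let G : ℤ → A := fun n => F (((q : ℚ) * r + (n : ℚ)) / (ℓ : ℚ))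
  have hG : ∀ n : ℤ, G (n + ℓ) = G n := by
    intro n
    have h1 : InX N (((q : ℚ) * r + (n : ℚ)) / (ℓ : ℚ)) := inX_div_nat hℓN (inX_add_int hqr n)
    have h2 := hF _ h1 1
    have e : ((q : ℚ) * r + ((n + (ℓ : ℤ) : ℤ) : ℚ)) / (ℓ : ℚ)
        = ((q : ℚ) * r + (n : ℚ)) / (ℓ : ℚ) + ((1 : ℤ) : ℚ) := by
      push_cast
      field_simp
      ring
    show F (((q : ℚ) * r + ((n + (ℓ : ℤ) : ℤ) : ℚ)) / (ℓ : ℚ)) = _
    rw [e]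
    exact h2
  have hre := sum_range_reindex ℓ G hG (q : ℤ) 0
    (Nat.isCoprime_iff_coprime.mpr hqℓ)
  unfold TT
  have e1 : ∀ j : ℕ, F ((q : ℚ) * ((r + (j : ℚ)) / (ℓ : ℚ))) = G ((q : ℤ) * (j : ℤ) + 0) := by
    intro j
    show _ = F _
    congr 1
    push_cast
    field_simp
    ring
  have e2 : ∀ j : ℕ, F (((q : ℚ) * r + (j : ℚ)) / (ℓ : ℚ)) = G (j : ℤ) := by
    intro j
    show _ = F _
    congr 1
  rw [Finset.sum_congr rfl (fun j _ => e1 j), hre, ← Finset.sum_congr rfl (fun j _ => e2 j)]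
  congr 1
  show F ((q : ℚ) * ((ℓ : ℚ) * r)) = F ((ℓ : ℚ) * ((q : ℚ) * r))
  rw [mul_left_comm]

end Comp

/-! ### Invariance of `D = F₁ + F₂ (q ·)` under `Gamma0 (N q)` -/

section Inv

variable {p N q : ℕ}

lemma mob_Dq (q : ℕ) (r : ℚ) : mob (Dq q) r = (q : ℚ) * r := by
  simp [mob, Dq]

/-- `q · (h r) = conj(h) (q r)`. -/
lemma mul_mob_eq (hN : 2 ≤ N) (h : Gamma0 (N * q)) {r : ℚ} (hr : InX N r) :
    (q : ℚ) * mob (mat h) r = mob (mat (conjG N q h)) ((q : ℚ) * r) := by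
  have e : mat (conjG N q h) = conjMat q (mat h) := rfl
  have h1 : (mat h 1 0 : ℚ) * r + (mat h 1 1 : ℚ) ≠ 0 := denom_ne_zero hN (inclG N q h) hr
  have h2 : ((Dq q) 1 0 : ℚ) * r + ((Dq q) 1 1 : ℚ) ≠ 0 := by simp [Dq]
  rw [← mob_Dq q (mob (mat h) r), ← mob_Dq q r, e, ← mob_mul _ _ _ h1, ← mob_mul _ _ _ h2,
    conjMat_Dq (q_dvd_of_mem_gamma0_mul h.2)]

lemma D_inv (hN : 2 ≤ N) (x₁ x₂ : Additive (Gamma0 N) →+ ZMod p) (F₁ F₂ : ℚ → ZMod p)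
    (hF₁ : IsPeriodFn x₁ F₁) (hF₂ : IsPeriodFn x₂ F₂)
    (hrel : res1 N q (ZMod p) x₁ + res2 N q (ZMod p) x₂ = 0)
    (h : Gamma0 (N * q)) {r : ℚ} (hr : InX N r) :
    F₁ (mob (mat h) r) + F₂ ((q : ℚ) * mob (mat h) r) = F₁ r + F₂ ((q : ℚ) * r) := by
  have e1 : F₁ (mob (mat h) r) = F₁ r + x₁ (Additive.ofMul (inclG N q h)) :=
    hF₁ (inclG N q h) r hr
  have e2 : F₂ ((q : ℚ) * mob (mat h) r) = F₂ ((q : ℚ) * r) + x₂ (Additive.ofMul (conjG N q h)) := by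
    rw [mul_mob_eq hN h hr]
    exact hF₂ (conjG N q h) _ (inX_nat_mul hr q)
  have e3 : x₁ (Additive.ofMul (inclG N q h)) + x₂ (Additive.ofMul (conjG N q h)) = 0 :=
    congrArg (fun φ => φ (Additive.ofMul h)) hrel
  rw [e1, e2]
  linear_combination e3

end Inv

/-! ### The two orbits of `Gamma0 (N q)` on `X_N` -/

section Orbit

variable {N q : ℕ}

lemma exists_mob_inv (hq : q.Prime) (hqN : ¬ q ∣ N) {r : ℚ} (hr : InX N r) (hqr : q ∣ r.den) :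
    ∃ h : Gamma0 (N * q), mob (mat h) ((q : ℚ)⁻¹) = r := by
  obtain ⟨d₁, hd₁⟩ := hqr
  have hd₁' : (r.den : ℤ) = (q : ℤ) * (d₁ : ℤ) := by exact_mod_cast hd₁
  have hbd : IsCoprime r.num (r.den : ℤ) :=
    Int.isCoprime_iff_gcd_eq_one.mpr (by exact_mod_cast r.reduced)
  obtain ⟨b', d'', hb⟩ := hbd
  have hqN' : IsCoprime (q : ℤ) (N : ℤ) :=
    Nat.isCoprime_iff_coprime.mpr ((Nat.Prime.coprime_iff_not_dvd hq).mpr hqN)
  have hdqN : IsCoprime ((r.den : ℤ) * (q : ℤ)) (N : ℤ) := hr.isCoprime.mul_left hqN'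
  obtain ⟨w, w', hw⟩ := hdqN
  have hq0 : (q : ℚ) ≠ 0 := by exact_mod_cast hq.ne_zero
  have hd0 : (r.den : ℚ) ≠ 0 := by exact_mod_cast r.den_nz
  refine ⟨mkG0 (N * q)
    (r.num - (-d'' + r.num * (w * (r.den - b' * q))) * q)
    (-d'' + r.num * (w * (r.den - b' * q)))
    (r.den - (b' + r.den * (w * (r.den - b' * q))) * q)
    (b' + r.den * (w * (r.den - b' * q)))
    (by linear_combination hb) ⟨(d₁ - b') * w', ?_⟩, ?_⟩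
  · push_cast
    linear_combination (-((r.den : ℤ) - b' * q)) * hw + (w' * N) * hd₁'
  · rw [mat_mkG0]
    simp only [mob, Matrix.of_apply, Matrix.cons_val', Matrix.cons_val_zero, Matrix.cons_val_one,
      Matrix.empty_val', Matrix.cons_val_fin_one]
    push_cast
    have e1 : ((r.num : ℚ) - (-(d'' : ℚ) + r.num * (w * (r.den - b' * q))) * q) * (q : ℚ)⁻¹
        + (-(d'' : ℚ) + r.num * (w * (r.den - b' * q))) = (r.num : ℚ) * (q : ℚ)⁻¹ := by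
      field_simp
      ring
    have e2 : ((r.den : ℚ) - ((b' : ℚ) + r.den * (w * (r.den - b' * q))) * q) * (q : ℚ)⁻¹
        + ((b' : ℚ) + r.den * (w * (r.den - b' * q))) = (r.den : ℚ) * (q : ℚ)⁻¹ := by
      field_simp
      ring
    rw [e1, e2, mul_div_mul_right _ _ (inv_ne_zero hq0)]
    exact Rat.num_div_den r

/-- A `Gamma0 (N q)`-invariant function on `X_N` is constant on `{q ∤ den}` and on `{q ∣ den}`. -/
lemma orbit_const {A : Type*} (hq : q.Prime) (hqN : ¬ q ∣ N) (E : ℚ → A)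
    (hE : ∀ (h : Gamma0 (N * q)) (r : ℚ), InX N r → E (mob (mat h) r) = E r) {r : ℚ}
    (hr : InX N r) : E r = if q ∣ r.den then E ((q : ℚ)⁻¹) else E 0 := by
  have hqN' : q.Coprime N := (Nat.Prime.coprime_iff_not_dvd hq).mpr hqN
  split_ifs with hqr
  · obtain ⟨h, hh⟩ := exists_mob_inv hq hqN hr hqr
    rw [← hh]
    exact hE h _ (inX_inv_nat hqN')
  · have hr' : InX (N * q) r := (inX_mul_iff q r).mpr ⟨hr, (inX_prime_iff hq r).mpr hqr⟩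
    obtain ⟨h, hh⟩ := exists_mob_zero hr'
    rw [← hh]
    exact hE h _ (inX_zero N)

lemma dvd_den_mob_aMat_iff (hq : q.Prime) {ℓ : ℕ} (hℓ : ℓ.Prime) (hℓq : ℓ ≠ q)
    (j : Option (Fin ℓ)) (r : ℚ) : q ∣ (mob (aMat ℓ j) r).den ↔ q ∣ r.den := by
  have hcop : ℓ.Coprime q := (Nat.coprime_primes hℓ hq).mpr hℓq
  rw [← not_iff_not, ← inX_prime_iff hq, ← inX_prime_iff hq]
  constructor
  · intro hs
    rcases j with _ | j
    · rw [mob_aMat_none] at hs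
      have := inX_div_nat hcop hs
      rwa [mul_div_cancel_left₀ _ (by exact_mod_cast hℓ.ne_zero : (ℓ : ℚ) ≠ 0)] at this
    · rw [mob_aMat_some] at hs
      have := inX_add_int (inX_nat_mul hs ℓ) (-((j : ℕ) : ℤ))
      have e : (ℓ : ℚ) * ((r + ((j : ℕ) : ℚ)) / (ℓ : ℚ)) + ((-((j : ℕ) : ℤ) : ℤ) : ℚ) = r := by
        have hℓ0 : (ℓ : ℚ) ≠ 0 := by exact_mod_cast hℓ.ne_zero
        push_cast
        field_simp
        ring
      rwa [e] at this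
  · intro hr
    exact inX_mob_aMat hcop j hr

/-- On a `Gamma0 (N q)`-invariant function, `TT ℓ` acts by `ℓ + 1`. -/
lemma TT_of_inv {A : Type*} [AddCommGroup A] (hq : q.Prime) (hqN : ¬ q ∣ N) (E : ℚ → A)
    (hE : ∀ (h : Gamma0 (N * q)) (r : ℚ), InX N r → E (mob (mat h) r) = E r)
    {ℓ : ℕ} (hℓ : ℓ.Prime) (hℓN : ¬ ℓ ∣ N) (hℓq : ℓ ≠ q) {r : ℚ} (hr : InX N r) :
    TT ℓ E r = (ℓ + 1) • E r := by
  have hcop : ℓ.Coprime N := (Nat.Prime.coprime_iff_not_dvd hℓ).mpr hℓN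
  rw [TT_eq_sum_aMat]
  have hterm : ∀ j : Option (Fin ℓ), E (mob (aMat ℓ j) r) = E r := by
    intro j
    rw [orbit_const hq hqN E hE (inX_mob_aMat hcop j hr), orbit_const hq hqN E hE hr]
    simp only [dvd_den_mob_aMat_iff hq hℓ hℓq j r]
  rw [Finset.sum_congr rfl (fun j _ => hterm j), Finset.sum_const, Finset.card_univ,
    Fintype.card_option, Fintype.card_fin]

end Orbit

/-! ### Step 2 -/

section Step2

variable {p N q : ℕ}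

/-- **Step 2.**  For period functions `F₁, F₂` of cuspidal `x₁, x₂` with `res1 x₁ + res2 x₂ = 0`
which are exact eigenfunctions of one `TT ℓ₀` with eigenvalue `a₀ ≠ ℓ₀ + 1`:
`F₁(r) + F₂(q r) = 0` on `X`. -/
theorem step2 (hp : p.Prime) (hN : 2 ≤ N) (hq : q.Prime) (hqN : ¬ q ∣ N)
    {ℓ₀ : ℕ} (hℓ₀ : ℓ₀.Prime) (hℓ₀N : ¬ ℓ₀ ∣ N) (hℓ₀q : ℓ₀ ≠ q) (a₀ : ZMod p)
    (ha₀ : a₀ ≠ (ℓ₀ : ZMod p) + 1)
    (x₁ x₂ : Additive (Gamma0 N) →+ ZMod p)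
    (hx₂ : IsCuspidalHom (Gamma0 N) x₂) (F₁ F₂ : ℚ → ZMod p)
    (hF₁ : IsPeriodFn x₁ F₁) (hF₂ : IsPeriodFn x₂ F₂)
    (hE₁ : ∀ r, InX N r → TT ℓ₀ F₁ r = a₀ * F₁ r)
    (hE₂ : ∀ r, InX N r → TT ℓ₀ F₂ r = a₀ * F₂ r)
    (hrel : res1 N q (ZMod p) x₁ + res2 N q (ZMod p) x₂ = 0) {r : ℚ} (hr : InX N r) :
    F₁ r + F₂ ((q : ℚ) * r) = 0 := by
  have : Fact p.Prime := ⟨hp⟩
  have hcopN : ℓ₀.Coprime N := (Nat.Prime.coprime_iff_not_dvd hℓ₀).mpr hℓ₀N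
  have hcopq : q.Coprime ℓ₀ := (Nat.coprime_primes hq hℓ₀).mpr (Ne.symm hℓ₀q)
  have hinv : ∀ (h : Gamma0 (N * q)) (r : ℚ), InX N r →
      (fun s => F₁ s + F₂ ((q : ℚ) * s)) (mob (mat h) r) = (fun s => F₁ s + F₂ ((q : ℚ) * s)) r :=
    fun h r hr => D_inv hN x₁ x₂ F₁ F₂ hF₁ hF₂ hrel h hr
  have h1 := TT_of_inv hq hqN (fun s => F₁ s + F₂ ((q : ℚ) * s)) hinv hℓ₀ hℓ₀N hℓ₀q hr
  have h2 : TT ℓ₀ (fun s => F₁ s + F₂ ((q : ℚ) * s)) r = a₀ * (F₁ r + F₂ ((q : ℚ) * r)) := by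
    rw [TT_add ℓ₀ F₁ (fun s => F₂ ((q : ℚ) * s)) r, hE₁ r hr,
      TT_comp_mul hℓ₀ hcopN hcopq F₂ (fun r hr n => periodFn_add_int x₂ hx₂ F₂ hF₂ hr n) hr,
      hE₂ _ (inX_nat_mul hr q), mul_add]
  rw [h2, nsmul_eq_mul] at h1
  have h3 : (a₀ - ((ℓ₀ : ZMod p) + 1)) * (F₁ r + F₂ ((q : ℚ) * r)) = 0 := by
    push_cast at h1
    linear_combination h1
  exact (mul_eq_zero.mp h3).resolve_left (sub_ne_zero.mpr ha₀)

/-- **Leaf A, single-prime form.**  Constants `κ₁, κ₂` such that `F_i = Pfn x_i + κ_i` are period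
functions, exact eigenfunctions of `TT ℓ₀`, and `F₁(r) + F₂(q r) = 0` on `X`. -/
theorem exists_period_fns (hp : p.Prime) (hN : 2 ≤ N) (hq : q.Prime) (hqN : ¬ q ∣ N)
    (hqp : q ≠ p) {ℓ₀ : ℕ} (hℓ₀ : ℓ₀.Prime) (hℓ₀N : ¬ ℓ₀ ∣ N) (hℓ₀q : ℓ₀ ≠ q) (a₀ : ZMod p)
    (ha₀ : a₀ ≠ (ℓ₀ : ZMod p) + 1)
    (x₁ x₂ : Additive (Gamma0 N) →+ ZMod p)
    (hx₁ : IsCuspidalHom (Gamma0 N) x₁) (hx₂ : IsCuspidalHom (Gamma0 N) x₂)
    (h1 : Tcoh N (ZMod p) ℓ₀ x₁ = a₀ • x₁)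
    (hrel : res1 N q (ZMod p) x₁ + res2 N q (ZMod p) x₂ = 0) :
    ∃ κ₁ κ₂ : ZMod p,
      IsPeriodFn x₁ (fun s => Pfn x₁ s + κ₁) ∧ IsPeriodFn x₂ (fun s => Pfn x₂ s + κ₂) ∧
      (∀ r, InX N r → TT ℓ₀ (fun s => Pfn x₁ s + κ₁) r = a₀ * (Pfn x₁ r + κ₁)) ∧
      (∀ r, InX N r → TT ℓ₀ (fun s => Pfn x₂ s + κ₂) r = a₀ * (Pfn x₂ r + κ₂)) ∧
      ∀ r, InX N r → (Pfn x₁ r + κ₁) + (Pfn x₂ ((q : ℚ) * r) + κ₂) = 0 := by
  have : Fact p.Prime := ⟨hp⟩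
  have hN0 : 0 < N := by omega
  have h2 : Tcoh N (ZMod p) ℓ₀ x₂ = a₀ • x₂ :=
    eigen_x2 hN0 hq hp hqp hℓ₀ hℓ₀N hℓ₀q x₁ x₂ a₀ h1 hrel
  obtain ⟨κ₁, hκ₁⟩ := exists_const_eig (p := p) ℓ₀ a₀ (TT ℓ₀ (Pfn x₁) 0) ha₀
  obtain ⟨κ₂, hκ₂⟩ := exists_const_eig (p := p) ℓ₀ a₀ (TT ℓ₀ (Pfn x₂) 0) ha₀
  have hP₁ : IsPeriodFn x₁ (fun s => Pfn x₁ s + κ₁) := by
    intro g r hr
    show Pfn x₁ (mob (mat g) r) + κ₁ = Pfn x₁ r + κ₁ + x₁ (Additive.ofMul g)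
    rw [Pfn_mob hN x₁ hx₁ g hr]
    ring
  have hP₂ : IsPeriodFn x₂ (fun s => Pfn x₂ s + κ₂) := by
    intro g r hr
    show Pfn x₂ (mob (mat g) r) + κ₂ = Pfn x₂ r + κ₂ + x₂ (Additive.ofMul g)
    rw [Pfn_mob hN x₂ hx₂ g hr]
    ring
  have hE₁ : ∀ r, InX N r → TT ℓ₀ (fun s => Pfn x₁ s + κ₁) r = a₀ * (Pfn x₁ r + κ₁) := by
    intro r hr
    apply hκ₁
    have := TT_Pfn hN hℓ₀ hℓ₀N x₁ hx₁ a₀ h1 hr
    rw [this, smul_eq_mul]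
  have hE₂ : ∀ r, InX N r → TT ℓ₀ (fun s => Pfn x₂ s + κ₂) r = a₀ * (Pfn x₂ r + κ₂) := by
    intro r hr
    apply hκ₂
    have := TT_Pfn hN hℓ₀ hℓ₀N x₂ hx₂ a₀ h2 hr
    rw [this, smul_eq_mul]
  refine ⟨κ₁, κ₂, hP₁, hP₂, hE₁, hE₂, fun r hr => ?_⟩
  exact step2 hp hN hq hqN hℓ₀ hℓ₀N hℓ₀q a₀ ha₀ x₁ x₂ hx₂ _ _ hP₁ hP₂ hE₁ hE₂ hrel hr

end Step2

end Fermat.Agent.S41.Ihara
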