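import Fermat.Agent.S41.H19_IharaMob

/-!
# S41, Ihara leaf A (helper19): the Hecke operator `TT ℓ` on period functions

* `TT_eq_sum_aMat` : `TT ℓ f r = ∑ j, f (mob (aMat ℓ j) r)`;
* `TT_Pfn` : for a cuspidal `x` with `Tcoh N ℓ x = a • x`:
  `TT ℓ (Pfn x) r = a • Pfn x r + TT ℓ (Pfn x) 0` on `X`.
-/

set_option autoImplicit false

open scoped MatrixGroups
open CongruenceSubgroup Matrix

namespace Fermat.Agent.S41.Ihara

open Fermat.Agent.S41 Fermat.Agent.S41.H19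

section TT

variable {A : Type*} [AddCommGroup A]

lemma mob_aMat_some (ℓ : ℕ) (j : Fin ℓ) (r : ℚ) :
    mob (aMat ℓ (some j)) r = (r + ((j : ℕ) : ℚ)) / (ℓ : ℚ) := by
  simp [mob, aMat]

lemma mob_aMat_none (ℓ : ℕ) (r : ℚ) : mob (aMat ℓ none) r = (ℓ : ℚ) * r := by
  simp [mob, aMat]

lemma TT_eq_sum_aMat (ℓ : ℕ) (f : ℚ → A) (r : ℚ) :
    TT ℓ f r = ∑ j : Option (Fin ℓ), f (mob (aMat ℓ j) r) := by
  rw [Fintype.sum_option, mob_aMat_none, TT, Finset.sum_range, add_comm]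
  congr 1
  exact Finset.sum_congr rfl fun j _ => by rw [mob_aMat_some]

lemma aMat_denom_ne_zero {ℓ : ℕ} (hℓ : ℓ ≠ 0) (j : Option (Fin ℓ)) (r : ℚ) :
    ((aMat ℓ j) 1 0 : ℚ) * r + ((aMat ℓ j) 1 1 : ℚ) ≠ 0 := by
  rcases j with _ | j <;> simp [aMat, hℓ]

lemma inX_mob_aMat {N ℓ : ℕ} (hℓ : ℓ.Coprime N) (j : Option (Fin ℓ)) {r : ℚ} (hr : InX N r) :
    InX N (mob (aMat ℓ j) r) := by
  have hc : IsCoprime ((ℓ : ℤ) * r.den) (N : ℤ) :=
    (Nat.isCoprime_iff_coprime.mpr hℓ).mul_left hr.isCoprime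
  rcases j with _ | j
  · rw [mob_aMat_none]
    refine inX_of_eq_div ((ℓ : ℤ) * r.num) r.den hr.isCoprime ?_
    push_cast
    rw [mul_div_assoc, Rat.num_div_den]
  · rw [mob_aMat_some]
    refine inX_of_eq_div (r.num + ((j : ℕ) : ℤ) * r.den) ((ℓ : ℤ) * r.den) hc ?_
    have hd : (r.den : ℚ) ≠ 0 := by exact_mod_cast r.den_nz
    have hr' : (r.num : ℚ) = r * r.den := (Rat.mul_den_eq_num r).symm
    push_cast
    rw [hr']
    by_cases hℓ0 : (ℓ : ℚ) = 0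
    · simp [hℓ0]
    · field_simp

end TT

section TTP

variable {N ℓ : ℕ} {A : Type*} [AddCommGroup A] {R : Type*} [Semiring R] [Module R A]

/-- **The Hecke relation for period functions.** -/
theorem TT_Pfn (hN : 2 ≤ N) (hℓ : ℓ.Prime) (hℓN : ¬ ℓ ∣ N) (x : Additive (Gamma0 N) →+ A)
    (hx : IsCuspidalHom (Gamma0 N) x) (a : R) (hxa : Tcoh N A ℓ x = a • x) {r : ℚ}
    (hr : InX N r) :
    TT ℓ (Pfn x) r = a • Pfn x r + TT ℓ (Pfn x) 0 := by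
  have hN0 : 0 < N := by omega
  have hcop : ℓ.Coprime N := (Nat.Prime.coprime_iff_not_dvd hℓ).mpr hℓN
  obtain ⟨g, rfl⟩ := exists_mob_zero hr
  obtain ⟨s, γ, hsγ⟩ := exists_hecke_sol hN0 hℓ hℓN g
  have hs : Function.Bijective s :=
    Finite.injective_iff_bijective.mp (hecke_sol_injective hℓ.two_le g s γ hsγ)
  have hterm : ∀ j : Option (Fin ℓ), Pfn x (mob (aMat ℓ j) (mob (mat g) 0))
      = Pfn x (mob (aMat ℓ (s j)) 0) + x (Additive.ofMul (γ j)) := by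
    intro j
    have h1 : mob (aMat ℓ j) (mob (mat g) 0) = mob (mat (γ j)) (mob (aMat ℓ (s j)) 0) := by
      rw [← mob_mul _ _ _ (denom_ne_zero hN g (inX_zero N)), hsγ j,
        mob_mul _ _ _ (aMat_denom_ne_zero hℓ.ne_zero _ _)]
    rw [h1, Pfn_mob hN x hx (γ j) (inX_mob_aMat hcop _ (inX_zero N))]
  have hperm : ∑ j : Option (Fin ℓ), Pfn x (mob (aMat ℓ (s j)) 0)
      = ∑ j : Option (Fin ℓ), Pfn x (mob (aMat ℓ j) 0) :=
    Equiv.sum_comp (Equiv.ofBijective s hs) (fun j => Pfn x (mob (aMat ℓ j) 0))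
  rw [TT_eq_sum_aMat, TT_eq_sum_aMat, Finset.sum_congr rfl (fun j _ => hterm j),
    Finset.sum_add_distrib, hperm, ← Tcoh_eq_sum hN0 hℓ hℓN x g s γ hsγ, hxa,
    Pfn_mob_zero hN x hx, add_comm]
  rfl

end TTP

end Fermat.Agent.S41.Ihara
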