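import Fermat.Agent.S41.H19_RelMat

/-!
# S41 package H (helper19): relations between the degeneracy maps

For a prime `q ∤ N`, `N > 0`, on `Hom(Gamma0 N, A)`:
* `cor1_res1` : `cor1 ∘ res1 = q + 1`,
* `cor2_res2` : `cor2 ∘ res2 = q + 1`,
* `cor2_res1` : `cor2 ∘ res1 = cor1 ∘ res2 = Tcoh q`,
* `Tcoh_res1`, `Tcoh_res2` : `Tcoh (N q) ℓ ∘ res_i = res_i ∘ Tcoh N ℓ` for a prime `ℓ ∤ N q`.
-/

set_option autoImplicit false

open scoped MatrixGroups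
open CongruenceSubgroup Matrix

namespace Fermat.Agent.S41.H19

open Fermat.Agent.S41

section Deg

variable {N q : ℕ} {A : Type*} [AddCommGroup A]

theorem cor1_res1 (hN : 0 < N) (hq : q.Prime) (hqN : ¬ q ∣ N) (φ : Additive (Gamma0 N) →+ A) :
    cor1 N q A (res1 N q A φ) = (q + 1) • φ := by
  have := finiteIndex_inclG hN hq hqN
  unfold cor1 res1
  rw [corAlong_resAlong _ (inclG_injective N q), index_inclG hN hq hqN]

lemma hom_conj {G : Type*} [Group G] (φ : Additive G →+ A) (g x : G) :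
    φ (Additive.ofMul (g * x * g⁻¹)) = φ (Additive.ofMul x) := by
  change φ (Additive.ofMul g + Additive.ofMul x + -Additive.ofMul g) = _
  rw [map_add, map_add, map_neg]
  abel

theorem exists_bezout (hq : q.Prime) (hqN : ¬ q ∣ N) :
    ∃ u v : ℤ, (q : ℤ) * u + (N : ℤ) * v = 1 := by
  have hcop : Nat.Coprime q N := (Nat.Prime.coprime_iff_not_dvd hq).mpr hqN
  have h := Nat.isCoprime_iff_coprime.mpr hcop
  obtain ⟨a, b, hab⟩ := h
  exact ⟨a, b, by linear_combination hab⟩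

theorem cor2_eq_cor1 (hN : 0 < N) (hq : q.Prime) (hqN : ¬ q ∣ N) {u v : ℤ}
    (huv : (q : ℤ) * u + (N : ℤ) * v = 1)
    (φ φ' : Additive (Gamma0 (N * q)) →+ A)
    (hφ : ∀ h h' : Gamma0 (N * q), conjG N q h' = g0 huv * inclG N q h * (g0 huv)⁻¹ →
      φ' (Additive.ofMul h') = φ (Additive.ofMul h)) :
    corAlong A (conjG N q) φ' = corAlong A (inclG N q) φ := by
  have := finiteIndex_inclG hN hq hqN
  exact corAlong_transport (inclG N q) (conjG N q) (inclG_injective N q)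
    (conjG_injective N q hq.ne_zero) (g0 huv) (AL_surj huv hq.ne_zero) (AL_sub huv) φ φ' hφ

theorem cor2_res2 (hN : 0 < N) (hq : q.Prime) (hqN : ¬ q ∣ N) (φ : Additive (Gamma0 N) →+ A) :
    cor2 N q A (res2 N q A φ) = (q + 1) • φ := by
  obtain ⟨u, v, huv⟩ := exists_bezout hq hqN
  rw [← cor1_res1 hN hq hqN φ]
  unfold cor2 cor1
  apply cor2_eq_cor1 hN hq hqN huv
  intro h h' hrel
  change φ (Additive.ofMul (conjG N q h')) = φ (Additive.ofMul (inclG N q h))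
  rw [hrel, hom_conj]

theorem cor2_res1 (hN : 0 < N) (hq : q.Prime) (hqN : ¬ q ∣ N) (φ : Additive (Gamma0 N) →+ A) :
    cor2 N q A (res1 N q A φ) = Tcoh N A q φ := by
  obtain ⟨u, v, huv⟩ := exists_bezout hq hqN
  unfold Tcoh cor2 cor1
  apply cor2_eq_cor1 hN hq hqN huv
  intro h h' hrel
  change φ (Additive.ofMul (inclG N q h')) = φ (Additive.ofMul (conjG N q h))
  rw [AL_swap huv hq.ne_zero h h' hrel, hom_conj]

end Deg

/-! ### Hecke operators commute with the degeneracy maps (Mackey) -/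

section Mackey

variable {N q ℓ : ℕ} {A : Type*} [AddCommGroup A]

lemma gamma0_le_aux (N q ℓ : ℕ) : Gamma0 (N * q * ℓ) ≤ Gamma0 (N * ℓ) := by
  intro g hg
  rw [Gamma0_mem, ZMod.intCast_zmod_eq_zero_iff_dvd] at hg ⊢
  refine dvd_trans ?_ hg
  push_cast
  exact ⟨q, by ring⟩

/-- The inclusion `Gamma0 (N q ℓ) → Gamma0 (N ℓ)`. -/
def inclAux (N q ℓ : ℕ) : Gamma0 (N * q * ℓ) →* Gamma0 (N * ℓ) :=
  Subgroup.inclusion (gamma0_le_aux N q ℓ)

/-- Conjugation by `diag(q, 1)`, `Gamma0 (N q ℓ) → Gamma0 (N ℓ)`. -/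
def conjAux (N q ℓ : ℕ) : Gamma0 (N * q * ℓ) →* Gamma0 (N * ℓ) :=
  (conjG (N * ℓ) q).comp (Subgroup.inclusion (le_of_eq (by rw [mul_right_comm])))

@[simp] lemma mat_inclAux (γ : Gamma0 (N * q * ℓ)) : mat (inclAux N q ℓ γ) = mat γ := rfl

@[simp] lemma mat_conjAux (γ : Gamma0 (N * q * ℓ)) :
    mat (conjAux N q ℓ γ) = conjMat q (mat γ) := rfl

lemma conjMat_comm (q ℓ : ℕ) (M : Matrix (Fin 2) (Fin 2) ℤ) :
    conjMat q (conjMat ℓ M) = conjMat ℓ (conjMat q M) := by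
  ext i j
  fin_cases i <;> fin_cases j
  · rfl
  · simp only [conjMat, Matrix.of_apply, Matrix.cons_val', Matrix.cons_val_zero,
      Matrix.cons_val_one, Matrix.empty_val', Matrix.cons_val_fin_one]
    show (q : ℤ) * ((ℓ : ℤ) * M 0 1) = (ℓ : ℤ) * ((q : ℤ) * M 0 1)
    ring
  · show M 1 0 / (ℓ : ℤ) / (q : ℤ) = M 1 0 / (q : ℤ) / (ℓ : ℤ)
    rw [Int.ediv_ediv_of_nonneg (Int.natCast_nonneg ℓ),
      Int.ediv_ediv_of_nonneg (Int.natCast_nonneg q), mul_comm]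
  · rfl

lemma index_le (hN : 0 < N) (hq : q.Prime) (hℓ : ℓ.Prime) (hℓN : ¬ ℓ ∣ N) (hℓq : ℓ ≠ q) :
    Nat.card (Gamma0 N ⧸ (inclG N ℓ).range) ≤
      Nat.card (Gamma0 (N * q) ⧸ (inclG (N * q) ℓ).range) := by
  have hℓNq : ¬ ℓ ∣ N * q := by
    intro h
    rcases (Nat.Prime.dvd_mul hℓ).mp h with h1 | h1
    · exact hℓN h1
    · exact hℓq ((Nat.prime_dvd_prime_iff_eq hℓ hq).mp h1)
  rw [← Subgroup.index_eq_card, ← Subgroup.index_eq_card, index_inclG hN hℓ hℓN,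
    index_inclG (Nat.mul_pos hN hq.pos) hℓ hℓNq]

theorem Tcoh_res1 (hN : 0 < N) (hq : q.Prime) (hℓ : ℓ.Prime) (hℓN : ¬ ℓ ∣ N) (hℓq : ℓ ≠ q)
    (φ : Additive (Gamma0 N) →+ A) :
    Tcoh (N * q) A ℓ (res1 N q A φ) = res1 N q A (Tcoh N A ℓ φ) := by
  have := finiteIndex_inclG hN hℓ hℓN
  have hN' : (N : ℤ) ≠ 0 := by exact_mod_cast hN.ne'
  have hcop : IsCoprime (q : ℤ) (ℓ : ℤ) :=
    Nat.isCoprime_iff_coprime.mpr ((Nat.coprime_primes hq hℓ).mpr hℓq.symm)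
  unfold Tcoh cor1 res1 res2
  rw [corAlong_mackey (inclG N ℓ) (inclG N q) (inclG (N * q) ℓ) (inclAux N q ℓ)
    (inclG_injective N ℓ) (inclG_injective (N * q) ℓ) (fun p => rfl) ?_
    (index_le hN hq hℓ hℓN hℓq)]
  · rfl
  · intro k h hkh
    have e : mat k = mat h := congrArg mat hkh
    obtain ⟨c₁, hc₁⟩ := mat_dvd k
    obtain ⟨c₂, hc₂⟩ := mat_dvd h
    rw [← e, hc₁] at hc₂
    push_cast at hc₁ hc₂
    have h1 : (q : ℤ) * c₁ = (ℓ : ℤ) * c₂ := by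
      apply mul_left_cancel₀ hN'
      linear_combination hc₂
    have h2 : (ℓ : ℤ) ∣ c₁ := hcop.symm.dvd_of_dvd_mul_left ⟨c₂, h1⟩
    obtain ⟨c₃, hc₃⟩ := h2
    refine ⟨⟨(k : SL(2, ℤ)), ?_⟩, rfl⟩
    rw [Gamma0_mem, ZMod.intCast_zmod_eq_zero_iff_dvd]
    refine ⟨c₃, ?_⟩
    change mat k 1 0 = _
    rw [hc₁, hc₃]
    push_cast
    ring

theorem Tcoh_res2 (hN : 0 < N) (hq : q.Prime) (hℓ : ℓ.Prime) (hℓN : ¬ ℓ ∣ N) (hℓq : ℓ ≠ q)
    (φ : Additive (Gamma0 N) →+ A) :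
    Tcoh (N * q) A ℓ (res2 N q A φ) = res2 N q A (Tcoh N A ℓ φ) := by
  have := finiteIndex_inclG hN hℓ hℓN
  have hq' : (q : ℤ) ≠ 0 := by exact_mod_cast hq.ne_zero
  unfold Tcoh cor1 res2
  rw [corAlong_mackey (inclG N ℓ) (conjG N q) (inclG (N * q) ℓ) (conjAux N q ℓ)
    (inclG_injective N ℓ) (inclG_injective (N * q) ℓ) (fun p => rfl) ?_
    (index_le hN hq hℓ hℓN hℓq)]
  · congr 1
    apply AddMonoidHom.ext
    intro γ
    change φ (Additive.ofMul (conjG N q (conjG (N * q) ℓ (Additive.toMul γ))))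
      = φ (Additive.ofMul (conjG N ℓ (conjAux N q ℓ (Additive.toMul γ))))
    congr 2
    apply mat_injective
    rw [mat_conjG, mat_conjG, mat_conjG, mat_conjAux, conjMat_comm]
  · intro k h hkh
    have e : conjMat q (mat k) = mat h := congrArg mat hkh
    obtain ⟨c₁, hc₁⟩ := q_dvd_of_mem_gamma0_mul k.2
    have hc₁' : mat k 1 0 = (q : ℤ) * c₁ := hc₁
    obtain ⟨c₂, hc₂⟩ := mat_dvd h
    have e10 : mat k 1 0 / (q : ℤ) = mat h 1 0 := congrFun (congrFun e 1) 0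
    rw [hc₁', Int.mul_ediv_cancel_left _ hq', hc₂] at e10
    refine ⟨⟨(k : SL(2, ℤ)), ?_⟩, rfl⟩
    rw [Gamma0_mem, ZMod.intCast_zmod_eq_zero_iff_dvd]
    refine ⟨c₂, ?_⟩
    change mat k 1 0 = _
    rw [hc₁', e10]
    push_cast
    ring

end Mackey

end Fermat.Agent.S41.H19
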