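import Fermat.Agent.S41.H19_Transfer
import Fermat.Agent.S20.H19_Index

/-!
# S41 package H (helper19): index of `Gamma0 (N q)` in `Gamma0 N`, injectivity of `inclG`, `conjG`
-/

set_option autoImplicit false

open scoped MatrixGroups
open CongruenceSubgroup

namespace Fermat.Agent.S41.H19

open Fermat.Agent.S41

theorem inclG_injective (N q : ℕ) : Function.Injective (inclG N q) :=
  Subgroup.inclusion_injective _

/-- `[Gamma0 N : Gamma0 (N q)] = q + 1` for a prime `q ∤ N`. -/
theorem index_inclG {N q : ℕ} (hN : 0 < N) (hq : q.Prime) (hqN : ¬ q ∣ N) :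
    (inclG N q).range.index = q + 1 := by
  have : NeZero N := ⟨hN.ne'⟩
  have : NeZero (N * q) := ⟨mul_ne_zero hN.ne' hq.ne_zero⟩
  have hcop : N.Coprime q := ((Nat.Prime.coprime_iff_not_dvd hq).mpr hqN).symm
  have h1 : (inclG N q).range = (Gamma0 (N * q)).subgroupOf (Gamma0 N) :=
    Subgroup.inclusion_range (gamma0_mul_le N q)
  have h2 := Subgroup.relIndex_mul_index (gamma0_mul_le N q)
  rw [Fermat.Agent.S20.H19.G1, Fermat.Agent.S20.H19.G1, Fermat.Agent.S20.H19.dedekindPsi_mul hcop]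
    at h2
  have h3 : ModularCurve.dedekindPsi q = q + 1 := by
    have := Fermat.Agent.S20.H19.dedekindPsi_prime_pow hq (n := 1) one_pos
    simpa using this
  have h4 : ModularCurve.dedekindPsi N ≠ 0 := by
    rw [← Fermat.Agent.S20.H19.G1]
    exact Subgroup.FiniteIndex.index_ne_zero
  rw [h1]
  change (Gamma0 (N * q)).relIndex (Gamma0 N) = q + 1
  rw [h3, mul_comm] at h2
  exact Nat.eq_of_mul_eq_mul_left (Nat.pos_of_ne_zero h4) h2

theorem finiteIndex_inclG {N q : ℕ} (hN : 0 < N) (hq : q.Prime) (hqN : ¬ q ∣ N) :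
    (inclG N q).range.FiniteIndex :=
  ⟨by rw [index_inclG hN hq hqN]; omega⟩

end Fermat.Agent.S41.H19
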