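import Fermat.Agent.Betti.Basis

/-!
# S41, L-LIFT: two small auxiliary facts (requested by helper77)

* `finite_hom_gamma0` (g): `Hom(Γ₀(N), ℤ)` is a finitely generated `ℤ`-module;
* `exists_eq_smul_of_cast_eq_zero` (c): a homomorphism `φ : Q → ℤ` whose reduction mod `p` vanishes
  is `p • ψ` for a homomorphism `ψ` (any additive monoid `Q`); `_dvd` variant with divisibility.
-/

set_option autoImplicit false

open scoped MatrixGroups
open CongruenceSubgroup

namespace Fermat.Agent.S41.H20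

/-- (g) `Hom(Γ₀(N), ℤ)` is a finitely generated `ℤ`-module. -/
theorem finite_hom_gamma0 (N : ℕ) [NeZero N] : Module.Finite ℤ (Additive (Gamma0 N) →+ ℤ) := by
  have : Group.FG (Gamma0 N) := Fermat.Agent.Betti.fg_Gamma0 N
  exact Fermat.Agent.Betti.finite_homInt

/-- (c), divisibility form. -/
theorem exists_eq_smul_of_dvd {Q : Type*} [AddZeroClass Q] {p : ℤ} (φ : Q →+ ℤ)
    (h : ∀ x, p ∣ φ x) : ∃ ψ : Q →+ ℤ, φ = p • ψ := by
  refine ⟨{ toFun := fun x => φ x / p
            map_zero' := by simp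
            map_add' := fun x y => by
              show φ (x + y) / p = _
              rw [map_add, Int.add_ediv_of_dvd_left (h x)] }, ?_⟩
  refine AddMonoidHom.ext fun x => ?_
  show φ x = p • (φ x / p)
  rw [smul_eq_mul, Int.mul_ediv_cancel' (h x)]

/-- (c) A homomorphism to `ℤ` whose reduction mod `p` vanishes is `p` times a homomorphism. -/
theorem exists_eq_smul_of_cast_eq_zero {Q : Type*} [AddZeroClass Q] {p : ℕ}
    (φ : Q →+ ℤ) (h : ∀ x, ((φ x : ℤ) : ZMod p) = 0) : ∃ ψ : Q →+ ℤ, φ = (p : ℤ) • ψ :=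
  exists_eq_smul_of_dvd φ
    (fun x => (ZMod.intCast_zmod_eq_zero_iff_dvd _ _).mp (h x))

/-- The `ψ` of (c) kills whatever `φ` kills. -/
theorem eq_zero_of_smul_eq_zero {Q : Type*} [AddZeroClass Q] {p : ℤ} (hp : p ≠ 0)
    {φ ψ : Q →+ ℤ} (h : φ = p • ψ) {x : Q} (hx : φ x = 0) : ψ x = 0 := by
  rw [h] at hx
  have h2 : p * ψ x = 0 := by simpa using hx
  exact (mul_eq_zero.mp h2).resolve_left hp

end Fermat.Agent.S41.H20
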