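import Fermat.Agent.S41.H19_RelDeg
import Fermat.Agent.Betti.Defs

/-!
# S41, package AL (helper39): `U_q ^ 2 = 1` on the `q`-new classes

For a prime `q ∤ N`, `0 < N`, every abelian group `A` and every `φ : Γ₀(N q) → A`:

  `cor1 φ = 0 → cor2 φ = 0 → UB (UB φ) = φ`     (`UB` = the Betti operator `U_q` of level `N q`).

Proof.  `W = [[q, v], [-N q, q u]]` (`q u + N v = 1`) normalises `Γ₀(N q)`; `alG h = W h W⁻¹`.
* `cor2 φ = cor1 (φ ∘ alG)`                         (`H19.cor2_eq_cor1`);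
* `(cor1 ψ)(g) = ψ g + UB (ψ ∘ alG) g` for `g ∈ Γ₀(N q)`   (representatives `ρ_j = W [[1,j],[0,q]] / q` of
  `Γ₀(N q) \ Γ₀(N)`);
* `alG (alG h) = c h c⁻¹` with `c ∈ Γ₀(N q)`.
-/

set_option autoImplicit false

open scoped MatrixGroups
open CongruenceSubgroup Matrix

namespace Fermat.Agent.S41.H39

open Fermat.Agent.S41 Fermat.Agent.S41.H19 Fermat.Agent.Betti

section AL

variable {N q : ℕ} {u v : ℤ} (huv : (q : ℤ) * u + (N : ℤ) * v = 1)

/-- The Atkin–Lehner matrix `W = [[q, v], [-N q, q u]]`, of determinant `q`. -/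
def Wmat (N q : ℕ) (u v : ℤ) : Matrix (Fin 2) (Fin 2) ℤ :=
  !![(q : ℤ), v; -((N : ℤ) * q), (q : ℤ) * u]

lemma Dq_Wmat : Dq q * Wmat N q u v = (q : ℤ) • mat (g0 huv) := by
  rw [mat_g0]
  ext i j
  fin_cases i <;> fin_cases j <;>
    simp [Dq, Wmat, Matrix.mul_apply, Fin.sum_univ_two] <;> ring

/-- `h ↦ g0 h g0⁻¹` maps `Γ₀(N q)` into the range of `conjG`. -/
lemma conj_mem_range (hq : q ≠ 0) (h : Gamma0 (N * q)) :
    g0 huv * inclG N q h * (g0 huv)⁻¹ ∈ (conjG N q).range := by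
  obtain ⟨h', hh'⟩ := AL_surj huv hq h
  exact ⟨h', hh'⟩

/-- The Atkin–Lehner automorphism `h ↦ W h W⁻¹` of `Γ₀(N q)`. -/
noncomputable def alG (hq : q ≠ 0) : Gamma0 (N * q) →* Gamma0 (N * q) :=
  (MonoidHom.ofInjective (conjG_injective N q hq)).symm.toMonoidHom.comp
    (((MulAut.conj (g0 huv)).toMonoidHom.comp (inclG N q)).codRestrict (conjG N q).range
      (fun h => by
        simpa [MulAut.conj_apply] using conj_mem_range huv hq h))

lemma conjG_alG (hq : q ≠ 0) (h : Gamma0 (N * q)) :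
    conjG N q (alG huv hq h) = g0 huv * inclG N q h * (g0 huv)⁻¹ := by
  have := (MonoidHom.ofInjective (conjG_injective N q hq)).apply_symm_apply
    ((((MulAut.conj (g0 huv)).toMonoidHom.comp (inclG N q)).codRestrict (conjG N q).range
      (fun h => by
        simpa [MulAut.conj_apply] using conj_mem_range huv hq h)) h)
  have h2 := congrArg Subtype.val this
  simpa [alG, MulAut.conj_apply] using h2

/-- `alG h * W = W * h` in integer matrices. -/
lemma mat_alG_mul (hq : q ≠ 0) (h : Gamma0 (N * q)) :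
    mat (alG huv hq h) * Wmat N q u v = Wmat N q u v * mat h := by
  have e1 : conjMat q (mat (alG huv hq h)) * mat (g0 huv) = mat (g0 huv) * mat h := by
    have : conjG N q (alG huv hq h) * g0 huv = g0 huv * inclG N q h := by
      rw [conjG_alG]; group
    have := congrArg mat this
    simpa using this
  have hq' : (q : ℤ) ≠ 0 := by exact_mod_cast hq
  apply Dq_cancel_left hq
  calc Dq q * (mat (alG huv hq h) * Wmat N q u v)
      = (Dq q * mat (alG huv hq h)) * Wmat N q u v := by rw [Matrix.mul_assoc]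
    _ = (conjMat q (mat (alG huv hq h)) * Dq q) * Wmat N q u v := by
        rw [conjMat_Dq (q_dvd_of_mem_gamma0_mul (alG huv hq h).2)]
    _ = conjMat q (mat (alG huv hq h)) * (Dq q * Wmat N q u v) := by rw [Matrix.mul_assoc]
    _ = (q : ℤ) • (conjMat q (mat (alG huv hq h)) * mat (g0 huv)) := by
        rw [Dq_Wmat huv, Matrix.mul_smul]
    _ = (q : ℤ) • (mat (g0 huv) * mat h) := by rw [e1]
    _ = (Dq q * Wmat N q u v) * mat h := by rw [Dq_Wmat huv, Matrix.smul_mul]
    _ = Dq q * (Wmat N q u v * mat h) := by rw [Matrix.mul_assoc]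

/-- `W * W = q • c` with `c ∈ Γ₀(N q)`. -/
def cAL : Gamma0 (N * q) :=
  mkG0 (N * q) ((q : ℤ) - (N : ℤ) * v) (v * (1 + u)) (-((N : ℤ) * q) * (1 + u))
    ((q : ℤ) * u ^ 2 - (N : ℤ) * v)
    (by linear_combination ((q : ℤ) * u + (N : ℤ) * v + 1) * huv)
    ⟨-(1 + u), by push_cast; ring⟩

lemma Wmat_sq : Wmat N q u v * Wmat N q u v = (q : ℤ) • mat (cAL huv) := by
  rw [cAL, mat_mkG0]
  ext i j
  fin_cases i <;> fin_cases j <;>
    simp [Wmat, Matrix.mul_apply, Fin.sum_univ_two] <;> ring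

lemma smul_mat_cancel {q : ℕ} (hq : q ≠ 0) {X Y : Matrix (Fin 2) (Fin 2) ℤ}
    (h : (q : ℤ) • X = (q : ℤ) • Y) : X = Y := by
  have hq' : (q : ℤ) ≠ 0 := by exact_mod_cast hq
  ext i j
  have := congrFun (congrFun h i) j
  simp only [Matrix.smul_apply, smul_eq_mul] at this
  exact mul_left_cancel₀ hq' this

/-- `alG (alG h) = c h c⁻¹`. -/
lemma alG_alG (hq : q ≠ 0) (h : Gamma0 (N * q)) :
    alG huv hq (alG huv hq h) = cAL huv * h * (cAL huv)⁻¹ := by
  have e : alG huv hq (alG huv hq h) * cAL huv = cAL huv * h := by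
    apply mat_injective
    rw [mat_mul, mat_mul]
    apply smul_mat_cancel hq
    calc (q : ℤ) • (mat (alG huv hq (alG huv hq h)) * mat (cAL huv))
        = mat (alG huv hq (alG huv hq h)) * (Wmat N q u v * Wmat N q u v) := by
          rw [Wmat_sq huv, Matrix.mul_smul]
      _ = (mat (alG huv hq (alG huv hq h)) * Wmat N q u v) * Wmat N q u v := by
          rw [Matrix.mul_assoc]
      _ = Wmat N q u v * (mat (alG huv hq h) * Wmat N q u v) := by
          rw [mat_alG_mul, Matrix.mul_assoc]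
      _ = (Wmat N q u v * Wmat N q u v) * mat h := by
          rw [mat_alG_mul, Matrix.mul_assoc]
      _ = (q : ℤ) • (mat (cAL huv) * mat h) := by
          rw [Wmat_sq huv, Matrix.smul_mul]
  rw [← e]; group

variable {A : Type*} [AddCommGroup A]

/-- `φ ∘ alG ∘ alG = φ`. -/
lemma res_alG_alG (hq : q ≠ 0) (φ : Additive (Gamma0 (N * q)) →+ A) :
    resAlong A (alG huv hq) (resAlong A (alG huv hq) φ) = φ := by
  refine AddMonoidHom.ext fun x => ?_
  change φ (Additive.ofMul (alG huv hq (alG huv hq (Additive.toMul x))))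
    = φ (Additive.ofMul (Additive.toMul x))
  rw [alG_alG, hom_conj]

/-- `cor2 φ = cor1 (φ ∘ alG)`. -/
lemma cor2_eq_cor1_alG (hN : 0 < N) (hq : q.Prime) (hqN : ¬ q ∣ N)
    (φ : Additive (Gamma0 (N * q)) →+ A) :
    cor2 N q A φ = cor1 N q A (resAlong A (alG huv hq.ne_zero) φ) := by
  unfold cor2 cor1
  apply cor2_eq_cor1 hN hq hqN huv
  intro h h' hrel
  rw [resAlong_apply]
  have : h' = alG huv hq.ne_zero h := by
    apply conjG_injective N q hq.ne_zero
    rw [hrel, conjG_alG]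
  rw [this]

end AL

/-! ### The representatives `ρ_j` and the identity `res1 ∘ cor1 = 1 + UB ∘ w` -/

section Mackey

variable {N q : ℕ} {u v : ℤ} (huv : (q : ℤ) * u + (N : ℤ) * v = 1)

/-- The integer matrix `[[1, j], [0, q]]`. -/
def Bmat (q : ℕ) (j : ℤ) : Matrix (Fin 2) (Fin 2) ℤ := !![1, j; 0, (q : ℤ)]

/-- `ρ_j = [[1, j + v], [-N, -N j + q u]] ∈ Γ₀(N)`. -/
def rho (j : ℤ) : Gamma0 N :=
  mkG0 N 1 (j + v) (-(N : ℤ)) (-(N : ℤ) * j + (q : ℤ) * u) (by linear_combination huv)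
    (dvd_neg.mpr dvd_rfl)

lemma mat_rho (j : ℤ) :
    mat (rho huv j) = !![1, j + v; -(N : ℤ), -(N : ℤ) * j + (q : ℤ) * u] := rfl

lemma Wmat_Bmat (j : ℤ) : Wmat N q u v * Bmat q j = (q : ℤ) • mat (rho huv j) := by
  rw [mat_rho]
  ext i k
  fin_cases i <;> fin_cases k <;>
    simp [Wmat, Bmat, Matrix.mul_apply, Fin.sum_univ_two] <;> ring

/-- The relation of a Hecke family of `U_q`, in integer matrices. -/
lemma Bmat_rel {M : ℕ} (hq : q ≠ 0) {γ κ : Gamma0 M} {j j' : ZMod q}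
    (h : repU q j * incl M γ = incl M κ * repU q j') :
    Bmat q (j.val : ℤ) * mat γ = mat κ * Bmat q (j'.val : ℤ) := by
  have h2 := congrArg (fun X : GL (Fin 2) ℝ => (X : Matrix (Fin 2) (Fin 2) ℝ)) h
  simp only [Units.val_mul, incl_apply, Matrix.SpecialLinearGroup.mapGL_coe_matrix,
    ModularForm.val_heckeMatrix hq] at h2
  apply Matrix.map_injective (Int.cast_injective (α := ℝ))
  show (Bmat q (j.val : ℤ) * mat γ).map (Int.cast : ℤ → ℝ)
    = (mat κ * Bmat q (j'.val : ℤ)).map (Int.cast : ℤ → ℝ)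
  have e1 : (Bmat q (j.val : ℤ)).map (Int.cast : ℤ → ℝ) = !![(1 : ℝ), ((j.val : ℕ) : ℝ); 0, (q : ℝ)] := by
    ext i k
    fin_cases i <;> fin_cases k <;> simp [Bmat]
  have e2 : (Bmat q (j'.val : ℤ)).map (Int.cast : ℤ → ℝ) = !![(1 : ℝ), ((j'.val : ℕ) : ℝ); 0, (q : ℝ)] := by
    ext i k
    fin_cases i <;> fin_cases k <;> simp [Bmat]
  rw [Matrix.map_mul_intCast, Matrix.map_mul_intCast, e1, e2]
  exact h2

/-- The relation `ρ_j γ = alG(κ) ρ_j'` in `Γ₀(N)`. -/
lemma rho_rel (hq : q ≠ 0) {γ κ : Gamma0 (N * q)} {j j' : ZMod q}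
    (h : repU q j * incl (N * q) γ = incl (N * q) κ * repU q j') :
    rho huv (j.val : ℤ) * inclG N q γ = inclG N q (alG huv hq κ) * rho huv (j'.val : ℤ) := by
  apply mat_injective
  rw [mat_mul, mat_mul, mat_inclG, mat_inclG]
  apply smul_mat_cancel hq
  calc (q : ℤ) • (mat (rho huv (j.val : ℤ)) * mat γ)
      = (Wmat N q u v * Bmat q (j.val : ℤ)) * mat γ := by
        rw [Wmat_Bmat huv, Matrix.smul_mul]
    _ = Wmat N q u v * (Bmat q (j.val : ℤ) * mat γ) := by rw [Matrix.mul_assoc]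
    _ = Wmat N q u v * (mat κ * Bmat q (j'.val : ℤ)) := by rw [Bmat_rel hq h]
    _ = (Wmat N q u v * mat κ) * Bmat q (j'.val : ℤ) := by rw [Matrix.mul_assoc]
    _ = (mat (alG huv hq κ) * Wmat N q u v) * Bmat q (j'.val : ℤ) := by rw [mat_alG_mul]
    _ = mat (alG huv hq κ) * (Wmat N q u v * Bmat q (j'.val : ℤ)) := by rw [Matrix.mul_assoc]
    _ = (q : ℤ) • (mat (alG huv hq κ) * mat (rho huv (j'.val : ℤ))) := by
        rw [Wmat_Bmat huv, Matrix.mul_smul]

/-- The system of representatives of `Γ₀(N) / Γ₀(N q)`: `1` and the `ρ_j⁻¹`. -/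
def tAL (o : Option (ZMod q)) : Gamma0 N :=
  match o with
  | none => 1
  | some j => (rho huv (j.val : ℤ))⁻¹

lemma mem_range_inclG_iff (g : Gamma0 N) :
    g ∈ (inclG N q).range ↔ ((N * q : ℕ) : ℤ) ∣ mat g 1 0 := by
  constructor
  · rintro ⟨h, rfl⟩
    exact dvd_of_mem_gamma0_mul h.2
  · intro hd
    refine ⟨⟨(g : SL(2, ℤ)), ?_⟩, rfl⟩
    rw [Gamma0_mem, ZMod.intCast_zmod_eq_zero_iff_dvd]
    exact hd

lemma mat_inv (g : Gamma0 N) : mat g⁻¹ = !![mat g 1 1, -mat g 0 1; -mat g 1 0, mat g 0 0] := by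
  show ((((g : SL(2, ℤ)))⁻¹ : SL(2, ℤ)) : Matrix (Fin 2) (Fin 2) ℤ) = _
  rw [Matrix.SpecialLinearGroup.coe_inv, Matrix.adjugate_fin_two]

lemma tAL_inj (hN : 0 < N) (hq : q.Prime) (i j : Option (ZMod q))
    (h : (tAL huv i)⁻¹ * tAL huv j ∈ (inclG N q).range) : i = j := by
  have hN' : (N : ℤ) ≠ 0 := by exact_mod_cast hN.ne'
  have hq1 : ¬ (q : ℤ) ∣ 1 := by
    intro hd
    have := Int.natAbs_dvd_natAbs.mpr hd
    simp at this
    exact hq.one_lt.ne' this
  have key : ∀ x : ℤ, ((N * q : ℕ) : ℤ) ∣ (N : ℤ) * x → (q : ℤ) ∣ x := by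
    intro x hx
    obtain ⟨c, hc⟩ := hx
    refine ⟨c, ?_⟩
    have : (N : ℤ) * x = (N : ℤ) * ((q : ℤ) * c) := by push_cast at hc; linear_combination hc
    exact mul_left_cancel₀ hN' this
  rw [mem_range_inclG_iff] at h
  rcases i with _ | i <;> rcases j with _ | j
  · rfl
  · exfalso
    simp only [tAL, inv_one, one_mul] at h
    rw [mat_inv, mat_rho] at h
    simp only [Matrix.of_apply, Matrix.cons_val', Matrix.cons_val_zero, Matrix.cons_val_one,
      Matrix.empty_val', Matrix.cons_val_fin_one, neg_neg] at h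
    exact hq1 (key 1 (by simpa using h))
  · exfalso
    simp only [tAL, inv_inv, mul_one] at h
    rw [mat_rho] at h
    simp only [Matrix.of_apply, Matrix.cons_val', Matrix.cons_val_zero, Matrix.cons_val_one,
      Matrix.empty_val', Matrix.cons_val_fin_one] at h
    have h' : ((N * q : ℕ) : ℤ) ∣ (N : ℤ) * 1 := by
      rw [mul_one]; exact (dvd_neg.mp h)
    exact hq1 (key 1 h')
  · simp only [tAL, inv_inv] at h
    rw [mat_mul, mat_inv, mat_rho, mat_rho] at h
    simp only [Matrix.mul_apply, Fin.sum_univ_two, Matrix.of_apply, Matrix.cons_val',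
      Matrix.cons_val_zero, Matrix.cons_val_one, Matrix.empty_val', Matrix.cons_val_fin_one,
      neg_neg] at h
    have h' : ((N * q : ℕ) : ℤ) ∣ (N : ℤ) * ((N : ℤ) * ((j.val : ℤ) - (i.val : ℤ))) := by
      convert h using 1
      ring
    have h2 : (q : ℤ) ∣ (N : ℤ) * ((j.val : ℤ) - (i.val : ℤ)) := key _ h'
    have h3 : (q : ℤ) ∣ (j.val : ℤ) - (i.val : ℤ) := (isCoprime_q_N huv).dvd_of_dvd_mul_left h2
    haveI : NeZero q := ⟨hq.ne_zero⟩
    congr 1
    have h4 := (ZMod.intCast_zmod_eq_zero_iff_dvd _ q).mpr h3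
    push_cast at h4
    rw [ZMod.natCast_zmod_val, ZMod.natCast_zmod_val] at h4
    exact (sub_eq_zero.mp h4).symm

theorem isReps_tAL (hN : 0 < N) (hq : q.Prime) (hqN : ¬ q ∣ N) :
    IsReps (inclG N q) (tAL huv) := by
  haveI : NeZero q := ⟨hq.ne_zero⟩
  haveI := finiteIndex_inclG hN hq hqN
  have hinj : Function.Injective (fun i : Option (ZMod q) => (tAL huv i : Gamma0 N ⧸ (inclG N q).range)) := by
    intro i j hij
    exact tAL_inj huv hN hq i j (QuotientGroup.eq.mp hij)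
  have hcard : Nat.card (Gamma0 N ⧸ (inclG N q).range) ≤ Nat.card (Option (ZMod q)) := by
    have h1 : Nat.card (Gamma0 N ⧸ (inclG N q).range) = q + 1 := index_inclG hN hq hqN
    rw [h1]
    simp [Nat.card_eq_fintype_card, ZMod.card]
  have hbij := hinj.bijective_of_nat_card_le hcard
  refine ⟨tAL_inj huv hN hq, fun g => ?_⟩
  obtain ⟨i, hi⟩ := hbij.2 (g : Gamma0 N ⧸ (inclG N q).range)
  exact ⟨i, QuotientGroup.eq.mp hi⟩

variable {A : Type*} [AddCommGroup A]

/-- **Mackey + Atkin–Lehner**: `(cor1 ψ)(g) = ψ g + U_q (ψ ∘ alG) g` for `g ∈ Γ₀(N q)`. -/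
theorem cor1_incl (hN : 0 < N) (hq : q.Prime) (hqN : ¬ q ∣ N) [NeZero (N * q)]
    (ψ : Additive (Gamma0 (N * q)) →+ A) (γ : Gamma0 (N * q)) :
    cor1 N q A ψ (Additive.ofMul (inclG N q γ))
      = ψ (Additive.ofMul γ)
        + UB (N * q) A (dvd_mul_left q N) (resAlong A (alG huv hq.ne_zero) ψ) (Additive.ofMul γ) := by
  haveI : NeZero q := ⟨hq.ne_zero⟩
  set H := isHeckeFamily_U (N * q) (dvd_mul_left q N) with hH
  have key := corAlong_eq_sum (A := A) (inclG N q) (inclG_injective N q) (tAL huv)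
    (isReps_tAL huv hN hq hqN) ψ ((inclG N q γ)⁻¹)
    (fun o => match o with
      | none => none
      | some j => some (H.perm γ j))
    (fun o => match o with
      | none => γ⁻¹
      | some j => (alG huv hq.ne_zero (H.kap γ j))⁻¹)
    (by
      intro o
      rcases o with _ | j
      · simp [tAL]
      · have h1 := rho_rel huv hq.ne_zero (H.rep_mul γ j)
        have h2 := congrArg (fun x => x⁻¹) h1
        simp only [_root_.mul_inv_rev] at h2
        simpa [tAL] using h2)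
  rw [Fintype.sum_option] at key
  have e1 : (cor1 N q A ψ) (Additive.ofMul (inclG N q γ))
      = - corAlong A (inclG N q) ψ (Additive.ofMul (inclG N q γ)⁻¹) := by
    rw [ofMul_inv, map_neg, neg_neg]; rfl
  rw [e1, key, UB_apply_apply]
  simp only [ofMul_inv, map_neg, Finset.sum_neg_distrib, resAlong_apply]
  abel

end Mackey

/-! ### The theorem -/

/-- **AL**: on the classes killed by both trace maps the Betti operator `U_q` is an involution. -/
theorem al_main {N q : ℕ} [NeZero (N * q)] (hN : 0 < N) (hq : q.Prime) (hqN : ¬ q ∣ N)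
    {A : Type*} [AddCommGroup A] (hdvd : q ∣ N * q) (φ : Additive (Gamma0 (N * q)) →+ A)
    (h1 : cor1 N q A φ = 0) (h2 : cor2 N q A φ = 0) :
    UB (N * q) A hdvd (UB (N * q) A hdvd φ) = φ := by
  obtain ⟨u, v, huv⟩ := exists_bezout hq hqN
  set w : (Additive (Gamma0 (N * q)) →+ A) → (Additive (Gamma0 (N * q)) →+ A) :=
    resAlong A (alG huv hq.ne_zero) with hw
  -- `UB (w φ) = -φ`
  have ha : UB (N * q) A hdvd (w φ) = -φ := by
    refine AddMonoidHom.ext fun x => ?_
    have := cor1_incl huv hN hq hqN φ (Additive.toMul x)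
    rw [h1] at this
    have h0 : (0 : Additive (Gamma0 N) →+ A) (Additive.ofMul (inclG N q (Additive.toMul x))) = 0 :=
      rfl
    rw [h0] at this
    exact eq_neg_of_add_eq_zero_right this.symm
  -- `UB φ = - w φ`
  have hb : UB (N * q) A hdvd φ = -(w φ) := by
    have h1' : cor1 N q A (w φ) = 0 := by
      rw [hw, ← cor2_eq_cor1_alG huv hN hq hqN φ, h2]
    refine AddMonoidHom.ext fun x => ?_
    have := cor1_incl huv hN hq hqN (w φ) (Additive.toMul x)
    rw [h1'] at this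
    have h0 : (0 : Additive (Gamma0 N) →+ A) (Additive.ofMul (inclG N q (Additive.toMul x))) = 0 :=
      rfl
    rw [h0] at this
    have hww : resAlong A (alG huv hq.ne_zero) (w φ) = φ := res_alG_alG huv hq.ne_zero φ
    rw [hww] at this
    exact eq_neg_of_add_eq_zero_right this.symm
  rw [hb, map_neg, ha, neg_neg]

end Fermat.Agent.S41.H39
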