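import Mathlib

/-!
# S41, package P (Poincare duality): interfaces of the group-theoretic leaves

`tau = T * S⁻¹` (order 3).  Leaves:

* `Stmt_PSL` : `PSL(2,ℤ) = C₂ * C₃` as a universal property of `SL(2,ℤ)`.
* `Stmt_C3`  : every element of trace `-1` is conjugate to `tau` or `tau⁻¹`.
* `Stmt_PAR` : every element of trace `2` is conjugate to a power of `T`.
-/

set_option autoImplicit false

open scoped MatrixGroups

namespace Fermat.Agent.S41.H94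

/-- `τ = T S⁻¹ = [[-1, 1], [-1, 0]]`, an element of order `3` of `SL(2,ℤ)`. -/
def tau : SL(2, ℤ) := ModularGroup.T * ModularGroup.S⁻¹

/-- **P0** (`PSL(2,ℤ) = C₂ * C₃`): for any group `H` and `s t : H` with `s² = 1`, `t³ = 1` there is a
homomorphism `SL(2,ℤ) → H` with `S ↦ s`, `T S⁻¹ ↦ t`. -/
def Stmt_PSL : Prop :=
  ∀ (H : Type) [Group H] (s t : H), s ^ 2 = 1 → t ^ 3 = 1 →
    ∃ θ : SL(2, ℤ) →* H, θ ModularGroup.S = s ∧ θ tau = t

/-- **C3**: an element of `SL(2,ℤ)` of trace `-1` is conjugate to `τ` or to `τ⁻¹`. -/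
def Stmt_C3 : Prop :=
  ∀ γ : SL(2, ℤ), (γ : Matrix (Fin 2) (Fin 2) ℤ).trace = -1 →
    ∃ x : SL(2, ℤ), γ = x⁻¹ * tau * x ∨ γ = x⁻¹ * tau⁻¹ * x

/-- **PAR**: an element of `SL(2,ℤ)` of trace `2` is conjugate to a power of `T`. -/
def Stmt_PAR : Prop :=
  ∀ γ : SL(2, ℤ), (γ : Matrix (Fin 2) (Fin 2) ℤ).trace = 2 →
    ∃ (x : SL(2, ℤ)) (n : ℤ), γ = x⁻¹ * ModularGroup.T ^ n * x

end Fermat.Agent.S41.H94
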