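import Mathlib
import Fermat.Agent.S41.H94_PDDefs

/-!
# S41, package P, leaf P0 (helper41): `PSL(2,ℤ) = C₂ * C₃` as a universal property

`H41.stmt_PSL : H94.Stmt_PSL`: for every group `H` and `s t : H` with `s ^ 2 = 1`, `t ^ 3 = 1`
there is a homomorphism `θ : SL(2,ℤ) → H` with `θ S = s`, `θ (T S⁻¹) = t`.

Proof: ping-pong (`Monoid.CoprodI.lift_injective_of_ping_pong`) for `C₂ = ⟨S⟩`, `C₃ = ⟨τ⟩`
inside `Equiv.Perm ℍ` with the sets `{Re z < 0}` and `{0 < Re z}`: the free product `C₂ * C₃`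
embeds into `Perm ℍ`, its image is the image of `SL(2,ℤ)` (`SL2Z_generators`), and
`θ = lift (s, t) ∘ (embedding)⁻¹ ∘ (SL(2,ℤ) → Perm ℍ)`.
-/

set_option autoImplicit false

open scoped MatrixGroups Pointwise
open UpperHalfPlane ModularGroup

namespace Fermat.Agent.S41.H41

open Fermat.Agent.S41.H94

/-! ### Homomorphisms out of cyclic groups -/

/-- The additive homomorphism `ℤ/n → Additive G`, `k ↦ x ^ k`, for `x ^ n = 1`. -/
noncomputable def cycAdd {G : Type*} [Group G] (n : ℕ) (x : G) (hx : x ^ n = 1) :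
    ZMod n →+ Additive G :=
  ZMod.lift n ⟨zmultiplesHom (Additive G) (Additive.ofMul x), by
    show (n : ℤ) • Additive.ofMul x = 0
    rw [natCast_zsmul, ← ofMul_pow, hx, ofMul_one]⟩

theorem cycAdd_intCast {G : Type*} [Group G] (n : ℕ) (x : G) (hx : x ^ n = 1) (k : ℤ) :
    cycAdd n x hx (k : ZMod n) = k • Additive.ofMul x := by
  rw [cycAdd, ZMod.lift_coe]
  rfl

/-- The homomorphism `C_n → G`, `k ↦ x ^ k`, for `x ^ n = 1`. -/
noncomputable def cycHom {G : Type*} [Group G] (n : ℕ) (x : G) (hx : x ^ n = 1) :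
    Multiplicative (ZMod n) →* G :=
  AddMonoidHom.toMultiplicativeLeft (cycAdd n x hx)

theorem cycHom_one {G : Type*} [Group G] (n : ℕ) (x : G) (hx : x ^ n = 1) :
    cycHom n x hx (Multiplicative.ofAdd 1) = x := by
  show Additive.toMul (cycAdd n x hx (1 : ZMod n)) = x
  have h1 : ((1 : ℤ) : ZMod n) = 1 := Int.cast_one
  rw [← h1, cycAdd_intCast, one_zsmul]
  rfl

theorem cycHom_two {G : Type*} [Group G] (n : ℕ) (x : G) (hx : x ^ n = 1) :
    cycHom n x hx (Multiplicative.ofAdd 2) = x ^ 2 := by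
  show Additive.toMul (cycAdd n x hx (2 : ZMod n)) = x ^ 2
  have h1 : ((2 : ℤ) : ZMod n) = 2 := by norm_cast
  rw [← h1, cycAdd_intCast]
  show Additive.toMul ((2 : ℤ) • Additive.ofMul x) = x ^ 2
  rw [← ofMul_zpow, toMul_ofMul]
  exact zpow_ofNat x 2

/-! ### The two generators in `Perm ℍ` -/

/-- The permutation representation of `SL(2,ℤ)` on the upper half plane. -/
noncomputable def piH : SL(2, ℤ) →* Equiv.Perm ℍ := MulAction.toPermHom SL(2, ℤ) ℍ

theorem piH_apply (g : SL(2, ℤ)) (z : ℍ) : piH g z = g • z := rfl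

theorem tau_pow_three : tau ^ 3 = 1 := by decide

theorem tau_mul_S : tau * S = T := by
  rw [tau, inv_mul_cancel_right]

theorem piH_S_sq : piH S ^ 2 = 1 := by
  rw [← map_pow]
  ext z
  rw [piH_apply]
  have h : (S : SL(2, ℤ)) ^ 2 = -1 := by decide
  rw [h, SL_neg_smul, one_smul]
  rfl

theorem piH_tau_cube : piH tau ^ 3 = 1 := by
  rw [← map_pow, tau_pow_three, map_one]

/-! ### Real parts -/

theorem re_S_smul (z : ℍ) : (S • z).re = -z.re / Complex.normSq z := by
  rw [modular_S_smul]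
  show ((-(z : ℂ))⁻¹).re = _
  rw [Complex.inv_re, Complex.neg_re, Complex.normSq_neg]
  rfl

theorem re_T_smul' (z : ℍ) : (T • z).re = 1 + z.re := by
  rw [modular_T_smul, vadd_re]

theorem re_T_inv_smul (z : ℍ) : (T⁻¹ • z).re = -1 + z.re := by
  have h := modular_T_zpow_smul z (-1)
  rw [zpow_neg_one] at h
  rw [h, vadd_re]
  simp

theorem normSq_pos_coe (z : ℍ) : 0 < Complex.normSq (z : ℂ) :=
  Complex.normSq_pos.mpr z.ne_zero

theorem S_inv_smul (z : ℍ) : (S⁻¹ : SL(2, ℤ)) • z = S • z := by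
  rw [S_inv, SL_neg_smul]

theorem re_S_smul_neg {z : ℍ} (hz : 0 < z.re) : (S • z).re < 0 := by
  rw [re_S_smul]
  exact div_neg_of_neg_of_pos (neg_neg_of_pos hz) (normSq_pos_coe z)

theorem re_S_smul_pos {z : ℍ} (hz : z.re < 0) : 0 < (S • z).re := by
  rw [re_S_smul]
  exact div_pos (neg_pos.mpr hz) (normSq_pos_coe z)

theorem re_tau_smul_pos {z : ℍ} (hz : z.re < 0) : 0 < (tau • z).re := by
  rw [tau, mul_smul, re_T_smul', S_inv_smul]
  have := re_S_smul_pos hz
  linarith

theorem tau_sq : tau ^ 2 = S * T⁻¹ := by decide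

theorem re_tau_sq_smul_pos {z : ℍ} (hz : z.re < 0) : 0 < (tau ^ 2 • z).re := by
  rw [tau_sq, mul_smul]
  apply re_S_smul_pos
  rw [re_T_inv_smul]
  linarith

/-! ### Ping-pong -/

/-- The family `C₂`, `C₃`. -/
abbrev Cyc (i : Fin 2) : Type := Multiplicative (ZMod (i.val + 2))

/-- The generators `S`, `τ` of the two cyclic groups in `Perm ℍ`. -/
noncomputable def genP : (i : Fin 2) → {x : Equiv.Perm ℍ // x ^ (i.val + 2) = 1}
  | ⟨0, _⟩ => ⟨piH S, piH_S_sq⟩
  | ⟨1, _⟩ => ⟨piH tau, piH_tau_cube⟩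

/-- The two embeddings `C₂, C₃ → Perm ℍ`. -/
noncomputable def fP (i : Fin 2) : Cyc i →* Equiv.Perm ℍ :=
  cycHom (i.val + 2) (genP i).1 (genP i).2

/-- The ping-pong sets. -/
def XP : Fin 2 → Set ℍ
  | ⟨0, _⟩ => {z | z.re < 0}
  | ⟨1, _⟩ => {z | 0 < z.re}

theorem fP_zero_one : fP 0 (Multiplicative.ofAdd 1) = piH S := cycHom_one _ _ _

theorem fP_one_one : fP 1 (Multiplicative.ofAdd 1) = piH tau := cycHom_one _ _ _

theorem fP_one_two : fP 1 (Multiplicative.ofAdd 2) = piH (tau ^ 2) := by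
  rw [map_pow]
  exact cycHom_two _ _ _

theorem cyc2_cases (h : Multiplicative (ZMod 2)) (hh : h ≠ 1) : h = Multiplicative.ofAdd 1 := by
  revert h; decide

theorem cyc3_cases (h : Multiplicative (ZMod 3)) (hh : h ≠ 1) :
    h = Multiplicative.ofAdd 1 ∨ h = Multiplicative.ofAdd 2 := by
  revert h; decide

theorem pingpong : Function.Injective (Monoid.CoprodI.lift fP) := by
  refine Monoid.CoprodI.lift_injective_of_ping_pong fP (Or.inr ⟨1, ?_⟩) XP ?_ ?_ ?_
  · -- `C₃` has three elements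
    show (3 : Cardinal) ≤ Cardinal.mk (Multiplicative (ZMod 3))
    rw [Cardinal.mk_fintype]
    have : Fintype.card (Multiplicative (ZMod 3)) = 3 := by
      rw [Fintype.card_multiplicative, ZMod.card]
    rw [this]
    norm_num
  · -- nonempty
    intro i
    fin_cases i
    · refine ⟨⟨⟨-1, 1⟩, by simp⟩, ?_⟩
      show (-1 : ℝ) < 0
      norm_num
    · refine ⟨⟨⟨1, 1⟩, by simp⟩, ?_⟩
      show (0 : ℝ) < 1
      norm_num
  · -- disjoint
    intro i j hij
    fin_cases i <;> fin_cases j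
    · exact absurd rfl hij
    · refine Set.disjoint_left.mpr fun z (h1 : z.re < 0) (h2 : 0 < z.re) => ?_
      linarith
    · refine Set.disjoint_left.mpr fun z (h1 : 0 < z.re) (h2 : z.re < 0) => ?_
      linarith
    · exact absurd rfl hij
  · -- ping-pong
    intro i j hij
    fin_cases i <;> fin_cases j
    · exact absurd rfl hij
    · intro h hh
      have h1 : h = Multiplicative.ofAdd 1 := cyc2_cases h hh
      subst h1
      rw [Set.smul_set_subset_iff]
      intro z (hz : 0 < z.re)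
      show ((fP 0 (Multiplicative.ofAdd 1)) z).re < 0
      rw [fP_zero_one, piH_apply]
      exact re_S_smul_neg hz
    · intro h hh
      rw [Set.smul_set_subset_iff]
      intro z (hz : z.re < 0)
      rcases cyc3_cases h hh with h1 | h1
      · subst h1
        show 0 < ((fP 1 (Multiplicative.ofAdd 1)) z).re
        rw [fP_one_one, piH_apply]
        exact re_tau_smul_pos hz
      · subst h1
        show 0 < ((fP 1 (Multiplicative.ofAdd 2)) z).re
        rw [fP_one_two, piH_apply]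
        exact re_tau_sq_smul_pos hz
    · exact absurd rfl hij

/-! ### The image of `SL(2,ℤ)` -/

theorem piH_mem_range (g : SL(2, ℤ)) : piH g ∈ (Monoid.CoprodI.lift fP).range := by
  have hS : piH S ∈ (Monoid.CoprodI.lift fP).range :=
    ⟨Monoid.CoprodI.of (i := (0 : Fin 2)) (Multiplicative.ofAdd 1), by
      rw [Monoid.CoprodI.lift_of, fP_zero_one]⟩
  have htau : piH tau ∈ (Monoid.CoprodI.lift fP).range :=
    ⟨Monoid.CoprodI.of (i := (1 : Fin 2)) (Multiplicative.ofAdd 1), by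
      rw [Monoid.CoprodI.lift_of, fP_one_one]⟩
  have hT : piH T ∈ (Monoid.CoprodI.lift fP).range := by
    rw [← tau_mul_S, map_mul]
    exact mul_mem htau hS
  have hle : Subgroup.closure {S, T} ≤ (Monoid.CoprodI.lift fP).range.comap piH := by
    rw [Subgroup.closure_le]
    rintro x (rfl | rfl)
    · exact hS
    · exact hT
  have : g ∈ Subgroup.closure {S, T} := by
    rw [SpecialLinearGroup.SL2Z_generators]
    exact Subgroup.mem_top g
  exact hle this

/-- **P0**: `PSL(2,ℤ) = C₂ * C₃`. -/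
theorem stmt_PSL : Stmt_PSL := by
  intro H _ s t hs ht
  -- the target family
  let gH : (i : Fin 2) → Cyc i →* H := fun i =>
    match i with
    | ⟨0, _⟩ => cycHom 2 s hs
    | ⟨1, _⟩ => cycHom 3 t ht
  let e := MonoidHom.ofInjective pingpong
  let ρ : SL(2, ℤ) →* (Monoid.CoprodI.lift fP).range := piH.codRestrict _ piH_mem_range
  refine ⟨(Monoid.CoprodI.lift gH).comp (e.symm.toMonoidHom.comp ρ), ?_, ?_⟩
  · have h1 : e.symm (ρ S) = Monoid.CoprodI.of (i := (0 : Fin 2)) (Multiplicative.ofAdd 1) := by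
      rw [MulEquiv.symm_apply_eq]
      apply Subtype.ext
      rw [MonoidHom.ofInjective_apply, Monoid.CoprodI.lift_of, fP_zero_one]
      rfl
    show Monoid.CoprodI.lift gH (e.symm (ρ S)) = s
    rw [h1, Monoid.CoprodI.lift_of]
    exact cycHom_one 2 s hs
  · have h1 : e.symm (ρ tau) = Monoid.CoprodI.of (i := (1 : Fin 2)) (Multiplicative.ofAdd 1) := by
      rw [MulEquiv.symm_apply_eq]
      apply Subtype.ext
      rw [MonoidHom.ofInjective_apply, Monoid.CoprodI.lift_of, fP_one_one]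
      rfl
    show Monoid.CoprodI.lift gH (e.symm (ρ tau)) = t
    rw [h1, Monoid.CoprodI.lift_of]
    exact cycHom_one 3 t ht

end Fermat.Agent.S41.H41
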