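import Mathlib
import Fermat.Agent.S49.Lifting

/-!
# S41, NEWLIFT package CHAR (helper61): pure commutative algebra

`R` a commutative ring, integral over `ℤ`, `Mrep : R →+* Matrix (Fin r) (Fin r) ℤ`, a vector
`c : Fin r → ℤ` not divisible by `p`, an element `u` with `Mrep (u ^ 2 - 1) c = 0` and a family
`t i ∈ R`, `a i ∈ ℤ` with `Mrep (t i) c ≡ a i • c mod p`.  Then there are a character
`χ : R →+* ℂ` and a maximal ideal `𝔪` of the ring of algebraic integers containing `p` with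
`χ u ^ 2 = 1` and `χ (t i) ≡ a i mod 𝔪`.

Proof: `V = ker (Mrep (u ^ 2 - 1) ⊗ ℂ)` is stable under `R`; let `J'` be the kernel of the action
on `V`.  The congruence ideal `𝔠 = {x | Mrep x c ∈ p ℤ^r}` is a proper ideal containing `J'`, `p`
and all `t i - a i`; take `𝔫 ⊇ 𝔠` maximal and apply the Deligne–Serre lemma
(`S49.exists_eigenvector_character`, `S49.exists_maximal_over`) to `R ⧸ J'` acting on `V`.
-/

set_option autoImplicit false
set_option linter.style.haveILetI false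

namespace Fermat.Agent.S41.H61

open Matrix

/-- **CHAR**, interface. -/
def Stmt_Char : Prop :=
  ∀ (R : Type) [CommRing R], (∀ x : R, IsIntegral ℤ x) →
  ∀ (r : ℕ) (Mrep : R →+* Matrix (Fin r) (Fin r) ℤ) (p : ℕ) (c : Fin r → ℤ),
    (¬ ∀ i, (p : ℤ) ∣ c i) →
  ∀ (u : R), (Mrep (u ^ 2 - 1)).mulVec c = 0 →
  ∀ (ι : Type) (t : ι → R) (a : ι → ℤ),
    (∀ i j, (p : ℤ) ∣ ((Mrep (t i)).mulVec c - a i • c) j) →
    ∃ (χ : R →+* ℂ) (𝔪 : Ideal (integralClosure ℤ ℂ)), 𝔪.IsMaximal ∧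
      (p : integralClosure ℤ ℂ) ∈ 𝔪 ∧ χ u ^ 2 = 1 ∧
      ∀ i, ∃ α : integralClosure ℤ ℂ, (α : ℂ) = χ (t i) ∧
        α - ((a i : ℤ) : integralClosure ℤ ℂ) ∈ 𝔪

section

variable {R : Type*} [CommRing R] {r : ℕ}

/-- the action of `R` on `ℂ^r`. -/
noncomputable def charAct (Mrep : R →+* Matrix (Fin r) (Fin r) ℤ) :
    R →+* Module.End ℂ (Fin r → ℂ) :=
  ((Matrix.toLinAlgEquiv' : Matrix (Fin r) (Fin r) ℂ ≃ₐ[ℂ] Module.End ℂ (Fin r → ℂ)) :
      Matrix (Fin r) (Fin r) ℂ →+* Module.End ℂ (Fin r → ℂ)).comp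
    ((Int.castRingHom ℂ).mapMatrix.comp Mrep)

theorem charAct_apply (Mrep : R →+* Matrix (Fin r) (Fin r) ℤ) (x : R) (v : Fin r → ℂ) :
    charAct Mrep x v = ((Mrep x).map (Int.castRingHom ℂ)).mulVec v := rfl

theorem charAct_cast (Mrep : R →+* Matrix (Fin r) (Fin r) ℤ) (x : R) (c : Fin r → ℤ) :
    charAct Mrep x (fun i => (c i : ℂ)) = fun i => (((Mrep x).mulVec c) i : ℂ) := by
  rw [charAct_apply]
  funext i
  exact (RingHom.map_mulVec (Int.castRingHom ℂ) (Mrep x) c i).symm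

/-- the congruence ideal. -/
def charIdeal (Mrep : R →+* Matrix (Fin r) (Fin r) ℤ) (p : ℕ) (c : Fin r → ℤ) : Ideal R where
  carrier := {x | ∃ w : Fin r → ℤ, (Mrep x).mulVec c = (p : ℤ) • w}
  zero_mem' := ⟨0, by simp⟩
  add_mem' := by
    rintro x y ⟨w, hw⟩ ⟨w', hw'⟩
    exact ⟨w + w', by rw [map_add, Matrix.add_mulVec, hw, hw', smul_add]⟩
  smul_mem' := by
    rintro y x ⟨w, hw⟩
    refine ⟨(Mrep y).mulVec w, ?_⟩
    rw [smul_eq_mul, map_mul, ← Matrix.mulVec_mulVec, hw, Matrix.mulVec_smul]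

theorem mem_charIdeal (Mrep : R →+* Matrix (Fin r) (Fin r) ℤ) (p : ℕ) (c : Fin r → ℤ) (x : R) :
    x ∈ charIdeal Mrep p c ↔ ∃ w : Fin r → ℤ, (Mrep x).mulVec c = (p : ℤ) • w := Iff.rfl

theorem mem_charIdeal_of_dvd (Mrep : R →+* Matrix (Fin r) (Fin r) ℤ) (p : ℕ) (c : Fin r → ℤ)
    (x : R) (h : ∀ j, (p : ℤ) ∣ ((Mrep x).mulVec c) j) : x ∈ charIdeal Mrep p c := by
  choose w hw using h
  exact ⟨w, funext fun j => by rw [hw j]; rfl⟩

/-- **CHAR.** -/
theorem char_main (hint : ∀ x : R, IsIntegral ℤ x)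
    (Mrep : R →+* Matrix (Fin r) (Fin r) ℤ) (p : ℕ) (c : Fin r → ℤ)
    (hc : ¬ ∀ i, (p : ℤ) ∣ c i) (u : R) (hu : (Mrep (u ^ 2 - 1)).mulVec c = 0)
    {ι : Type*} (t : ι → R) (a : ι → ℤ)
    (ht : ∀ i j, (p : ℤ) ∣ ((Mrep (t i)).mulVec c - a i • c) j) :
    ∃ (χ : R →+* ℂ) (𝔪 : Ideal (integralClosure ℤ ℂ)), 𝔪.IsMaximal ∧
      (p : integralClosure ℤ ℂ) ∈ 𝔪 ∧ χ u ^ 2 = 1 ∧
      ∀ i, ∃ α : integralClosure ℤ ℂ, (α : ℂ) = χ (t i) ∧
        α - ((a i : ℤ) : integralClosure ℤ ℂ) ∈ 𝔪 := by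
  classical
  set Φ := charAct Mrep with hΦ
  -- the stable subspace
  set V : Submodule ℂ (Fin r → ℂ) := LinearMap.ker (Φ (u ^ 2 - 1)) with hV
  have hstab : ∀ x : R, ∀ v ∈ V, Φ x v ∈ V := by
    intro x v hv
    rw [hV, LinearMap.mem_ker] at hv ⊢
    have h1 : Φ (u ^ 2 - 1) (Φ x v) = Φ x (Φ (u ^ 2 - 1) v) := by
      rw [← Module.End.mul_apply, ← Module.End.mul_apply, ← map_mul, ← map_mul, mul_comm]
    rw [h1, hv, map_zero]
  let φ₀ : R →+* Module.End ℂ V :=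
    { toFun := fun x => (Φ x).restrict (hstab x)
      map_one' := by
        apply LinearMap.ext
        intro v
        apply Subtype.ext
        simp [LinearMap.restrict_apply]
      map_mul' := fun x y => by
        apply LinearMap.ext
        intro v
        apply Subtype.ext
        simp [LinearMap.restrict_apply, Module.End.mul_apply]
      map_zero' := by
        apply LinearMap.ext
        intro v
        apply Subtype.ext
        simp [LinearMap.restrict_apply]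
      map_add' := fun x y => by
        apply LinearMap.ext
        intro v
        apply Subtype.ext
        simp [LinearMap.restrict_apply] }
  have hφ₀ : ∀ (x : R) (v : V), ((φ₀ x v : V) : Fin r → ℂ) = Φ x v := fun x v => rfl
  -- the vector `c`
  have hcV : (fun i => (c i : ℂ)) ∈ V := by
    rw [hV, LinearMap.mem_ker, hΦ, charAct_cast, hu]
    funext i
    simp
  -- the congruence ideal
  set 𝔠 := charIdeal Mrep p c with h𝔠
  have h𝔠ne : 𝔠 ≠ ⊤ := by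
    intro h
    have h1 : (1 : R) ∈ 𝔠 := by rw [h]; trivial
    obtain ⟨w, hw⟩ := h1
    rw [map_one, Matrix.one_mulVec] at hw
    apply hc
    intro i
    rw [hw]
    exact ⟨w i, rfl⟩
  have hker : RingHom.ker φ₀ ≤ 𝔠 := by
    intro x hx
    rw [RingHom.mem_ker] at hx
    refine ⟨0, ?_⟩
    have h1 : Φ x (fun i => (c i : ℂ)) = 0 := by
      have := congrArg (fun f : Module.End ℂ V => ((f ⟨_, hcV⟩ : V) : Fin r → ℂ)) hx
      simpa [hφ₀] using this
    rw [hΦ, charAct_cast] at h1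
    rw [smul_zero]
    funext i
    have := congrFun h1 i
    simpa using this
  have hp𝔠 : (p : R) ∈ 𝔠 := by
    refine ⟨c, ?_⟩
    rw [map_natCast]
    funext i
    simp [Matrix.mulVec, dotProduct, Matrix.natCast_apply, Finset.sum_ite_eq]
  have ht𝔠 : ∀ i, t i - ((a i : ℤ) : R) ∈ 𝔠 := by
    intro i
    apply mem_charIdeal_of_dvd
    intro j
    have h1 : (Mrep (t i - ((a i : ℤ) : R))).mulVec c = (Mrep (t i)).mulVec c - a i • c := by
      rw [map_sub, map_intCast, Matrix.sub_mulVec]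
      congr 1
      funext k
      simp [Matrix.mulVec, dotProduct, Matrix.intCast_apply, Finset.sum_ite_eq]
    rw [h1]
    exact ht i j
  obtain ⟨𝔫, h𝔫max, h𝔠𝔫⟩ := Ideal.exists_le_maximal 𝔠 h𝔠ne
  haveI h𝔫prime : 𝔫.IsPrime := h𝔫max.isPrime
  -- the quotient acting faithfully
  set J' := RingHom.ker φ₀ with hJ'
  have hJ'𝔫 : J' ≤ 𝔫 := hker.trans h𝔠𝔫
  let φ : R ⧸ J' →+* Module.End ℂ V := RingHom.kerLift φ₀
  have hφinj : Function.Injective φ := RingHom.kerLift_injective φ₀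
  have hmk : Function.Surjective (Ideal.Quotient.mk J') := Ideal.Quotient.mk_surjective
  haveI hI₁ : (𝔫.map (Ideal.Quotient.mk J')).IsPrime :=
    Ideal.map_isPrime_of_surjective hmk (by rw [Ideal.mk_ker]; exact hJ'𝔫)
  obtain ⟨χ₁, -, -, -, hχ₁⟩ :=
    Fermat.Agent.S49.exists_eigenvector_character φ hφinj (𝔫.map (Ideal.Quotient.mk J'))
  set χ : R →+* ℂ := χ₁.comp (Ideal.Quotient.mk J') with hχ
  have hχker : RingHom.ker χ ≤ 𝔫 := by
    intro x hx
    rw [RingHom.mem_ker, hχ, RingHom.comp_apply] at hx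
    have h1 : Ideal.Quotient.mk J' x ∈ 𝔫.map (Ideal.Quotient.mk J') := hχ₁ hx
    have h2 : x ∈ (𝔫.map (Ideal.Quotient.mk J')).comap (Ideal.Quotient.mk J') := h1
    rw [Ideal.comap_map_of_surjective _ hmk, ← RingHom.ker_eq_comap_bot, Ideal.mk_ker,
      sup_eq_left.mpr hJ'𝔫] at h2
    exact h2
  obtain ⟨χ', 𝔪, hχ', h𝔪max, h𝔪⟩ := Fermat.Agent.S49.exists_maximal_over hint χ 𝔫 hχker
  refine ⟨χ, 𝔪, h𝔪max, ?_, ?_, ?_⟩
  · have := h𝔪 (p : R) (h𝔠𝔫 hp𝔠)
    rwa [map_natCast] at this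
  · have h1 : u ^ 2 - 1 ∈ J' := by
      rw [hJ', RingHom.mem_ker]
      apply LinearMap.ext
      intro v
      apply Subtype.ext
      rw [hφ₀]
      have h3 : (v : Fin r → ℂ) ∈ LinearMap.ker (Φ (u ^ 2 - 1)) := v.2
      rw [LinearMap.mem_ker] at h3
      rw [h3]
      rfl
    have h2 : χ (u ^ 2 - 1) = 0 := by
      rw [hχ, RingHom.comp_apply, Ideal.Quotient.eq_zero_iff_mem.mpr h1, map_zero]
    rw [map_sub, map_pow, map_one, sub_eq_zero] at h2
    exact h2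
  · intro i
    refine ⟨χ' (t i), hχ' _, ?_⟩
    have := h𝔪 _ (h𝔠𝔫 (ht𝔠 i))
    rwa [map_sub, map_intCast] at this

end

/-- **CHAR**, in the interface form. -/
theorem stmt_Char : Stmt_Char := by
  intro R _ hint r Mrep p c hc u hu ι t a ht
  exact char_main hint Mrep p c hc u hu t a ht

/-- **CHAR** for rings which are finitely generated `ℤ`-modules. -/
theorem char_of_finite {R : Type*} [CommRing R] [Module.Finite ℤ R] {r : ℕ}
    (Mrep : R →+* Matrix (Fin r) (Fin r) ℤ) (p : ℕ) (c : Fin r → ℤ)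
    (hc : ¬ ∀ i, (p : ℤ) ∣ c i) (u : R) (hu : (Mrep (u ^ 2 - 1)).mulVec c = 0)
    {ι : Type*} (t : ι → R) (a : ι → ℤ)
    (ht : ∀ i j, (p : ℤ) ∣ ((Mrep (t i)).mulVec c - a i • c) j) :
    ∃ (χ : R →+* ℂ) (𝔪 : Ideal (integralClosure ℤ ℂ)), 𝔪.IsMaximal ∧
      (p : integralClosure ℤ ℂ) ∈ 𝔪 ∧ χ u ^ 2 = 1 ∧
      ∀ i, ∃ α : integralClosure ℤ ℂ, (α : ℂ) = χ (t i) ∧
        α - ((a i : ℤ) : integralClosure ℤ ℂ) ∈ 𝔪 :=
  char_main (fun x => IsIntegral.of_finite ℤ x) Mrep p c hc u hu t a ht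

end Fermat.Agent.S41.H61
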