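import Fermat.Agent.S41.H19_IharaDefs
import Fermat.Agent.S41.H19_I3Core
import Fermat.Agent.S41.H41_KumDefs
import Fermat.Agent.S41.H41_KumA
import Fermat.Agent.S41.H78_DGrpStmt
import Fermat.Agent.L.H52_RecUncond
import Fermat.Agent.L.H19_TorsLevel
import Fermat.Agent.Lib.FrobDensity.H47_Bridge2
import Fermat.Agent.Lib.EllFinite.Main

/-!
# S41, I2 leaf D (Step 5, auxiliary primes): assembly (helper61)

`stmt_IhD_of`: `Stmt_IhD` from

* D-KUM (helper41): `Stmt_KumA`, `Stmt_KumHom`, `Stmt_KumB1`, `Stmt_KumB2`,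
* D-GRP (helper78): `Stmt_DGRP`,
* two-sided Frobenius density `Stmt_FD2` and item 62 (`EllFinite.Stmt_main`).

Proof.  Suppose that every good prime `ℓ ∉ S` with `ℓ ≡ 1 mod M` and `q ^ ((ℓ-1)/p) ≠ 1` in
`ZMod ℓ` has `a_ℓ ≡ 2 mod p`.  Let `ζ` be a primitive `M`-th root of unity, `y ^ p = q`,
`H = Stab(ζ)` and `κ` the Kummer character of `H`.  For `g ∈ H` with `κ g ≠ 1`, Frobenius density
in `L = L₀(ζ, y)` (`L₀` a level of `E[p]`) gives a Frobenius element `σ` at a good `ℓ` with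
`σ ^ j = g` and `g ^ j' = σ` on `L`; then `σ` fixes `ζ` and moves `y`, so `ℓ` is one of the primes
above and `ρ(σ)` has trace `2` and determinant `ℓ = 1`, hence so has `ρ(g) = ρ(σ) ^ j`.  By D-GRP
there is a stable line, contradicting irreducibility.
-/

set_option autoImplicit false
set_option linter.style.haveILetI false

open WeierstrassCurve WeierstrassCurve.Affine WeierstrassCurve.Affine.Point

namespace Fermat.Agent.S41.H61

/-- `ℚ̄`. -/
local notation "Qb" => AlgebraicClosure ℚ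
/-- the absolute Galois group of `ℚ`. -/
local notation "GQ" => (AlgebraicClosure ℚ ≃ₐ[ℚ] AlgebraicClosure ℚ)

/-- commutators fix roots of unity. -/
theorem commutator_fix_root {M : ℕ} (hM : 0 < M) {ζ : Qb} (hζ : IsPrimitiveRoot ζ M)
    (g h : GQ) : (g * h * g⁻¹ * h⁻¹) ζ = ζ := by
  have h1 : g⁻¹ (h⁻¹ ζ) = h⁻¹ (g⁻¹ ζ) := Fermat.Agent.S41.H41.map_map_root_comm hM hζ g⁻¹ h⁻¹
  rw [AlgEquiv.mul_apply, AlgEquiv.mul_apply, AlgEquiv.mul_apply, h1]
  have h2 : h (h⁻¹ (g⁻¹ ζ)) = g⁻¹ ζ := by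
    rw [← AlgEquiv.mul_apply, mul_inv_cancel, AlgEquiv.one_apply]
  rw [h2, ← AlgEquiv.mul_apply, mul_inv_cancel, AlgEquiv.one_apply]

/-- powers of an automorphism fixing a point fix it. -/
theorem pow_apply_of_fix (g : GQ) (x : Qb) (h : g x = x) (n : ℕ) : (g ^ n) x = x := by
  induction n with
  | zero => simp
  | succ n ih => rw [pow_succ, AlgEquiv.mul_apply, h, ih]

/-- a unipotent endomorphism of a plane: all powers have trace `2` and determinant `1`. -/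
theorem unip_pow_end {F : Type*} [Field F] {V : Type*} [AddCommGroup V] [Module F V]
    (hV : Module.finrank F V = 2) (u : V →ₗ[F] V) (ht : LinearMap.trace F V u = 2)
    (hd : LinearMap.det u = 1) (j : ℕ) :
    LinearMap.trace F V (u ^ j) = 2 ∧ LinearMap.det (u ^ j) = 1 := by
  have hdj : LinearMap.det (u ^ j) = 1 := by rw [map_pow, hd, one_pow]
  refine ⟨?_, hdj⟩
  rw [Fermat.Agent.S41.H19.trace_pow_of_trace_eq hV u (by rw [ht, hd]; norm_num) j, hdj]
  norm_num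

/-- no elements of order two in `Multiplicative (ZMod p)`, `p` odd. -/
theorem mul_self_eq_one_zmod {p : ℕ} [Fact p.Prime] (hp2 : p ≠ 2) (x : Multiplicative (ZMod p))
    (h : x * x = 1) : x = 1 := by
  have h1 : Multiplicative.toAdd x + Multiplicative.toAdd x = 0 := by
    have := congrArg Multiplicative.toAdd h
    simpa using this
  have h2 : (2 : ZMod p) * Multiplicative.toAdd x = 0 := by rw [two_mul]; exact h1
  have h3 : Multiplicative.toAdd x = 0 := by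
    rcases mul_eq_zero.mp h2 with h | h
    · exact absurd h (Fermat.Agent.L.H52.two_ne_zero_zmod hp2)
    · exact h
  exact Multiplicative.toAdd.injective (by rw [h3]; rfl)

/-- **Leaf D from its inputs.** -/
theorem stmt_IhD_of (hKA : Fermat.Agent.S41.H41.Stmt_KumA)
    (hKH : Fermat.Agent.S41.H41.Stmt_KumHom) (hB1 : Fermat.Agent.S41.H41.Stmt_KumB1)
    (hB2 : Fermat.Agent.S41.H41.Stmt_KumB2) (hG : Fermat.Agent.S41.H78.Stmt_DGRP)
    (hFD : Fermat.Agent.Lib.FrobDensity.H47.Stmt_FD2)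
    (hmain : Fermat.Agent.Lib.EllFinite.Stmt_main) :
    Fermat.Agent.S41.Ihara.Stmt_IhD := by
  intro E _ W hW p q hp hp2 hq hqp hirr M hM hpM S
  classical
  by_contra hcon
  simp only [not_exists, not_and, not_not] at hcon
  haveI : Fact p.Prime := ⟨hp⟩
  obtain ⟨C, hC⟩ := hW
  -- the discriminant
  have hΔ : W.Δ ≠ 0 := by
    have h1 : E.Δ ≠ 0 := E.isUnit_Δ.ne_zero
    have h2 : (C • E).Δ ≠ 0 := by
      rw [WeierstrassCurve.variableChange_Δ]
      exact mul_ne_zero (pow_ne_zero _ (Units.ne_zero _)) h1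
    rw [hC, WeierstrassCurve.map_Δ] at h2
    intro h0
    exact h2 (by rw [h0, _root_.map_zero])
  -- irreducibility for the integral model
  have hirr' : GaloisRepIsIrreducible (K := AlgebraicClosure ℚ) ℚ
      (W.map (Int.castRingHom ℚ)).toAffine p :=
    Fermat.Agent.L.H19.irreducible_of_variableChange hC p hirr
  -- dimension two, level
  have hfr : Module.finrank (ZMod p) (Fermat.Agent.L.H52.TorsQ (Fermat.Agent.L.H52.WQ W) p) = 2 :=
    Fermat.Agent.L.H52.finrank_tors_main hΔ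
  haveI : Module.Finite (ZMod p) (Fermat.Agent.L.H52.TorsQ (Fermat.Agent.L.H52.WQ W) p) :=
    Module.finite_of_finrank_eq_succ hfr
  haveI : Finite (Fermat.Agent.L.H52.TorsQ (Fermat.Agent.L.H52.WQ W) p) :=
    Module.finite_of_finite (ZMod p)
  obtain ⟨L₀, hL₀, hfix⟩ := Fermat.Agent.L.H52.exists_level (Fermat.Agent.L.H52.WQ W) p
  set ρ := Fermat.Agent.L.H52.rhoW W p with hρdef
  have hρ1 : ∀ τ : GQ, (∀ x ∈ L₀, τ x = x) → ρ τ = 1 := by
    intro τ hτ
    refine LinearMap.ext fun v => ?_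
    rw [hρdef, galoisRepModuleEnd_apply, Module.End.one_apply]
    exact hfix τ hτ v
  -- roots
  haveI : NeZero M := ⟨hM.ne'⟩
  obtain ⟨ζ, hζ⟩ := HasEnoughRootsOfUnity.exists_primitiveRoot Qb M
  obtain ⟨y, hy⟩ := IsAlgClosed.exists_pow_nat_eq ((q : ℕ) : Qb) (n := p) hp.pos
  -- the subgroup `H`
  set H : Subgroup GQ := MulAction.stabilizer GQ ζ with hH
  have hHmem : ∀ g : GQ, g ∈ H ↔ g ζ = ζ := fun g => by
    rw [hH, MulAction.mem_stabilizer_iff, AlgEquiv.smul_def]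
  have hHcomm : ∀ g g' : GQ, g * g' * g⁻¹ * g'⁻¹ ∈ H := fun g g' =>
    (hHmem _).mpr (commutator_fix_root hM hζ g g')
  obtain ⟨κ, hκ⟩ := hKH p q M hp hq hM hpM ζ y hζ hy H (fun g hg => (hHmem g).mp hg)
  -- the field `L`
  set L₁ : IntermediateField ℚ Qb := IntermediateField.adjoin ℚ ({ζ, y} : Set Qb) with hL₁
  haveI halg : Algebra.IsAlgebraic ℚ Qb := AlgebraicClosure.isAlgebraic ℚ
  have hL₁fd : FiniteDimensional ℚ L₁ :=
    IntermediateField.finiteDimensional_adjoin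
      (fun x _ => (Algebra.IsAlgebraic.isAlgebraic x).isIntegral)
  haveI := hL₀
  haveI := hL₁fd
  have hζL : ζ ∈ L₀ ⊔ L₁ :=
    (le_sup_right : L₁ ≤ L₀ ⊔ L₁) (IntermediateField.subset_adjoin ℚ _ (by simp))
  have hyL : y ∈ L₀ ⊔ L₁ :=
    (le_sup_right : L₁ ≤ L₀ ⊔ L₁) (IntermediateField.subset_adjoin ℚ _ (by simp))
  -- the bad set
  set S' : Finset ℕ := S ∪ (M * p * q * W.Δ.natAbs).primeFactors with hS'
  have hne : M * p * q * W.Δ.natAbs ≠ 0 :=
    mul_ne_zero (mul_ne_zero (mul_ne_zero hM.ne' hp.ne_zero) hq.ne_zero)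
      (Int.natAbs_ne_zero.mpr hΔ)
  have hgood : ∀ ℓ : ℕ, ℓ.Prime → ℓ ∉ S' →
      ℓ ∉ S ∧ W.IsGoodPrimeFor ℓ ∧ ¬ ℓ ∣ M ∧ ℓ ≠ p ∧ ℓ ≠ q := by
    intro ℓ hℓ hℓS
    rw [hS', Finset.mem_union, not_or] at hℓS
    have hnd : ¬ ℓ ∣ M * p * q * W.Δ.natAbs := fun hd =>
      hℓS.2 (by rw [Nat.mem_primeFactors]; exact ⟨hℓ, hd, hne⟩)
    refine ⟨hℓS.1, ?_, ?_, ?_, ?_⟩
    · intro hd
      apply hnd
      exact Dvd.dvd.mul_left (Int.natCast_dvd.mp hd) _
    · intro hd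
      exact hnd (Dvd.dvd.mul_right (Dvd.dvd.mul_right (Dvd.dvd.mul_right hd p) q) _)
    · intro hd
      apply hnd
      rw [hd]
      exact Dvd.dvd.mul_right (Dvd.dvd.mul_right (dvd_mul_left p M) q) _
    · intro hd
      apply hnd
      rw [hd]
      exact Dvd.dvd.mul_right (dvd_mul_left q (M * p)) _
  -- unipotence on `D`
  have hunip : ∀ g : H, κ g ≠ 1 →
      LinearMap.trace (ZMod p) _ (ρ g) = 2 ∧ LinearMap.det (ρ (g : GQ)) = 1 := by
    intro g hg
    have hgy : (g : GQ) y ≠ y := fun h => hg ((hκ g).mpr h)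
    have hgζ : (g : GQ) ζ = ζ := (hHmem _).mp g.2
    obtain ⟨ℓ, A, σ, j, j', hℓ, hℓS, hA, hσ, hσj, hgj⟩ := hFD S' (L₀ ⊔ L₁) inferInstance g
    obtain ⟨hℓS0, hℓgood, hℓM, hℓp, hℓq⟩ := hgood ℓ hℓ hℓS
    have hσζ : σ ζ = ζ := by
      rw [← hgj ζ hζL]
      exact pow_apply_of_fix _ _ hgζ j'
    have hσy : σ y ≠ y := by
      intro h
      apply hgy
      rw [← hσj y hyL]
      exact pow_apply_of_fix _ _ h j
    have hmod : ℓ % M = 1 % M := hB1 ℓ M hℓ hM hℓM A σ hA hσ ζ hζ hσζ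
    have hMdvd : M ∣ ℓ - 1 := (Nat.modEq_iff_dvd' hℓ.one_le).mp (Nat.ModEq.symm hmod)
    have hpdvd : p ∣ ℓ - 1 := dvd_trans hpM hMdvd
    have hkum : (q : ZMod ℓ) ^ ((ℓ - 1) / p) ≠ 1 :=
      hB2 ℓ p q hℓ hp hq hℓp hℓq hpdvd A σ hA hσ y hy hσy
    have hap : ((W.apOfModel ℓ : ℤ) : ZMod p) = 2 := hcon ℓ hℓ hℓS0 hℓgood hmod hkum
    obtain ⟨-, htr, hdet⟩ := hmain W p ℓ hℓ (Ne.symm hℓp) hℓgood A hA σ hσ
    have hℓ1 : (ℓ : ZMod p) = 1 := by
      have h1 : ((ℓ - 1 : ℕ) : ZMod p) = 0 := (ZMod.natCast_eq_zero_iff _ _).mpr hpdvd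
      rw [Nat.cast_sub hℓ.one_le, Nat.cast_one, sub_eq_zero] at h1
      exact h1
    have hρg : ρ (g : GQ) = ρ σ ^ j := by
      rw [← map_pow]
      exact (Fermat.Agent.L.H52.map_eq_of_agree ρ L₀ hρ1
        (fun x hx => hσj x ((le_sup_left : L₀ ≤ L₀ ⊔ L₁) hx))).symm
    rw [hρg]
    apply unip_pow_end hfr
    · rw [← galoisTrace_def, htr, hap]
    · rw [hdet, hℓ1]
  -- `D` is not empty
  obtain ⟨s₀, hs₀ζ, hs₀y⟩ := hKA p q M hp hp2 hq hM hpM ζ y hζ hy
  have hex : ∃ s : H, κ s ≠ 1 :=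
    ⟨⟨s₀, (hHmem _).mpr hs₀ζ⟩, fun h => hs₀y ((hκ ⟨s₀, (hHmem _).mpr hs₀ζ⟩).mp h)⟩
  -- the stable line
  obtain ⟨v, hv0, hv⟩ := hG (ZMod p) (Fermat.Agent.L.H52.two_ne_zero_zmod hp2) _ hfr GQ ρ H hHcomm
    (Multiplicative (ZMod p)) κ (fun g hg => mul_self_eq_one_zmod hp2 _ hg) hex hunip
    ⟨complexConjugation, complexConjugation_mul_self,
      Fermat.Agent.L.H52.det_complexConjugation_main hΔ⟩
  have hst : IsGaloisStable ℚ (Submodule.span (ZMod p) {v}) := by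
    intro σ x hx
    obtain ⟨a, rfl⟩ := Submodule.mem_span_singleton.mp hx
    obtain ⟨c, hc⟩ := hv σ
    rw [hρdef, galoisRepModuleEnd_apply] at hc
    rw [smul_comm, hc, smul_smul]
    exact Submodule.smul_mem _ _ (Submodule.mem_span_singleton_self v)
  rcases hirr'.2 _ hst with h0 | h1
  · apply hv0
    have : v ∈ Submodule.span (ZMod p) {v} := Submodule.mem_span_singleton_self v
    rw [h0] at this
    exact (Submodule.mem_bot _).mp this
  · have h2 : Module.finrank (ZMod p) (Submodule.span (ZMod p) {v}) = 1 :=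
      finrank_span_singleton hv0
    rw [h1, finrank_top, hfr] at h2
    exact absurd h2 (by norm_num)

end Fermat.Agent.S41.H61
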