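import Mathlib.LinearAlgebra.Matrix.ToLin
import Mathlib.LinearAlgebra.Matrix.Trace
import Mathlib.LinearAlgebra.Trace
import Mathlib.LinearAlgebra.Determinant
import Mathlib.LinearAlgebra.Matrix.Determinant.Basic
import Mathlib.LinearAlgebra.Dimension.Free
import Mathlib.LinearAlgebra.FiniteDimensional.Lemmas
import Mathlib.Tactic.LinearCombination
import Mathlib.Tactic.FinCases

/-!
# S41, I2 (Kummer–Hecke proof of Ihara's lemma), Step 5: linear algebra (helper61)

* `mul_eq_zero_of_nilpotent`: two nilpotent `2 × 2` matrices `m, n` (trace and determinant zero)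
  over a field with `tr (m n) = 0` satisfy `m n = 0`.
* `exists_fixed_vector`: a group `H` acting on a `2`-dimensional space over a field of
  characteristic `≠ 2`, and a predicate `P` on `H` ("the Kummer character is nontrivial at `g`")
  such that `P` holds somewhere, two of `g, g s, g s²` satisfy `P` whenever `P s`, and every `g`
  with `P g` is unipotent (trace `2`, determinant `1`).  Then `H` has a common nonzero fixed
  vector.
-/

set_option autoImplicit false
set_option linter.all false

namespace Fermat.Agent.S41.H61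

open Matrix

variable {F : Type*} [Field F]

/-- entries of a `2 × 2` matrix with trace and determinant zero. -/
lemma nilp_entries (m : Matrix (Fin 2) (Fin 2) F) (ht : m.trace = 0) (hd : m.det = 0) :
    m 1 1 = -m 0 0 ∧ m 0 0 ^ 2 + m 0 1 * m 1 0 = 0 := by
  rw [Matrix.trace_fin_two] at ht
  rw [Matrix.det_fin_two] at hd
  have h11 : m 1 1 = -m 0 0 := by linear_combination ht
  refine ⟨h11, ?_⟩
  rw [h11] at hd
  linear_combination -hd

/-- two nilpotent `2 × 2` matrices with `tr (m n) = 0` have product zero. -/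
theorem mul_eq_zero_of_nilpotent (m n : Matrix (Fin 2) (Fin 2) F)
    (hmt : m.trace = 0) (hmd : m.det = 0) (hnt : n.trace = 0) (hnd : n.det = 0)
    (hmn : (m * n).trace = 0) : m * n = 0 := by
  obtain ⟨hm11, hm⟩ := nilp_entries m hmt hmd
  obtain ⟨hn11, hn⟩ := nilp_entries n hnt hnd
  rw [Matrix.trace_fin_two, Matrix.mul_apply, Matrix.mul_apply, Fin.sum_univ_two,
    Fin.sum_univ_two, hm11, hn11] at hmn
  set e := m 0 0
  set b := m 0 1
  set c := m 1 0
  set α := n 0 0
  set β := n 0 1
  set γ := n 1 0
  -- R3 : 2 e α + b γ + c β = 0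
  have R3 : 2 * e * α + b * γ + c * β = 0 := by linear_combination hmn
  have W1 : e * α + b * γ = 0 := by
    have hsq : (e * α + b * γ) ^ 2 = 0 := by
      linear_combination (b * γ) * R3 - (β * γ) * hm + e ^ 2 * hn
    exact pow_eq_zero_iff (two_ne_zero) |>.mp hsq
  have W4 : c * β + e * α = 0 := by linear_combination R3 - W1
  have W2 : e * β - b * α = 0 := by
    have hsq : (e * β - b * α) ^ 2 = 0 := by
      linear_combination (-(b * β)) * R3 + β ^ 2 * hm + b ^ 2 * hn
    exact pow_eq_zero_iff (two_ne_zero) |>.mp hsq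
  have W3 : c * α - e * γ = 0 := by
    have hsq : (c * α - e * γ) ^ 2 = 0 := by
      linear_combination (-(c * γ)) * R3 + γ ^ 2 * hm + c ^ 2 * hn
    exact pow_eq_zero_iff (two_ne_zero) |>.mp hsq
  ext i j
  fin_cases i <;> fin_cases j
  · show (m * n) 0 0 = 0
    rw [Matrix.mul_apply, Fin.sum_univ_two]
    exact W1
  · show (m * n) 0 1 = 0
    rw [Matrix.mul_apply, Fin.sum_univ_two, hn11]
    linear_combination W2
  · show (m * n) 1 0 = 0
    rw [Matrix.mul_apply, Fin.sum_univ_two, hm11]
    linear_combination W3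
  · show (m * n) 1 1 = 0
    rw [Matrix.mul_apply, Fin.sum_univ_two, hm11, hn11]
    linear_combination W4

/-- `x - 1` has trace and determinant zero if `x` has trace `2` and determinant `1`. -/
lemma sub_one_nilp (x : Matrix (Fin 2) (Fin 2) F) (ht : x.trace = 2) (hd : x.det = 1) :
    (x - 1).trace = 0 ∧ (x - 1).det = 0 := by
  rw [Matrix.trace_fin_two] at ht
  rw [Matrix.det_fin_two] at hd
  constructor
  · rw [Matrix.trace_fin_two]
    simp only [Matrix.sub_apply, Matrix.one_apply_eq]
    linear_combination ht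
  · rw [Matrix.det_fin_two]
    simp only [Matrix.sub_apply, Matrix.one_apply_eq, Matrix.one_apply_ne (show (0 : Fin 2) ≠ 1 by decide),
      Matrix.one_apply_ne (show (1 : Fin 2) ≠ 0 by decide)]
    linear_combination hd - ht

/-- the square of a matrix with trace and determinant zero vanishes. -/
lemma sq_eq_zero_of_nilp (n : Matrix (Fin 2) (Fin 2) F) (ht : n.trace = 0) (hd : n.det = 0) :
    n * n = 0 := by
  apply mul_eq_zero_of_nilpotent n n ht hd ht hd
  obtain ⟨h11, h⟩ := nilp_entries n ht hd
  rw [Matrix.trace_fin_two, Matrix.mul_apply, Matrix.mul_apply, Fin.sum_univ_two,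
    Fin.sum_univ_two, h11]
  linear_combination 2 * h

/-- powers of `1 + N` with `N² = 0`. -/
lemma one_add_pow_of_sq_zero (N : Matrix (Fin 2) (Fin 2) F) (hN : N * N = 0) (j : ℕ) :
    (1 + N) ^ j = 1 + (j : F) • N := by
  induction j with
  | zero => simp
  | succ j ih =>
    rw [pow_succ, ih, mul_add, mul_one, add_mul, one_mul, Matrix.smul_mul, hN, smul_zero,
      add_zero]
    push_cast
    rw [add_smul, one_smul]
    abel

/-- a unipotent `2 × 2` matrix: all powers have trace `2` and determinant `1`. -/
theorem unip_pow (u : Matrix (Fin 2) (Fin 2) F) (ht : u.trace = 2) (hd : u.det = 1) (j : ℕ) :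
    (u ^ j).trace = 2 ∧ (u ^ j).det = 1 := by
  obtain ⟨hnt, hnd⟩ := sub_one_nilp u ht hd
  have hsq := sq_eq_zero_of_nilp (u - 1) hnt hnd
  have hu : u = 1 + (u - 1) := by abel
  have hpow : u ^ j = 1 + (j : F) • (u - 1) := by
    conv_lhs => rw [hu]
    exact one_add_pow_of_sq_zero (u - 1) hsq j
  refine ⟨?_, by rw [Matrix.det_pow, hd, one_pow]⟩
  rw [hpow, Matrix.trace_add, Matrix.trace_smul, hnt, smul_zero, add_zero, Matrix.trace_one]
  simp

/-- **matrix form of the fixed vector lemma.** -/
theorem exists_fixed_vector_matrix (h2 : (2 : F) ≠ 0) {H : Type*} [Group H]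
    (M : H →* Matrix (Fin 2) (Fin 2) F) (P : H → Prop) (hP1 : ∃ s, P s)
    (hP2 : ∀ g s, P s → (P g ∧ P (g * s)) ∨ (P g ∧ P (g * s * s)) ∨ (P (g * s) ∧ P (g * s * s)))
    (hU : ∀ g, P g → (M g).trace = 2 ∧ (M g).det = 1) :
    ∃ v : Fin 2 → F, v ≠ 0 ∧ ∀ g, (M g).mulVec v = v := by
  by_cases hall : ∀ s, P s → M s = 1
  · -- then `M = 1`
    obtain ⟨s0, hs0⟩ := hP1
    have hM : ∀ g, M g = 1 := by
      intro g
      rcases hP2 g s0 hs0 with h | h | h
      · exact hall g h.1
      · exact hall g h.1
      · have := hall (g * s0) h.1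
        rwa [map_mul, hall s0 hs0, mul_one] at this
    refine ⟨fun i => if i = 0 then 1 else 0, ?_, fun g => by rw [hM g, Matrix.one_mulVec]⟩
    intro h
    have := congrFun h 0
    simp at this
  · simp only [not_forall] at hall
    obtain ⟨s0, hs0, hu0⟩ := hall
    obtain ⟨ht0, hd0⟩ := hU s0 hs0
    set n : Matrix (Fin 2) (Fin 2) F := M s0 - 1 with hn
    obtain ⟨hnt, hnd⟩ := sub_one_nilp (M s0) ht0 hd0
    have hn0 : n ≠ 0 := fun h => hu0 (sub_eq_zero.mp h)
    have hnsq : n * n = 0 := sq_eq_zero_of_nilp n hnt hnd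
    have hu : M s0 = 1 + n := by rw [hn]; abel
    -- every `M g` fixes the image of `n`
    have key : ∀ g, M g * n = n := by
      intro g
      set x := M g with hx
      have e1 : (x * M s0).trace = x.trace + (x * n).trace := by
        rw [hu, mul_add, mul_one, Matrix.trace_add]
      have e2 : (x * M s0 * M s0).trace = x.trace + 2 * (x * n).trace := by
        have hsq1 : (1 + n) * (1 + n) = 1 + n + n := by
          rw [mul_add, mul_one, add_mul, one_mul, hnsq, add_zero]
        rw [hu, Matrix.mul_assoc, hsq1, mul_add, mul_add, mul_one, Matrix.trace_add,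
          Matrix.trace_add]
        ring
      have d1 : (x * M s0).det = x.det := by rw [Matrix.det_mul, hd0, mul_one]
      have d2 : (x * M s0 * M s0).det = x.det := by
        rw [Matrix.det_mul, Matrix.det_mul, hd0, mul_one, mul_one]
      have hfacts : x.trace = 2 ∧ x.det = 1 ∧ (x * n).trace = 0 := by
        rcases hP2 g s0 hs0 with ⟨ha, hb⟩ | ⟨ha, hb⟩ | ⟨ha, hb⟩
        · obtain ⟨t1, dd1⟩ := hU g ha
          obtain ⟨t2, dd2⟩ := hU (g * s0) hb
          rw [map_mul, ← hx] at t2
          rw [← hx] at t1 dd1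
          refine ⟨t1, dd1, ?_⟩
          rw [e1, t1] at t2
          linear_combination t2
        · obtain ⟨t1, dd1⟩ := hU g ha
          obtain ⟨t2, dd2⟩ := hU (g * s0 * s0) hb
          rw [map_mul, map_mul, ← hx] at t2
          rw [← hx] at t1 dd1
          refine ⟨t1, dd1, ?_⟩
          rw [e2, t1] at t2
          have : (2 : F) * (x * n).trace = 0 := by linear_combination t2
          rcases mul_eq_zero.mp this with h | h
          · exact absurd h h2
          · exact h
        · obtain ⟨t1, dd1⟩ := hU (g * s0) ha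
          obtain ⟨t2, dd2⟩ := hU (g * s0 * s0) hb
          rw [map_mul, ← hx] at t1 dd1
          rw [map_mul, map_mul, ← hx] at t2
          rw [e1] at t1
          rw [e2] at t2
          rw [d1] at dd1
          have h3 : (x * n).trace = 0 := by linear_combination t2 - t1
          refine ⟨?_, dd1, h3⟩
          rw [h3, add_zero] at t1
          exact t1
      obtain ⟨tx, dx, txn⟩ := hfacts
      obtain ⟨hmt, hmd⟩ := sub_one_nilp x tx dx
      have hmn : ((x - 1) * n).trace = 0 := by
        rw [sub_mul, one_mul, Matrix.trace_sub, txn, hnt, sub_zero]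
      have := mul_eq_zero_of_nilpotent (x - 1) n hmt hmd hnt hnd hmn
      rw [sub_mul, one_mul, sub_eq_zero] at this
      exact this
    -- a nonzero column of `n`
    have hcol : ∃ j : Fin 2, (fun i => n i j) ≠ 0 := by
      by_contra hcon
      simp only [not_exists, not_not] at hcon
      apply hn0
      ext i j
      exact congrFun (hcon j) i
    obtain ⟨j, hj⟩ := hcol
    refine ⟨fun i => n i j, hj, fun g => ?_⟩
    have := key g
    ext i
    have h1 := congrFun (congrFun this i) j
    rw [Matrix.mul_apply] at h1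
    rw [Matrix.mulVec, dotProduct]
    exact h1

/-- **fixed vector lemma** for a `2`-dimensional representation. -/
theorem exists_fixed_vector {V : Type*} [AddCommGroup V] [Module F V]
    (hV : Module.finrank F V = 2) (h2 : (2 : F) ≠ 0) {H : Type*} [Group H]
    (ρ : H →* Module.End F V) (P : H → Prop) (hP1 : ∃ s, P s)
    (hP2 : ∀ g s, P s → (P g ∧ P (g * s)) ∨ (P g ∧ P (g * s * s)) ∨ (P (g * s) ∧ P (g * s * s)))
    (hU : ∀ g, P g → LinearMap.trace F V (ρ g) = 2 ∧ LinearMap.det (ρ g) = 1) :
    ∃ v : V, v ≠ 0 ∧ ∀ g, ρ g v = v := by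
  classical
  haveI : Module.Finite F V := Module.finite_of_finrank_pos (by omega)
  let b : Module.Basis (Fin 2) F V := Module.finBasisOfFinrankEq F V hV
  let M : H →* Matrix (Fin 2) (Fin 2) F :=
    { toFun := fun g => LinearMap.toMatrix b b (ρ g)
      map_one' := by rw [map_one]; exact LinearMap.toMatrix_one b
      map_mul' := fun g h => by rw [map_mul]; exact LinearMap.toMatrix_mul b _ _ }
  have hM : ∀ g, M g = LinearMap.toMatrix b b (ρ g) := fun g => rfl
  have hUM : ∀ g, P g → (M g).trace = 2 ∧ (M g).det = 1 := by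
    intro g hg
    obtain ⟨t, d⟩ := hU g hg
    refine ⟨?_, ?_⟩
    · rw [hM, ← LinearMap.trace_eq_matrix_trace F b]; exact t
    · rw [hM, LinearMap.det_toMatrix]; exact d
  obtain ⟨v, hv0, hv⟩ := exists_fixed_vector_matrix h2 M P hP1 hP2 hUM
  refine ⟨b.equivFun.symm v, ?_, fun g => ?_⟩
  · intro h
    exact hv0 ((LinearEquiv.map_eq_zero_iff _).mp h)
  · have h1 := hv g
    rw [hM] at h1
    apply b.equivFun.injective
    have h2' : b.equivFun (ρ g (b.equivFun.symm v))
        = (LinearMap.toMatrix b b (ρ g)).mulVec (b.equivFun (b.equivFun.symm v)) := by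
      have := LinearMap.toMatrix_mulVec_repr b b (ρ g) (b.equivFun.symm v)
      ext i
      have h3 := congrFun this i
      simp only [Module.Basis.equivFun_apply] at h3 ⊢
      exact h3.symm
    rw [h2', LinearEquiv.apply_symm_apply, h1]

end Fermat.Agent.S41.H61
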