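import Fermat.Agent.S41.H19_IharaDefs
import Fermat.Agent.S41.H61_ChebAlg
import Fermat.Prelude.Def_EllipticCurve_FrobeniusTrace
import Fermat.Prelude.Def_FLTPrelim_Ramification

/-!
# S41, I2 leaf D (Step 5, auxiliary primes): interfaces of the sub-leaves (owner helper61)

`Stmt_IhD` (in `H19_IharaDefs.lean`) is assembled in `H61_Cheb.lean` from

* `Stmt_KumA` (D-KUM (a)): an automorphism of `ℚ̄` fixing `ζ_M` and moving `y = q^(1/p)`;
* `Stmt_KumB` (D-KUM (b)): a Frobenius element at `ℓ` fixing `ζ_M` and moving `y` forces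
  `ℓ ≡ 1 mod M` and `q ^ ((ℓ-1)/p) ≠ 1` in `ZMod ℓ`;
* `Stmt_Grp` (D-GRP): the group-theoretic lemma producing a proper nonzero stable subspace
  (its core, the common fixed vector of `H`, is `H61.exists_fixed_vector`, DONE);
* Frobenius density FD2, item 62 and `det ρ(c) = -1` (all DONE elsewhere).
-/

set_option autoImplicit false

namespace Fermat.Agent.S41.H61

/-- `ℚ̄`. -/
local notation "Qb" => AlgebraicClosure ℚ
/-- the absolute Galois group of `ℚ`. -/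
local notation "GQ" => (AlgebraicClosure ℚ ≃ₐ[ℚ] AlgebraicClosure ℚ)

/-- **D-KUM (a)**: `y = q^(1/p)` is moved by some automorphism fixing the `M`-th roots of unity
(`p` odd, `p ∣ M`). -/
def Stmt_KumA : Prop :=
  ∀ (p q M : ℕ), p.Prime → p ≠ 2 → q.Prime → 0 < M → p ∣ M →
    ∀ ζ y : Qb, IsPrimitiveRoot ζ M → y ^ p = (q : Qb) →
      ∃ σ : GQ, σ ζ = ζ ∧ σ y ≠ y

/-- **D-KUM (b)**: a Frobenius element at `ℓ ∤ M p q` which fixes `ζ_M` and moves `y = q^(1/p)`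
has `ℓ ≡ 1 mod M` and `q ^ ((ℓ-1)/p) ≠ 1` in `ZMod ℓ`. -/
def Stmt_KumB : Prop :=
  ∀ (p q M ℓ : ℕ), p.Prime → q.Prime → 0 < M → p ∣ M → ℓ.Prime → ℓ ≠ p → ℓ ≠ q → ¬ ℓ ∣ M →
    ∀ A : ValuationSubring Qb, A.LiesOverPrime ℓ →
    ∀ σ : GQ, A.IsFrobeniusAt σ ℓ →
    ∀ ζ y : Qb, IsPrimitiveRoot ζ M → y ^ p = (q : Qb) → σ ζ = ζ → σ y ≠ y →
      ℓ % M = 1 % M ∧ (q : ZMod ℓ) ^ ((ℓ - 1) / p) ≠ 1

/-- **D-GRP**: `G` acts on a `2`-dimensional `𝔽_p`-space (`p` odd), `H ≤ G` contains all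
commutators, `D` is a predicate (in the application `D g ↔ g y ≠ y`) which holds somewhere on `H`
and such that two of `g, g s, g s²` satisfy `D` whenever `g, s ∈ H` and `D s`; every `g ∈ H` with
`D g` is unipotent; `c` is an involution of determinant `-1`.  Then there is a proper nonzero
`G`-stable subspace. -/
def Stmt_Grp : Prop :=
  ∀ (p : ℕ) [Fact p.Prime], p ≠ 2 →
    ∀ (G V : Type) [Group G] [AddCommGroup V] [Module (ZMod p) V],
    Module.finrank (ZMod p) V = 2 →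
    ∀ (ρ : G →* Module.End (ZMod p) V) (H : Subgroup G) (D : G → Prop),
    (∀ g h : G, g * h * g⁻¹ * h⁻¹ ∈ H) →
    (∃ s ∈ H, D s) →
    (∀ g ∈ H, ∀ s ∈ H, D s →
      (D g ∧ D (g * s)) ∨ (D g ∧ D (g * s * s)) ∨ (D (g * s) ∧ D (g * s * s))) →
    (∀ g ∈ H, D g → LinearMap.trace (ZMod p) V (ρ g) = 2 ∧ LinearMap.det (ρ g) = 1) →
    ∀ c : G, c * c = 1 → LinearMap.det (ρ c) = -1 →
    ∃ N : Submodule (ZMod p) V, N ≠ ⊥ ∧ N ≠ ⊤ ∧ ∀ (g : G) (v : V), v ∈ N → ρ g v ∈ N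

end Fermat.Agent.S41.H61
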