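import Mathlib

/-!
# S41, package S (SUPP): the algebraic core (helper61)

`supp_alg`: `R` a commutative ring, `Mrep : R →+* Matrix (Fin r) (Fin r) ℤ` injective,
`𝔫` a proper ideal of `R` containing `p` (`p` prime).  Then there is a vector `c : Fin r → ℤ`,
not divisible by `p`, with `Mrep t c ∈ p ℤ^r` for all `t ∈ 𝔫`.

`supp_char`: the same for `𝔫 = χ'⁻¹(𝔪)`, `χ' : R →+* integralClosure ℤ ℂ`: if `χ' t ≡ a mod 𝔪`
(`a ∈ ℤ`) then `Mrep t c ≡ a c mod p`.

Proof: let `R` act on `L = ℤ^r` through the transposed matrices (a faithful action).  By Nakayama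
`𝔫 L ≠ L`; as `p L ⊆ 𝔫 L`, the image of `𝔫 L` in `𝔽_p^r` is a proper subspace, so it is killed
by a nonzero functional `v ↦ ∑ c_i v_i`; applied to the rows of `Mrep t` this is the claim.
-/

set_option autoImplicit false
set_option linter.style.haveILetI false

namespace Fermat.Agent.S41.H61

open Matrix

section

variable {R : Type*} [CommRing R] {r : ℕ}

/-- the transposed action of `R` on `ℤ^r`. -/
noncomputable def suppAct (Mrep : R →+* Matrix (Fin r) (Fin r) ℤ) :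
    R →+* Module.End ℤ (Fin r → ℤ) where
  toFun t := Matrix.toLin' (Mrep t)ᵀ
  map_one' := by rw [map_one, Matrix.transpose_one, Matrix.toLin'_one]; rfl
  map_mul' x y := by
    rw [mul_comm x y, map_mul, Matrix.transpose_mul, Matrix.toLin'_mul]
    rfl
  map_zero' := by rw [map_zero, Matrix.transpose_zero, map_zero]
  map_add' x y := by rw [map_add, Matrix.transpose_add, map_add]

theorem suppAct_apply (Mrep : R →+* Matrix (Fin r) (Fin r) ℤ) (t : R) (v : Fin r → ℤ) :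
    suppAct Mrep t v = (Mrep t)ᵀ.mulVec v := rfl

/-- **SUPP, algebraic core.** -/
theorem supp_alg (Mrep : R →+* Matrix (Fin r) (Fin r) ℤ) (hinj : Function.Injective Mrep)
    (p : ℕ) (hp : p.Prime) (𝔫 : Ideal R) (h𝔫 : 𝔫 ≠ ⊤) (hp𝔫 : (p : R) ∈ 𝔫) :
    ∃ c : Fin r → ℤ, (¬ ∀ i, (p : ℤ) ∣ c i) ∧
      ∀ t ∈ 𝔫, ∀ j, (p : ℤ) ∣ ((Mrep t).mulVec c) j := by
  classical
  haveI : Fact p.Prime := ⟨hp⟩
  letI : Module R (Fin r → ℤ) := Module.compHom (Fin r → ℤ) (suppAct Mrep)
  have hsmul : ∀ (t : R) (v : Fin r → ℤ), t • v = (Mrep t)ᵀ.mulVec v := fun t v => rfl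
  haveI : Module.Finite R (Fin r → ℤ) := Module.Finite.of_restrictScalars_finite ℤ R _
  -- Nakayama
  have hne : ¬ (⊤ : Submodule R (Fin r → ℤ)) ≤ 𝔫 • (⊤ : Submodule R (Fin r → ℤ)) := by
    intro hle
    obtain ⟨t, ht1, ht0⟩ := Submodule.exists_sub_one_mem_and_smul_eq_zero_of_fg_of_le_smul 𝔫
      (⊤ : Submodule R (Fin r → ℤ)) Module.Finite.fg_top hle
    have h1 : (Mrep t)ᵀ = 0 := by
      apply Matrix.toLin'.injective
      apply LinearMap.ext
      intro v
      have := ht0 v trivial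
      rw [hsmul] at this
      rw [Matrix.toLin'_apply, this, map_zero]
      rfl
    have h2 : Mrep t = 0 := by
      have := congrArg Matrix.transpose h1
      rwa [Matrix.transpose_transpose, Matrix.transpose_zero] at this
    have h3 : t = 0 := hinj (by rw [h2, map_zero])
    rw [h3, zero_sub] at ht1
    apply h𝔫
    rw [Ideal.eq_top_iff_one]
    have := 𝔫.neg_mem ht1
    rwa [neg_neg] at this
  obtain ⟨v₀, hv₀⟩ : ∃ v₀ : Fin r → ℤ, v₀ ∉ 𝔫 • (⊤ : Submodule R (Fin r → ℤ)) := by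
    by_contra h
    simp only [not_exists, not_not] at h
    exact hne (fun v _ => h v)
  -- `p L ⊆ 𝔫 L`
  have hpL : ∀ w : Fin r → ℤ, (p : ℤ) • w ∈ 𝔫 • (⊤ : Submodule R (Fin r → ℤ)) := by
    intro w
    have h1 : (p : R) • w ∈ 𝔫 • (⊤ : Submodule R (Fin r → ℤ)) :=
      Submodule.smul_mem_smul hp𝔫 trivial
    have h2 : (p : R) • w = (p : ℤ) • w := by
      rw [hsmul, map_natCast]
      funext i
      simp [Matrix.mulVec, dotProduct, Matrix.transpose_apply, Matrix.natCast_apply]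
    rwa [h2] at h1
  -- reduction modulo `p`
  let π : (Fin r → ℤ) →+ (Fin r → ZMod p) :=
    { toFun := fun v i => (v i : ZMod p)
      map_zero' := by funext i; simp
      map_add' := fun v w => by funext i; simp }
  have hπ : ∀ (v : Fin r → ℤ) (i : Fin r), π v i = (v i : ZMod p) := fun v i => rfl
  have hπker : ∀ v : Fin r → ℤ, π v = 0 → ∃ w : Fin r → ℤ, v = (p : ℤ) • w := by
    intro v hv
    have h1 : ∀ i, (p : ℤ) ∣ v i := by
      intro i
      have := congrFun hv i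
      rw [hπ] at this
      exact (ZMod.intCast_zmod_eq_zero_iff_dvd _ _).mp this
    choose w hw using h1
    exact ⟨w, funext fun i => by rw [hw i]; rfl⟩
  let Q : AddSubgroup (Fin r → ZMod p) :=
    AddSubgroup.map π (𝔫 • (⊤ : Submodule R (Fin r → ℤ))).toAddSubgroup
  let Q' : Submodule (ZMod p) (Fin r → ZMod p) := AddSubgroup.toZModSubmodule p Q
  have hQ' : ∀ x, x ∈ Q' ↔ x ∈ Q := fun x => Iff.rfl
  have hQlt : Q' < ⊤ := by
    rw [lt_top_iff_ne_top]
    intro htop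
    have h1 : π v₀ ∈ Q' := by rw [htop]; trivial
    rw [hQ'] at h1
    obtain ⟨q, hq, hqv⟩ := h1
    have h2 : π (v₀ - q) = 0 := by rw [map_sub, hqv, sub_self]
    obtain ⟨w, hw⟩ := hπker _ h2
    apply hv₀
    have h3 : v₀ = q + (p : ℤ) • w := by rw [← hw]; abel
    rw [h3]
    exact Submodule.add_mem _ hq (hpL w)
  obtain ⟨f, hf0, hf⟩ := Submodule.exists_le_ker_of_lt_top Q' hQlt
  -- the vector `c`
  let cbar : Fin r → ZMod p := fun i => f (Pi.single i 1)
  have hfsum : ∀ x : Fin r → ZMod p, f x = ∑ i, x i * cbar i := by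
    intro x
    rw [LinearMap.pi_apply_eq_sum_univ f x]
    apply Finset.sum_congr rfl
    intro i _
    rw [smul_eq_mul]
    congr 2
    funext j
    simp only [Pi.single_apply]
    by_cases h : i = j
    · simp [h]
    · simp [h, Ne.symm h]
  have hcbar : ∃ i, cbar i ≠ 0 := by
    by_contra h
    simp only [not_exists, not_not] at h
    apply hf0
    apply LinearMap.ext
    intro x
    rw [hfsum]
    simp [h]
  let c : Fin r → ℤ := fun i => ((cbar i).val : ℤ)
  have hc : ∀ i, ((c i : ℤ) : ZMod p) = cbar i := by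
    intro i
    simp [c]
  refine ⟨c, ?_, ?_⟩
  · intro hall
    obtain ⟨i, hi⟩ := hcbar
    apply hi
    rw [← hc i]
    exact (ZMod.intCast_zmod_eq_zero_iff_dvd _ _).mpr (hall i)
  · intro t ht j
    rw [← ZMod.intCast_zmod_eq_zero_iff_dvd]
    -- the row `j` of `Mrep t` lies in `𝔫 L`
    have hrow : t • (Pi.single j (1 : ℤ) : Fin r → ℤ) ∈ 𝔫 • (⊤ : Submodule R (Fin r → ℤ)) :=
      Submodule.smul_mem_smul ht trivial
    have h1 : π (t • (Pi.single j (1 : ℤ) : Fin r → ℤ)) ∈ Q' := by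
      rw [hQ']
      exact ⟨_, hrow, rfl⟩
    have h2 : f (π (t • (Pi.single j (1 : ℤ) : Fin r → ℤ))) = 0 := hf h1
    rw [hfsum] at h2
    rw [← h2, Matrix.mulVec, dotProduct]
    push_cast
    apply Finset.sum_congr rfl
    intro i _
    rw [hπ, hsmul, hc]
    congr 1
    simp [Matrix.mulVec, dotProduct, Matrix.transpose_apply, Pi.single_apply]

/-- **SUPP, algebraic core**, for the kernel of a character modulo `𝔪`. -/
theorem supp_char (Mrep : R →+* Matrix (Fin r) (Fin r) ℤ) (hinj : Function.Injective Mrep)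
    (p : ℕ) (hp : p.Prime) (χ' : R →+* integralClosure ℤ ℂ)
    (𝔪 : Ideal (integralClosure ℤ ℂ)) (h𝔪 : 𝔪 ≠ ⊤) (hp𝔪 : (p : integralClosure ℤ ℂ) ∈ 𝔪) :
    ∃ c : Fin r → ℤ, (¬ ∀ i, (p : ℤ) ∣ c i) ∧
      ∀ (t : R) (a : ℤ), χ' t - ((a : ℤ) : integralClosure ℤ ℂ) ∈ 𝔪 →
        ∀ j, (p : ℤ) ∣ ((Mrep t).mulVec c - a • c) j := by
  have h𝔫 : 𝔪.comap χ' ≠ ⊤ := by
    intro h
    apply h𝔪
    rw [Ideal.eq_top_iff_one]
    have h1 : (1 : R) ∈ 𝔪.comap χ' := by rw [h]; trivial
    rw [Ideal.mem_comap, map_one] at h1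
    exact h1
  have hp𝔫 : (p : R) ∈ 𝔪.comap χ' := by
    rw [Ideal.mem_comap, map_natCast]
    exact hp𝔪
  obtain ⟨c, hc, hcn⟩ := supp_alg Mrep hinj p hp (𝔪.comap χ') h𝔫 hp𝔫
  refine ⟨c, hc, fun t a hta j => ?_⟩
  have h1 : t - ((a : ℤ) : R) ∈ 𝔪.comap χ' := by
    rw [Ideal.mem_comap, map_sub, map_intCast]
    exact hta
  have h2 := hcn _ h1 j
  have h3 : (Mrep (t - ((a : ℤ) : R))).mulVec c = (Mrep t).mulVec c - a • c := by
    rw [map_sub, map_intCast, Matrix.sub_mulVec]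
    congr 1
    funext k
    simp [Matrix.mulVec, dotProduct, Matrix.intCast_apply, Finset.sum_ite_eq]
  rwa [h3] at h2

end

end Fermat.Agent.S41.H61
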