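import Mathlib

/-!
# S41 / NEWLIFT / L-LIFT: the pure algebra (Nakayama)

* `mem_of_nakayama`   : `R` commutative, `M` a finite `R`-module, `C ≤ M` an `R`-submodule,
  `M = C + 𝔫 M` and `𝔫 m₀ ⊆ C`  ⟹  `m₀ ∈ C`.
* `mem_of_commuting`  : the same for a commuting family of endomorphisms `T i` of a finitely
  generated abelian group `M`, `𝔫 = (p, T i - a i)`.
* `exists_lift_ker`   : the lifting statement used for L-LIFT: `c : L' → M` additive, compatible with
  operators `T' i` on `L'` and the commuting `T i` on `M` (`M` f.g. and `p`-torsion free),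
  `M = c(L') + p M + Σ (T i - a i) M` (dual Ihara), `c x₀ ∈ p M`, `(T' i - a i) x₀ ∈ p L'`
  ⟹ there is `x₂` with `c (x₀ - p x₂) = 0`.
-/

set_option autoImplicit false

namespace Fermat.Agent.S41.H77

/-- Nakayama, relative form: `M = C + 𝔫 M`, `𝔫 m₀ ⊆ C` ⟹ `m₀ ∈ C`. -/
theorem mem_of_nakayama {R : Type*} [CommRing R] {M : Type*} [AddCommGroup M] [Module R M]
    [Module.Finite R M] (C : Submodule R M) (𝔫 : Ideal R)
    (hC : (⊤ : Submodule R M) ≤ C ⊔ 𝔫 • (⊤ : Submodule R M))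
    (m₀ : M) (h₀ : ∀ ρ ∈ 𝔫, ρ • m₀ ∈ C) : m₀ ∈ C := by
  have hQ : (⊤ : Submodule R (M ⧸ C)) ≤ 𝔫 • (⊤ : Submodule R (M ⧸ C)) := by
    intro x _
    obtain ⟨m, rfl⟩ := C.mkQ_surjective x
    obtain ⟨c, hc, y, hy, rfl⟩ := Submodule.mem_sup.mp (hC (Submodule.mem_top : m ∈ ⊤))
    have h1 : C.mkQ c = 0 := by simpa using hc
    have h2 : C.mkQ y ∈ (𝔫 • (⊤ : Submodule R M)).map C.mkQ := Submodule.mem_map_of_mem hy
    rw [Submodule.map_smul''] at h2
    rw [map_add, h1, zero_add]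
    exact Submodule.smul_mono le_rfl le_top h2
  obtain ⟨r, hr1, hr⟩ := Submodule.exists_sub_one_mem_and_smul_eq_zero_of_fg_of_le_smul 𝔫
    (⊤ : Submodule R (M ⧸ C)) Module.Finite.fg_top hQ
  have h3 : r • m₀ ∈ C := by
    have := hr (C.mkQ m₀) Submodule.mem_top
    rw [← map_smul] at this
    exact (Submodule.Quotient.mk_eq_zero C).mp this
  have h4 : (r - 1) • m₀ ∈ C := h₀ _ hr1
  have : m₀ = r • m₀ - (r - 1) • m₀ := by rw [sub_smul, one_smul]; abel
  rw [this]
  exact C.sub_mem h3 h4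

open scoped IsMulCommutative in
/-- Nakayama for a commuting family of endomorphisms of a finitely generated abelian group:
`M = C + p M + Σ (T i - a i) M`, `C` stable under the `T i`, `p m₀ ∈ C`, `(T i - a i) m₀ ∈ C`
⟹ `m₀ ∈ C`. -/
theorem mem_of_commuting {M : Type*} [AddCommGroup M] [Module.Finite ℤ M] {ι : Type*}
    (T : ι → Module.End ℤ M) (hT : ∀ i j, T i * T j = T j * T i)
    (C : Submodule ℤ M) (hCT : ∀ i, ∀ x ∈ C, T i x ∈ C)
    (p : ℤ) (a : ι → ℤ)
    (hC : ∀ m : M, m ∈ C ⊔ (LinearMap.range (p • (1 : Module.End ℤ M)) ⊔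
      ⨆ i, LinearMap.range (T i - a i • (1 : Module.End ℤ M))))
    (m₀ : M) (hp : p • m₀ ∈ C) (h₀ : ∀ i, T i m₀ - a i • m₀ ∈ C) : m₀ ∈ C := by
  classical
  have hcomm : ∀ x ∈ Set.range T, ∀ y ∈ Set.range T, x * y = y * x := by
    rintro _ ⟨i, rfl⟩ _ ⟨j, rfl⟩; exact hT i j
  have := Algebra.isMulCommutative_adjoin ℤ hcomm
  -- stability of `C` under the whole algebra
  have hstab : ∀ ρ ∈ Algebra.adjoin ℤ (Set.range T), ∀ x ∈ C, (ρ : Module.End ℤ M) x ∈ C := by
    intro ρ hρ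
    induction hρ using Algebra.adjoin_induction with
    | mem x hx =>
      obtain ⟨i, rfl⟩ := hx
      exact hCT i
    | algebraMap r =>
      intro x hx
      have : (algebraMap ℤ (Module.End ℤ M) r) x = r • x := by
        simp
      rw [this]
      exact C.smul_mem _ hx
    | add x y _ _ hx hy =>
      intro z hz
      exact C.add_mem (hx z hz) (hy z hz)
    | mul x y _ _ hx hy =>
      intro z hz
      exact hx _ (hy z hz)
  let C' : Submodule (Algebra.adjoin ℤ (Set.range T)) M :=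
    { carrier := C
      add_mem' := fun ha hb => C.add_mem ha hb
      zero_mem' := C.zero_mem
      smul_mem' := fun ρ x hx => hstab ρ.1 ρ.2 x hx }
  have hmemC' : ∀ x, x ∈ C' ↔ x ∈ C := fun x => Iff.rfl
  have : Module.Finite (Algebra.adjoin ℤ (Set.range T)) M :=
    Module.Finite.of_restrictScalars_finite ℤ _ M
  let tt : ι → Algebra.adjoin ℤ (Set.range T) := fun i => ⟨T i, Algebra.subset_adjoin ⟨i, rfl⟩⟩
  let 𝔫 : Ideal (Algebra.adjoin ℤ (Set.range T)) :=
    Ideal.span ({algebraMap ℤ _ p} ∪ Set.range fun i => tt i - algebraMap ℤ _ (a i))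
  have hp_smul : ∀ m : M, (algebraMap ℤ (Algebra.adjoin ℤ (Set.range T)) p) • m = p • m := by
    intro m
    rw [algebraMap_smul]
  have ht_smul : ∀ i, ∀ m : M, (tt i - algebraMap ℤ _ (a i)) • m = T i m - a i • m := by
    intro i m
    rw [sub_smul, algebraMap_smul]
    rfl
  rw [← hmemC']
  apply mem_of_nakayama C' 𝔫
  · intro m _
    obtain ⟨c, hc, d, hd, rfl⟩ := Submodule.mem_sup.mp (hC m)
    refine Submodule.add_mem _ (Submodule.mem_sup_left hc) (Submodule.mem_sup_right ?_)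
    have hD : (LinearMap.range (p • (1 : Module.End ℤ M)) ⊔
        ⨆ i, LinearMap.range (T i - a i • (1 : Module.End ℤ M))) ≤
        (𝔫 • (⊤ : Submodule (Algebra.adjoin ℤ (Set.range T)) M)).restrictScalars ℤ := by
      refine sup_le ?_ (iSup_le fun i => ?_)
      · rintro _ ⟨m', rfl⟩
        show (p • (1 : Module.End ℤ M)) m' ∈ 𝔫 • (⊤ : Submodule (Algebra.adjoin ℤ (Set.range T)) M)
        have : (p • (1 : Module.End ℤ M)) m' = (algebraMap ℤ (Algebra.adjoin ℤ (Set.range T)) p) • m' := by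
          rw [hp_smul]; rfl
        rw [this]
        exact Submodule.smul_mem_smul (Ideal.subset_span (Or.inl rfl)) Submodule.mem_top
      · rintro _ ⟨m', rfl⟩
        show (T i - a i • (1 : Module.End ℤ M)) m' ∈
          𝔫 • (⊤ : Submodule (Algebra.adjoin ℤ (Set.range T)) M)
        have : (T i - a i • (1 : Module.End ℤ M)) m' = (tt i - algebraMap ℤ _ (a i)) • m' := by
          rw [ht_smul]; rfl
        rw [this]
        exact Submodule.smul_mem_smul (Ideal.subset_span (Or.inr ⟨i, rfl⟩)) Submodule.mem_top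
    exact hD hd
  · intro ρ hρ
    induction hρ using Submodule.span_induction with
    | mem x hx =>
      rcases hx with hx | ⟨i, rfl⟩
      · rw [Set.mem_singleton_iff] at hx
        subst hx
        rw [hp_smul]; exact hp
      · show (tt i - algebraMap ℤ _ (a i)) • m₀ ∈ C'
        rw [ht_smul]; exact h₀ i
    | zero => rw [zero_smul]; exact C'.zero_mem
    | add x y _ _ hx hy => rw [add_smul]; exact C'.add_mem hx hy
    | smul r x _ hx =>
      rw [smul_eq_mul, mul_smul]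
      exact C'.smul_mem r hx


/-- The lifting statement used for L-LIFT: `c : L' → M` compatible with operators `T' i` on `L'` and
the commuting `T i` on the finitely generated `p`-torsion free `M`; if
`M = c(L') + p M + Σ (T i - a i) M`, `c x₀ ∈ p M` and `(T' i - a i) x₀ ∈ p L'` for all `i`, then
`c (x₀ - p x₂) = 0` for some `x₂`. -/
theorem exists_lift_ker {L' M : Type*} [AddCommGroup L'] [AddCommGroup M] [Module.Finite ℤ M]
    {ι : Type*} (T' : ι → L' →ₗ[ℤ] L') (T : ι → Module.End ℤ M)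
    (hT : ∀ i j, T i * T j = T j * T i)
    (c : L' →ₗ[ℤ] M) (hc : ∀ i x, c (T' i x) = T i (c x))
    (p : ℤ) (hpM : ∀ m : M, p • m = 0 → m = 0) (a : ι → ℤ)
    (hIh : ∀ m : M, m ∈ LinearMap.range c ⊔ (LinearMap.range (p • (1 : Module.End ℤ M)) ⊔
      ⨆ i, LinearMap.range (T i - a i • (1 : Module.End ℤ M))))
    (x₀ : L') (hx₀ : ∃ m₀, c x₀ = p • m₀) (hx₀T : ∀ i, ∃ z, T' i x₀ - a i • x₀ = p • z) :
    ∃ x₂ : L', c (x₀ - p • x₂) = 0 := by
  obtain ⟨m₀, hm₀⟩ := hx₀
  have key : m₀ ∈ LinearMap.range c := by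
    apply mem_of_commuting T hT (LinearMap.range c) ?_ p a hIh m₀
    · exact ⟨x₀, hm₀⟩
    · intro i
      obtain ⟨z, hz⟩ := hx₀T i
      refine ⟨z, ?_⟩
      have h1 : p • (c z - (T i m₀ - a i • m₀)) = 0 := by
        have e1 : p • c z = c (T' i x₀ - a i • x₀) := by rw [hz, map_smul]
        rw [smul_sub, e1, map_sub, map_smul, hc, hm₀, map_smul, smul_sub, smul_comm p (a i) m₀]
        exact sub_self _
      exact sub_eq_zero.mp (hpM _ h1)
    · rintro i _ ⟨x, rfl⟩
      exact ⟨T' i x, hc i x⟩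
  obtain ⟨x₂, hx₂⟩ := key
  exact ⟨x₂, by rw [map_sub, map_smul, hx₂, hm₀, sub_self]⟩

end Fermat.Agent.S41.H77
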