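import Mathlib

/-!
# S41, package P (Poincare duality), part P1: the ribbon-graph pairing

`X` is a finite set with two permutations `s` (an involution) and `t` (of order dividing 3); think of
`X = SL(2,ℤ)/Γ`, `s` = action of `S`, `t` = action of `T S⁻¹`.  Functions `a : X → k` with
`a ∘ t - a ∈ range (s^* - 1)` are called *Manin functions*; they carry the skew form

  `Qform t a b = ∑ x, (a x * b (t x) - a (t x) * b x)`.

Main result `Qform_radical`: if `b` is Manin and `Qform t a b = 0` for every Manin `a`, then
`b ∘ t - b = c ∘ s - c` for some `c` invariant under `t ∘ s` (a "boundary").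
-/

set_option autoImplicit false

namespace Fermat.Agent.S41.H94

open Finset

section Ribbon

variable {X : Type*} [Fintype X] {k : Type*} [Field k]

/-- The skew form on functions on `X` attached to the permutation `t`. -/
def Qform (t : Equiv.Perm X) (a b : X → k) : k := ∑ x, (a x * b (t x) - a (t x) * b x)

/-- `a` is a Manin function: `a ∘ t - a = u ∘ s - u` for some `u`. -/
def IsManin (s t : Equiv.Perm X) (a : X → k) : Prop :=
  ∃ u : X → k, ∀ x, a (t x) - a x = u (s x) - u x

theorem Qform_skew (t : Equiv.Perm X) (a b : X → k) : Qform t a b = - Qform t b a := by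
  unfold Qform
  rw [← Finset.sum_neg_distrib]
  refine Finset.sum_congr rfl fun x _ => ?_
  ring

theorem Qform_add_left (t : Equiv.Perm X) (a a' b : X → k) :
    Qform t (a + a') b = Qform t a b + Qform t a' b := by
  unfold Qform
  rw [← Finset.sum_add_distrib]
  refine Finset.sum_congr rfl fun x _ => ?_
  simp only [Pi.add_apply]; ring

theorem Qform_add_right (t : Equiv.Perm X) (a b b' : X → k) :
    Qform t a (b + b') = Qform t a b + Qform t a b' := by
  unfold Qform
  rw [← Finset.sum_add_distrib]
  refine Finset.sum_congr rfl fun x _ => ?_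
  simp only [Pi.add_apply]; ring

theorem Qform_smul_left (t : Equiv.Perm X) (r : k) (a b : X → k) :
    Qform t (r • a) b = r * Qform t a b := by
  unfold Qform
  rw [Finset.mul_sum]
  refine Finset.sum_congr rfl fun x _ => ?_
  simp only [Pi.smul_apply, smul_eq_mul]; ring

theorem Qform_smul_right (t : Equiv.Perm X) (r : k) (a b : X → k) :
    Qform t a (r • b) = r * Qform t a b := by
  unfold Qform
  rw [Finset.mul_sum]
  refine Finset.sum_congr rfl fun x _ => ?_
  simp only [Pi.smul_apply, smul_eq_mul]; ring

theorem Qform_sub_left (t : Equiv.Perm X) (a a' b : X → k) :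
    Qform t (a - a') b = Qform t a b - Qform t a' b := by
  unfold Qform
  rw [← Finset.sum_sub_distrib]
  refine Finset.sum_congr rfl fun x _ => ?_
  simp only [Pi.sub_apply]; ring

theorem Qform_sub_right (t : Equiv.Perm X) (a b b' : X → k) :
    Qform t a (b - b') = Qform t a b - Qform t a b' := by
  unfold Qform
  rw [← Finset.sum_sub_distrib]
  refine Finset.sum_congr rfl fun x _ => ?_
  simp only [Pi.sub_apply]; ring

/-- Alternative expression of the form: `Q(a,b) = ∑ a(x) (b(t x) - b(t⁻¹ x))`. -/
theorem Qform_eq_sum (t : Equiv.Perm X) (a b : X → k) :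
    Qform t a b = ∑ x, a x * (b (t x) - b (t.symm x)) := by
  unfold Qform
  rw [Finset.sum_sub_distrib]
  have h : ∑ x, a (t x) * b x = ∑ x, a x * b (t.symm x) := by
    rw [← Equiv.sum_comp t (fun x => a x * b (t.symm x))]
    simp
  rw [h, ← Finset.sum_sub_distrib]
  refine Finset.sum_congr rfl fun x _ => ?_
  ring

/-- `t`-invariant functions are in the kernel of the form. -/
theorem Qform_left_of_invariant (t : Equiv.Perm X) (c b : X → k) (hc : ∀ x, c (t x) = c x) :
    Qform t c b = 0 := by
  unfold Qform
  rw [Finset.sum_sub_distrib, sub_eq_zero]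
  rw [← Equiv.sum_comp t (fun x => c (t x) * b x)]
  refine Finset.sum_congr rfl fun x _ => ?_
  rw [hc, hc]

theorem Qform_right_of_invariant (t : Equiv.Perm X) (a c : X → k) (hc : ∀ x, c (t x) = c x) :
    Qform t a c = 0 := by
  rw [Qform_skew, Qform_left_of_invariant t c a hc, neg_zero]

/-- A function orthogonal to all `s`-invariant functions is anti-invariant under `s`. -/
theorem anti_of_orthogonal_invariants [DecidableEq X] (s : Equiv.Perm X) (hs : ∀ x, s (s x) = x)
    (g : X → k) (hg : ∀ e : X → k, (∀ x, e (s x) = e x) → ∑ x, g x * e x = 0) (x : X) :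
    g (s x) = - g x := by
  have h := hg (fun y => (if y = x then 1 else 0) + (if y = s x then 1 else 0)) (by
    intro y
    have h1 : (s y = x) ↔ (y = s x) := by
      constructor
      · intro h; rw [← h, hs]
      · intro h; rw [h, hs]
    have h2 : (s y = s x) ↔ (y = x) := s.injective.eq_iff
    simp only [h1, h2]
    ring)
  simp only [mul_add, Finset.sum_add_distrib, mul_ite, mul_one, mul_zero, Finset.sum_ite_eq',
    Finset.mem_univ, if_true] at h
  linear_combination h

/-- **Key duality step.**  If `Q(a, b) = 0` for every Manin function `a`, then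
`b ∘ t - b ∘ t⁻¹ = e ∘ t⁻¹ - e` for some `s`-invariant `e`. -/
theorem exists_invariant_of_radical [DecidableEq X] (s t : Equiv.Perm X) (hs : ∀ x, s (s x) = x)
    (h2 : (2 : k) ≠ 0) (b : X → k)
    (hrad : ∀ a : X → k, IsManin s t a → Qform t a b = 0) :
    ∃ e : X → k, (∀ x, e (s x) = e x) ∧ ∀ x, b (t x) - b (t.symm x) = e (t.symm x) - e x := by
  classical
  -- the subspace `M = L (A^s)`, `L e = e ∘ t⁻¹ - e`
  let L : (X → k) →ₗ[k] (X → k) :=
    { toFun := fun e x => e (t.symm x) - e x
      map_add' := fun e e' => by ext x; simp only [Pi.add_apply]; ring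
      map_smul' := fun r e => by ext x; simp only [Pi.smul_apply, smul_eq_mul, RingHom.id_apply]; ring }
  let As : Submodule k (X → k) :=
    { carrier := {e | ∀ x, e (s x) = e x}
      add_mem' := fun {e e'} he he' x => by simp only [Pi.add_apply, he x, he' x]
      zero_mem' := fun x => rfl
      smul_mem' := fun r e he x => by simp only [Pi.smul_apply, he x] }
  let M : Submodule k (X → k) := As.map L
  let f₀ : X → k := fun x => b (t x) - b (t.symm x)
  suffices hf : f₀ ∈ M by
    obtain ⟨e, he, hLe⟩ := hf
    refine ⟨e, he, fun x => ?_⟩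
    have := congrFun hLe x
    exact this.symm
  -- `M = (M^⊥)^⊥`
  rw [← Subspace.dualAnnihilator_dualCoannihilator_eq (W := M)]
  rw [Submodule.mem_dualCoannihilator]
  intro φ hφ
  -- `φ = ⟨a, ·⟩`
  set a : X → k := fun x => φ (Pi.single x 1) with ha
  have hφa : ∀ f : X → k, φ f = ∑ x, a x * f x := by
    intro f
    rw [LinearMap.pi_apply_eq_sum_univ φ f]
    refine Finset.sum_congr rfl fun x _ => ?_
    simp only [ha, smul_eq_mul]
    rw [mul_comm]
    congr 2
    ext j
    simp [Pi.single_apply, eq_comm]
  -- `a` is Manin
  have hMan : IsManin s t a := by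
    have hanti : ∀ x, (fun y => a (t y) - a y) (s x) = - (fun y => a (t y) - a y) x := by
      refine anti_of_orthogonal_invariants s hs (fun y => a (t y) - a y) ?_
      intro e he
      have h1 : φ (L e) = 0 := by
        rw [Submodule.mem_dualAnnihilator] at hφ
        exact hφ (L e) ⟨e, he, rfl⟩
      rw [hφa] at h1
      have h3 : ∑ x, a x * (L e) x = ∑ x, (a (t x) - a x) * e x := by
        show ∑ x, a x * (e (t.symm x) - e x) = _
        simp only [mul_sub, sub_mul, Finset.sum_sub_distrib]
        congr 1
        rw [← Equiv.sum_comp t (fun x => a x * e (t.symm x))]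
        simp
      rw [← h3]; exact h1
    refine ⟨fun x => -(a (t x) - a x) / 2, fun x => ?_⟩
    have := hanti x
    simp only at this
    field_simp
    linear_combination this
  have := hrad a hMan
  rw [Qform_eq_sum] at this
  rw [hφa]
  exact this

/-- **Nondegeneracy of the ribbon-graph pairing** (radical = boundaries). -/
theorem Qform_radical [DecidableEq X] (s t : Equiv.Perm X) (hs : ∀ x, s (s x) = x)
    (ht : ∀ x, t (t (t x)) = x) (h2 : (2 : k) ≠ 0) (b : X → k) (hb : IsManin s t b)
    (hrad : ∀ a : X → k, IsManin s t a → Qform t a b = 0) :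
    ∃ c : X → k, (∀ x, c (t (s x)) = c x) ∧ ∀ x, b (t x) - b x = c (s x) - c x := by
  obtain ⟨e, hes, he⟩ := exists_invariant_of_radical s t hs h2 b hrad
  obtain ⟨u, hu⟩ := hb
  have htsymm : ∀ x, t.symm x = t (t x) := by
    intro x
    rw [Equiv.symm_apply_eq, ht]
  -- `w x = b (t x) - b x`
  set w : X → k := fun x => b (t x) - b x with hw
  have hws : ∀ x, w (s x) = - w x := by
    intro x
    simp only [hw, hu, hs]; ring
  have hwe : ∀ y, w y = e (t (t y)) - e (t y) := by
    intro y
    have h1 := he (t (t y))
    simp only [htsymm, ht] at h1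
    simp only [hw]
    linear_combination -h1
  refine ⟨fun x => -(e x + w x) / 2, fun x => ?_, fun x => ?_⟩
  · -- invariance under `t ∘ s`
    have h1 : w (t (s x)) = e (s x) - e (t (t (s x))) := by
      rw [hwe (t (s x)), ht]
    have h3 : w x = e (t (s x)) - e (t (t (s x))) := by
      have := hws x
      rw [hwe (s x)] at this
      linear_combination this
    simp only
    rw [h1, h3, hes x]
    ring
  · simp only
    rw [hws x, hes x]
    field_simp
    ring

end Ribbon

end Fermat.Agent.S41.H94
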