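import Mathlib
import Fermat.Agent.S41.H94_Ribbon

/-!
# S41, package P (Poincare duality), part P2a: potentials

`j : H →* G` a homomorphism, `φ : Additive H →+ k`.  A *potential* of `φ` is a function `Φ : G → k` with
`Φ (x * j h) = Φ x + φ h`.  If `φ` kills `H ∩ x⁻¹ ⟨g⟩ x` for all `x`, there is a potential which is invariant
under left multiplication by `g`.
-/

set_option autoImplicit false

namespace Fermat.Agent.S41.H94

section Potentials

variable {G : Type*} [Group G] {H : Type*} [Group H] {k : Type*} [Field k]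

/-- `Φ` is a potential of `φ` along `j`. -/
def IsPot (j : H →* G) (φ : Additive H →+ k) (Φ : G → k) : Prop :=
  ∀ (x : G) (h : H), Φ (x * j h) = Φ x + φ (Additive.ofMul h)

/-- `φ` kills every element of `H` whose image is conjugate in `G` to a power of `g`. -/
def KillsConj (j : H →* G) (φ : Additive H →+ k) (g : G) : Prop :=
  ∀ (x : G) (n : ℤ) (h : H), j h = x⁻¹ * g ^ n * x → φ (Additive.ofMul h) = 0

theorem IsPot.add {j : H →* G} {φ φ' : Additive H →+ k} {Φ Φ' : G → k}
    (h : IsPot j φ Φ) (h' : IsPot j φ' Φ') : IsPot j (φ + φ') (Φ + Φ') := by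
  intro x y
  simp only [Pi.add_apply, AddMonoidHom.add_apply, h x y, h' x y]
  ring

theorem IsPot.smul {j : H →* G} {φ : Additive H →+ k} {Φ : G → k}
    (h : IsPot j φ Φ) (r : k) : IsPot j (r • φ) (r • Φ) := by
  intro x y
  simp only [Pi.smul_apply, AddMonoidHom.smul_apply, h x y, smul_eq_mul]
  ring

theorem IsPot.sub_const {j : H →* G} {φ : Additive H →+ k} {Φ : G → k}
    (h : IsPot j φ Φ) {c : G → k} (hc : ∀ x y, c (x * j y) = c x) :
    IsPot j φ (fun x => Φ x - c x) := by
  intro x y
  simp only [h x y, hc x y]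
  ring

theorem IsPot.add_const {j : H →* G} {φ : Additive H →+ k} {Φ : G → k}
    (h : IsPot j φ Φ) {c : G → k} (hc : ∀ x y, c (x * j y) = c x) :
    IsPot j φ (fun x => Φ x + c x) := by
  intro x y
  simp only [h x y, hc x y]
  ring

/-- The difference of two potentials of `φ` is right-invariant. -/
theorem IsPot.sub_rightInv {j : H →* G} {φ : Additive H →+ k} {Φ Φ' : G → k}
    (h : IsPot j φ Φ) (h' : IsPot j φ Φ') (x : G) (y : H) :
    Φ (x * j y) - Φ' (x * j y) = Φ x - Φ' x := by
  rw [h x y, h' x y]; ring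

/-- A hom with a left-`g`-invariant potential kills the conjugates of powers of `g`. -/
theorem killsConj_of_pot {j : H →* G} {φ : Additive H →+ k} {Φ : G → k} (hΦ : IsPot j φ Φ)
    {g : G} (hg : ∀ x, Φ (g * x) = Φ x) : KillsConj j φ g := by
  intro x n h hh
  have hpow : ∀ (m : ℤ) (y : G), Φ (g ^ m * y) = Φ y := by
    intro m
    induction m using Int.induction_on with
    | zero => intro y; simp
    | succ i ih =>
      intro y
      rw [zpow_add_one, mul_assoc, ih, hg]
    | pred i ih =>
      intro y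
      rw [zpow_sub_one, mul_assoc, ih]
      have := hg (g⁻¹ * y)
      rw [mul_inv_cancel_left] at this
      exact this.symm
  have h1 := hΦ x h
  rw [hh] at h1
  have h2 : x * (x⁻¹ * g ^ n * x) = g ^ n * x := by group
  rw [h2, hpow] at h1
  exact (add_eq_left.mp h1.symm)

/-- Existence of a left-`g`-invariant potential. -/
theorem exists_pot_leftInv (j : H →* G) (φ : Additive H →+ k) (g : G) (hφ : KillsConj j φ g) :
    ∃ Φ : G → k, IsPot j φ Φ ∧ ∀ x, Φ (g * x) = Φ x := by
  classical
  let r : G → G := fun x => (DoubleCoset.mk (Subgroup.zpowers g) j.range x).out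
  have hr : ∀ x, ∃ (n : ℤ) (h : H), x = g ^ n * r x * j h := by
    intro x
    obtain ⟨a, b, ha, hb, hab⟩ := DoubleCoset.mk_out_eq_mul (Subgroup.zpowers g) j.range x
    obtain ⟨n, rfl⟩ := Subgroup.mem_zpowers_iff.mp ha
    obtain ⟨h, rfl⟩ := hb
    refine ⟨-n, h⁻¹, ?_⟩
    have : r x = g ^ n * x * j h := hab
    rw [this, map_inv, zpow_neg]; group
  have hr1 : ∀ x, r (g * x) = r x := by
    intro x
    have : DoubleCoset.mk (Subgroup.zpowers g) j.range (g * x)
        = DoubleCoset.mk (Subgroup.zpowers g) j.range x := by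
      rw [eq_comm, DoubleCoset.eq]
      exact ⟨g, Subgroup.mem_zpowers g, 1, one_mem _, by rw [mul_one]⟩
    show (DoubleCoset.mk (Subgroup.zpowers g) j.range (g * x)).out = _
    rw [this]
  have hr2 : ∀ x y, r (x * j y) = r x := by
    intro x y
    have : DoubleCoset.mk (Subgroup.zpowers g) j.range (x * j y)
        = DoubleCoset.mk (Subgroup.zpowers g) j.range x := by
      rw [eq_comm, DoubleCoset.eq]
      exact ⟨1, one_mem _, j y, ⟨y, rfl⟩, by rw [one_mul]⟩
    show (DoubleCoset.mk (Subgroup.zpowers g) j.range (x * j y)).out = _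
    rw [this]
  -- independence of the decomposition
  have hind : ∀ (ρ : G) (n n' : ℤ) (h h' : H), g ^ n * ρ * j h = g ^ n' * ρ * j h' →
      φ (Additive.ofMul h) = φ (Additive.ofMul h') := by
    intro ρ n n' h h' heq
    have h1 : j (h' * h⁻¹) = ρ⁻¹ * g ^ (n - n') * ρ := by
      rw [map_mul, map_inv, zpow_sub]
      have : j h' = ρ⁻¹ * (g ^ n')⁻¹ * (g ^ n * ρ * j h) := by rw [heq]; group
      rw [this]; group
    have h2 := hφ ρ (n - n') (h' * h⁻¹) h1
    have h3 : φ (Additive.ofMul (h' * h⁻¹)) = φ (Additive.ofMul h') - φ (Additive.ofMul h) := by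
      rw [ofMul_mul, ofMul_inv, map_add, map_neg]; ring
    rw [h3] at h2
    exact (sub_eq_zero.mp h2).symm
  choose n h hx using hr
  refine ⟨fun x => φ (Additive.ofMul (h x)), ?_, ?_⟩
  · intro x y
    show φ (Additive.ofMul (h (x * j y))) = φ (Additive.ofMul (h x)) + φ (Additive.ofMul y)
    have e1 : g ^ n (x * j y) * r x * j (h (x * j y)) = g ^ n x * r x * j (h x * y) := by
      have := hx (x * j y)
      rw [hr2] at this
      rw [← this, map_mul, ← mul_assoc, ← hx x]
    rw [hind (r x) _ _ _ _ e1, ofMul_mul, map_add]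
  · intro x
    show φ (Additive.ofMul (h (g * x))) = φ (Additive.ofMul (h x))
    have e1 : g ^ n (g * x) * r x * j (h (g * x)) = g ^ (1 + n x) * r x * j (h x) := by
      have := hx (g * x)
      rw [hr1] at this
      rw [← this, zpow_one_add, mul_assoc, mul_assoc, ← mul_assoc (g ^ n x), ← hx x]
    exact hind (r x) _ _ _ _ e1

end Potentials

end Fermat.Agent.S41.H94
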