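import Mathlib
import Fermat.Agent.S41.H94_Pot

/-!
# S41, package P (Poincare duality), part P2b: the pairing via potentials

Abstract setting: a group `G` with two elements `S, T` (`ModularLike S T`: generation, `S²` central,
`S⁴ = 1`, `(T S⁻¹)³ = 1`), a homomorphism `j : H →* G` with `S² ∈ range j` and `G ⧸ range j` finite.

* `PotTriple j S T φ`: three potentials of `φ`, left-invariant under `T`, `S`, `T S⁻¹`.
* `PotTriple.a`: the Manin function `Φ_τ - Φ_T` on `G ⧸ range j`.
* `pairing`: `Qform t a_φ a_ψ`; independent of the triples (`pairing_indep_left`).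
* `eq_zero_of_boundary`: injectivity of `φ ↦ a_φ` modulo boundaries.
-/

set_option autoImplicit false

namespace Fermat.Agent.S41.H94

section Shapiro

variable {G : Type*} [Group G] {H : Type*} [Group H] {k : Type*} [Field k]

/-- The abstract properties of `(SL(2,ℤ), S, T)` that we use. -/
structure ModularLike (S T : G) : Prop where
  gen : Subgroup.closure ({S, T} : Set G) = ⊤
  central : ∀ g : G, S ^ 2 * g = g * S ^ 2
  tau3 : (T * S⁻¹) ^ 3 = 1
  S4 : S ^ 4 = 1

/-- A function on `G` seen on `G ⧸ range j` (meaningful for right-invariant functions). -/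
noncomputable def desc (j : H →* G) (f : G → k) : G ⧸ j.range → k := fun q => f q.out

theorem desc_mk (j : H →* G) {f : G → k} (hf : ∀ x y, f (x * j y) = f x) (x : G) :
    desc j f (x : G ⧸ j.range) = f x := by
  unfold desc
  obtain ⟨h, hh⟩ := QuotientGroup.mk_out_eq_mul j.range x
  rw [hh]
  obtain ⟨y, hy⟩ := h.2
  rw [← hy, hf]

/-- A function invariant under left multiplication by `S` and `T` is constant. -/
theorem const_of_leftInv {S T : G} (hM : ModularLike S T) {α : Type*} (F : G → α)
    (hS : ∀ x, F (S * x) = F x) (hT : ∀ x, F (T * x) = F x) (g x : G) : F (g * x) = F x := by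
  have hg : g ∈ Subgroup.closure ({S, T} : Set G) := by rw [hM.gen]; trivial
  induction hg using Subgroup.closure_induction generalizing x with
  | mem y hy =>
    rcases hy with rfl | rfl
    · exact hS x
    · exact hT x
  | one => rw [one_mul]
  | mul a b _ _ iha ihb => rw [mul_assoc, iha, ihb]
  | inv a _ iha =>
    have := iha (a⁻¹ * x)
    rw [mul_inv_cancel_left] at this
    exact this.symm

/-- Three potentials of `φ`, left-invariant under `T`, `S` and `τ = T S⁻¹`. -/
structure PotTriple (j : H →* G) (S T : G) (φ : Additive H →+ k) where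
  /-- the `T`-invariant potential -/
  ΦT : G → k
  /-- the `S`-invariant potential -/
  ΦS : G → k
  /-- the `τ`-invariant potential -/
  Φτ : G → k
  potT : IsPot j φ ΦT
  potS : IsPot j φ ΦS
  potτ : IsPot j φ Φτ
  invT : ∀ x, ΦT (T * x) = ΦT x
  invS : ∀ x, ΦS (S * x) = ΦS x
  invτ : ∀ x, Φτ (T * S⁻¹ * x) = Φτ x

/-- Existence of potential triples for homs killing the conjugates of powers of `S`, `T`, `τ`. -/
theorem exists_potTriple (j : H →* G) (S T : G) (φ : Additive H →+ k)
    (hS : KillsConj j φ S) (hT : KillsConj j φ T) (hτ : KillsConj j φ (T * S⁻¹)) :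
    Nonempty (PotTriple j S T φ) := by
  obtain ⟨ΦT, h1, h2⟩ := exists_pot_leftInv j φ T hT
  obtain ⟨ΦS, h3, h4⟩ := exists_pot_leftInv j φ S hS
  obtain ⟨Φτ, h5, h6⟩ := exists_pot_leftInv j φ (T * S⁻¹) hτ
  exact ⟨⟨ΦT, ΦS, Φτ, h1, h3, h5, h2, h4, h6⟩⟩

namespace PotTriple

variable {j : H →* G} {S T : G} {φ ψ : Additive H →+ k}

theorem killsS (P : PotTriple j S T φ) : KillsConj j φ S := killsConj_of_pot P.potS P.invS
theorem killsT (P : PotTriple j S T φ) : KillsConj j φ T := killsConj_of_pot P.potT P.invT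
theorem killsτ (P : PotTriple j S T φ) : KillsConj j φ (T * S⁻¹) := killsConj_of_pot P.potτ P.invτ

/-- The Manin function `Φ_τ - Φ_T` on `G ⧸ range j`. -/
noncomputable def a (P : PotTriple j S T φ) : G ⧸ j.range → k :=
  desc j (fun x => P.Φτ x - P.ΦT x)

/-- The auxiliary function `Φ_S - Φ_T` on `G ⧸ range j`. -/
noncomputable def u (P : PotTriple j S T φ) : G ⧸ j.range → k :=
  desc j (fun x => P.ΦS x - P.ΦT x)

theorem a_mk (P : PotTriple j S T φ) (x : G) : P.a (x : G ⧸ j.range) = P.Φτ x - P.ΦT x :=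
  desc_mk j (fun x y => IsPot.sub_rightInv P.potτ P.potT x y) x

theorem u_mk (P : PotTriple j S T φ) (x : G) : P.u (x : G ⧸ j.range) = P.ΦS x - P.ΦT x :=
  desc_mk j (fun x y => IsPot.sub_rightInv P.potS P.potT x y) x

/-- `Φ_T (S⁻¹ x) = Φ_T (S x)`. -/
theorem ΦT_Sinv (hM : ModularLike S T) (hz : S ^ 2 ∈ j.range) (P : PotTriple j S T φ) (x : G) :
    P.ΦT (S⁻¹ * x) = P.ΦT (S * x) := by
  obtain ⟨z, hz⟩ := hz
  have h1 : S⁻¹ * x = S * x * j z := by
    rw [hz, mul_assoc, ← hM.central x, ← mul_assoc]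
    have : S⁻¹ = S * S ^ 2 := by
      rw [eq_comm, ← pow_succ', inv_eq_of_mul_eq_one_right]
      rw [← pow_succ']
      exact hM.S4
    rw [this]
  have h2 : φ (Additive.ofMul z) = 0 := P.killsS 1 2 z (by rw [hz]; simp)
  rw [h1, P.potT, h2, add_zero]

theorem ΦT_tau (hM : ModularLike S T) (hz : S ^ 2 ∈ j.range) (P : PotTriple j S T φ) (x : G) :
    P.ΦT (T * S⁻¹ * x) = P.ΦT (S * x) := by
  rw [mul_assoc, P.invT, P.ΦT_Sinv hM hz]

/-- The function `a` is a Manin function. -/
theorem manin (hM : ModularLike S T) (hz : S ^ 2 ∈ j.range) (P : PotTriple j S T φ)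
    (x : G ⧸ j.range) :
    P.a ((T * S⁻¹) • x) - P.a x = P.u (S • x) - P.u x := by
  induction x using QuotientGroup.induction_on with
  | H g =>
    rw [MulAction.Quotient.smul_mk, MulAction.Quotient.smul_mk, a_mk, a_mk, u_mk, u_mk]
    simp only [smul_eq_mul]
    rw [P.invτ, P.invS, P.ΦT_tau hM hz]
    ring

/-- the increment of `a` in terms of `Φ_T` -/
theorem a_incr (hM : ModularLike S T) (hz : S ^ 2 ∈ j.range) (P : PotTriple j S T φ) (g : G) :
    P.a ((T * S⁻¹) • (g : G ⧸ j.range)) - P.a (g : G ⧸ j.range) = P.ΦT g - P.ΦT (S * g) := by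
  rw [MulAction.Quotient.smul_mk, a_mk, a_mk]
  simp only [smul_eq_mul]
  rw [P.invτ, P.ΦT_tau hM hz]
  ring

/-- sum of potential triples -/
def add (P : PotTriple j S T φ) (Q : PotTriple j S T ψ) : PotTriple j S T (φ + ψ) where
  ΦT := P.ΦT + Q.ΦT
  ΦS := P.ΦS + Q.ΦS
  Φτ := P.Φτ + Q.Φτ
  potT := P.potT.add Q.potT
  potS := P.potS.add Q.potS
  potτ := P.potτ.add Q.potτ
  invT x := by simp only [Pi.add_apply, P.invT, Q.invT]
  invS x := by simp only [Pi.add_apply, P.invS, Q.invS]
  invτ x := by simp only [Pi.add_apply, P.invτ, Q.invτ]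

/-- scalar multiple of a potential triple -/
def smul (r : k) (P : PotTriple j S T φ) : PotTriple j S T (r • φ) where
  ΦT := r • P.ΦT
  ΦS := r • P.ΦS
  Φτ := r • P.Φτ
  potT := P.potT.smul r
  potS := P.potS.smul r
  potτ := P.potτ.smul r
  invT x := by simp only [Pi.smul_apply, P.invT]
  invS x := by simp only [Pi.smul_apply, P.invS]
  invτ x := by simp only [Pi.smul_apply, P.invτ]

theorem add_a (P : PotTriple j S T φ) (Q : PotTriple j S T ψ) : (P.add Q).a = P.a + Q.a := by
  funext x
  induction x using QuotientGroup.induction_on with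
  | H g =>
    rw [Pi.add_apply, a_mk, a_mk, a_mk]
    simp only [add, Pi.add_apply]
    ring

theorem smul_a (r : k) (P : PotTriple j S T φ) : (P.smul r).a = r • P.a := by
  funext x
  induction x using QuotientGroup.induction_on with
  | H g =>
    rw [Pi.smul_apply, a_mk, a_mk]
    simp only [smul, Pi.smul_apply, smul_eq_mul]
    ring

end PotTriple

end Shapiro

section Boundary

variable {X : Type*} [Fintype X] {k : Type*} [Field k]

/-- Boundary functions (`c ∘ t ∘ s = c`) pair trivially with Manin functions. -/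
theorem Qform_boundary_left (s t : Equiv.Perm X) (hs : ∀ x, s (s x) = x) (h2 : (2 : k) ≠ 0)
    (c b : X → k) (hc : ∀ x, c (t (s x)) = c x) (hb : IsManin s t b) : Qform t c b = 0 := by
  obtain ⟨u, hu⟩ := hb
  have hc' : ∀ y, c (t y) = c (s y) := by
    intro y
    have := hc (s y)
    rwa [hs] at this
  have key : Qform t c b = ∑ x, (c x + c (s x)) * (b (t x) - b x) := by
    unfold Qform
    have e1 : ∑ x, c (s x) * b (t x) = ∑ x, c x * b x := by
      rw [← Equiv.sum_comp t (fun x => c x * b x)]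
      exact Finset.sum_congr rfl (fun x _ => by rw [hc' x])
    have e2 : ∑ x, c (t x) * b x = ∑ x, c (s x) * b x :=
      Finset.sum_congr rfl (fun x _ => by rw [hc' x])
    simp only [add_mul, mul_sub, Finset.sum_add_distrib, Finset.sum_sub_distrib]
    rw [e1, e2]
    ring
  have hanti : ∑ x, (c x + c (s x)) * (b (t x) - b x)
      = - ∑ x, (c x + c (s x)) * (b (t x) - b x) := by
    conv_lhs => rw [← Equiv.sum_comp s (fun x => (c x + c (s x)) * (b (t x) - b x))]
    rw [← Finset.sum_neg_distrib]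
    refine Finset.sum_congr rfl (fun x _ => ?_)
    rw [hs, hu (s x), hu x, hs]
    ring
  rw [key]
  have h3 : (2 : k) * ∑ x, (c x + c (s x)) * (b (t x) - b x) = 0 := by
    linear_combination hanti
  rcases mul_eq_zero.mp h3 with h | h
  · exact absurd h h2
  · exact h

theorem Qform_boundary_right (s t : Equiv.Perm X) (hs : ∀ x, s (s x) = x) (h2 : (2 : k) ≠ 0)
    (c b : X → k) (hc : ∀ x, c (t (s x)) = c x) (hb : IsManin s t b) : Qform t b c = 0 := by
  rw [Qform_skew, Qform_boundary_left s t hs h2 c b hc hb, neg_zero]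

end Boundary

section Pairing

variable {G : Type*} [Group G] {H : Type*} [Group H] {k : Type*} [Field k]
variable {j : H →* G} {S T : G}

theorem smul_smul_S (hM : ModularLike S T) (hz : S ^ 2 ∈ j.range) (x : G ⧸ j.range) :
    S • S • x = x := by
  induction x using QuotientGroup.induction_on with
  | H g =>
    rw [MulAction.Quotient.smul_mk, MulAction.Quotient.smul_mk]
    simp only [smul_eq_mul]
    rw [← mul_assoc, ← pow_two, hM.central, QuotientGroup.eq]
    simpa using hz

theorem smul_smul_smul_tau (hM : ModularLike S T) (x : G ⧸ j.range) :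
    (T * S⁻¹) • (T * S⁻¹) • (T * S⁻¹) • x = x := by
  rw [smul_smul, smul_smul, ← pow_two, ← pow_succ, hM.tau3, one_smul]

theorem tau_smul_S_smul (x : G ⧸ j.range) : (T * S⁻¹) • S • x = T • x := by
  rw [smul_smul, inv_mul_cancel_right]

theorem PotTriple.isManin (hM : ModularLike S T) (hz : S ^ 2 ∈ j.range) {φ : Additive H →+ k}
    (P : PotTriple j S T φ) :
    IsManin (MulAction.toPerm S : Equiv.Perm (G ⧸ j.range)) (MulAction.toPerm (T * S⁻¹)) P.a :=
  ⟨P.u, fun x => P.manin hM hz x⟩

variable [Fintype (G ⧸ j.range)]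

/-- The pairing computed with given potential triples. -/
noncomputable def pairingOf {φ ψ : Additive H →+ k} (P : PotTriple j S T φ) (Q : PotTriple j S T ψ) :
    k :=
  Qform (MulAction.toPerm (T * S⁻¹) : Equiv.Perm (G ⧸ j.range)) P.a Q.a

theorem pairingOf_indep_left (hM : ModularLike S T) (hz : S ^ 2 ∈ j.range) (h2 : (2 : k) ≠ 0)
    {φ ψ : Additive H →+ k} (P P' : PotTriple j S T φ) (Q : PotTriple j S T ψ) :
    pairingOf P Q = pairingOf P' Q := by
  unfold pairingOf
  -- `P.a - P'.a = cτ - cT`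
  set cτ : G ⧸ j.range → k := desc j (fun x => P.Φτ x - P'.Φτ x) with hcτ
  set cT : G ⧸ j.range → k := desc j (fun x => P.ΦT x - P'.ΦT x) with hcT
  have hcτ_mk : ∀ g : G, cτ (g : G ⧸ j.range) = P.Φτ g - P'.Φτ g :=
    fun g => desc_mk j (fun x y => IsPot.sub_rightInv P.potτ P'.potτ x y) g
  have hcT_mk : ∀ g : G, cT (g : G ⧸ j.range) = P.ΦT g - P'.ΦT g :=
    fun g => desc_mk j (fun x y => IsPot.sub_rightInv P.potT P'.potT x y) g
  have hdiff : P.a = P'.a + (cτ - cT) := by
    funext x
    induction x using QuotientGroup.induction_on with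
    | H g =>
      rw [Pi.add_apply, Pi.sub_apply, P.a_mk, P'.a_mk, hcτ_mk, hcT_mk]
      ring
  have h1 : ∀ x, cτ ((MulAction.toPerm (T * S⁻¹) : Equiv.Perm (G ⧸ j.range)) x) = cτ x := by
    intro x
    induction x using QuotientGroup.induction_on with
    | H g =>
      rw [MulAction.toPerm_apply, MulAction.Quotient.smul_mk, hcτ_mk, hcτ_mk]
      simp only [smul_eq_mul]
      rw [P.invτ, P'.invτ]
  have h3 : ∀ x, cT ((MulAction.toPerm (T * S⁻¹) : Equiv.Perm (G ⧸ j.range))
      ((MulAction.toPerm S : Equiv.Perm (G ⧸ j.range)) x)) = cT x := by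
    intro x
    rw [MulAction.toPerm_apply, MulAction.toPerm_apply, tau_smul_S_smul]
    induction x using QuotientGroup.induction_on with
    | H g =>
      rw [MulAction.Quotient.smul_mk, hcT_mk, hcT_mk]
      simp only [smul_eq_mul]
      rw [P.invT, P'.invT]
  rw [hdiff, Qform_add_left, Qform_sub_left, Qform_left_of_invariant _ cτ _ h1,
    Qform_boundary_left (MulAction.toPerm S) _ (fun x => smul_smul_S hM hz x) h2 cT Q.a h3
      (Q.isManin hM hz)]
  ring

theorem pairingOf_skew {φ ψ : Additive H →+ k} (P : PotTriple j S T φ) (Q : PotTriple j S T ψ) :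
    pairingOf P Q = - pairingOf Q P := Qform_skew _ _ _

theorem pairingOf_indep_right (hM : ModularLike S T) (hz : S ^ 2 ∈ j.range) (h2 : (2 : k) ≠ 0)
    {φ ψ : Additive H →+ k} (P : PotTriple j S T φ) (Q Q' : PotTriple j S T ψ) :
    pairingOf P Q = pairingOf P Q' := by
  rw [pairingOf_skew P Q, pairingOf_skew P Q', pairingOf_indep_left hM hz h2 Q Q' P]

/-- **Injectivity**: if the class of `a_φ` is a boundary then `φ = 0`. -/
theorem eq_zero_of_boundary (hM : ModularLike S T) (hz : S ^ 2 ∈ j.range) {φ : Additive H →+ k}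
    (P : PotTriple j S T φ) (c : G ⧸ j.range → k)
    (hc : ∀ x : G ⧸ j.range, c ((T * S⁻¹) • S • x) = c x)
    (h : ∀ x : G ⧸ j.range, P.a ((T * S⁻¹) • x) - P.a x = c (S • x) - c x) : φ = 0 := by
  set Φ' : G → k := fun g => P.ΦT g + c (g : G ⧸ j.range) with hΦ'
  have hS : ∀ x, Φ' (S * x) = Φ' x := by
    intro g
    have h1 := h (g : G ⧸ j.range)
    rw [P.a_incr hM hz, MulAction.Quotient.smul_mk] at h1
    simp only [smul_eq_mul] at h1
    simp only [hΦ']
    linear_combination -h1
  have hT : ∀ x, Φ' (T * x) = Φ' x := by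
    intro g
    have h1 := hc (g : G ⧸ j.range)
    rw [tau_smul_S_smul, MulAction.Quotient.smul_mk] at h1
    simp only [smul_eq_mul] at h1
    simp only [hΦ']
    rw [P.invT, h1]
  have hconst := const_of_leftInv hM Φ' hS hT
  have hφ : ∀ y : H, φ (Additive.ofMul y) = 0 := by
    intro y
    have h1 : Φ' (j y) = Φ' 1 := by
      have := hconst (j y) 1
      rwa [mul_one] at this
    have h2 : ((j y : G) : G ⧸ j.range) = ((1 : G) : G ⧸ j.range) := by
      rw [QuotientGroup.eq]
      simp
    have h3 : P.ΦT (j y) = P.ΦT 1 + φ (Additive.ofMul y) := by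
      have := P.potT 1 y
      rwa [one_mul] at this
    simp only [hΦ'] at h1
    rw [h2, h3] at h1
    linear_combination h1
  ext y
  exact hφ (Additive.toMul y)

end Pairing

end Fermat.Agent.S41.H94
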