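import Mathlib
import Fermat.Agent.S41.Defs
import Fermat.Agent.S41.H94_PDDefs
import Fermat.Agent.S41.H94_Pair

/-!
# S41, package P (Poincare duality): interfaces of the remaining leaves

See `NOTES/plan/L_S41_PD.md`.  Abstract leaves are stated for a group `G` with `ModularLike S T`
(`Fermat/Agent/S41/H94_Pair.lean`); the `SL(2,ℤ)`-specific leaves use `ModularGroup.S`, `ModularGroup.T`.

* `Stmt_SURJ` : every Manin function is the Manin function of a potential triple.
* `Stmt_ADJ1` : restriction and corestriction are adjoint for the pairing.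
* `Stmt_B1`   : the pairing is `-2 ×` the sum over the cusps of a primitive `b` of the cup product.
* `Stmt_B2`   : a normalised primitive `b` of the cup product exists.
* `Stmt_B3`   : the sum over the `T`-orbits is the sum over the conjugacy classes of primitive positive
                parabolic elements.
* `Stmt_CUSP` : cuspidal (trace condition) ↔ kills the conjugates of powers of `S`, `T`, `T S⁻¹`.
-/

set_option autoImplicit false

open scoped MatrixGroups

namespace Fermat.Agent.S41.H94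

/-- The universal property of `PSL(2,ℤ) = C₂ * C₃`, for an abstract `(G, S, T)`. -/
def PSLProp {G : Type} [Group G] (S T : G) : Prop :=
  ∀ (K : Type) [Group K] (s t : K), s ^ 2 = 1 → t ^ 3 = 1 →
    ∃ θ : G →* K, θ S = s ∧ θ (T * S⁻¹) = t

/-- `b` is a primitive of the cup product `φ ∪ ψ`. -/
def IsCupPrim {H : Type*} [Group H] {k : Type*} [Field k] (φ ψ : Additive H →+ k) (b : H → k) :
    Prop :=
  ∀ h h' : H, b (h * h') = b h + b h' - φ (Additive.ofMul h) * ψ (Additive.ofMul h')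

/-- **SURJ**: every Manin function on `G ⧸ range j` is `P.a` for a potential triple `P` of some `ψ`. -/
def Stmt_SURJ : Prop :=
  ∀ (G : Type) [Group G] (H : Type) [Group H] (k : Type) [Field k] (S T : G) (j : H →* G),
    PSLProp S T → ModularLike S T → S ^ 2 ∈ j.range →
    ∀ a : G ⧸ j.range → k,
      IsManin (MulAction.toPerm S : Equiv.Perm (G ⧸ j.range)) (MulAction.toPerm (T * S⁻¹)) a →
      ∃ (ψ : Additive H →+ k) (P : PotTriple j S T ψ), P.a = a

/-- **ADJ1**: `pairing_{j ∘ ι}(φ ∘ ι, ψ) = pairing_j(φ, cor_ι ψ)`. -/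
def Stmt_ADJ1 : Prop :=
  ∀ (G : Type) [Group G] (H H' : Type) [Group H] [Group H'] (k : Type) [Field k] (S T : G)
    (j : H →* G) (ι : H' →* H) [Fintype (G ⧸ j.range)] [Fintype (G ⧸ (j.comp ι).range)],
    Function.Injective j → Function.Injective ι → ι.range.FiniteIndex →
    ModularLike S T → S ^ 2 ∈ (j.comp ι).range → (2 : k) ≠ 0 →
    ∀ (φ : Additive H →+ k) (ψ : Additive H' →+ k)
      (P : PotTriple j S T φ) (Q : PotTriple (j.comp ι) S T ψ),
      ∃ (P' : PotTriple (j.comp ι) S T (resAlong k ι φ)) (Q' : PotTriple j S T (corAlong k ι ψ)),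
        pairingOf P' Q = pairingOf P Q'

/-- **B1**: for a normalised primitive `b` of `φ ∪ ψ`, the sum of `b` over the `T`-orbits (cusps) is
`-1/2` times the pairing. -/
def Stmt_B1 : Prop :=
  ∀ (G : Type) [Group G] (H : Type) [Group H] (k : Type) [Field k] (S T : G) (j : H →* G)
    [Fintype (G ⧸ j.range)]
    [Fintype (MulAction.orbitRel.Quotient (Subgroup.zpowers T) (G ⧸ j.range))],
    ModularLike S T → S ^ 2 ∈ j.range → (2 : k) ≠ 0 →
    ∀ (φ ψ : Additive H →+ k) (P : PotTriple j S T φ) (Q : PotTriple j S T ψ) (b : H → k),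
      IsCupPrim φ ψ b →
      (∀ (h : H) (x : G) (n : ℤ), j h = x⁻¹ * (T * S⁻¹) ^ n * x → b h = 0) →
      ∀ c : MulAction.orbitRel.Quotient (Subgroup.zpowers T) (G ⧸ j.range) → H,
        (∀ q, j (c q) = q.out.out⁻¹ * T ^ Function.minimalPeriod (T • ·) q.out * q.out.out) →
        ∑ q, b (c q) = -(1 / 2) * pairingOf P Q

/-- **B2**: a normalised primitive of the cup product exists. -/
def Stmt_B2 : Prop :=
  ∀ (G : Type) [Group G] (H : Type) [Group H] (k : Type) [Field k] (S T : G) (j : H →* G),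
    PSLProp S T → ModularLike S T → S ^ 2 ∈ j.range →
    ∀ (φ ψ : Additive H →+ k), PotTriple j S T φ → PotTriple j S T ψ →
      ∃ b : H → k, IsCupPrim φ ψ b ∧
        ∀ (h : H) (x : G) (n : ℤ), j h = x⁻¹ * (T * S⁻¹) ^ n * x → b h = 0

/-- A positive parabolic element of `SL(2,ℤ)` (a conjugate of `T ^ n`, `n ≥ 1`). -/
def IsPosPar (g : SL(2, ℤ)) : Prop :=
  (g : Matrix (Fin 2) (Fin 2) ℤ).trace = 2 ∧ g ≠ 1 ∧ 0 ≤ g 0 1 ∧ g 1 0 ≤ 0

/-- A primitive positive parabolic element of `H` (along `j`). -/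
def IsPrimPosPar {H : Type*} [Group H] (j : H →* SL(2, ℤ)) (h : H) : Prop :=
  IsPosPar (j h) ∧ ∀ (h' : H) (m : ℕ), IsPosPar (j h') → h' ^ m = h → m = 1

/-- Conjugacy on the elements satisfying `P`. -/
def conjSetoid {H : Type*} [Group H] (P : H → Prop) : Setoid {h : H // P h} where
  r a b := ∃ γ : H, γ * a.1 * γ⁻¹ = b.1
  iseqv :=
    { refl := fun a => ⟨1, by simp⟩
      symm := fun {a b} ⟨γ, h⟩ => ⟨γ⁻¹, by rw [← h]; group⟩
      trans := fun {a b c} ⟨γ, h⟩ ⟨γ', h'⟩ => ⟨γ' * γ, by rw [← h', ← h]; group⟩ }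

/-- The sum of `b` over the conjugacy classes of elements satisfying `P`. -/
noncomputable def classSum {H : Type*} [Group H] {k : Type*} [AddCommMonoid k] (P : H → Prop)
    (b : H → k) : k :=
  ∑ᶠ C : Quotient (conjSetoid P), b C.out.1

/-- **B3**: the sum over the `T`-orbits on `SL(2,ℤ) ⧸ range j` equals the sum over the conjugacy classes
of primitive positive parabolic elements. -/
def Stmt_B3 : Prop :=
  ∀ (H : Type) [Group H] (k : Type) [Field k] (j : H →* SL(2, ℤ))
    [Fintype (MulAction.orbitRel.Quotient (Subgroup.zpowers ModularGroup.T) (SL(2, ℤ) ⧸ j.range))],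
    Function.Injective j → j.range.FiniteIndex → (-1 : SL(2, ℤ)) ∈ j.range →
    ∀ (b : H → k), (∀ (γ h : H), IsPosPar (j h) → b (γ * h * γ⁻¹) = b h) →
    ∀ c : MulAction.orbitRel.Quotient (Subgroup.zpowers ModularGroup.T) (SL(2, ℤ) ⧸ j.range) → H,
      (∀ q, j (c q) = q.out.out⁻¹ *
        ModularGroup.T ^ Function.minimalPeriod (ModularGroup.T • ·) q.out * q.out.out) →
      ∑ q, b (c q) = classSum (IsPrimPosPar j) b

/-- cuspidality along an embedding `j : H →* SL(2,ℤ)` -/
def IsCuspVia {H : Type*} [Group H] {k : Type*} [Field k] (j : H →* SL(2, ℤ))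
    (φ : Additive H →+ k) : Prop :=
  ∀ h : H, ((j h : SL(2, ℤ)) : Matrix (Fin 2) (Fin 2) ℤ).trace ^ 2 ≤ 4 → φ (Additive.ofMul h) = 0

/-- **CUSP**: cuspidal ↔ kills the conjugates of the powers of `S`, `T`, `T S⁻¹`. -/
def Stmt_CUSP : Prop :=
  ∀ (H : Type) [Group H] (k : Type) [Field k] (j : H →* SL(2, ℤ)),
    (2 : k) ≠ 0 → (-1 : SL(2, ℤ)) ∈ j.range →
    ∀ φ : Additive H →+ k,
      IsCuspVia j φ ↔ (KillsConj j φ ModularGroup.S ∧ KillsConj j φ ModularGroup.T ∧
        KillsConj j φ (ModularGroup.T * ModularGroup.S⁻¹))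

/-- **ML**: `(SL(2,ℤ), S, T)` is `ModularLike`. -/
def Stmt_ML : Prop := ModularLike ModularGroup.S ModularGroup.T

end Fermat.Agent.S41.H94
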