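import Mathlib
import Fermat.Agent.S41.H94_PDStmts

/-!
# S41, package P: non-abelian potentials from `PSL(2,ℤ) = C₂ * C₃` (helper77)

`exists_cocyclePot`: let `(G, S, T)` be modular-like with the universal property `PSLProp`,
`j : H →* G` with `S² ∈ range j`, `X = G ⧸ range j`, `Λ` a group and `A_S, A_τ : X → Λ` with
`A_S (S • x) * A_S x = 1`, `A_τ (τ • τ • x) * A_τ (τ • x) * A_τ x = 1` (`τ = T S⁻¹`).
Then there is `Ψ : G → Λ` with `Ψ 1 = 1`, `Ψ (S g) = A_S [g] * Ψ g`, `Ψ (τ g) = A_τ [g] * Ψ g` and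
`Ψ (x * j h) = Ψ x * Ψ (j h)`.
-/

set_option autoImplicit false

namespace Fermat.Agent.S41.H77

open Fermat.Agent.S41.H94

section Shear

variable {X : Type} {Λ : Type} [Group Λ]

/-- the shear `(x, v) ↦ (σ x, A x * v)` -/
def shear (σ : Equiv.Perm X) (A : X → Λ) : Equiv.Perm (X × Λ) where
  toFun p := (σ p.1, A p.1 * p.2)
  invFun p := (σ.symm p.1, (A (σ.symm p.1))⁻¹ * p.2)
  left_inv p := by simp
  right_inv p := by simp

@[simp] theorem shear_apply (σ : Equiv.Perm X) (A : X → Λ) (p : X × Λ) :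
    shear σ A p = (σ p.1, A p.1 * p.2) := rfl

end Shear

variable {G : Type} [Group G] {H : Type} [Group H]

/-- **Non-abelian potentials.** -/
theorem exists_cocyclePot (S T : G) (j : H →* G) (hP : PSLProp S T) (hM : ModularLike S T)
    (hz : S ^ 2 ∈ j.range) (Λ : Type) [Group Λ] (AS Aτ : G ⧸ j.range → Λ)
    (hS : ∀ x, AS (S • x) * AS x = 1)
    (hτ : ∀ x, Aτ ((T * S⁻¹) • (T * S⁻¹) • x) * Aτ ((T * S⁻¹) • x) * Aτ x = 1) :
    ∃ Ψ : G → Λ, Ψ 1 = 1 ∧ (∀ g : G, Ψ (S * g) = AS (g : G ⧸ j.range) * Ψ g) ∧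
      (∀ g : G, Ψ (T * S⁻¹ * g) = Aτ (g : G ⧸ j.range) * Ψ g) ∧
      (∀ (x : G) (h : H), Ψ (x * j h) = Ψ x * Ψ (j h)) := by
  classical
  set s' : Equiv.Perm ((G ⧸ j.range) × Λ) := shear (MulAction.toPerm S) AS with hs'
  set t' : Equiv.Perm ((G ⧸ j.range) × Λ) := shear (MulAction.toPerm (T * S⁻¹)) Aτ with ht'
  have hs2 : s' ^ 2 = 1 := by
    ext p : 1
    rw [pow_two, Equiv.Perm.mul_apply, hs', shear_apply, shear_apply]
    simp only [MulAction.toPerm_apply, Equiv.Perm.one_apply]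
    rw [smul_smul_S hM hz, ← mul_assoc, hS, one_mul]
  have ht3 : t' ^ 3 = 1 := by
    ext p : 1
    rw [pow_succ, pow_two, Equiv.Perm.mul_apply, Equiv.Perm.mul_apply, ht', shear_apply,
      shear_apply, shear_apply]
    simp only [MulAction.toPerm_apply, Equiv.Perm.one_apply]
    rw [smul_smul_smul_tau hM, ← mul_assoc, ← mul_assoc, hτ, one_mul]
  obtain ⟨θ, hθS, hθτ⟩ := hP (Equiv.Perm ((G ⧸ j.range) × Λ)) s' t' hs2 ht3
  -- the shape of `θ g`
  have hshape : ∀ g : G, ∃ C : G ⧸ j.range → Λ, ∀ (x : G ⧸ j.range) (v : Λ),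
      θ g (x, v) = (g • x, C x * v) := by
    intro g
    have hg : g ∈ Subgroup.closure ({S, T} : Set G) := by rw [hM.gen]; trivial
    have hτshape : ∃ C : G ⧸ j.range → Λ, ∀ (x : G ⧸ j.range) (v : Λ),
        θ (T * S⁻¹) (x, v) = ((T * S⁻¹) • x, C x * v) :=
      ⟨Aτ, fun x v => by rw [hθτ, ht', shear_apply]; rfl⟩
    have hSshape : ∃ C : G ⧸ j.range → Λ, ∀ (x : G ⧸ j.range) (v : Λ),
        θ S (x, v) = (S • x, C x * v) :=
      ⟨AS, fun x v => by rw [hθS, hs', shear_apply]; rfl⟩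
    have hmul : ∀ a b : G,
        (∃ C : G ⧸ j.range → Λ, ∀ (x : G ⧸ j.range) (v : Λ), θ a (x, v) = (a • x, C x * v)) →
        (∃ C : G ⧸ j.range → Λ, ∀ (x : G ⧸ j.range) (v : Λ), θ b (x, v) = (b • x, C x * v)) →
        ∃ C : G ⧸ j.range → Λ, ∀ (x : G ⧸ j.range) (v : Λ),
          θ (a * b) (x, v) = ((a * b) • x, C x * v) := by
      rintro a b ⟨Ca, ha⟩ ⟨Cb, hb⟩
      refine ⟨fun x => Ca (b • x) * Cb x, fun x v => ?_⟩
      rw [map_mul, Equiv.Perm.mul_apply, hb, ha, mul_smul, mul_assoc]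
    induction hg using Subgroup.closure_induction with
    | mem y hy =>
      rcases hy with rfl | hy
      · exact hSshape
      · rw [Set.mem_singleton_iff] at hy
        subst hy
        have := hmul (y * S⁻¹) S hτshape hSshape
        rwa [inv_mul_cancel_right] at this
    | one => exact ⟨fun _ => 1, fun x v => by simp⟩
    | mul a b _ _ iha ihb => exact hmul a b iha ihb
    | inv a _ iha =>
      obtain ⟨Ca, ha⟩ := iha
      refine ⟨fun x => (Ca (a⁻¹ • x))⁻¹, fun x v => ?_⟩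
      have h := ha (a⁻¹ • x) ((Ca (a⁻¹ • x))⁻¹ * v)
      rw [smul_inv_smul, mul_inv_cancel_left] at h
      show θ a⁻¹ (x, v) = (a⁻¹ • x, (Ca (a⁻¹ • x))⁻¹ * v)
      rw [← h, ← Equiv.Perm.mul_apply, ← map_mul, inv_mul_cancel, map_one, Equiv.Perm.one_apply]
  choose C hC using hshape
  have ho : ∀ h : H, (j h) • ((1 : G) : G ⧸ j.range) = ((1 : G) : G ⧸ j.range) := by
    intro h
    rw [MulAction.Quotient.smul_mk, smul_eq_mul, mul_one, QuotientGroup.eq]
    simp
  have hsm : ∀ g : G, g • ((1 : G) : G ⧸ j.range) = (g : G ⧸ j.range) := by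
    intro g
    rw [MulAction.Quotient.smul_mk, smul_eq_mul, mul_one]
  have key : ∀ a g : G, C (a * g) ((1 : G) : G ⧸ j.range)
      = C a (g : G ⧸ j.range) * C g ((1 : G) : G ⧸ j.range) := by
    intro a g
    have h1 := hC (a * g) ((1 : G) : G ⧸ j.range) 1
    rw [map_mul, Equiv.Perm.mul_apply, hC g, hC a, hsm] at h1
    have h2 := congrArg Prod.snd h1
    simp only [mul_one] at h2
    exact h2.symm
  refine ⟨fun g => C g ((1 : G) : G ⧸ j.range), ?_, ?_, ?_, ?_⟩
  · have h1 := hC 1 ((1 : G) : G ⧸ j.range) 1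
    rw [map_one, Equiv.Perm.one_apply] at h1
    have h2 := congrArg Prod.snd h1
    simp only [mul_one] at h2
    exact h2.symm
  · intro g
    show C (S * g) _ = _
    rw [key]
    congr 1
    have h1 := hC S (g : G ⧸ j.range) 1
    rw [hθS, hs', shear_apply] at h1
    have h2 := congrArg Prod.snd h1
    simp only [mul_one] at h2
    exact h2.symm
  · intro g
    show C (T * S⁻¹ * g) _ = _
    rw [key]
    congr 1
    have h1 := hC (T * S⁻¹) (g : G ⧸ j.range) 1
    rw [hθτ, ht', shear_apply] at h1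
    have h2 := congrArg Prod.snd h1
    simp only [mul_one] at h2
    exact h2.symm
  · intro x h
    show C (x * j h) _ = C x _ * C (j h) _
    rw [key]
    congr 2
    have := ho h
    rw [hsm] at this
    exact this

end Fermat.Agent.S41.H77
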