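import Mathlib

/-!
# The Heisenberg group over a commutative ring (helper77, for S41-P leaf B2)

`Heis k = {(p, q, r)}` with `(p, q, r) * (p', q', r') = (p + p', q + q', r + r' + p * q')`.
A map `h ↦ (φ h, ψ h, -b h)` into `Heis k` is multiplicative iff `b` is a primitive of the cup
product `φ ∪ ψ`.
-/

set_option autoImplicit false

namespace Fermat.Agent.S41.H77

/-- The Heisenberg group. -/
@[ext]
structure Heis (k : Type) where
  /-- first coordinate -/
  p : k
  /-- second coordinate -/
  q : k
  /-- central coordinate -/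
  r : k

namespace Heis

variable {k : Type} [CommRing k]

instance : Mul (Heis k) := ⟨fun a b => ⟨a.p + b.p, a.q + b.q, a.r + b.r + a.p * b.q⟩⟩
instance : One (Heis k) := ⟨⟨0, 0, 0⟩⟩
instance : Inv (Heis k) := ⟨fun a => ⟨-a.p, -a.q, -a.r + a.p * a.q⟩⟩

@[simp] theorem mul_p (a b : Heis k) : (a * b).p = a.p + b.p := rfl
@[simp] theorem mul_q (a b : Heis k) : (a * b).q = a.q + b.q := rfl
@[simp] theorem mul_r (a b : Heis k) : (a * b).r = a.r + b.r + a.p * b.q := rfl
@[simp] theorem one_p : (1 : Heis k).p = 0 := rfl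
@[simp] theorem one_q : (1 : Heis k).q = 0 := rfl
@[simp] theorem one_r : (1 : Heis k).r = 0 := rfl
@[simp] theorem inv_p (a : Heis k) : (a⁻¹).p = -a.p := rfl
@[simp] theorem inv_q (a : Heis k) : (a⁻¹).q = -a.q := rfl
@[simp] theorem inv_r (a : Heis k) : (a⁻¹).r = -a.r + a.p * a.q := rfl

instance : Group (Heis k) where
  mul_assoc a b c := by
    ext <;> simp only [mul_p, mul_q, mul_r] <;> ring
  one_mul a := by
    ext <;> simp only [mul_p, mul_q, mul_r, one_p, one_q, one_r] <;> ring
  mul_one a := by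
    ext <;> simp only [mul_p, mul_q, mul_r, one_p, one_q, one_r] <;> ring
  inv_mul_cancel a := by
    ext <;> simp only [mul_p, mul_q, mul_r, one_p, one_q, one_r, inv_p, inv_q, inv_r] <;> ring

end Heis

end Fermat.Agent.S41.H77
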