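import Mathlib
import Fermat.Agent.S41.H77_CocPot
import Fermat.Agent.S41.H77_Heis

/-!
# S41, package P, leaf B2 (helper77): a normalised primitive of the cup product exists

Given potential triples `P`, `Q` of `φ`, `ψ`, the universal property of `PSL(2,ℤ) = C₂ * C₃` with
values in `Perm (X × Heis k)` produces a homomorphism `ρ = (φ, ψ, -b) : H → Heis k`, i.e. a
primitive `b` of `φ ∪ ψ`, together with a left-`τ`-invariant `Heis`-valued potential, so that `b`
vanishes on the conjugates of the powers of `τ = T S⁻¹`.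
-/

set_option autoImplicit false

namespace Fermat.Agent.S41.H77

open Fermat.Agent.S41.H94

/-- **B2**. -/
theorem stmt_B2 : Stmt_B2 := by
  intro G _ H _ k _ S T j hP hM hz φ ψ P Q
  -- the Heisenberg-valued functions on `X`
  set 𝒜 : G ⧸ j.range → Heis k := fun x => ⟨P.a x, Q.a x, 0⟩ with h𝒜
  set 𝒰 : G ⧸ j.range → Heis k := fun x => ⟨P.u x, Q.u x, 0⟩ with h𝒰
  obtain ⟨Ψ, hΨ1, hΨS, hΨτ, hΨj⟩ := exists_cocyclePot S T j hP hM hz (Heis k)
    (fun x => (𝒰 (S • x))⁻¹ * 𝒰 x) (fun x => (𝒜 ((T * S⁻¹) • x))⁻¹ * 𝒜 x)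
    (by
      intro x
      show (𝒰 (S • S • x))⁻¹ * 𝒰 (S • x) * ((𝒰 (S • x))⁻¹ * 𝒰 x) = 1
      rw [smul_smul_S hM hz]
      group)
    (by
      intro x
      show (𝒜 ((T * S⁻¹) • (T * S⁻¹) • (T * S⁻¹) • x))⁻¹ * 𝒜 ((T * S⁻¹) • (T * S⁻¹) • x)
        * ((𝒜 ((T * S⁻¹) • (T * S⁻¹) • x))⁻¹ * 𝒜 ((T * S⁻¹) • x))
        * ((𝒜 ((T * S⁻¹) • x))⁻¹ * 𝒜 x) = 1
      rw [smul_smul_smul_tau hM]
      group)
  have hmk : ∀ (g x : G), ((g * x : G) : G ⧸ j.range) = g • (x : G ⧸ j.range) := fun g x => rfl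
  -- increments of the potentials `Φ_T`
  have incrS : ∀ {χ : Additive H →+ k} (R : PotTriple j S T χ) (g : G),
      R.ΦT (S * g) - R.ΦT g = - R.u (S • (g : G ⧸ j.range)) + R.u (g : G ⧸ j.range) := by
    intro χ R g
    have h1 := R.a_incr hM hz g
    have h2 := R.manin hM hz (g : G ⧸ j.range)
    linear_combination h1 - h2
  -- the abelian part of `Ψ`
  have hab : ∀ g : G, (Ψ g).p - P.ΦT g = - P.ΦT 1 ∧ (Ψ g).q - Q.ΦT g = - Q.ΦT 1 := by
    have hSinv : ∀ x : G, ((Ψ (S * x)).p - P.ΦT (S * x), (Ψ (S * x)).q - Q.ΦT (S * x))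
        = ((Ψ x).p - P.ΦT x, (Ψ x).q - Q.ΦT x) := by
      intro x
      have e1 := incrS P x
      have e2 := incrS Q x
      rw [hΨS]
      simp only [Heis.mul_p, Heis.mul_q, Heis.inv_p, Heis.inv_q, h𝒰]
      refine Prod.ext ?_ ?_
      · show -P.u (S • (x : G ⧸ j.range)) + P.u (x : G ⧸ j.range) + (Ψ x).p - P.ΦT (S * x)
          = (Ψ x).p - P.ΦT x
        linear_combination -e1
      · show -Q.u (S • (x : G ⧸ j.range)) + Q.u (x : G ⧸ j.range) + (Ψ x).q - Q.ΦT (S * x)
          = (Ψ x).q - Q.ΦT x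
        linear_combination -e2
    have hTinv : ∀ x : G, ((Ψ (T * x)).p - P.ΦT (T * x), (Ψ (T * x)).q - Q.ΦT (T * x))
        = ((Ψ x).p - P.ΦT x, (Ψ x).q - Q.ΦT x) := by
      intro x
      have h1 : T * x = T * S⁻¹ * (S * x) := by group
      have e1 := P.manin hM hz (S • (x : G ⧸ j.range))
      have e2 := Q.manin hM hz (S • (x : G ⧸ j.range))
      rw [smul_smul_S hM hz] at e1 e2
      rw [P.invT, Q.invT, h1, hΨτ, hΨS, hmk]
      simp only [Heis.mul_p, Heis.mul_q, Heis.inv_p, Heis.inv_q, h𝒰, h𝒜]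
      refine Prod.ext ?_ ?_
      · show -P.a ((T * S⁻¹) • S • (x : G ⧸ j.range)) + P.a (S • (x : G ⧸ j.range))
          + (-P.u (S • (x : G ⧸ j.range)) + P.u (x : G ⧸ j.range) + (Ψ x).p) - P.ΦT x
          = (Ψ x).p - P.ΦT x
        linear_combination -e1
      · show -Q.a ((T * S⁻¹) • S • (x : G ⧸ j.range)) + Q.a (S • (x : G ⧸ j.range))
          + (-Q.u (S • (x : G ⧸ j.range)) + Q.u (x : G ⧸ j.range) + (Ψ x).q) - Q.ΦT x
          = (Ψ x).q - Q.ΦT x
        linear_combination -e2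
    intro g
    have hc := const_of_leftInv hM
      (fun x : G => ((Ψ x).p - P.ΦT x, (Ψ x).q - Q.ΦT x)) hSinv hTinv g 1
    simp only [mul_one, hΨ1, Heis.one_p, Heis.one_q, zero_sub] at hc
    exact ⟨congrArg Prod.fst hc, congrArg Prod.snd hc⟩
  have hρp : ∀ h : H, (Ψ (j h)).p = φ (Additive.ofMul h) := by
    intro h
    have h1 := (hab (j h)).1
    have h2 := P.potT 1 h
    rw [one_mul] at h2
    linear_combination h1 + h2
  have hρq : ∀ h : H, (Ψ (j h)).q = ψ (Additive.ofMul h) := by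
    intro h
    have h1 := (hab (j h)).2
    have h2 := Q.potT 1 h
    rw [one_mul] at h2
    linear_combination h1 + h2
  refine ⟨fun h => - (Ψ (j h)).r, ?_, ?_⟩
  · intro h h'
    show - (Ψ (j (h * h'))).r = - (Ψ (j h)).r + - (Ψ (j h')).r
      - φ (Additive.ofMul h) * ψ (Additive.ofMul h')
    rw [map_mul, hΨj, Heis.mul_r, hρp, hρq]
    ring
  · -- normalisation on the conjugates of powers of `τ`
    set Ψτ : G → Heis k := fun g => 𝒜 (g : G ⧸ j.range) * Ψ g with hΨτdef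
    have hinv : ∀ g : G, Ψτ (T * S⁻¹ * g) = Ψτ g := by
      intro g
      simp only [hΨτdef]
      rw [hΨτ, hmk]
      group
    have hpow : ∀ (m : ℤ) (y : G), Ψτ ((T * S⁻¹) ^ m * y) = Ψτ y := by
      intro m
      induction m using Int.induction_on with
      | zero => intro y; simp
      | succ i ih =>
        intro y
        rw [zpow_add_one, mul_assoc, ih, hinv]
      | pred i ih =>
        intro y
        rw [zpow_sub_one, mul_assoc, ih]
        have := hinv ((T * S⁻¹)⁻¹ * y)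
        rw [mul_inv_cancel_left] at this
        exact this.symm
    have hpotτ : ∀ (x : G) (h : H), Ψτ (x * j h) = Ψτ x * Ψ (j h) := by
      intro x h
      simp only [hΨτdef]
      have hq : ((x * j h : G) : G ⧸ j.range) = (x : G ⧸ j.range) := by
        rw [QuotientGroup.eq]
        simp
      rw [hq, hΨj, mul_assoc]
    intro h x n hh
    have h1 := hpotτ x h
    have h2 : x * j h = (T * S⁻¹) ^ n * x := by rw [hh]; group
    rw [h2, hpow] at h1
    have h3 : Ψ (j h) = 1 := by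
      have := mul_left_cancel (a := Ψτ x) (b := 1) (c := Ψ (j h)) (by rw [mul_one]; exact h1)
      exact this.symm
    show - (Ψ (j h)).r = 0
    rw [h3, Heis.one_r, neg_zero]

end Fermat.Agent.S41.H77
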