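import Mathlib
import Fermat.Agent.S41.H77_CocPot

/-!
# S41, package P, leaf SURJ (helper77): every Manin function is the Manin function of a
potential triple
-/

set_option autoImplicit false

namespace Fermat.Agent.S41.H77

open Fermat.Agent.S41.H94

/-- **SURJ**. -/
theorem stmt_SURJ : Stmt_SURJ := by
  intro G _ H _ k _ S T j hP hM hz a hMan
  obtain ⟨u, hu⟩ := hMan
  simp only [MulAction.toPerm_apply] at hu
  set w : G ⧸ j.range → k := fun x => a ((T * S⁻¹) • x) - a x with hw
  have hwu : ∀ x, w x = u (S • x) - u x := fun x => hu x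
  have hws : ∀ x, w (S • x) + w x = 0 := by
    intro x
    rw [hwu, hwu, smul_smul_S hM hz]
    ring
  have hwt : ∀ x, w ((T * S⁻¹) • (T * S⁻¹) • x) + w ((T * S⁻¹) • x) + w x = 0 := by
    intro x
    simp only [hw]
    rw [smul_smul_smul_tau hM]
    ring
  obtain ⟨Ψ, hΨ1, hΨS, hΨτ, hΨj⟩ := exists_cocyclePot S T j hP hM hz (Multiplicative k)
    (fun x => Multiplicative.ofAdd (- w x)) (fun x => Multiplicative.ofAdd (- w x))
    (by
      intro x
      show Multiplicative.ofAdd (- w (S • x) + - w x) = Multiplicative.ofAdd 0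
      congr 1
      linear_combination - hws x)
    (by
      intro x
      show Multiplicative.ofAdd (- w ((T * S⁻¹) • (T * S⁻¹) • x) + - w ((T * S⁻¹) • x) + - w x)
        = Multiplicative.ofAdd 0
      congr 1
      linear_combination - hwt x)
  set Φ : G → k := fun g => Multiplicative.toAdd (Ψ g) with hΦ
  have hΦS : ∀ g : G, Φ (S * g) = - w (g : G ⧸ j.range) + Φ g := by
    intro g
    simp only [hΦ, hΨS]
    rfl
  have hΦτ : ∀ g : G, Φ (T * S⁻¹ * g) = - w (g : G ⧸ j.range) + Φ g := by
    intro g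
    simp only [hΦ, hΨτ]
    rfl
  have hΦj : ∀ (x : G) (h : H), Φ (x * j h) = Φ x + Φ (j h) := by
    intro x h
    simp only [hΦ, hΨj]
    rfl
  -- the homomorphism
  let ψ : Additive H →+ k :=
    { toFun := fun h => Φ (j (Additive.toMul h))
      map_zero' := by
        show Φ (j 1) = 0
        rw [map_one]
        simp only [hΦ, hΨ1]
        rfl
      map_add' := fun h h' => by
        show Φ (j (Additive.toMul h * Additive.toMul h')) = _
        rw [map_mul, hΦj] }
  have hpot : IsPot j ψ Φ := fun x h => hΦj x h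
  have hcu : ∀ (x : G) (y : H),
      u ((x * j y : G) : G ⧸ j.range) = u (x : G ⧸ j.range) := by
    intro x y
    congr 1
    rw [QuotientGroup.eq]
    simp
  have hca : ∀ (x : G) (y : H),
      a ((x * j y : G) : G ⧸ j.range) = a (x : G ⧸ j.range) := by
    intro x y
    congr 1
    rw [QuotientGroup.eq]
    simp
  have hmk : ∀ (g x : G), ((g * x : G) : G ⧸ j.range) = g • (x : G ⧸ j.range) := fun g x => rfl
  refine ⟨ψ, ⟨Φ, fun g => Φ g + u (g : G ⧸ j.range), fun g => Φ g + a (g : G ⧸ j.range),
    hpot, hpot.add_const (c := fun g => u (g : G ⧸ j.range)) hcu,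
    hpot.add_const (c := fun g => a (g : G ⧸ j.range)) hca, ?_, ?_, ?_⟩, ?_⟩
  · intro x
    have h1 : T * x = T * S⁻¹ * (S * x) := by group
    rw [h1, hΦτ, hΦS, hmk]
    linear_combination - hws (x : G ⧸ j.range)
  · intro x
    show Φ (S * x) + u ((S * x : G) : G ⧸ j.range) = Φ x + u (x : G ⧸ j.range)
    rw [hΦS, hmk, hwu]
    ring
  · intro x
    show Φ (T * S⁻¹ * x) + a ((T * S⁻¹ * x : G) : G ⧸ j.range) = Φ x + a (x : G ⧸ j.range)
    rw [hΦτ, hmk]
    simp only [hw]
    ring
  · funext x
    induction x using QuotientGroup.induction_on with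
    | H g =>
      rw [PotTriple.a_mk]
      ring

end Fermat.Agent.S41.H77
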