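import Mathlib
import Fermat.Agent.S41.H94_PDStmts
import Fermat.Agent.S41.H19_Transfer

/-!
# S41, package P (Poincare duality), leaf ADJ1 (helper78)

`pairing_{j ∘ ι}(φ ∘ ι, ψ) = pairing_j(φ, cor_ι ψ)`.

* `resTriple` : the potentials of `φ` are potentials of `φ ∘ ι`.
* `corTriple` : the fibre sums `x ↦ ∑_{r ∈ H ⧸ ι(H')} Ψ (x * j r)` of the potentials of `ψ` are
  potentials of `cor_ι ψ`.
* `pairingOf_res_cor` : the adjunction for these triples.
* `stmt_ADJ1 : Stmt_ADJ1`.
-/

set_option autoImplicit false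

namespace Fermat.Agent.S41.H78

open Fermat.Agent.S41 Fermat.Agent.S41.H94 Fermat.Agent.S41.H19

section Adj1

variable {G : Type*} [Group G] {H H' : Type*} [Group H] [Group H'] {k : Type*} [Field k]

/-- The fibre sum of a function on `G` along `H ⧸ ι(H')`. -/
noncomputable def fibSum (j : H →* G) (ι : H' →* H) [Fintype (H ⧸ ι.range)] (Ψ : G → k) :
    G → k :=
  fun x => ∑ q : H ⧸ ι.range, Ψ (x * j q.out)

theorem fibSum_isPot (j : H →* G) (ι : H' →* H) (hι : Function.Injective ι)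
    [Fintype (H ⧸ ι.range)] {ψ : Additive H' →+ k} {Ψ : G → k} (hΨ : IsPot (j.comp ι) ψ Ψ) :
    IsPot j (corAlong k ι ψ) (fibSum j ι Ψ) := by
  intro x h
  obtain ⟨σ, h', hh⟩ := (isReps_out ι).exists_sol h
  have hσ : Function.Bijective σ := (isReps_out ι).sol_bijective hh
  rw [corAlong_eq_sum ι hι _ (isReps_out ι) ψ h σ h' hh]
  unfold fibSum
  have e1 : ∀ q : H ⧸ ι.range,
      Ψ (x * j h * j q.out) = Ψ (x * j (σ q).out) + ψ (Additive.ofMul (h' q)) := by
    intro q
    have := hΨ (x * j (σ q).out) (h' q)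
    rw [← this, MonoidHom.comp_apply, mul_assoc, ← map_mul, mul_assoc, ← map_mul, hh q]
  rw [Finset.sum_congr rfl (fun q _ => e1 q), Finset.sum_add_distrib]
  congr 1
  exact Fintype.sum_bijective σ hσ _ _ (fun q => rfl)

theorem fibSum_leftInv (j : H →* G) (ι : H' →* H) [Fintype (H ⧸ ι.range)] {Ψ : G → k} {g : G}
    (hg : ∀ x, Ψ (g * x) = Ψ x) (x : G) : fibSum j ι Ψ (g * x) = fibSum j ι Ψ x := by
  unfold fibSum
  refine Finset.sum_congr rfl fun q _ => ?_
  rw [mul_assoc, hg]

variable {S T : G}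

/-- The potentials of `φ` are potentials of `φ ∘ ι`. -/
def resTriple (j : H →* G) (ι : H' →* H) {φ : Additive H →+ k} (P : PotTriple j S T φ) :
    PotTriple (j.comp ι) S T (resAlong k ι φ) where
  ΦT := P.ΦT
  ΦS := P.ΦS
  Φτ := P.Φτ
  potT x h := P.potT x (ι h)
  potS x h := P.potS x (ι h)
  potτ x h := P.potτ x (ι h)
  invT := P.invT
  invS := P.invS
  invτ := P.invτ

/-- The fibre sums of the potentials of `ψ` are potentials of `cor_ι ψ`. -/
noncomputable def corTriple (j : H →* G) (ι : H' →* H) (hι : Function.Injective ι)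
    [Fintype (H ⧸ ι.range)] {ψ : Additive H' →+ k} (Q : PotTriple (j.comp ι) S T ψ) :
    PotTriple j S T (corAlong k ι ψ) where
  ΦT := fibSum j ι Q.ΦT
  ΦS := fibSum j ι Q.ΦS
  Φτ := fibSum j ι Q.Φτ
  potT := fibSum_isPot j ι hι Q.potT
  potS := fibSum_isPot j ι hι Q.potS
  potτ := fibSum_isPot j ι hι Q.potτ
  invT := fibSum_leftInv j ι Q.invT
  invS := fibSum_leftInv j ι Q.invS
  invτ := fibSum_leftInv j ι Q.invτ

theorem resTriple_a_mk (j : H →* G) (ι : H' →* H) {φ : Additive H →+ k} (P : PotTriple j S T φ)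
    (g : G) : (resTriple j ι P).a (g : G ⧸ (j.comp ι).range) = P.a (g : G ⧸ j.range) := by
  rw [PotTriple.a_mk, PotTriple.a_mk]
  rfl

theorem corTriple_a (j : H →* G) (ι : H' →* H) (hι : Function.Injective ι)
    [Fintype (H ⧸ ι.range)] {ψ : Additive H' →+ k} (Q : PotTriple (j.comp ι) S T ψ)
    (x : G ⧸ j.range) :
    (corTriple j ι hι Q).a x =
      ∑ q : H ⧸ ι.range, Q.a ((x.out * j q.out : G) : G ⧸ (j.comp ι).range) := by
  conv_lhs => rw [← QuotientGroup.out_eq' x]
  rw [PotTriple.a_mk]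
  simp only [corTriple, fibSum]
  rw [← Finset.sum_sub_distrib]
  refine Finset.sum_congr rfl fun q _ => ?_
  rw [PotTriple.a_mk]

/-- The cosets of `(j ∘ ι)(H')` are parametrised by pairs (coset of `j(H)`, coset of `ι(H')`). -/
theorem fib_bijective (j : H →* G) (hj : Function.Injective j) (ι : H' →* H) :
    Function.Bijective (fun p : (G ⧸ j.range) × (H ⧸ ι.range) =>
      ((p.1.out * j p.2.out : G) : G ⧸ (j.comp ι).range)) := by
  constructor
  · rintro ⟨x, q⟩ ⟨y, r⟩ h
    simp only at h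
    obtain ⟨h', hh'⟩ := QuotientGroup.eq.mp h
    rw [MonoidHom.comp_apply] at hh'
    have hxy : x = y := by
      rw [← QuotientGroup.out_eq' x, ← QuotientGroup.out_eq' y]
      apply QuotientGroup.eq.mpr
      refine ⟨q.out * ι h' * r.out⁻¹, ?_⟩
      rw [map_mul, map_mul, hh', map_inv]
      group
    subst hxy
    have hqr : q = r := by
      rw [← QuotientGroup.out_eq' q, ← QuotientGroup.out_eq' r]
      apply QuotientGroup.eq.mpr
      refine ⟨h', ?_⟩
      apply hj
      rw [hh', map_mul, map_inv]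
      group
    rw [hqr]
  · intro x'
    induction x' using QuotientGroup.induction_on with
    | H g =>
      obtain ⟨n, hn⟩ := QuotientGroup.mk_out_eq_mul j.range g
      obtain ⟨h, hh⟩ := n.2
      obtain ⟨m, hm⟩ := QuotientGroup.mk_out_eq_mul ι.range h⁻¹
      obtain ⟨h', hh'⟩ := m.2
      refine ⟨((g : G ⧸ j.range), ((h⁻¹ : H) : H ⧸ ι.range)), ?_⟩
      simp only
      rw [hn, hm, ← hh, ← hh', map_mul, map_inv]
      apply QuotientGroup.eq.mpr
      refine ⟨h'⁻¹, ?_⟩
      rw [MonoidHom.comp_apply, map_inv, map_inv]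
      group

end Adj1

section Q

variable {X : Type*} [Fintype X] {k : Type*} [Field k]

theorem Qform_eq_sum (t : Equiv.Perm X) (a b : X → k) :
    Qform t a b = ∑ x, (a (t.symm x) - a (t x)) * b x := by
  unfold Qform
  simp only [sub_mul, Finset.sum_sub_distrib]
  congr 1
  rw [← Equiv.sum_comp t (fun x => a (t.symm x) * b x)]
  refine Finset.sum_congr rfl fun x _ => ?_
  rw [Equiv.symm_apply_apply]

end Q

section Main

variable {G : Type*} [Group G] {H H' : Type*} [Group H] [Group H'] {k : Type*} [Field k]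
variable {S T : G}

theorem pairingOf_res_cor (j : H →* G) (hj : Function.Injective j) (ι : H' →* H)
    (hι : Function.Injective ι) [Fintype (H ⧸ ι.range)] [Fintype (G ⧸ j.range)]
    [Fintype (G ⧸ (j.comp ι).range)] {φ : Additive H →+ k} {ψ : Additive H' →+ k}
    (P : PotTriple j S T φ) (Q : PotTriple (j.comp ι) S T ψ) :
    pairingOf (resTriple j ι P) Q = pairingOf P (corTriple j ι hι Q) := by
  unfold pairingOf
  rw [Qform_eq_sum, Qform_eq_sum]
  rw [← Fintype.sum_bijective _ (fib_bijective j hj ι) (fun p =>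
      ((resTriple j ι P).a ((MulAction.toPerm (T * S⁻¹) : Equiv.Perm (G ⧸ (j.comp ι).range)).symm
          ((p.1.out * j p.2.out : G) : G ⧸ (j.comp ι).range))
        - (resTriple j ι P).a ((MulAction.toPerm (T * S⁻¹) : Equiv.Perm (G ⧸ (j.comp ι).range))
          ((p.1.out * j p.2.out : G) : G ⧸ (j.comp ι).range)))
        * Q.a ((p.1.out * j p.2.out : G) : G ⧸ (j.comp ι).range)) _ (fun p => rfl)]
  rw [Fintype.sum_prod_type]
  refine Finset.sum_congr rfl fun x _ => ?_
  rw [corTriple_a, Finset.mul_sum]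
  refine Finset.sum_congr rfl fun q _ => ?_
  congr 1
  have hmk : ∀ g : G, ((g * (x.out * j q.out) : G) : G ⧸ j.range) = g • x := by
    intro g
    conv_rhs => rw [← QuotientGroup.out_eq' x]
    rw [MulAction.Quotient.smul_mk, smul_eq_mul]
    apply QuotientGroup.eq.mpr
    refine ⟨(q.out)⁻¹, ?_⟩
    rw [map_inv]
    group
  rw [MulAction.toPerm_symm_apply, MulAction.toPerm_apply, MulAction.toPerm_symm_apply,
    MulAction.toPerm_apply, MulAction.Quotient.smul_mk, MulAction.Quotient.smul_mk,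
    resTriple_a_mk, resTriple_a_mk]
  simp only [smul_eq_mul]
  rw [hmk, hmk]

theorem stmt_ADJ1 : Stmt_ADJ1 := by
  intro G _ H H' _ _ k _ S T j ι _ _ hj hι hfin _ _ _ φ ψ P Q
  haveI := hfin
  letI : Fintype (H ⧸ ι.range) := Fintype.ofFinite _
  exact ⟨resTriple j ι P, corTriple j ι hι Q, pairingOf_res_cor j hj ι hι P Q⟩

end Main

end Fermat.Agent.S41.H78
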