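import Mathlib
import Fermat.Agent.S41.H94_PDStmts

/-!
# S41, package P: invariance of the pairing under change of the embedding

Two embeddings `j, j' : H →* SL(2,ℤ)` with the same traces and the same positive parabolic elements
(e.g. `j' = (conjugation by diag(q,1)) ∘ j`) give the same pairing.  From `Stmt_B1`, `Stmt_B2`,
`Stmt_B3`, `Stmt_PSL`, `Stmt_ML`, `Stmt_C3`, `Stmt_PAR`.
-/

set_option autoImplicit false

open scoped MatrixGroups

namespace Fermat.Agent.S41.H94

theorem pslProp_of_stmt (h : Stmt_PSL) : PSLProp ModularGroup.S ModularGroup.T :=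
  fun K _ s t hs ht => h K s t hs ht

section CupPrim

variable {H : Type*} [Group H] {k : Type*} [Field k] {φ ψ : Additive H →+ k} {b : H → k}

theorem IsCupPrim.map_one (hb : IsCupPrim φ ψ b) : b 1 = 0 := by
  have h := hb 1 1
  rw [mul_one, ofMul_one, map_zero, zero_mul, sub_zero] at h
  exact left_eq_add.mp h |>.symm ▸ rfl

/-- A primitive of the cup product is conjugation-invariant on the common kernel. -/
theorem IsCupPrim.conj_invariant (hb : IsCupPrim φ ψ b) (γ h : H)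
    (hφ : φ (Additive.ofMul h) = 0) (hψ : ψ (Additive.ofMul h) = 0) :
    b (γ * h * γ⁻¹) = b h := by
  have h1 := hb (γ * h) γ⁻¹
  have h2 := hb γ h
  have h3 := hb γ γ⁻¹
  rw [mul_inv_cancel, hb.map_one] at h3
  rw [h1, h2]
  simp only [ofMul_mul, ofMul_inv, map_add, map_neg, hφ, hψ] at h3 ⊢
  linear_combination -h3

end CupPrim

section Inv

variable {H : Type} [Group H] {k : Type} [Field k]

/-- The trace of a power of `τ = T S⁻¹` is `2` or `-1`; if it is `2` the power is `1`. -/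
theorem tau_zpow_cases (n : ℤ) :
    (ModularGroup.T * ModularGroup.S⁻¹) ^ n = (1 : SL(2, ℤ)) ∨
      (((ModularGroup.T * ModularGroup.S⁻¹) ^ n : SL(2, ℤ)) : Matrix (Fin 2) (Fin 2) ℤ).trace = -1 := by
  have h3 : (ModularGroup.T * ModularGroup.S⁻¹ : SL(2, ℤ)) ^ (3 : ℤ) = 1 := by
    rw [show ((3 : ℤ)) = ((3 : ℕ) : ℤ) by norm_num, zpow_natCast]; decide
  have hn : n = 3 * (n / 3) + n % 3 := (Int.mul_ediv_add_emod n 3).symm
  have hcases : n % 3 = 0 ∨ n % 3 = 1 ∨ n % 3 = 2 := by omega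
  rw [hn, zpow_add, zpow_mul, h3, one_zpow, one_mul]
  rcases hcases with h | h | h
  · left; rw [h, zpow_zero]
  · right; rw [h, zpow_one]; decide
  · right; rw [h, show ((2 : ℤ)) = ((2 : ℕ) : ℤ) by norm_num, zpow_natCast]; decide

theorem trace_conj' (x g : SL(2, ℤ)) :
    ((x⁻¹ * g * x : SL(2, ℤ)) : Matrix (Fin 2) (Fin 2) ℤ).trace
      = (g : Matrix (Fin 2) (Fin 2) ℤ).trace := by
  have h1 : ((x⁻¹ * g * x : SL(2, ℤ)) : Matrix (Fin 2) (Fin 2) ℤ)
      = (x⁻¹ : SL(2, ℤ)).1 * (g.1 * x.1) := by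
    simp [Matrix.SpecialLinearGroup.coe_mul, Matrix.mul_assoc]
  rw [h1, Matrix.trace_mul_comm, Matrix.mul_assoc]
  have h2 : x.1 * (x⁻¹ : SL(2, ℤ)).1 = 1 := by
    rw [← Matrix.SpecialLinearGroup.coe_mul, mul_inv_cancel]; rfl
  rw [h2, Matrix.mul_one]

/-- **Invariance of the pairing**. -/
theorem pairingOf_inv (hB1 : Stmt_B1) (hB2 : Stmt_B2) (hB3 : Stmt_B3) (hPSL : Stmt_PSL)
    (hML : Stmt_ML) (hC3 : Stmt_C3) (hPAR : Stmt_PAR) (h2 : (2 : k) ≠ 0)
    (j j' : H →* SL(2, ℤ))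
    [Fintype (SL(2, ℤ) ⧸ j.range)] [Fintype (SL(2, ℤ) ⧸ j'.range)]
    (hj : Function.Injective j) (hj' : Function.Injective j')
    (hfi : j.range.FiniteIndex) (hfi' : j'.range.FiniteIndex)
    (hneg : (-1 : SL(2, ℤ)) ∈ j.range) (hneg' : (-1 : SL(2, ℤ)) ∈ j'.range)
    (htr : ∀ h : H, ((j h : SL(2, ℤ)) : Matrix (Fin 2) (Fin 2) ℤ).trace
      = ((j' h : SL(2, ℤ)) : Matrix (Fin 2) (Fin 2) ℤ).trace)
    (hpos : ∀ h : H, IsPosPar (j h) ↔ IsPosPar (j' h))
    {φ ψ : Additive H →+ k}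
    (P : PotTriple j ModularGroup.S ModularGroup.T φ) (Q : PotTriple j ModularGroup.S ModularGroup.T ψ)
    (P' : PotTriple j' ModularGroup.S ModularGroup.T φ)
    (Q' : PotTriple j' ModularGroup.S ModularGroup.T ψ) :
    pairingOf P Q = pairingOf P' Q' := by
  classical
  have hS2 : (ModularGroup.S : SL(2, ℤ)) ^ 2 = -1 := by decide
  have hz : (ModularGroup.S : SL(2, ℤ)) ^ 2 ∈ j.range := by rw [hS2]; exact hneg
  have hz' : (ModularGroup.S : SL(2, ℤ)) ^ 2 ∈ j'.range := by rw [hS2]; exact hneg'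
  obtain ⟨b, hb, hbn⟩ := hB2 SL(2, ℤ) H k ModularGroup.S ModularGroup.T j (pslProp_of_stmt hPSL)
    hML hz φ ψ P Q
  -- normalisation along `j'`
  have hbn' : ∀ (h : H) (x : SL(2, ℤ)) (n : ℤ),
      j' h = x⁻¹ * (ModularGroup.T * ModularGroup.S⁻¹) ^ n * x → b h = 0 := by
    intro h x n hh
    rcases tau_zpow_cases n with h1 | h1
    · have : j' h = 1 := by rw [hh, h1]; group
      have : h = 1 := hj' (by rw [this, map_one])
      rw [this]; exact hb.map_one
    · have htr1 : ((j h : SL(2, ℤ)) : Matrix (Fin 2) (Fin 2) ℤ).trace = -1 := by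
        rw [htr, hh, trace_conj', h1]
      obtain ⟨y, hy | hy⟩ := hC3 (j h) htr1
      · exact hbn h y 1 (by rw [zpow_one]; exact hy)
      · exact hbn h y (-1) (by rw [zpow_neg_one]; exact hy)
  -- conjugation invariance on positive parabolic elements
  have hconj : ∀ (γ h : H), IsPosPar (j h) → b (γ * h * γ⁻¹) = b h := by
    intro γ h hh
    obtain ⟨x, n, hx⟩ := hPAR (j h) hh.1
    exact hb.conj_invariant γ h (P.killsT x n h hx) (Q.killsT x n h hx)
  have hconj' : ∀ (γ h : H), IsPosPar (j' h) → b (γ * h * γ⁻¹) = b h :=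
    fun γ h hh => hconj γ h ((hpos h).mpr hh)
  -- the orbit representatives
  haveI : Fintype (MulAction.orbitRel.Quotient (Subgroup.zpowers ModularGroup.T)
      (SL(2, ℤ) ⧸ j.range)) := Fintype.ofFinite _
  haveI : Fintype (MulAction.orbitRel.Quotient (Subgroup.zpowers ModularGroup.T)
      (SL(2, ℤ) ⧸ j'.range)) := Fintype.ofFinite _
  have hc : ∀ q : MulAction.orbitRel.Quotient (Subgroup.zpowers ModularGroup.T)
      (SL(2, ℤ) ⧸ j.range), ∃ h : H, j h = q.out.out⁻¹ *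
        ModularGroup.T ^ Function.minimalPeriod (ModularGroup.T • ·) q.out * q.out.out :=
    fun q => QuotientGroup.out_conj_pow_minimalPeriod_mem j.range ModularGroup.T q.out
  have hc' : ∀ q : MulAction.orbitRel.Quotient (Subgroup.zpowers ModularGroup.T)
      (SL(2, ℤ) ⧸ j'.range), ∃ h : H, j' h = q.out.out⁻¹ *
        ModularGroup.T ^ Function.minimalPeriod (ModularGroup.T • ·) q.out * q.out.out :=
    fun q => QuotientGroup.out_conj_pow_minimalPeriod_mem j'.range ModularGroup.T q.out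
  choose c hc using hc
  choose c' hc' using hc'
  have e1 := hB1 SL(2, ℤ) H k ModularGroup.S ModularGroup.T j hML hz h2 φ ψ P Q b hb hbn c hc
  have e1' := hB1 SL(2, ℤ) H k ModularGroup.S ModularGroup.T j' hML hz' h2 φ ψ P' Q' b hb hbn' c' hc'
  have e3 := hB3 H k j hj hfi hneg b hconj c hc
  have e3' := hB3 H k j' hj' hfi' hneg' b hconj' c' hc'
  have hP : IsPrimPosPar j = IsPrimPosPar j' := by
    funext h
    unfold IsPrimPosPar
    simp only [hpos]
  rw [hP] at e3
  have e5 : -(1 / 2) * pairingOf P Q = -(1 / 2) * pairingOf P' Q' := by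
    rw [← e1, ← e1', e3, e3']
  have h12 : (-(1 / 2) : k) ≠ 0 := by
    rw [neg_ne_zero]; exact one_div_ne_zero h2
  exact mul_left_cancel₀ h12 e5

end Inv

end Fermat.Agent.S41.H94
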