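import Mathlib
import Fermat.Agent.S41.H94_PDStmts

/-!
# S41, package P: nondegeneracy of the pairing (abstract form), from `Stmt_SURJ`
-/

set_option autoImplicit false

namespace Fermat.Agent.S41.H94

section ND

variable {G : Type} [Group G] {H : Type} [Group H] {k : Type} [Field k]
variable {j : H →* G} {S T : G} [Fintype (G ⧸ j.range)]

/-- **Nondegeneracy**: if `pairingOf Q P = 0` for every potential triple `Q` (of any `ψ`), then
`φ = 0`. -/
theorem eq_zero_of_pairing_eq_zero (hSURJ : Stmt_SURJ) (hPSL : PSLProp S T)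
    (hM : ModularLike S T) (hz : S ^ 2 ∈ j.range) (h2 : (2 : k) ≠ 0)
    {φ : Additive H →+ k} (P : PotTriple j S T φ)
    (h : ∀ (ψ : Additive H →+ k) (Q : PotTriple j S T ψ), pairingOf Q P = 0) : φ = 0 := by
  classical
  obtain ⟨c, hc, hcb⟩ := Qform_radical (k := k)
    (MulAction.toPerm S : Equiv.Perm (G ⧸ j.range)) (MulAction.toPerm (T * S⁻¹))
    (fun x => smul_smul_S hM hz x) (fun x => smul_smul_smul_tau hM x) h2 P.a (P.isManin hM hz)
    (by
      intro a ha
      obtain ⟨ψ, Q, hQ⟩ := hSURJ G H k S T j hPSL hM hz a ha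
      have := h ψ Q
      unfold pairingOf at this
      rw [hQ] at this
      exact this)
  exact eq_zero_of_boundary hM hz P c hc hcb

end ND

end Fermat.Agent.S41.H94
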