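import Mathlib
import Fermat.Agent.S41.H94_ND
import Fermat.Agent.S41.H94_Inv
import Fermat.Agent.S41.H19_RelDeg

/-!
# S41, package P: the pairing on `Hom_cusp(Gamma0 M, k)`

`Bform k M φ ψ` for `φ ψ : Additive (Gamma0 M) →+ k`; skew, bilinear on cuspidal homs, nondegenerate,
`res_i`/`cor_i` adjoint.  Everything is conditional on the leaves `Stmt_*` of
`Fermat/Agent/S41/H94_PDStmts.lean` (bundled in `Leaves`).
-/

set_option autoImplicit false

open scoped MatrixGroups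
open CongruenceSubgroup

namespace Fermat.Agent.S41.H94

/-- The leaves of package P. -/
structure Leaves : Prop where
  psl : Stmt_PSL
  c3 : Stmt_C3
  par : Stmt_PAR
  surj : Stmt_SURJ
  adj1 : Stmt_ADJ1
  b1 : Stmt_B1
  b2 : Stmt_B2
  b3 : Stmt_B3
  cusp : Stmt_CUSP
  ml : Stmt_ML

section General

variable {G : Type*} [Group G] {H : Type*} [Group H] {k : Type*} [Field k] {S T : G}

/-- The pairing does not depend on the `Fintype` instance. -/
theorem pairingOf_inst {j : H →* G} (i₁ i₂ : Fintype (G ⧸ j.range)) {φ ψ : Additive H →+ k}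
    (P : PotTriple j S T φ) (Q : PotTriple j S T ψ) :
    @pairingOf _ _ _ _ _ _ j S T i₁ φ ψ P Q = @pairingOf _ _ _ _ _ _ j S T i₂ φ ψ P Q := by
  have : i₁ = i₂ := Subsingleton.elim _ _
  subst this
  rfl

/-- The pairing only depends on the homomorphism `j`. -/
theorem pairingOf_of_eq {j₁ j₂ : H →* G} (h : j₁ = j₂) [i₁ : Fintype (G ⧸ j₁.range)]
    [i₂ : Fintype (G ⧸ j₂.range)] (hM : ModularLike S T) (hz : S ^ 2 ∈ j₁.range) (h2 : (2 : k) ≠ 0)
    {φ ψ : Additive H →+ k} (P₁ : PotTriple j₁ S T φ) (Q₁ : PotTriple j₁ S T ψ)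
    (P₂ : PotTriple j₂ S T φ) (Q₂ : PotTriple j₂ S T ψ) :
    pairingOf P₁ Q₁ = pairingOf P₂ Q₂ := by
  subst h
  rw [pairingOf_inst i₁ i₂, pairingOf_indep_left hM hz h2 P₁ P₂ Q₁,
    pairingOf_indep_right hM hz h2 P₂ Q₁ Q₂]

theorem pairingOf_add_left {j : H →* G} [Fintype (G ⧸ j.range)] {φ φ' ψ : Additive H →+ k}
    (P : PotTriple j S T φ) (P' : PotTriple j S T φ') (Q : PotTriple j S T ψ) :
    pairingOf (P.add P') Q = pairingOf P Q + pairingOf P' Q := by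
  unfold pairingOf
  rw [PotTriple.add_a, Qform_add_left]

theorem pairingOf_smul_left {j : H →* G} [Fintype (G ⧸ j.range)] {φ ψ : Additive H →+ k}
    (r : k) (P : PotTriple j S T φ) (Q : PotTriple j S T ψ) :
    pairingOf (P.smul r) Q = r * pairingOf P Q := by
  unfold pairingOf
  rw [PotTriple.smul_a, Qform_smul_left]

end General

section Concrete

variable (k : Type) [Field k]

/-- `S² = -1`. -/
theorem S_sq : (ModularGroup.S : SL(2, ℤ)) ^ 2 = -1 := by decide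

theorem neg_one_mem_Gamma0 (M : ℕ) : (-1 : SL(2, ℤ)) ∈ Gamma0 M := by
  rw [Gamma0_mem]
  simp

theorem S_sq_mem (M : ℕ) : (ModularGroup.S : SL(2, ℤ)) ^ 2 ∈ (Gamma0 M).subtype.range := by
  rw [S_sq, Subgroup.range_subtype]
  exact neg_one_mem_Gamma0 M

theorem neg_one_mem_range (M : ℕ) : (-1 : SL(2, ℤ)) ∈ (Gamma0 M).subtype.range := by
  rw [Subgroup.range_subtype]
  exact neg_one_mem_Gamma0 M

instance finite_quot_Gamma0 (M : ℕ) [NeZero M] : Finite (SL(2, ℤ) ⧸ (Gamma0 M).subtype.range) := by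
  rw [Subgroup.range_subtype]
  exact Subgroup.finite_quotient_of_finiteIndex

/-- The pairing on `Hom(Gamma0 M, k)` (zero unless both arguments are cuspidal). -/
noncomputable def Bform (M : ℕ) (φ ψ : Additive (Gamma0 M) →+ k) : k :=
  open Classical in
  if h : Finite (SL(2, ℤ) ⧸ (Gamma0 M).subtype.range) ∧
      Nonempty (PotTriple (Gamma0 M).subtype ModularGroup.S ModularGroup.T φ) ∧
      Nonempty (PotTriple (Gamma0 M).subtype ModularGroup.S ModularGroup.T ψ) then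
    @pairingOf _ _ _ _ _ _ (Gamma0 M).subtype ModularGroup.S ModularGroup.T
      (@Fintype.ofFinite _ h.1) φ ψ h.2.1.some h.2.2.some
  else 0

variable {k}

theorem Bform_eq (L : Leaves) (h2 : (2 : k) ≠ 0) (M : ℕ)
    [i : Fintype (SL(2, ℤ) ⧸ (Gamma0 M).subtype.range)] {φ ψ : Additive (Gamma0 M) →+ k}
    (P : PotTriple (Gamma0 M).subtype ModularGroup.S ModularGroup.T φ)
    (Q : PotTriple (Gamma0 M).subtype ModularGroup.S ModularGroup.T ψ) :
    Bform k M φ ψ = pairingOf P Q := by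
  unfold Bform
  have hfin : Finite (SL(2, ℤ) ⧸ (Gamma0 M).subtype.range) := Finite.of_fintype _
  rw [dif_pos ⟨hfin, ⟨P⟩, ⟨Q⟩⟩]
  rw [pairingOf_inst _ i, pairingOf_indep_left L.ml (S_sq_mem M) h2 _ P,
    pairingOf_indep_right L.ml (S_sq_mem M) h2 P _ Q]

/-- cuspidal homs have potential triples -/
theorem nonempty_potTriple_of_cuspidal (L : Leaves) (h2 : (2 : k) ≠ 0) {H : Type} [Group H]
    (j : H →* SL(2, ℤ)) (hneg : (-1 : SL(2, ℤ)) ∈ j.range) {φ : Additive H →+ k}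
    (hφ : IsCuspVia j φ) : Nonempty (PotTriple j ModularGroup.S ModularGroup.T φ) := by
  obtain ⟨h1, h3, h4⟩ := (L.cusp H k j h2 hneg φ).mp hφ
  exact exists_potTriple j _ _ φ h1 h3 h4

theorem cuspidal_of_potTriple (L : Leaves) (h2 : (2 : k) ≠ 0) {H : Type} [Group H]
    (j : H →* SL(2, ℤ)) (hneg : (-1 : SL(2, ℤ)) ∈ j.range) {φ : Additive H →+ k}
    (P : PotTriple j ModularGroup.S ModularGroup.T φ) : IsCuspVia j φ :=
  (L.cusp H k j h2 hneg φ).mpr ⟨P.killsS, P.killsT, P.killsτ⟩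

theorem isCuspidalHom_iff (M : ℕ) (φ : Additive (Gamma0 M) →+ k) :
    IsCuspidalHom (Gamma0 M) φ ↔ IsCuspVia (Gamma0 M).subtype φ := Iff.rfl

theorem Bform_skew (L : Leaves) (h2 : (2 : k) ≠ 0) (M : ℕ) [NeZero M]
    {φ ψ : Additive (Gamma0 M) →+ k} (hφ : IsCuspidalHom (Gamma0 M) φ)
    (hψ : IsCuspidalHom (Gamma0 M) ψ) : Bform k M φ ψ = - Bform k M ψ φ := by
  haveI : Fintype (SL(2, ℤ) ⧸ (Gamma0 M).subtype.range) := Fintype.ofFinite _
  obtain ⟨P⟩ := nonempty_potTriple_of_cuspidal L h2 _ (neg_one_mem_range M) hφ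
  obtain ⟨Q⟩ := nonempty_potTriple_of_cuspidal L h2 _ (neg_one_mem_range M) hψ
  rw [Bform_eq L h2 M P Q, Bform_eq L h2 M Q P, pairingOf_skew]

theorem Bform_add_left (L : Leaves) (h2 : (2 : k) ≠ 0) (M : ℕ) [NeZero M]
    {φ φ' ψ : Additive (Gamma0 M) →+ k} (hφ : IsCuspidalHom (Gamma0 M) φ)
    (hφ' : IsCuspidalHom (Gamma0 M) φ') (hψ : IsCuspidalHom (Gamma0 M) ψ) :
    Bform k M (φ + φ') ψ = Bform k M φ ψ + Bform k M φ' ψ := by
  haveI : Fintype (SL(2, ℤ) ⧸ (Gamma0 M).subtype.range) := Fintype.ofFinite _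
  obtain ⟨P⟩ := nonempty_potTriple_of_cuspidal L h2 _ (neg_one_mem_range M) hφ
  obtain ⟨P'⟩ := nonempty_potTriple_of_cuspidal L h2 _ (neg_one_mem_range M) hφ'
  obtain ⟨Q⟩ := nonempty_potTriple_of_cuspidal L h2 _ (neg_one_mem_range M) hψ
  rw [Bform_eq L h2 M P Q, Bform_eq L h2 M P' Q, Bform_eq L h2 M (P.add P') Q, pairingOf_add_left]

theorem Bform_smul_left (L : Leaves) (h2 : (2 : k) ≠ 0) (M : ℕ) [NeZero M] (r : k)
    {φ ψ : Additive (Gamma0 M) →+ k} (hφ : IsCuspidalHom (Gamma0 M) φ)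
    (hψ : IsCuspidalHom (Gamma0 M) ψ) :
    Bform k M (r • φ) ψ = r * Bform k M φ ψ := by
  haveI : Fintype (SL(2, ℤ) ⧸ (Gamma0 M).subtype.range) := Fintype.ofFinite _
  obtain ⟨P⟩ := nonempty_potTriple_of_cuspidal L h2 _ (neg_one_mem_range M) hφ
  obtain ⟨Q⟩ := nonempty_potTriple_of_cuspidal L h2 _ (neg_one_mem_range M) hψ
  rw [Bform_eq L h2 M P Q, Bform_eq L h2 M (P.smul r) Q, pairingOf_smul_left]

/-- **Nondegeneracy** of the pairing on cuspidal homs. -/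
theorem Bform_nondeg (L : Leaves) (h2 : (2 : k) ≠ 0) (M : ℕ) [NeZero M]
    {φ : Additive (Gamma0 M) →+ k} (hφ : IsCuspidalHom (Gamma0 M) φ)
    (h : ∀ ψ : Additive (Gamma0 M) →+ k, IsCuspidalHom (Gamma0 M) ψ → Bform k M ψ φ = 0) :
    φ = 0 := by
  haveI : Fintype (SL(2, ℤ) ⧸ (Gamma0 M).subtype.range) := Fintype.ofFinite _
  obtain ⟨P⟩ := nonempty_potTriple_of_cuspidal L h2 _ (neg_one_mem_range M) hφ
  refine eq_zero_of_pairing_eq_zero L.surj (pslProp_of_stmt L.psl) L.ml (S_sq_mem M) h2 P ?_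
  intro ψ Q
  rw [← Bform_eq L h2 M Q P]
  exact h ψ (cuspidal_of_potTriple L h2 _ (neg_one_mem_range M) Q)

end Concrete

end Fermat.Agent.S41.H94
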