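import Mathlib
import Fermat.Agent.S41.H94_Gamma0

/-!
# S41, package P: `res_i` and `cor_i` are adjoint for the pairing `Bform`
-/

set_option autoImplicit false

open scoped MatrixGroups
open CongruenceSubgroup

namespace Fermat.Agent.S41.H94

section Embeddings

/-- `Gamma0 (N q) ⊆ Gamma0 N ⊆ SL(2,ℤ)`. -/
abbrev j1 (N q : ℕ) : Gamma0 (N * q) →* SL(2, ℤ) := (Gamma0 N).subtype.comp (inclG N q)

/-- `Gamma0 (N q) → Gamma0 N ⊆ SL(2,ℤ)`, conjugation by `diag(q,1)`. -/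
abbrev j2 (N q : ℕ) : Gamma0 (N * q) →* SL(2, ℤ) := (Gamma0 N).subtype.comp (conjG N q)

theorem j1_eq (N q : ℕ) : j1 N q = (Gamma0 (N * q)).subtype := MonoidHom.ext fun _ => rfl

theorem j2_injective (N q : ℕ) (hq : q ≠ 0) : Function.Injective (j2 N q) :=
  (Gamma0 N).subtype_injective.comp (H19.conjG_injective N q hq)

theorem coe_j2 (N q : ℕ) (h : Gamma0 (N * q)) :
    ((j2 N q h : SL(2, ℤ)) : Matrix (Fin 2) (Fin 2) ℤ) = conjMat q (H19.mat h) := rfl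

theorem trace_j2 (N q : ℕ) (h : Gamma0 (N * q)) :
    ((j2 N q h : SL(2, ℤ)) : Matrix (Fin 2) (Fin 2) ℤ).trace
      = (((Gamma0 (N * q)).subtype h : SL(2, ℤ)) : Matrix (Fin 2) (Fin 2) ℤ).trace := by
  rw [coe_j2, H19.trace_conjMat]
  rfl

theorem Gamma_le_range_j2 (N q : ℕ) (hq : q ≠ 0) : Gamma (N * q) ≤ (j2 N q).range := by
  intro g hg
  rw [Gamma_mem] at hg
  obtain ⟨-, h01, h10, -⟩ := hg
  have d01 : ((N * q : ℕ) : ℤ) ∣ g 0 1 := (ZMod.intCast_zmod_eq_zero_iff_dvd _ _).mp h01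
  have d10 : ((N * q : ℕ) : ℤ) ∣ g 1 0 := (ZMod.intCast_zmod_eq_zero_iff_dvd _ _).mp h10
  have hgN : g ∈ Gamma0 N := by
    rw [Gamma0_mem, ZMod.intCast_zmod_eq_zero_iff_dvd]
    exact dvd_trans (by push_cast; exact dvd_mul_right _ _) d10
  have hq01 : (q : ℤ) ∣ H19.mat (⟨g, hgN⟩ : Gamma0 N) 0 1 :=
    dvd_trans (by push_cast; exact dvd_mul_left _ _) d01
  obtain ⟨h', hh'⟩ := H19.exists_conjG_eq hq (⟨g, hgN⟩ : Gamma0 N) hq01
  exact ⟨h', by show ((conjG N q h' : Gamma0 N) : SL(2, ℤ)) = g; rw [hh']⟩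

theorem finiteIndex_range_j2 (N q : ℕ) (hN : N ≠ 0) (hq : q ≠ 0) : (j2 N q).range.FiniteIndex := by
  haveI : NeZero (N * q) := ⟨Nat.mul_ne_zero hN hq⟩
  exact Subgroup.finiteIndex_of_le (Gamma_le_range_j2 N q hq)

theorem finiteIndex_range_conjG (N q : ℕ) (hN : N ≠ 0) (hq : q ≠ 0) :
    (conjG N q).range.FiniteIndex := by
  have h1 := finiteIndex_range_j2 N q hN hq
  have h2 : (j2 N q).range = (conjG N q).range.map (Gamma0 N).subtype := MonoidHom.range_comp _ _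
  rw [h2] at h1
  constructor
  intro h0
  apply h1.index_ne_zero
  rw [Subgroup.index_map_subtype, h0, zero_mul]

theorem finiteIndex_range_inclG (N q : ℕ) (hN : N ≠ 0) (hq : q ≠ 0) :
    (inclG N q).range.FiniteIndex := by
  haveI : NeZero (N * q) := ⟨Nat.mul_ne_zero hN hq⟩
  have h1 : (j1 N q).range.FiniteIndex := by
    rw [j1_eq, Subgroup.range_subtype]; infer_instance
  have h2 : (j1 N q).range = (inclG N q).range.map (Gamma0 N).subtype := MonoidHom.range_comp _ _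
  rw [h2] at h1
  constructor
  intro h0
  apply h1.index_ne_zero
  rw [Subgroup.index_map_subtype, h0, zero_mul]

theorem neg_one_mem_range_j2 (N q : ℕ) : (-1 : SL(2, ℤ)) ∈ (j2 N q).range := by
  refine ⟨⟨-1, neg_one_mem_Gamma0 (N * q)⟩, ?_⟩
  apply Subtype.ext
  show conjMat q ((-1 : SL(2, ℤ)) : Matrix (Fin 2) (Fin 2) ℤ) = ((-1 : SL(2, ℤ)) : Matrix _ _ ℤ)
  ext i j
  fin_cases i <;> fin_cases j <;> simp [conjMat]

theorem isPosPar_j2_iff (N q : ℕ) (hq : q ≠ 0) (h : Gamma0 (N * q)) :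
    IsPosPar ((Gamma0 (N * q)).subtype h) ↔ IsPosPar (j2 N q h) := by
  have hq0 : (0 : ℤ) < q := by exact_mod_cast Nat.pos_of_ne_zero hq
  obtain ⟨c, hc⟩ := q_dvd_of_mem_gamma0_mul h.2
  have hne : ((Gamma0 (N * q)).subtype h = 1) ↔ (j2 N q h = 1) := by
    constructor
    · intro h1
      have : h = 1 := (Gamma0 (N * q)).subtype_injective (by rw [h1, map_one])
      rw [this, map_one]
    · intro h1
      have : h = 1 := j2_injective N q hq (by rw [h1, map_one])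
      rw [this, map_one]
  have e01 : (j2 N q h : SL(2, ℤ)) 0 1 = (q : ℤ) * ((Gamma0 (N * q)).subtype h : SL(2, ℤ)) 0 1 := by
    show (conjMat q (H19.mat h)) 0 1 = _
    simp [conjMat]
  have e10 : ((Gamma0 (N * q)).subtype h : SL(2, ℤ)) 1 0 = (q : ℤ) * (j2 N q h : SL(2, ℤ)) 1 0 := by
    show (H19.mat h) 1 0 = (q : ℤ) * (conjMat q (H19.mat h)) 1 0
    have : H19.mat h 1 0 = (q : ℤ) * c := hc
    simp only [conjMat, Matrix.of_apply, Matrix.cons_val', Matrix.cons_val_zero,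
      Matrix.cons_val_one, Matrix.empty_val', Matrix.cons_val_fin_one]
    rw [this, Int.mul_ediv_cancel_left _ hq0.ne']
  unfold IsPosPar
  rw [trace_j2]
  constructor
  · rintro ⟨h1, h2, h3, h4⟩
    refine ⟨h1, fun h' => h2 (hne.mpr h'), ?_, ?_⟩
    · rw [e01]; exact mul_nonneg hq0.le h3
    · rw [e10] at h4; nlinarith
  · rintro ⟨h1, h2, h3, h4⟩
    refine ⟨h1, fun h' => h2 (hne.mp h'), ?_, ?_⟩
    · rw [e01] at h3; nlinarith
    · rw [e10]; nlinarith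

end Embeddings

section Adjunction

variable {k : Type} [Field k]

theorem isCuspVia_j2_iff (N q : ℕ) (ψ : Additive (Gamma0 (N * q)) →+ k) :
    IsCuspVia (j2 N q) ψ ↔ IsCuspidalHom (Gamma0 (N * q)) ψ := by
  unfold IsCuspVia IsCuspidalHom
  refine forall_congr' fun h => ?_
  rw [trace_j2]
  rfl

theorem isCuspVia_j1_iff (N q : ℕ) (ψ : Additive (Gamma0 (N * q)) →+ k) :
    IsCuspVia (j1 N q) ψ ↔ IsCuspidalHom (Gamma0 (N * q)) ψ := Iff.rfl

/-- Adjointness of `res1` and `cor1`. -/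
theorem Bform_adj1 (L : Leaves) (h2 : (2 : k) ≠ 0) (N q : ℕ) (hN : N ≠ 0) (hq : q ≠ 0)
    {φ : Additive (Gamma0 N) →+ k} {ψ : Additive (Gamma0 (N * q)) →+ k}
    (hφ : IsCuspidalHom (Gamma0 N) φ) (hψ : IsCuspidalHom (Gamma0 (N * q)) ψ) :
    IsCuspidalHom (Gamma0 (N * q)) (res1 N q k φ) ∧ IsCuspidalHom (Gamma0 N) (cor1 N q k ψ) ∧
      Bform k (N * q) (res1 N q k φ) ψ = Bform k N φ (cor1 N q k ψ) := by
  haveI : NeZero N := ⟨hN⟩
  haveI : NeZero (N * q) := ⟨Nat.mul_ne_zero hN hq⟩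
  haveI : Fintype (SL(2, ℤ) ⧸ (Gamma0 N).subtype.range) := Fintype.ofFinite _
  haveI : Fintype (SL(2, ℤ) ⧸ (Gamma0 (N * q)).subtype.range) := Fintype.ofFinite _
  haveI : Finite (SL(2, ℤ) ⧸ ((Gamma0 N).subtype.comp (inclG N q)).range) := by
    have := j1_eq N q
    unfold j1 at this
    rw [this]; infer_instance
  haveI : Fintype (SL(2, ℤ) ⧸ ((Gamma0 N).subtype.comp (inclG N q)).range) := Fintype.ofFinite _
  have hz1 : (ModularGroup.S : SL(2, ℤ)) ^ 2 ∈ ((Gamma0 N).subtype.comp (inclG N q)).range := by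
    have := j1_eq N q
    unfold j1 at this
    rw [this]; exact S_sq_mem (N * q)
  obtain ⟨P⟩ := nonempty_potTriple_of_cuspidal L h2 _ (neg_one_mem_range N) hφ
  obtain ⟨Q⟩ := nonempty_potTriple_of_cuspidal L h2 _ (neg_one_mem_range (N * q)) hψ
  have hneg1 : (-1 : SL(2, ℤ)) ∈ (j1 N q).range := by
    rw [j1_eq]; exact neg_one_mem_range (N * q)
  obtain ⟨Q₁⟩ := nonempty_potTriple_of_cuspidal L h2 (j1 N q) hneg1
    ((isCuspVia_j1_iff N q ψ).mpr hψ)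
  obtain ⟨P', Q', hPQ⟩ := L.adj1 SL(2, ℤ) (Gamma0 N) (Gamma0 (N * q)) k ModularGroup.S
    ModularGroup.T (Gamma0 N).subtype (inclG N q) (Gamma0 N).subtype_injective
    (H19.inclG_injective N q) (finiteIndex_range_inclG N q hN hq) L.ml hz1 h2 φ ψ P Q₁
  have hres : IsCuspidalHom (Gamma0 (N * q)) (res1 N q k φ) :=
    (isCuspVia_j1_iff N q _).mp (cuspidal_of_potTriple L h2 (j1 N q) hneg1 P')
  have hcor : IsCuspidalHom (Gamma0 N) (cor1 N q k ψ) :=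
    cuspidal_of_potTriple L h2 _ (neg_one_mem_range N) Q'
  refine ⟨hres, hcor, ?_⟩
  obtain ⟨P₀⟩ := nonempty_potTriple_of_cuspidal L h2 _ (neg_one_mem_range (N * q)) hres
  rw [Bform_eq L h2 (N * q) P₀ Q]
  change _ = Bform k N φ (corAlong k (inclG N q) ψ)
  rw [Bform_eq L h2 N P Q', ← hPQ]
  exact (pairingOf_of_eq (j1_eq N q) L.ml hz1 h2 P' Q₁ P₀ Q).symm

/-- Adjointness of `res2` and `cor2`. -/
theorem Bform_adj2 (L : Leaves) (h2 : (2 : k) ≠ 0) (N q : ℕ) (hN : N ≠ 0) (hq : q ≠ 0)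
    {φ : Additive (Gamma0 N) →+ k} {ψ : Additive (Gamma0 (N * q)) →+ k}
    (hφ : IsCuspidalHom (Gamma0 N) φ) (hψ : IsCuspidalHom (Gamma0 (N * q)) ψ) :
    IsCuspidalHom (Gamma0 (N * q)) (res2 N q k φ) ∧ IsCuspidalHom (Gamma0 N) (cor2 N q k ψ) ∧
      Bform k (N * q) (res2 N q k φ) ψ = Bform k N φ (cor2 N q k ψ) := by
  haveI : NeZero N := ⟨hN⟩
  haveI : NeZero (N * q) := ⟨Nat.mul_ne_zero hN hq⟩
  haveI : Fintype (SL(2, ℤ) ⧸ (Gamma0 N).subtype.range) := Fintype.ofFinite _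
  haveI : Fintype (SL(2, ℤ) ⧸ (Gamma0 (N * q)).subtype.range) := Fintype.ofFinite _
  have hfi2 := finiteIndex_range_j2 N q hN hq
  haveI : Finite (SL(2, ℤ) ⧸ ((Gamma0 N).subtype.comp (conjG N q)).range) :=
    Subgroup.finite_quotient_of_finiteIndex
  haveI : Fintype (SL(2, ℤ) ⧸ ((Gamma0 N).subtype.comp (conjG N q)).range) := Fintype.ofFinite _
  have hneg2 : (-1 : SL(2, ℤ)) ∈ (j2 N q).range := neg_one_mem_range_j2 N q
  have hz2 : (ModularGroup.S : SL(2, ℤ)) ^ 2 ∈ ((Gamma0 N).subtype.comp (conjG N q)).range := by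
    rw [S_sq]; exact hneg2
  obtain ⟨P⟩ := nonempty_potTriple_of_cuspidal L h2 _ (neg_one_mem_range N) hφ
  obtain ⟨Q⟩ := nonempty_potTriple_of_cuspidal L h2 _ (neg_one_mem_range (N * q)) hψ
  obtain ⟨Q₂⟩ := nonempty_potTriple_of_cuspidal L h2 (j2 N q) hneg2
    ((isCuspVia_j2_iff N q ψ).mpr hψ)
  obtain ⟨P', Q', hPQ⟩ := L.adj1 SL(2, ℤ) (Gamma0 N) (Gamma0 (N * q)) k ModularGroup.S
    ModularGroup.T (Gamma0 N).subtype (conjG N q) (Gamma0 N).subtype_injective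
    (H19.conjG_injective N q hq) (finiteIndex_range_conjG N q hN hq) L.ml hz2 h2 φ ψ P Q₂
  have hres : IsCuspidalHom (Gamma0 (N * q)) (res2 N q k φ) :=
    (isCuspVia_j2_iff N q _).mp (cuspidal_of_potTriple L h2 (j2 N q) hneg2 P')
  have hcor : IsCuspidalHom (Gamma0 N) (cor2 N q k ψ) :=
    cuspidal_of_potTriple L h2 _ (neg_one_mem_range N) Q'
  refine ⟨hres, hcor, ?_⟩
  obtain ⟨P₀⟩ := nonempty_potTriple_of_cuspidal L h2 _ (neg_one_mem_range (N * q)) hres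
  rw [Bform_eq L h2 (N * q) P₀ Q]
  change _ = Bform k N φ (corAlong k (conjG N q) ψ)
  rw [Bform_eq L h2 N P Q', ← hPQ]
  have hfi1 : ((Gamma0 (N * q)).subtype).range.FiniteIndex := by
    rw [Subgroup.range_subtype]; infer_instance
  exact pairingOf_inv L.b1 L.b2 L.b3 L.psl L.ml L.c3 L.par h2 (Gamma0 (N * q)).subtype (j2 N q)
    (Gamma0 (N * q)).subtype_injective (j2_injective N q hq) hfi1 hfi2
    (neg_one_mem_range (N * q)) hneg2 (fun h => (trace_j2 N q h).symm)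
    (fun h => isPosPar_j2_iff N q hq h) P₀ Q P' Q₂

end Adjunction

end Fermat.Agent.S41.H94
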