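import Mathlib

/-!
# S41, package P: abstract "dual Ihara" (pure linear algebra)

`V` finite-dimensional with a nondegenerate form `B`, `V'` with a nondegenerate form `B'`,
`r₁ r₂ : V → V'` with adjoints `c₁ c₂ : V' → V`, operators `T i` on `V` self-adjoint for `B`, scalars `a i`.
If (Ihara) `r₁ x₁ + r₂ x₂ = 0` with `x₁` an eigenvector (`T i x₁ = a i • x₁`) forces `x₁ = 0`, and the
relation is symmetric in `(x₁, x₂)`, then `V × V` is spanned by the image of `(c₁, c₂)` and the images of the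
`T i - a i` in both factors.
-/

set_option autoImplicit false

namespace Fermat.Agent.S41.H94

section Abstract

variable {k : Type*} [Field k] {V : Type*} [AddCommGroup V] [Module k V] [FiniteDimensional k V]
  {V' : Type*} [AddCommGroup V'] [Module k V']

/-- A bilinear form with trivial left kernel on a finite-dimensional space represents every functional. -/
theorem exists_repr_of_nondeg (B : V →ₗ[k] V →ₗ[k] k) (hB : ∀ x, (∀ y, B x y = 0) → x = 0)
    (f : V →ₗ[k] k) : ∃ x, B x = f := by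
  have hinj : Function.Injective B := by
    rw [← LinearMap.ker_eq_bot, LinearMap.ker_eq_bot']
    intro x hx
    exact hB x (fun y => by rw [hx]; rfl)
  have hsurj : Function.Surjective B :=
    (LinearMap.injective_iff_surjective_of_finrank_eq_finrank
      (Subspace.dual_finrank_eq (K := k) (V := V)).symm).mp hinj
  exact hsurj f

/-- The generating set of the abstract dual Ihara statement. -/
def dualGens {I : Type*} (c₁ c₂ : V' →ₗ[k] V) (T : I → V →ₗ[k] V) (a : I → k) : Set (V × V) :=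
  (Set.range fun y : V' => (c₁ y, c₂ y)) ∪
    (Set.range fun iu : I × V => (T iu.1 iu.2 - a iu.1 • iu.2, (0 : V))) ∪
    (Set.range fun iu : I × V => ((0 : V), T iu.1 iu.2 - a iu.1 • iu.2))

theorem span_dualGens_eq_top {I : Type*} (B : V →ₗ[k] V →ₗ[k] k) (B' : V' →ₗ[k] V' →ₗ[k] k)
    (hB : ∀ x, (∀ y, B x y = 0) → x = 0) (hB' : ∀ z, (∀ y, B' z y = 0) → z = 0)
    (r₁ r₂ : V →ₗ[k] V') (c₁ c₂ : V' →ₗ[k] V)
    (adj₁ : ∀ x y, B' (r₁ x) y = B x (c₁ y)) (adj₂ : ∀ x y, B' (r₂ x) y = B x (c₂ y))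
    (T : I → V →ₗ[k] V) (a : I → k) (hT : ∀ i x y, B x (T i y) = B (T i x) y)
    (ih : ∀ x₁ x₂, (∀ i, T i x₁ = a i • x₁) → r₁ x₁ + r₂ x₂ = 0 → x₁ = 0)
    (sw : ∀ x₁ x₂, r₁ x₁ + r₂ x₂ = 0 → r₁ x₂ + r₂ x₁ = 0) :
    Submodule.span k (dualGens c₁ c₂ T a) = ⊤ := by
  by_contra hne
  obtain ⟨v, hv⟩ : ∃ v : V × V, v ∉ Submodule.span k (dualGens c₁ c₂ T a) :=
    not_forall.mp fun hall => hne (eq_top_iff.mpr fun v _ => hall v)
  obtain ⟨f, hfv, hf⟩ := Submodule.exists_dual_map_eq_bot_of_notMem hv inferInstance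
  have hf0 : ∀ z ∈ dualGens c₁ c₂ T a, f z = 0 := by
    intro z hz
    have : f z ∈ (Submodule.span k (dualGens c₁ c₂ T a)).map f :=
      Submodule.mem_map_of_mem (Submodule.subset_span hz)
    rw [hf] at this
    exact (Submodule.mem_bot k).mp this
  obtain ⟨x₁, hx₁⟩ := exists_repr_of_nondeg B hB (f.comp (LinearMap.inl k V V))
  obtain ⟨x₂, hx₂⟩ := exists_repr_of_nondeg B hB (f.comp (LinearMap.inr k V V))
  have hsplit : ∀ u w : V, f (u, w) = B x₁ u + B x₂ w := by
    intro u w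
    rw [hx₁, hx₂]
    simp only [LinearMap.comp_apply, LinearMap.inl_apply, LinearMap.inr_apply]
    rw [← map_add]
    simp
  have hrel : r₁ x₁ + r₂ x₂ = 0 := by
    apply hB'
    intro y
    rw [map_add, LinearMap.add_apply, adj₁, adj₂, ← hsplit]
    exact hf0 _ (Or.inl (Or.inl ⟨y, rfl⟩))
  have he₁ : ∀ i, T i x₁ = a i • x₁ := by
    intro i
    rw [← sub_eq_zero]
    apply hB
    intro u
    rw [map_sub, LinearMap.sub_apply, map_smul, LinearMap.smul_apply, ← hT]
    have := hf0 _ (Or.inl (Or.inr ⟨(i, u), rfl⟩))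
    rw [hsplit] at this
    simp only [map_zero, add_zero, map_sub, map_smul] at this
    exact this
  have he₂ : ∀ i, T i x₂ = a i • x₂ := by
    intro i
    rw [← sub_eq_zero]
    apply hB
    intro u
    rw [map_sub, LinearMap.sub_apply, map_smul, LinearMap.smul_apply, ← hT]
    have := hf0 _ (Or.inr ⟨(i, u), rfl⟩)
    rw [hsplit] at this
    simp only [map_zero, zero_add, map_sub, map_smul] at this
    exact this
  have h1 : x₁ = 0 := ih x₁ x₂ he₁ hrel
  have h2 : x₂ = 0 := ih x₂ x₁ he₂ (sw x₁ x₂ hrel)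
  apply hfv
  obtain ⟨u, w⟩ := v
  rw [hsplit, h1, h2]
  simp

end Abstract

end Fermat.Agent.S41.H94
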