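import Mathlib
import Fermat.Agent.S41.H94_Adj
import Fermat.Agent.S41.H94_DualAbs
import Fermat.Agent.S41.Interfaces

/-!
# S41, package P: dual Ihara

Conditional on the leaves of package P (`Leaves`) and on `Stmt_IHARA`:

`dual_ihara` : every pair `(v₁, v₂)` of cuspidal homs `Gamma0 N → ZMod p` lies in the span of
* the pairs `(cor1 y, cor2 y)`, `y` cuspidal of level `N q'`,
* the pairs `((T_ℓ - a_ℓ) u, 0)` and `(0, (T_ℓ - a_ℓ) u)`, `u` cuspidal of level `N`, `ℓ` a good prime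
  not dividing `N q'`, `ℓ ≠ p`.

In words: the eigensystem of `W` does not occur in the cokernel of `(cor1, cor2)`.
-/

set_option autoImplicit false

open scoped MatrixGroups
open CongruenceSubgroup

namespace Fermat.Agent.S41.H94

/-! ### Finiteness -/

section Fin

theorem fg_SL2Z : Group.FG SL(2, ℤ) := by
  rw [Group.fg_iff]
  exact ⟨{ModularGroup.S, ModularGroup.T}, SpecialLinearGroup.SL2Z_generators, Set.toFinite _⟩

theorem fg_Gamma0 (M : ℕ) [NeZero M] : Group.FG (Gamma0 M) := by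
  have := fg_SL2Z
  infer_instance

/-- homs from a finitely generated group to a finite group: finitely many -/
theorem finite_addHom_of_fg (G : Type*) [Group G] [Group.FG G] (A : Type*) [AddCommGroup A]
    [Finite A] : Finite (Additive G →+ A) := by
  obtain ⟨S, hS, hfin⟩ := Group.fg_iff.mp (inferInstance : Group.FG G)
  have : Finite S := hfin
  let F : (Additive G →+ A) → (S → A) := fun φ s => φ (Additive.ofMul (s : G))
  refine Finite.of_injective F ?_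
  intro φ ψ h
  have hmon : AddMonoidHom.toMultiplicativeRight φ = AddMonoidHom.toMultiplicativeRight ψ := by
    apply MonoidHom.eq_of_eqOn_top
    rw [← hS]
    apply MonoidHom.eqOn_closure
    intro s hs
    have := congrFun h ⟨s, hs⟩
    exact congrArg Multiplicative.ofAdd this
  exact AddMonoidHom.toMultiplicativeRight.injective hmon

end Fin

/-! ### The cuspidal subspace and the linear maps -/

section Lin

variable (k : Type) [Field k]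

/-- The cuspidal homs `Gamma0 M → k` as a subspace. -/
def cuspSub (M : ℕ) : Submodule k (Additive (Gamma0 M) →+ k) where
  carrier := {φ | IsCuspidalHom (Gamma0 M) φ}
  add_mem' := fun {a b} ha hb γ hγ => by
    rw [AddMonoidHom.add_apply, ha γ hγ, hb γ hγ, add_zero]
  zero_mem' := fun _ _ => rfl
  smul_mem' := fun c φ hφ γ hγ => by
    rw [AddMonoidHom.smul_apply, hφ γ hγ, smul_zero]

variable {k}

theorem mem_cuspSub {M : ℕ} {φ : Additive (Gamma0 M) →+ k} :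
    φ ∈ cuspSub k M ↔ IsCuspidalHom (Gamma0 M) φ := Iff.rfl

variable (L : Leaves) (h2 : (2 : k) ≠ 0)

include L h2 in
theorem res1_cusp (N q : ℕ) (hN : N ≠ 0) (hq : q ≠ 0) {φ : Additive (Gamma0 N) →+ k}
    (hφ : IsCuspidalHom (Gamma0 N) φ) : IsCuspidalHom (Gamma0 (N * q)) (res1 N q k φ) :=
  (Bform_adj1 L h2 N q hN hq hφ (cuspSub k (N * q)).zero_mem).1

include L h2 in
theorem res2_cusp (N q : ℕ) (hN : N ≠ 0) (hq : q ≠ 0) {φ : Additive (Gamma0 N) →+ k}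
    (hφ : IsCuspidalHom (Gamma0 N) φ) : IsCuspidalHom (Gamma0 (N * q)) (res2 N q k φ) :=
  (Bform_adj2 L h2 N q hN hq hφ (cuspSub k (N * q)).zero_mem).1

include L h2 in
theorem cor1_cusp (N q : ℕ) (hN : N ≠ 0) (hq : q ≠ 0) {ψ : Additive (Gamma0 (N * q)) →+ k}
    (hψ : IsCuspidalHom (Gamma0 (N * q)) ψ) : IsCuspidalHom (Gamma0 N) (cor1 N q k ψ) :=
  (Bform_adj1 L h2 N q hN hq (cuspSub k N).zero_mem hψ).2.1

include L h2 in
theorem cor2_cusp (N q : ℕ) (hN : N ≠ 0) (hq : q ≠ 0) {ψ : Additive (Gamma0 (N * q)) →+ k}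
    (hψ : IsCuspidalHom (Gamma0 (N * q)) ψ) : IsCuspidalHom (Gamma0 N) (cor2 N q k ψ) :=
  (Bform_adj2 L h2 N q hN hq (cuspSub k N).zero_mem hψ).2.1

include L h2 in
theorem Tcoh_cusp (N q : ℕ) (hN : N ≠ 0) (hq : q ≠ 0) {φ : Additive (Gamma0 N) →+ k}
    (hφ : IsCuspidalHom (Gamma0 N) φ) : IsCuspidalHom (Gamma0 N) (Tcoh N k q φ) :=
  cor1_cusp L h2 N q hN hq (res2_cusp L h2 N q hN hq hφ)

/-- `res1` on cuspidal homs -/
def resL1 (N q : ℕ) (hN : N ≠ 0) (hq : q ≠ 0) : cuspSub k N →ₗ[k] cuspSub k (N * q) where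
  toFun x := ⟨res1 N q k x.1, res1_cusp L h2 N q hN hq x.2⟩
  map_add' _ _ := Subtype.ext rfl
  map_smul' _ _ := Subtype.ext rfl

/-- `res2` on cuspidal homs -/
def resL2 (N q : ℕ) (hN : N ≠ 0) (hq : q ≠ 0) : cuspSub k N →ₗ[k] cuspSub k (N * q) where
  toFun x := ⟨res2 N q k x.1, res2_cusp L h2 N q hN hq x.2⟩
  map_add' _ _ := Subtype.ext rfl
  map_smul' _ _ := Subtype.ext rfl

/-- `cor1` on cuspidal homs -/
noncomputable def corL1 (N q : ℕ) (hN : N ≠ 0) (hq : q ≠ 0) :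
    cuspSub k (N * q) →ₗ[k] cuspSub k N where
  toFun y := ⟨cor1 N q k y.1, cor1_cusp L h2 N q hN hq y.2⟩
  map_add' x y := Subtype.ext (H19.corAlong_add _ x.1 y.1)
  map_smul' c x := Subtype.ext (H19.corAlong_smul _ c x.1)

/-- `cor2` on cuspidal homs -/
noncomputable def corL2 (N q : ℕ) (hN : N ≠ 0) (hq : q ≠ 0) :
    cuspSub k (N * q) →ₗ[k] cuspSub k N where
  toFun y := ⟨cor2 N q k y.1, cor2_cusp L h2 N q hN hq y.2⟩
  map_add' x y := Subtype.ext (H19.corAlong_add _ x.1 y.1)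
  map_smul' c x := Subtype.ext (H19.corAlong_smul _ c x.1)

/-- The pairing as a bilinear map on cuspidal homs. -/
noncomputable def BL (M : ℕ) [NeZero M] : cuspSub k M →ₗ[k] cuspSub k M →ₗ[k] k :=
  LinearMap.mk₂ k (fun x y => Bform k M x.1 y.1)
    (fun x x' y => Bform_add_left L h2 M x.2 x'.2 y.2)
    (fun c x y => Bform_smul_left L h2 M c x.2 y.2)
    (fun x y y' => by
      show Bform k M x.1 (y.1 + y'.1) = _
      rw [Bform_skew L h2 M x.2 ((cuspSub k M).add_mem y.2 y'.2),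
        Bform_add_left L h2 M y.2 y'.2 x.2, Bform_skew L h2 M x.2 y.2,
        Bform_skew L h2 M x.2 y'.2]
      ring)
    (fun c x y => by
      show Bform k M x.1 (c • y.1) = _
      rw [Bform_skew L h2 M x.2 ((cuspSub k M).smul_mem c y.2),
        Bform_smul_left L h2 M c y.2 x.2, Bform_skew L h2 M x.2 y.2]
      simp)

theorem BL_apply (M : ℕ) [NeZero M] (x y : cuspSub k M) :
    BL L h2 M x y = Bform k M x.1 y.1 := rfl

theorem BL_nondeg (M : ℕ) [NeZero M] (x : cuspSub k M) (h : ∀ y, BL L h2 M x y = 0) : x = 0 := by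
  apply Subtype.ext
  apply Bform_nondeg L h2 M x.2
  intro ψ hψ
  rw [Bform_skew L h2 M hψ x.2]
  have := h ⟨ψ, hψ⟩
  rw [BL_apply] at this
  rw [this, neg_zero]

theorem BL_adj1 (N q : ℕ) (hN : N ≠ 0) (hq : q ≠ 0) [NeZero N] [NeZero (N * q)]
    (x : cuspSub k N) (y : cuspSub k (N * q)) :
    BL L h2 (N * q) (resL1 L h2 N q hN hq x) y = BL L h2 N x (corL1 L h2 N q hN hq y) :=
  (Bform_adj1 L h2 N q hN hq x.2 y.2).2.2

theorem BL_adj2 (N q : ℕ) (hN : N ≠ 0) (hq : q ≠ 0) [NeZero N] [NeZero (N * q)]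
    (x : cuspSub k N) (y : cuspSub k (N * q)) :
    BL L h2 (N * q) (resL2 L h2 N q hN hq x) y = BL L h2 N x (corL2 L h2 N q hN hq y) :=
  (Bform_adj2 L h2 N q hN hq x.2 y.2).2.2

theorem BL_skew (M : ℕ) [NeZero M] (x y : cuspSub k M) : BL L h2 M x y = - BL L h2 M y x :=
  Bform_skew L h2 M x.2 y.2

/-- The Hecke operator `T_ℓ` on cuspidal homs. -/
noncomputable def TL (N ℓ : ℕ) (hN : N ≠ 0) (hℓ : ℓ ≠ 0) : cuspSub k N →ₗ[k] cuspSub k N :=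
  (corL1 L h2 N ℓ hN hℓ).comp (resL2 L h2 N ℓ hN hℓ)

theorem TL_coe (N ℓ : ℕ) (hN : N ≠ 0) (hℓ : ℓ ≠ 0) (x : cuspSub k N) :
    (TL L h2 N ℓ hN hℓ x : Additive (Gamma0 N) →+ k) = Tcoh N k ℓ x.1 := rfl

/-- `T_ℓ` is self-adjoint (`ℓ` prime, `ℓ ∤ N`). -/
theorem BL_TL (N ℓ : ℕ) (hN : 0 < N) (hℓ : ℓ.Prime) (hℓN : ¬ ℓ ∣ N) [NeZero N]
    (x y : cuspSub k N) :
    BL L h2 N x (TL L h2 N ℓ hN.ne' hℓ.ne_zero y) = BL L h2 N (TL L h2 N ℓ hN.ne' hℓ.ne_zero x) y := by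
  have : NeZero (N * ℓ) := ⟨Nat.mul_ne_zero hN.ne' hℓ.ne_zero⟩
  have e : corL2 L h2 N ℓ hN.ne' hℓ.ne_zero (resL1 L h2 N ℓ hN.ne' hℓ.ne_zero x)
      = TL L h2 N ℓ hN.ne' hℓ.ne_zero x :=
    Subtype.ext (H19.cor2_res1 hN hℓ hℓN x.1)
  show BL L h2 N x (corL1 L h2 N ℓ hN.ne' hℓ.ne_zero (resL2 L h2 N ℓ hN.ne' hℓ.ne_zero y)) = _
  rw [← BL_adj1, BL_skew, BL_adj2, e, ← BL_skew]

end Lin

/-! ### The Atkin-Lehner swap -/

section Swap

variable {A : Type*} [AddCommGroup A]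

theorem res_swap {N q : ℕ} (hq : q.Prime) (hqN : ¬ q ∣ N) (x₁ x₂ : Additive (Gamma0 N) →+ A)
    (h : res1 N q A x₁ + res2 N q A x₂ = 0) : res1 N q A x₂ + res2 N q A x₁ = 0 := by
  obtain ⟨u, v, huv⟩ := H19.exists_bezout hq hqN
  refine DFunLike.ext _ _ (fun g => ?_)
  obtain ⟨g, rfl⟩ : ∃ g' : Gamma0 (N * q), g = Additive.ofMul g' := ⟨Additive.toMul g, rfl⟩
  obtain ⟨g', hg'⟩ := H19.AL_surj huv hq.ne_zero g
  have h1 := H19.AL_swap huv hq.ne_zero g g' hg'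
  have h0 := DFunLike.congr_fun h (Additive.ofMul g')
  rw [AddMonoidHom.add_apply, AddMonoidHom.zero_apply] at h0 ⊢
  change x₁ (Additive.ofMul (inclG N q g')) + x₂ (Additive.ofMul (conjG N q g')) = 0 at h0
  change x₂ (Additive.ofMul (inclG N q g)) + x₁ (Additive.ofMul (conjG N q g)) = 0
  rw [hg', h1, H19.hom_conj, H19.hom_conj] at h0
  rw [add_comm]
  exact h0

end Swap

/-! ### Dual Ihara -/

section Main

open WeierstrassCurve WeierstrassCurve.Affine WeierstrassCurve.Affine.Point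

/-- The generators of the subspace of `V_N × V_N` spanned by the image of `(cor1, cor2)` and the images of
the `T_ℓ - a_ℓ(W)` (`ℓ` good, `ℓ ∤ N q'`, `ℓ ≠ p`) in both factors. -/
def dualSet (W : WeierstrassCurve ℤ) (p N q' : ℕ) :
    Set ((Additive (Gamma0 N) →+ ZMod p) × (Additive (Gamma0 N) →+ ZMod p)) :=
  {z | ∃ y : Additive (Gamma0 (N * q')) →+ ZMod p, IsCuspidalHom (Gamma0 (N * q')) y ∧
      z = (cor1 N q' (ZMod p) y, cor2 N q' (ZMod p) y)} ∪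
  {z | ∃ (ℓ : ℕ) (u : Additive (Gamma0 N) →+ ZMod p), ℓ.Prime ∧ W.IsGoodPrimeFor ℓ ∧
      ¬ ℓ ∣ N * q' ∧ ℓ ≠ p ∧ IsCuspidalHom (Gamma0 N) u ∧
      z = (Tcoh N (ZMod p) ℓ u - ((W.apOfModel ℓ : ℤ) : ZMod p) • u, 0)} ∪
  {z | ∃ (ℓ : ℕ) (u : Additive (Gamma0 N) →+ ZMod p), ℓ.Prime ∧ W.IsGoodPrimeFor ℓ ∧
      ¬ ℓ ∣ N * q' ∧ ℓ ≠ p ∧ IsCuspidalHom (Gamma0 N) u ∧
      z = (0, Tcoh N (ZMod p) ℓ u - ((W.apOfModel ℓ : ℤ) : ZMod p) • u)}

theorem two_ne_zero_zmod {p : ℕ} (hp : p.Prime) (hp2 : p ≠ 2) : (2 : ZMod p) ≠ 0 := by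
  intro h
  have h' : ((2 : ℕ) : ZMod p) = 0 := by exact_mod_cast h
  rw [ZMod.natCast_eq_zero_iff] at h'
  exact hp2 ((Nat.prime_dvd_prime_iff_eq hp Nat.prime_two).mp h')

/-- **Dual Ihara**: the eigensystem of `W` does not occur in the cokernel of
`(cor1, cor2) : V_{N q'} → V_N × V_N`. -/
theorem dual_ihara (L : Leaves) (hI : Stmt_IHARA) (E : WeierstrassCurve ℚ) [E.IsElliptic]
    (W : WeierstrassCurve ℤ) (hW : W.IsIntegralModelOf E) (p N q' : ℕ) (hp : p.Prime)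
    (hp2 : p ≠ 2) (hN : 0 < N) (hq' : q'.Prime) (hq'N : ¬ q' ∣ N) (hq'p : q' ≠ p)
    (hirr : GaloisRepIsIrreducible (K := AlgebraicClosure ℚ) ℚ E p)
    (v₁ v₂ : Additive (Gamma0 N) →+ ZMod p) (h₁ : IsCuspidalHom (Gamma0 N) v₁)
    (h₂ : IsCuspidalHom (Gamma0 N) v₂) :
    (v₁, v₂) ∈ Submodule.span (ZMod p) (dualSet W p N q') := by
  have : Fact p.Prime := ⟨hp⟩
  have h2 : (2 : ZMod p) ≠ 0 := two_ne_zero_zmod hp hp2
  have : NeZero N := ⟨hN.ne'⟩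
  have : NeZero (N * q') := ⟨Nat.mul_ne_zero hN.ne' hq'.ne_zero⟩
  have : Group.FG (Gamma0 N) := fg_Gamma0 N
  have : Finite (Additive (Gamma0 N) →+ ZMod p) := finite_addHom_of_fg _ _
  have : Finite (cuspSub (ZMod p) N) := Subtype.finite
  have : Module.Finite (ZMod p) (cuspSub (ZMod p) N) := Module.Finite.of_finite
  have hdvd : ∀ ℓ : ℕ, ¬ ℓ ∣ N * q' → ¬ ℓ ∣ N := fun ℓ h h' => h (dvd_mul_of_dvd_left h' _)
  have ih : ∀ x₁ x₂ : cuspSub (ZMod p) N,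
      (∀ i : {ℓ : ℕ // ℓ.Prime ∧ W.IsGoodPrimeFor ℓ ∧ ¬ ℓ ∣ N * q' ∧ ℓ ≠ p},
        TL L h2 N i.1 hN.ne' i.2.1.ne_zero x₁ = ((W.apOfModel i.1 : ℤ) : ZMod p) • x₁) →
      resL1 L h2 N q' hN.ne' hq'.ne_zero x₁ + resL2 L h2 N q' hN.ne' hq'.ne_zero x₂ = 0 →
      x₁ = 0 := by
    intro x₁ x₂ he hrel
    apply Subtype.ext
    refine hI E W hW p N q' hp hp2 hN hq' hq'N hq'p hirr x₁.1 x₂.1 x₁.2 x₂.2 ?_ ?_
    · intro ℓ hℓ hg hd hne
      exact congrArg Subtype.val (he ⟨ℓ, hℓ, hg, hd, hne⟩)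
    · exact congrArg Subtype.val hrel
  have sw : ∀ x₁ x₂ : cuspSub (ZMod p) N,
      resL1 L h2 N q' hN.ne' hq'.ne_zero x₁ + resL2 L h2 N q' hN.ne' hq'.ne_zero x₂ = 0 →
      resL1 L h2 N q' hN.ne' hq'.ne_zero x₂ + resL2 L h2 N q' hN.ne' hq'.ne_zero x₁ = 0 := by
    intro x₁ x₂ hrel
    apply Subtype.ext
    exact res_swap hq' hq'N x₁.1 x₂.1 (congrArg Subtype.val hrel)
  have key := span_dualGens_eq_top (k := ZMod p) (V := cuspSub (ZMod p) N)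
    (V' := cuspSub (ZMod p) (N * q'))
    (I := {ℓ : ℕ // ℓ.Prime ∧ W.IsGoodPrimeFor ℓ ∧ ¬ ℓ ∣ N * q' ∧ ℓ ≠ p})
    (B := BL L h2 N) (B' := BL L h2 (N * q')) (hB := BL_nondeg L h2 N)
    (hB' := BL_nondeg L h2 (N * q'))
    (r₁ := resL1 L h2 N q' hN.ne' hq'.ne_zero) (r₂ := resL2 L h2 N q' hN.ne' hq'.ne_zero)
    (c₁ := corL1 L h2 N q' hN.ne' hq'.ne_zero) (c₂ := corL2 L h2 N q' hN.ne' hq'.ne_zero)
    (adj₁ := BL_adj1 L h2 N q' hN.ne' hq'.ne_zero) (adj₂ := BL_adj2 L h2 N q' hN.ne' hq'.ne_zero)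
    (T := fun i => TL L h2 N i.1 hN.ne' i.2.1.ne_zero)
    (a := fun i => ((W.apOfModel i.1 : ℤ) : ZMod p))
    (hT := fun i x y => BL_TL L h2 N i.1 hN i.2.1 (hdvd _ i.2.2.2.1) x y)
    (ih := ih) (sw := sw)
  have hmem := Submodule.eq_top_iff'.mp key
    ((⟨v₁, h₁⟩, ⟨v₂, h₂⟩) : cuspSub (ZMod p) N × cuspSub (ZMod p) N)
  have h3 := Submodule.mem_map_of_mem
    (f := ((cuspSub (ZMod p) N).subtype.prodMap (cuspSub (ZMod p) N).subtype)) hmem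
  rw [Submodule.map_span] at h3
  refine Submodule.span_mono ?_ h3
  rintro _ ⟨z, hz, rfl⟩
  rcases hz with (⟨y, rfl⟩ | ⟨⟨i, u⟩, rfl⟩) | ⟨⟨i, u⟩, rfl⟩
  · exact Or.inl (Or.inl ⟨y.1, y.2, rfl⟩)
  · exact Or.inl (Or.inr ⟨i.1, u.1, i.2.1, i.2.2.1, i.2.2.2.1, i.2.2.2.2, u.2, rfl⟩)
  · exact Or.inr ⟨i.1, u.1, i.2.1, i.2.2.1, i.2.2.2.1, i.2.2.2.2, u.2, rfl⟩

end Main

end Fermat.Agent.S41.H94
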