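/-
helper96: S41 package P, leaf B1: for a normalised primitive `b` of the cup product `φ ∪ ψ`, the
sum of `b` over the cusps is `-1/2` times the pairing.

* `sum_eq_sum_orbits`: a sum over a finite `G`-set, grouped by the orbits of a cyclic subgroup;
* `IsPot2`: second-order potentials `Θ (x * j h) = Θ x + b h - Φ x * ψ h`;
* `stmt_B1`.
-/
import Mathlib
import Fermat.Agent.S41.H94_PDStmts

set_option autoImplicit false

namespace Fermat.Agent.S41.H96

open Fermat.Agent.S41.H94

/-! ### Sums over the orbits of a cyclic group -/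

section OrbitSum

variable {X : Type*} [Fintype X] {G : Type*} [Group G] [MulAction G X]

theorem minimalPeriod_pos_of_fintype (g : G) (p : X) :
    0 < Function.minimalPeriod (fun y : X => g • y) p :=
  Function.minimalPeriod_pos_of_mem_periodicPts
    (Function.Injective.mem_periodicPts (MulAction.injective g) _)

/-- A sum over a finite `G`-set, grouped by the orbits of the cyclic subgroup generated by `g`
(the orbit relation being given as an abstract setoid `r`). -/
theorem sum_eq_sum_orbits (g : G) (r : Setoid X) [Fintype (Quotient r)]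
    (hr : ∀ p p' : X, r p p' ↔ ∃ n : ℤ, g ^ n • p' = p)
    {M : Type*} [AddCommMonoid M] (F : X → M) :
    ∑ p, F p = ∑ q : Quotient r,
      ∑ i ∈ Finset.range (Function.minimalPeriod (fun y : X => g • y) q.out), F (g ^ i • q.out) := by
  classical
  rw [← Finset.sum_fiberwise Finset.univ (fun p : X => (Quotient.mk r p : Quotient r)) F]
  refine Finset.sum_congr rfl (fun q _ => ?_)
  symm
  refine Finset.sum_bij (fun i _ => g ^ i • q.out) ?_ ?_ ?_ ?_
  · intro i _
    rw [Finset.mem_filter]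
    refine ⟨Finset.mem_univ _, ?_⟩
    rw [← Quotient.out_eq q]
    apply Quotient.sound
    rw [Quotient.out_eq]
    exact (hr _ _).mpr ⟨i, by rw [zpow_natCast]⟩
  · intro i hi i' hi' heq
    have h1 := Function.iterate_injOn_Iio_minimalPeriod (f := fun y : X => g • y) (x := q.out)
      (Finset.mem_range.mp hi) (Finset.mem_range.mp hi')
    apply h1
    show (fun y : X => g • y)^[i] q.out = (fun y : X => g • y)^[i'] q.out
    rw [smul_iterate_apply, smul_iterate_apply]
    exact heq
  · intro p hp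
    rw [Finset.mem_filter] at hp
    have hrel : r p q.out :=
      Quotient.exact (hp.2.trans (Quotient.out_eq q).symm)
    obtain ⟨n, ht'⟩ := (hr _ _).mp hrel
    have hw := minimalPeriod_pos_of_fintype g q.out
    have hw' : (0 : ℤ) < (Function.minimalPeriod (fun y : X => g • y) q.out : ℤ) := by
      exact_mod_cast hw
    have h0 : 0 ≤ n % (Function.minimalPeriod (fun y : X => g • y) q.out : ℤ) :=
      Int.emod_nonneg _ hw'.ne'
    have h1 : n % (Function.minimalPeriod (fun y : X => g • y) q.out : ℤ)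
        < (Function.minimalPeriod (fun y : X => g • y) q.out : ℤ) := Int.emod_lt_of_pos _ hw'
    refine ⟨(n % (Function.minimalPeriod (fun y : X => g • y) q.out : ℤ)).toNat, ?_, ?_⟩
    · rw [Finset.mem_range]
      omega
    · rw [← ht', ← MulAction.zpow_smul_mod_minimalPeriod g q.out n, ← zpow_natCast,
        Int.toNat_of_nonneg h0]
  · intro i _
    rfl

end OrbitSum

/-! ### The algebra of Manin functions -/

section Algebra

variable {X : Type*} [Fintype X] {k : Type*} [Field k]

/-- A sum which changes sign under the involution `s` vanishes (`2 ≠ 0`). -/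
theorem sum_eq_zero_of_anti (h2 : (2 : k) ≠ 0) (s : Equiv.Perm X) (f : X → k)
    (hf : ∀ x, f (s x) = - f x) : ∑ x, f x = 0 := by
  have h := Equiv.sum_comp s f
  have h' : ∑ x, f (s x) = - ∑ x, f x := by
    rw [← Finset.sum_neg_distrib]
    exact Finset.sum_congr rfl (fun x _ => hf x)
  rw [h'] at h
  have h3 : (2 : k) * ∑ x, f x = 0 := by linear_combination -h
  rcases mul_eq_zero.mp h3 with h4 | h4
  · exact absurd h4 h2
  · exact h4

/-- The final computation: for Manin pairs `(A, U)`, `(A', U')`,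
`2 Σ (A ∘ s - U ∘ s) (U' ∘ s - U') = - Q(A, A')`. -/
theorem two_mul_sum_eq_neg_Qform (h2 : (2 : k) ≠ 0) (s t : Equiv.Perm X)
    (hs : ∀ x, s (s x) = x)
    (A U A' U' : X → k) (hA : ∀ x, A (t x) - A x = U (s x) - U x)
    (hA' : ∀ x, A' (t x) - A' x = U' (s x) - U' x) :
    2 * ∑ x, (A (s x) - U (s x)) * (U' (s x) - U' x) = - Qform t A A' := by
  have e1 : ∑ x, (A (s x) + A x) * (U' (s x) - U' x) = 0 :=
    sum_eq_zero_of_anti h2 s _ (fun x => by rw [hs]; ring)
  have e2 : ∑ x, (U (s x) + U x) * (U' (s x) - U' x) = 0 :=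
    sum_eq_zero_of_anti h2 s _ (fun x => by rw [hs]; ring)
  have e3 : ∑ x, A (t x) * A' (t x) = ∑ x, A x * A' x :=
    Equiv.sum_comp t (fun x => A x * A' x)
  have key : ∀ x, 2 * ((A (s x) - U (s x)) * (U' (s x) - U' x))
      + (A x * A' (t x) - A (t x) * A' x)
      = 2 * ((A (s x) + A x) * (U' (s x) - U' x)) - (U (s x) + U x) * (U' (s x) - U' x)
        + (A x * A' x - A (t x) * A' (t x)) := by
    intro x
    have h1 := hA x
    have h1' := hA' x
    have hu : U (s x) = U x + (A (t x) - A x) := by linear_combination -h1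
    have hu' : U' (s x) = U' x + (A' (t x) - A' x) := by linear_combination -h1'
    rw [hu, hu']
    ring
  have hsum := Finset.sum_congr (s₁ := (Finset.univ : Finset X)) rfl (fun x _ => key x)
  simp only [Finset.sum_add_distrib, Finset.sum_sub_distrib, ← Finset.mul_sum] at hsum
  rw [e1, e2, e3] at hsum
  unfold Qform
  rw [Finset.sum_sub_distrib]
  linear_combination hsum

end Algebra

/-! ### Second-order potentials -/

section Pot2

variable {G : Type*} [Group G] {H : Type*} [Group H] {k : Type*} [Field k]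

/-- `Θ` is a second-order potential of `b` relative to the potential `Φ`:
`Θ (x * j h) = Θ x + b h - Φ x * ψ h`. -/
def IsPot2 (j : H →* G) (ψ : Additive H →+ k) (b : H → k) (Φ Θ : G → k) : Prop :=
  ∀ (x : G) (h : H), Θ (x * j h) = Θ x + b h - Φ x * ψ (Additive.ofMul h)

/-- A hom with a potential kills the kernel of `j`. -/
theorem hom_eq_of_map_eq {j : H →* G} {ψ : Additive H →+ k} {Ψ : G → k} (hΨ : IsPot j ψ Ψ)
    {a a' : H} (h : j a = j a') : ψ (Additive.ofMul a) = ψ (Additive.ofMul a') := by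
  have h1 := hΨ 1 a
  have h2 := hΨ 1 a'
  rw [h] at h1
  rw [h1] at h2
  exact add_left_cancel h2

/-- A primitive of the cup product which vanishes on the kernel of `j` factors through `j`. -/
theorem prim_eq_of_map_eq {j : H →* G} {φ ψ : Additive H →+ k} {Ψ : G → k} (hΨ : IsPot j ψ Ψ)
    {b : H → k} (hb : IsCupPrim φ ψ b) (hker : ∀ h, j h = 1 → b h = 0)
    {a a' : H} (h : j a = j a') : b a = b a' := by
  have h1 : j (a⁻¹ * a') = 1 := by rw [map_mul, map_inv, h, inv_mul_cancel]
  have h2 : ψ (Additive.ofMul (a⁻¹ * a')) = 0 := by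
    have := hom_eq_of_map_eq hΨ (a := a⁻¹ * a') (a' := 1) (by rw [h1, map_one])
    rw [this]
    exact map_zero ψ
  have h3 := hb a (a⁻¹ * a')
  rw [mul_inv_cancel_left, hker _ h1, h2] at h3
  rw [h3]; ring

/-- Existence of second-order potentials. -/
theorem exists_pot2 (j : H →* G) {φ ψ : Additive H →+ k} {Φ Ψ : G → k} (hΦ : IsPot j φ Φ)
    (hΨ : IsPot j ψ Ψ) {b : H → k} (hb : IsCupPrim φ ψ b) (hker : ∀ h, j h = 1 → b h = 0) :
    ∃ Θ : G → k, IsPot2 j ψ b Φ Θ := by
  classical
  let r : G → G := fun x => (x : G ⧸ j.range).out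
  have hr : ∀ x, ∃ η : H, x = r x * j η := by
    intro x
    obtain ⟨⟨y, ⟨η, hη⟩⟩, hy⟩ := QuotientGroup.mk_out_eq_mul j.range x
    refine ⟨η⁻¹, ?_⟩
    have : r x = x * j η := by
      show (x : G ⧸ j.range).out = x * j η
      rw [hy, hη]
    rw [this, map_inv]; group
  have hr2 : ∀ x y, r (x * j y) = r x := by
    intro x y
    show ((x * j y : G) : G ⧸ j.range).out = (x : G ⧸ j.range).out
    have : ((x * j y : G) : G ⧸ j.range) = (x : G ⧸ j.range) := by
      rw [eq_comm, QuotientGroup.eq]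
      rw [← mul_assoc, inv_mul_cancel, one_mul]
      exact ⟨y, rfl⟩
    rw [this]
  choose η hη using hr
  refine ⟨fun x => b (η x) - Φ (r x) * ψ (Additive.ofMul (η x)), fun x h => ?_⟩
  show b (η (x * j h)) - Φ (r (x * j h)) * ψ (Additive.ofMul (η (x * j h)))
    = b (η x) - Φ (r x) * ψ (Additive.ofMul (η x)) + b h - Φ x * ψ (Additive.ofMul h)
  have e1 : j (η (x * j h)) = j (η x * h) := by
    have h1 := hη (x * j h)
    rw [hr2] at h1
    have h2 := hη x
    have h3 : r x * j (η (x * j h)) = r x * j (η x * h) := by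
      rw [← h1, map_mul, ← mul_assoc, ← h2]
    exact mul_left_cancel h3
  rw [hr2, prim_eq_of_map_eq hΨ hb hker e1, hom_eq_of_map_eq hΨ e1, hb, ofMul_mul, map_add]
  have h4 : Φ x = Φ (r x) + φ (Additive.ofMul (η x)) := by
    conv_lhs => rw [hη x]
    exact hΦ _ _
  rw [h4]
  ring

/-- Changing the reference potential by a right-invariant function. -/
theorem IsPot2.shift {j : H →* G} {ψ : Additive H →+ k} {b : H → k} {Φ Θ Ψ : G → k}
    (hΘ : IsPot2 j ψ b Φ Θ) (hΨ : IsPot j ψ Ψ) {c : G → k} (hc : ∀ x y, c (x * j y) = c x) :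
    IsPot2 j ψ b (fun x => Φ x + c x) (fun x => Θ x - c x * Ψ x) := by
  intro x h
  show Θ (x * j h) - c (x * j h) * Ψ (x * j h)
    = Θ x - c x * Ψ x + b h - (Φ x + c x) * ψ (Additive.ofMul h)
  rw [hΘ, hc, hΨ]
  ring

/-- The increment of a second-order potential along a left-invariant direction is
right-invariant. -/
theorem IsPot2.incr_rightInv {j : H →* G} {ψ : Additive H →+ k} {b : H → k} {Φ Θ : G → k}
    (hΘ : IsPot2 j ψ b Φ Θ) {g : G} (hg : ∀ x, Φ (g * x) = Φ x) (x : G) (y : H) :
    Θ (g * (x * j y)) - Θ (x * j y) = Θ (g * x) - Θ x := by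
  rw [← mul_assoc, hΘ, hΘ, hg]
  ring

/-- Telescoping along an orbit. -/
theorem sum_range_incr {j : H →* G} {ψ : Additive H →+ k} {b : H → k} {Φ Θ : G → k}
    (hΘ : IsPot2 j ψ b Φ Θ) {g : G} (hg : ∀ x, Φ (g * x) = Φ x) (x : G) (n : ℕ) :
    ∑ i ∈ Finset.range n, desc j (fun x => Θ (g * x) - Θ x) (g ^ i • (x : G ⧸ j.range))
      = Θ (g ^ n * x) - Θ x := by
  have h1 : ∀ i : ℕ, desc j (fun x => Θ (g * x) - Θ x) (g ^ i • (x : G ⧸ j.range))
      = Θ (g ^ (i + 1) * x) - Θ (g ^ i * x) := by
    intro i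
    rw [MulAction.Quotient.smul_mk, smul_eq_mul,
      desc_mk j (fun x y => hΘ.incr_rightInv hg x y), pow_succ', mul_assoc]
  rw [Finset.sum_congr rfl (fun i _ => h1 i), Finset.sum_range_sub (fun i => Θ (g ^ i * x)) n,
    pow_zero, one_mul]

/-- The sum over `X` of the increment of a second-order potential along `g`, by orbits. -/
theorem sum_incr_eq (j : H →* G) [Fintype (G ⧸ j.range)] {ψ : Additive H →+ k} {b : H → k}
    {Φ Θ : G → k} (hΘ : IsPot2 j ψ b Φ Θ) (g : G) (hg : ∀ x, Φ (g * x) = Φ x)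
    (r : Setoid (G ⧸ j.range)) [Fintype (Quotient r)]
    (hr : ∀ p p' : G ⧸ j.range, r p p' ↔ ∃ n : ℤ, g ^ n • p' = p) :
    ∑ p : G ⧸ j.range, desc j (fun x => Θ (g * x) - Θ x) p
      = ∑ q : Quotient r,
          (Θ (g ^ Function.minimalPeriod (fun y : G ⧸ j.range => g • y) q.out * q.out.out)
            - Θ q.out.out) := by
  rw [sum_eq_sum_orbits g r hr]
  refine Finset.sum_congr rfl (fun q _ => ?_)
  have hout : ((q.out.out : G) : G ⧸ j.range) = q.out := QuotientGroup.out_eq' _
  have h := sum_range_incr hΘ hg q.out.out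
    (Function.minimalPeriod (fun y : G ⧸ j.range => g • y) q.out)
  rw [hout] at h
  exact h

/-- The increment of a second-order potential along a full period. -/
theorem incr_period {j : H →* G} {ψ : Additive H →+ k} {b : H → k} {Φ Θ : G → k}
    (hΘ : IsPot2 j ψ b Φ Θ) (g x : G) (n : ℕ) (h : H) (hh : j h = x⁻¹ * g ^ n * x) :
    Θ (g ^ n * x) - Θ x = b h - Φ x * ψ (Additive.ofMul h) := by
  have : g ^ n * x = x * j h := by rw [hh]; group
  rw [this, hΘ]
  ring

end Pot2

/-! ### The theorem -/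

section Final

variable {G : Type*} [Group G] {H : Type*} [Group H] {k : Type*} [Field k]
variable {j : H →* G} {S T : G}

theorem mk_mul_range (x : G) (y : H) : ((x * j y : G) : G ⧸ j.range) = (x : G ⧸ j.range) := by
  rw [eq_comm, QuotientGroup.eq, ← mul_assoc, inv_mul_cancel, one_mul]
  exact ⟨y, rfl⟩

/-- The orbit relation of a cyclic subgroup, spelled out. -/
theorem orbitRel_zpowers_iff (g : G) (p p' : G ⧸ j.range) :
    MulAction.orbitRel (Subgroup.zpowers g) (G ⧸ j.range) p p' ↔ ∃ n : ℤ, g ^ n • p' = p := by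
  rw [MulAction.orbitRel_apply, MulAction.mem_orbit_iff]
  constructor
  · rintro ⟨⟨t, ⟨n, hn⟩⟩, ht⟩
    refine ⟨n, ?_⟩
    rw [← ht]
    have : g ^ n = t := hn
    rw [this]
    rfl
  · rintro ⟨n, hn⟩
    exact ⟨⟨g ^ n, ⟨n, rfl⟩⟩, hn⟩

/-- The existence of an element of `H` realising a full period. -/
theorem exists_period_elt [Fintype (G ⧸ j.range)] (g : G) (p : G ⧸ j.range) :
    ∃ h : H, j h = p.out⁻¹ * g ^ Function.minimalPeriod (fun y : G ⧸ j.range => g • y) p * p.out := by
  have h1 : g ^ Function.minimalPeriod (fun y : G ⧸ j.range => g • y) p • p = p :=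
    MulAction.pow_period_smul g p
  have hout : ((p.out : G) : G ⧸ j.range) = p := QuotientGroup.out_eq' _
  rw [← hout] at h1
  rw [MulAction.Quotient.smul_mk, hout] at h1
  have h2 : ((p.out : G) : G ⧸ j.range)
      = ((g ^ Function.minimalPeriod (fun y : G ⧸ j.range => g • y) p • p.out : G) : G ⧸ j.range) := by
    rw [h1, hout]
  rw [QuotientGroup.eq] at h2
  obtain ⟨h, hh⟩ := h2
  refine ⟨h, ?_⟩
  rw [hh, smul_eq_mul, mul_assoc]

end Final

/-- **B1**. -/
theorem stmt_B1 : Stmt_B1 := by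
  intro G _ H _ k _ S T j _ _ hM hz h2 φ ψ P Q b hb hnorm c hc
  classical
  have hker : ∀ h, j h = 1 → b h = 0 := fun h hh => hnorm h 1 0 (by rw [hh]; simp)
  obtain ⟨Θ, hΘ⟩ := exists_pot2 j P.potT Q.potT hb hker
  -- the three second-order potentials
  have hΘτ : IsPot2 j ψ b P.Φτ (fun x => Θ x - P.a (x : G ⧸ j.range) * Q.ΦT x) := by
    have h1 : IsPot2 j ψ b (fun x => P.ΦT x + P.a (x : G ⧸ j.range))
        (fun x => Θ x - P.a (x : G ⧸ j.range) * Q.ΦT x) :=
      hΘ.shift Q.potT (c := fun x => P.a (x : G ⧸ j.range)) (fun x y => by rw [mk_mul_range])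
    have h3 : (fun x => P.ΦT x + P.a (x : G ⧸ j.range)) = P.Φτ := by
      funext x; rw [P.a_mk]; ring
    rw [h3] at h1
    exact h1
  have hΘS : IsPot2 j ψ b P.ΦS (fun x => Θ x - P.u (x : G ⧸ j.range) * Q.ΦT x) := by
    have h1 : IsPot2 j ψ b (fun x => P.ΦT x + P.u (x : G ⧸ j.range))
        (fun x => Θ x - P.u (x : G ⧸ j.range) * Q.ΦT x) :=
      hΘ.shift Q.potT (c := fun x => P.u (x : G ⧸ j.range)) (fun x y => by rw [mk_mul_range])
    have h3 : (fun x => P.ΦT x + P.u (x : G ⧸ j.range)) = P.ΦS := by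
      funext x; rw [P.u_mk]; ring
    rw [h3] at h1
    exact h1
  set Θτ : G → k := fun x => Θ x - P.a (x : G ⧸ j.range) * Q.ΦT x with hΘτ_def
  set ΘS : G → k := fun x => Θ x - P.u (x : G ⧸ j.range) * Q.ΦT x with hΘS_def
  set tT : G ⧸ j.range → k := desc j (fun x => Θ (T * x) - Θ x) with htT
  set tτ : G ⧸ j.range → k := desc j (fun x => Θτ (T * S⁻¹ * x) - Θτ x) with htτ
  set tS : G ⧸ j.range → k := desc j (fun x => ΘS (S * x) - ΘS x) with htS
  have htT_mk : ∀ x : G, tT (x : G ⧸ j.range) = Θ (T * x) - Θ x :=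
    fun x => desc_mk j (fun x y => hΘ.incr_rightInv P.invT x y) x
  have htτ_mk : ∀ x : G, tτ (x : G ⧸ j.range) = Θτ (T * S⁻¹ * x) - Θτ x :=
    fun x => desc_mk j (fun x y => hΘτ.incr_rightInv P.invτ x y) x
  have htS_mk : ∀ x : G, tS (x : G ⧸ j.range) = ΘS (S * x) - ΘS x :=
    fun x => desc_mk j (fun x y => hΘS.incr_rightInv P.invS x y) x
  -- Step 1: the sum of `tT` is the sum of `b` over the cusps
  have hsumT : ∑ p, tT p = ∑ q, b (c q) := by
    rw [htT, sum_incr_eq j hΘ T P.invT (MulAction.orbitRel (Subgroup.zpowers T) (G ⧸ j.range))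
      (orbitRel_zpowers_iff T)]
    refine Finset.sum_congr rfl (fun q _ => ?_)
    rw [incr_period hΘ T q.out.out _ (c q) (hc q)]
    have h0 : ψ (Additive.ofMul (c q)) = 0 :=
      Q.killsT q.out.out (Function.minimalPeriod (fun y : G ⧸ j.range => T • y) q.out : ℕ) (c q)
        (by rw [zpow_natCast]; exact hc q)
    rw [h0]; ring
  -- Step 2: the sum of `tτ` vanishes
  have hsumτ : ∑ p, tτ p = 0 := by
    have : Fintype (Quotient (MulAction.orbitRel (Subgroup.zpowers (T * S⁻¹)) (G ⧸ j.range))) :=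
      Fintype.ofFinite _
    rw [htτ, sum_incr_eq j hΘτ (T * S⁻¹) P.invτ
      (MulAction.orbitRel (Subgroup.zpowers (T * S⁻¹)) (G ⧸ j.range))
      (orbitRel_zpowers_iff (T * S⁻¹))]
    refine Finset.sum_eq_zero (fun q _ => ?_)
    obtain ⟨h, hh⟩ := exists_period_elt (j := j) (T * S⁻¹) q.out
    rw [incr_period hΘτ (T * S⁻¹) q.out.out _ h hh]
    have h0 : ψ (Additive.ofMul h) = 0 :=
      Q.killsτ q.out.out
        (Function.minimalPeriod (fun y : G ⧸ j.range => (T * S⁻¹) • y) q.out : ℕ) h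
        (by rw [zpow_natCast]; exact hh)
    have h1 : b h = 0 :=
      hnorm h q.out.out
        (Function.minimalPeriod (fun y : G ⧸ j.range => (T * S⁻¹) • y) q.out : ℕ)
        (by rw [zpow_natCast]; exact hh)
    rw [h0, h1]; ring
  -- Step 3: the sum of `tS` vanishes
  have hsumS : ∑ p, tS p = 0 := by
    obtain ⟨z, hz'⟩ := hz
    have hψz : ψ (Additive.ofMul z) = 0 := Q.killsS 1 2 z (by rw [hz']; simp)
    have hφz : φ (Additive.ofMul z) = 0 := P.killsS 1 2 z (by rw [hz']; simp)
    have hbz : b z = 0 := by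
      have h1 : b (z * z) = 0 := by
        apply hker
        rw [map_mul, hz', ← pow_add]
        exact hM.S4
      have h3 := hb z z
      rw [h1, hφz] at h3
      have h4 : (2 : k) * b z = 0 := by linear_combination -h3
      rcases mul_eq_zero.mp h4 with h5 | h5
      · exact absurd h5 h2
      · exact h5
    refine sum_eq_zero_of_anti h2 (MulAction.toPerm S) tS (fun p => ?_)
    induction p using QuotientGroup.induction_on with
    | H x =>
      rw [MulAction.toPerm_apply, MulAction.Quotient.smul_mk, htS_mk, htS_mk]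
      simp only [smul_eq_mul]
      have h5 : S * (S * x) = x * j z := by
        rw [hz', ← hM.central x, pow_two, mul_assoc]
      rw [h5, hΘS x z, hbz, hψz]
      ring
  -- Step 4: the pointwise identity
  have hpt : ∀ p : G ⧸ j.range, tT p = tτ (S • p) + tS p
      + (P.a (S • p) - P.u (S • p)) * (Q.u (S • p) - Q.u p) := by
    intro p
    induction p using QuotientGroup.induction_on with
    | H x =>
      have hman := P.manin hM hz (S • (x : G ⧸ j.range))
      rw [smul_smul_S hM hz, tau_smul_S_smul] at hman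
      rw [MulAction.Quotient.smul_mk] at hman ⊢
      rw [MulAction.Quotient.smul_mk] at hman
      simp only [smul_eq_mul] at hman ⊢
      rw [htT_mk, htτ_mk, htS_mk, Q.u_mk, Q.u_mk, Q.invS]
      have h6 : T * S⁻¹ * (S * x) = T * x := by group
      rw [h6]
      simp only [hΘτ_def, hΘS_def]
      rw [Q.invT]
      linear_combination (Q.ΦT x) * hman
  -- Step 5: conclusion
  have e1 : ∑ p, tτ (S • p) = ∑ p, tτ p :=
    Equiv.sum_comp (MulAction.toPerm S : Equiv.Perm (G ⧸ j.range)) tτ
  have hsum : ∑ p, tT p = ∑ p, (P.a (S • p) - P.u (S • p)) * (Q.u (S • p) - Q.u p) := by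
    rw [Finset.sum_congr rfl (fun p _ => hpt p), Finset.sum_add_distrib, Finset.sum_add_distrib,
      hsumS, e1, hsumτ]
    ring
  have hfin := two_mul_sum_eq_neg_Qform h2 (MulAction.toPerm S : Equiv.Perm (G ⧸ j.range))
    (MulAction.toPerm (T * S⁻¹)) (fun x => smul_smul_S hM hz x) P.a P.u Q.a Q.u
    (fun x => P.manin hM hz x) (fun x => Q.manin hM hz x)
  simp only [MulAction.toPerm_apply] at hfin
  rw [← hsumT, hsum]
  unfold pairingOf
  have h3 : ∀ r : k, r = 2⁻¹ * (2 * r) := fun r => by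
    rw [← mul_assoc, inv_mul_cancel₀ h2, one_mul]
  rw [h3 (∑ p, (P.a (S • p) - P.u (S • p)) * (Q.u (S • p) - Q.u p)), hfin]
  ring

end Fermat.Agent.S41.H96
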