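import Mathlib
import Fermat.Agent.S41.H94_PDDefs

/-!
# S41, package P, leaf C3: an element of `SL(2,ℤ)` of trace `-1` is conjugate to `τ` or `τ⁻¹`.

Descent on `|c|`: conjugate by a power of `T` to get `|2a+1| ≤ |c|`, then by `S`.
-/

set_option autoImplicit false

open scoped MatrixGroups

namespace Fermat.Agent.S41.Lead

open Fermat.Agent.S41.H94

/-- the property to be proved -/
def C3Prop (γ : SL(2, ℤ)) : Prop :=
  ∃ x : SL(2, ℤ), γ = x⁻¹ * tau * x ∨ γ = x⁻¹ * tau⁻¹ * x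

theorem c3Prop_of_conj (γ δ : SL(2, ℤ)) (h : C3Prop (δ⁻¹ * γ * δ)) : C3Prop γ := by
  obtain ⟨x, hx | hx⟩ := h
  · refine ⟨x * δ⁻¹, Or.inl ?_⟩
    have : γ = δ * (δ⁻¹ * γ * δ) * δ⁻¹ := by group
    rw [this, hx]; group
  · refine ⟨x * δ⁻¹, Or.inr ?_⟩
    have : γ = δ * (δ⁻¹ * γ * δ) * δ⁻¹ := by group
    rw [this, hx]; group

theorem c3_det (γ : SL(2, ℤ)) : γ 0 0 * γ 1 1 - γ 0 1 * γ 1 0 = 1 := by
  have := γ.det_coe
  rwa [Matrix.det_fin_two] at this

/-- entries of `(T^n)⁻¹ * γ * T^n` -/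
theorem c3_conjT (γ : SL(2, ℤ)) (n : ℤ) :
    ((((ModularGroup.T ^ n)⁻¹ * γ * ModularGroup.T ^ n : SL(2, ℤ)) :
        Matrix (Fin 2) (Fin 2) ℤ) 0 0 = γ 0 0 - n * γ 1 0) ∧
    ((((ModularGroup.T ^ n)⁻¹ * γ * ModularGroup.T ^ n : SL(2, ℤ)) :
        Matrix (Fin 2) (Fin 2) ℤ) 1 0 = γ 1 0) ∧
    ((((ModularGroup.T ^ n)⁻¹ * γ * ModularGroup.T ^ n : SL(2, ℤ)) :
        Matrix (Fin 2) (Fin 2) ℤ) 1 1 = γ 1 1 + n * γ 1 0) := by
  simp only [Matrix.SpecialLinearGroup.coe_mul, Matrix.SpecialLinearGroup.coe_inv,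
    ModularGroup.coe_T_zpow,
    Matrix.adjugate_fin_two, Matrix.mul_apply, Fin.sum_univ_two, Matrix.of_apply,
    Matrix.cons_val_zero, Matrix.cons_val_one, Matrix.cons_val', Matrix.cons_val_fin_one]
  refine ⟨by ring, by ring, by ring⟩

/-- entries of `S⁻¹ * γ * S` -/
theorem c3_conjS (γ : SL(2, ℤ)) :
    (((ModularGroup.S⁻¹ * γ * ModularGroup.S : SL(2, ℤ)) :
        Matrix (Fin 2) (Fin 2) ℤ) 0 0 = γ 1 1) ∧
    (((ModularGroup.S⁻¹ * γ * ModularGroup.S : SL(2, ℤ)) :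
        Matrix (Fin 2) (Fin 2) ℤ) 1 0 = - γ 0 1) ∧
    (((ModularGroup.S⁻¹ * γ * ModularGroup.S : SL(2, ℤ)) :
        Matrix (Fin 2) (Fin 2) ℤ) 1 1 = γ 0 0) := by
  simp only [Matrix.SpecialLinearGroup.coe_mul, Matrix.SpecialLinearGroup.coe_inv,
    ModularGroup.coe_S,
    Matrix.adjugate_fin_two, Matrix.mul_apply, Fin.sum_univ_two, Matrix.of_apply,
    Matrix.cons_val_zero, Matrix.cons_val_one, Matrix.cons_val', Matrix.cons_val_fin_one]
  refine ⟨by ring, by ring, by ring⟩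

/-- an element of `SL(2,ℤ)` is determined by three entries and `c ≠ 0` -/
theorem c3_ext (g h : SL(2, ℤ)) (h00 : g 0 0 = h 0 0) (h10 : g 1 0 = h 1 0) (h11 : g 1 1 = h 1 1)
    (hc : g 1 0 ≠ 0) : g = h := by
  have hg := c3_det g
  have hh := c3_det h
  have h01 : g 0 1 = h 0 1 := by
    have : g 0 1 * g 1 0 = h 0 1 * g 1 0 := by
      have e1 : g 0 1 * g 1 0 = g 0 0 * g 1 1 - 1 := by linarith
      have e2 : h 0 1 * h 1 0 = h 0 0 * h 1 1 - 1 := by linarith
      rw [e1, h10, e2, h00, h11]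
    exact mul_right_cancel₀ hc this
  apply Subtype.ext
  ext i j
  fin_cases i <;> fin_cases j
  · exact h00
  · exact h01
  · exact h10
  · exact h11

theorem c3_tau_entries :
    ((tau : SL(2, ℤ)) : Matrix (Fin 2) (Fin 2) ℤ) 0 0 = -1 ∧
    ((tau : SL(2, ℤ)) : Matrix (Fin 2) (Fin 2) ℤ) 1 0 = -1 ∧
    ((tau : SL(2, ℤ)) : Matrix (Fin 2) (Fin 2) ℤ) 1 1 = 0 := by
  simp only [tau, Matrix.SpecialLinearGroup.coe_mul, Matrix.SpecialLinearGroup.coe_inv,
    ModularGroup.coe_S, ModularGroup.coe_T,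
    Matrix.adjugate_fin_two, Matrix.mul_apply, Fin.sum_univ_two, Matrix.of_apply,
    Matrix.cons_val_zero, Matrix.cons_val_one, Matrix.cons_val', Matrix.cons_val_fin_one]
  refine ⟨by ring, by ring, by ring⟩

theorem c3_tau_inv_entries :
    ((tau⁻¹ : SL(2, ℤ)) : Matrix (Fin 2) (Fin 2) ℤ) 0 0 = 0 ∧
    ((tau⁻¹ : SL(2, ℤ)) : Matrix (Fin 2) (Fin 2) ℤ) 1 0 = 1 ∧
    ((tau⁻¹ : SL(2, ℤ)) : Matrix (Fin 2) (Fin 2) ℤ) 1 1 = -1 := by
  simp only [tau, Matrix.SpecialLinearGroup.coe_mul, Matrix.SpecialLinearGroup.coe_inv,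
    ModularGroup.coe_S, ModularGroup.coe_T,
    Matrix.adjugate_fin_two, Matrix.mul_apply, Fin.sum_univ_two, Matrix.of_apply,
    Matrix.cons_val_zero, Matrix.cons_val_one, Matrix.cons_val', Matrix.cons_val_fin_one]
  refine ⟨by ring, by ring, by ring⟩

/-- balancing, positive case -/
theorem c3_balance_pos (a c : ℤ) (hc : 0 < c) :
    ∃ n : ℤ, |2 * (a - n * c) + 1| ≤ c := by
  have hpos : 0 < 2 * c := by positivity
  have hr0 : 0 ≤ (2 * a + 1 + c) % (2 * c) := Int.emod_nonneg _ (ne_of_gt hpos)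
  have hr1 : (2 * a + 1 + c) % (2 * c) < 2 * c := Int.emod_lt_of_pos _ hpos
  have hdiv : 2 * c * ((2 * a + 1 + c) / (2 * c)) + (2 * a + 1 + c) % (2 * c) = 2 * a + 1 + c :=
    Int.mul_ediv_add_emod _ _
  refine ⟨(2 * a + 1 + c) / (2 * c), ?_⟩
  rw [abs_le]
  constructor <;> nlinarith

/-- balancing: for `c ≠ 0` and any `a` there is `n` with `|2 (a - n c) + 1| ≤ |c|`. -/
theorem c3_balance (a c : ℤ) (hc : c ≠ 0) :
    ∃ n : ℤ, |2 * (a - n * c) + 1| ≤ |c| := by
  rcases lt_or_gt_of_ne hc with h | h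
  · obtain ⟨n, hn⟩ := c3_balance_pos a (-c) (by linarith)
    refine ⟨-n, ?_⟩
    rw [abs_of_neg h]
    have : 2 * (a - -n * c) + 1 = 2 * (a - n * -c) + 1 := by ring
    rw [this]; exact hn
  · obtain ⟨n, hn⟩ := c3_balance_pos a c h
    exact ⟨n, by rw [abs_of_pos h]; exact hn⟩

/-- the descent -/
theorem c3_descent : ∀ (N : ℕ) (γ : SL(2, ℤ)),
    (γ : Matrix (Fin 2) (Fin 2) ℤ).trace = -1 →
    ((γ : Matrix (Fin 2) (Fin 2) ℤ) 1 0).natAbs = N → C3Prop γ := by
  intro N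
  induction N using Nat.strong_induction_on with
  | _ N ih =>
    intro γ htr hN
    have hdet := c3_det γ
    rw [Matrix.trace_fin_two] at htr
    -- c ≠ 0
    have hc : γ 1 0 ≠ 0 := by
      intro h0
      rw [h0, mul_zero, sub_zero] at hdet
      have hd : γ 1 1 = -1 - γ 0 0 := by linarith
      rw [hd] at hdet
      nlinarith [sq_nonneg (2 * γ 0 0 + 1)]
    obtain ⟨n, hn⟩ := c3_balance (γ 0 0) (γ 1 0) hc
    -- conjugate by T^n
    set g : SL(2, ℤ) := (ModularGroup.T ^ n)⁻¹ * γ * ModularGroup.T ^ n with hg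
    obtain ⟨g00, g10, g11⟩ := c3_conjT γ n
    rw [← hg] at g00 g10 g11
    have hgdet := c3_det g
    have hgtr : g 0 0 + g 1 1 = -1 := by rw [g00, g11]; linarith
    have hgc : g 1 0 ≠ 0 := by rw [g10]; exact hc
    have hbal : |2 * g 0 0 + 1| ≤ |g 1 0| := by rw [g00, g10]; exact hn
    apply c3Prop_of_conj γ (ModularGroup.T ^ n)
    rw [← hg]
    -- now work with g
    have hbc : g 0 1 * g 1 0 = -(g 0 0 ^ 2 + g 0 0 + 1) := by
      have hd : g 1 1 = -1 - g 0 0 := by linarith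
      rw [hd] at hgdet
      nlinarith
    by_cases h1 : |g 1 0| = 1
    · -- base case: 2 a + 1 is odd of absolute value ≤ 1
      have ha : g 0 0 = -1 ∨ g 0 0 = 0 := by
        rw [h1, abs_le] at hbal
        omega
      rcases abs_eq (by norm_num : (0:ℤ) ≤ 1) |>.mp h1 with hc1 | hc1
      · -- c = 1
        rcases ha with ha | ha
        · -- a = -1, d = 0, c = 1 : this is S⁻¹ τ⁻¹ S
          apply c3Prop_of_conj g ModularGroup.S
          refine ⟨1, Or.inr ?_⟩
          obtain ⟨s00, s10, s11⟩ := c3_conjS g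
          obtain ⟨t00, t10, t11⟩ := c3_tau_inv_entries
          have hb : g 0 1 = -1 := by
            rw [hc1, ha] at hbc; linarith
          have hd : g 1 1 = 0 := by linarith
          rw [inv_one, one_mul, mul_one]
          apply c3_ext _ tau⁻¹ (by rw [s00, t00, hd]) (by rw [s10, t10, hb]; norm_num)
            (by rw [s11, t11, ha])
          rw [s10, hb]; norm_num
        · -- a = 0, d = -1, c = 1 : this is τ⁻¹
          refine ⟨1, Or.inr ?_⟩
          obtain ⟨t00, t10, t11⟩ := c3_tau_inv_entries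
          rw [inv_one, one_mul, mul_one]
          apply c3_ext g tau⁻¹ (by rw [ha, t00]) (by rw [hc1, t10]) (by rw [t11]; linarith) hgc
      · -- c = -1
        rcases ha with ha | ha
        · -- a = -1, d = 0, c = -1 : this is τ
          refine ⟨1, Or.inl ?_⟩
          obtain ⟨t00, t10, t11⟩ := c3_tau_entries
          rw [inv_one, one_mul, mul_one]
          apply c3_ext g tau (by rw [ha, t00]) (by rw [hc1, t10]) (by rw [t11]; linarith) hgc
        · -- a = 0, d = -1, c = -1 : this is S⁻¹ τ S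
          apply c3Prop_of_conj g ModularGroup.S
          refine ⟨1, Or.inl ?_⟩
          obtain ⟨s00, s10, s11⟩ := c3_conjS g
          obtain ⟨t00, t10, t11⟩ := c3_tau_entries
          have hb : g 0 1 = 1 := by
            rw [hc1, ha] at hbc; linarith
          have hd : g 1 1 = -1 := by linarith
          rw [inv_one, one_mul, mul_one]
          apply c3_ext _ tau (by rw [s00, t00, hd]) (by rw [s10, t10, hb])
            (by rw [s11, t11, ha])
          rw [s10, hb]; norm_num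
    · -- |c| ≥ 2: conjugate by S and use the induction hypothesis
      have hc2 : 2 ≤ |g 1 0| := by
        have : 0 < |g 1 0| := abs_pos.mpr hgc
        omega
      obtain ⟨s00, s10, s11⟩ := c3_conjS g
      apply c3Prop_of_conj g ModularGroup.S
      have hlt : |g 0 1| < |g 1 0| := by
        have h4 : 4 * (|g 0 1| * |g 1 0|) = (2 * g 0 0 + 1) ^ 2 + 3 := by
          rw [← abs_mul, hbc, abs_neg, abs_of_nonneg (by nlinarith [sq_nonneg (2 * g 0 0 + 1)])]
          ring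
        have h5 : (2 * g 0 0 + 1) ^ 2 ≤ |g 1 0| ^ 2 := by
          rw [← sq_abs (2 * g 0 0 + 1)]
          exact pow_le_pow_left₀ (abs_nonneg _) hbal 2
        by_contra hge
        rw [not_lt] at hge
        nlinarith [abs_nonneg (g 0 1), abs_nonneg (g 1 0)]
      refine ih ((ModularGroup.S⁻¹ * g * ModularGroup.S : SL(2, ℤ)) 1 0).natAbs ?_ _ ?_ rfl
      · rw [← hN, s10, Int.natAbs_neg]
        have : (g 0 1).natAbs < (g 1 0).natAbs := by
          have := hlt
          rw [Int.abs_eq_natAbs, Int.abs_eq_natAbs] at this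
          exact_mod_cast this
        rw [g10] at this
        exact this
      · rw [Matrix.trace_fin_two, s00, s11]; linarith

/-- **C3**: an element of `SL(2,ℤ)` of trace `-1` is conjugate to `τ` or to `τ⁻¹`. -/
theorem stmt_C3 : Fermat.Agent.S41.H94.Stmt_C3 := by
  intro γ hγ
  exact c3_descent _ γ hγ rfl

end Fermat.Agent.S41.Lead
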