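import Mathlib
import Fermat.Agent.S41.H94_PDDefs
import Fermat.Agent.S21.H86_PartC

/-!
# S41, package P, leaf PAR: an element of `SL(2,ℤ)` of trace `2` is conjugate to a power of `T`.
-/

set_option autoImplicit false

open scoped MatrixGroups

namespace Fermat.Agent.S41.Lead

/-- the trace is invariant under conjugation -/
theorem lead_trace_conj (γ δ : SL(2, ℤ)) :
    ((δ⁻¹ * γ * δ : SL(2, ℤ)) : Matrix (Fin 2) (Fin 2) ℤ).trace =
      (γ : Matrix (Fin 2) (Fin 2) ℤ).trace := by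
  have hdet : δ 0 0 * δ 1 1 - δ 0 1 * δ 1 0 = 1 := by
    have := δ.det_coe
    rwa [Matrix.det_fin_two] at this
  simp only [Matrix.trace_fin_two, Matrix.SpecialLinearGroup.coe_mul,
    Matrix.SpecialLinearGroup.coe_inv,
    Matrix.adjugate_fin_two, Matrix.mul_apply, Fin.sum_univ_two, Matrix.of_apply,
    Matrix.cons_val_zero, Matrix.cons_val_one, Matrix.cons_val', Matrix.cons_val_fin_one]
  linear_combination (γ 0 0 + γ 1 1) * hdet

/-- an upper triangular element of `SL(2,ℤ)` of trace `2` is a power of `T` -/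
theorem lead_eq_T_zpow_of_c_eq_zero (g : SL(2, ℤ))
    (hc : (g : Matrix (Fin 2) (Fin 2) ℤ) 1 0 = 0)
    (ht : (g : Matrix (Fin 2) (Fin 2) ℤ).trace = 2) :
    g = ModularGroup.T ^ ((g : Matrix (Fin 2) (Fin 2) ℤ) 0 1) := by
  have hdet : g 0 0 * g 1 1 - g 0 1 * g 1 0 = 1 := by
    have := g.det_coe
    rwa [Matrix.det_fin_two] at this
  rw [Matrix.trace_fin_two] at ht
  have hc' : g 1 0 = 0 := hc
  rw [hc', mul_zero, sub_zero] at hdet
  have ha : g 0 0 = 1 := by nlinarith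
  have hd : g 1 1 = 1 := by linarith
  apply Subtype.ext
  rw [ModularGroup.coe_T_zpow]
  ext i j
  fin_cases i <;> fin_cases j <;> simp [ha, hd, hc']

/-- **PAR**: an element of `SL(2,ℤ)` of trace `2` is conjugate to a power of `T`. -/
theorem stmt_PAR : Fermat.Agent.S41.H94.Stmt_PAR := by
  intro γ hγ
  obtain ⟨δ, hδ⟩ := Fermat.Agent.S21.H86.exists_conj_lower_left_eq_zero γ (by rw [hγ]; norm_num)
  have ht : ((δ⁻¹ * γ * δ : SL(2, ℤ)) : Matrix (Fin 2) (Fin 2) ℤ).trace = 2 := by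
    rw [lead_trace_conj, hγ]
  have h := lead_eq_T_zpow_of_c_eq_zero (δ⁻¹ * γ * δ) hδ ht
  refine ⟨δ⁻¹, ((δ⁻¹ * γ * δ : SL(2, ℤ)) : Matrix (Fin 2) (Fin 2) ℤ) 0 1, ?_⟩
  rw [← h]
  group

end Fermat.Agent.S41.Lead
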