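/-
helper96: S41 package P, leaves CUSP and ML.

* `stmt_ML`   : `(SL(2,ℤ), S, T)` is `ModularLike`.
* `stmt_CUSP` : cuspidal (trace condition) ↔ kills the conjugates of the powers of `S`, `T`,
  `T S⁻¹` (from PAR, C3 and Cayley–Hamilton in trace `0`).
-/
import Mathlib
import Fermat.Agent.S41.H94_PDStmts
import Fermat.Agent.S41.Lead_PAR
import Fermat.Agent.S41.Lead_C3

set_option autoImplicit false

open scoped MatrixGroups

namespace Fermat.Agent.S41.H96

open Fermat.Agent.S41.H94 Fermat.Agent.S41.Lead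

/-! ### ML -/

theorem S_sq_eq_neg_one : (ModularGroup.S : SL(2, ℤ)) ^ 2 = -1 := by decide

theorem S_pow_four : (ModularGroup.S : SL(2, ℤ)) ^ 4 = 1 := by decide

theorem tau_pow_three' : (ModularGroup.T * ModularGroup.S⁻¹ : SL(2, ℤ)) ^ 3 = 1 := by decide

theorem neg_one_mul_comm (g : SL(2, ℤ)) : (-1 : SL(2, ℤ)) * g = g * (-1) := by
  apply Subtype.ext
  simp

/-- **ML**: `(SL(2,ℤ), S, T)` is `ModularLike`. -/
theorem stmt_ML : Stmt_ML where
  gen := SpecialLinearGroup.SL2Z_generators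
  central := fun g => by rw [S_sq_eq_neg_one]; exact neg_one_mul_comm g
  tau3 := tau_pow_three'
  S4 := S_pow_four

/-! ### Traces -/

/-- The trace of an element of `SL(2,ℤ)`. -/
def tr (g : SL(2, ℤ)) : ℤ := (g : Matrix (Fin 2) (Fin 2) ℤ).trace

theorem tr_conj (γ δ : SL(2, ℤ)) : tr (δ⁻¹ * γ * δ) = tr γ := lead_trace_conj γ δ

theorem tr_neg (g : SL(2, ℤ)) : tr (-g) = -tr g := by
  unfold tr
  rw [Matrix.SpecialLinearGroup.coe_neg, Matrix.trace_neg]

theorem tr_T_zpow (n : ℤ) : tr (ModularGroup.T ^ n) = 2 := by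
  unfold tr
  rw [ModularGroup.coe_T_zpow, Matrix.trace_fin_two]
  simp

theorem tr_S_zpow_sq_le (n : ℤ) : tr (ModularGroup.S ^ n) ^ 2 ≤ 4 := by
  rw [zpow_eq_zpow_emod n (show (ModularGroup.S : SL(2, ℤ)) ^ (4 : ℤ) = 1 from by
    rw [show ((4 : ℤ)) = ((4 : ℕ) : ℤ) from rfl, zpow_natCast]; exact S_pow_four)]
  have h0 : 0 ≤ n % 4 := Int.emod_nonneg n (by norm_num)
  have h1 : n % 4 < 4 := Int.emod_lt_of_pos n (by norm_num)
  obtain ⟨m, hm⟩ := Int.eq_ofNat_of_zero_le h0
  rw [hm, zpow_natCast]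
  have hm4 : m < 4 := by omega
  interval_cases m
  · decide
  · decide
  · decide
  · decide

theorem tr_tau_zpow_sq_le (n : ℤ) :
    tr ((ModularGroup.T * ModularGroup.S⁻¹ : SL(2, ℤ)) ^ n) ^ 2 ≤ 4 := by
  rw [zpow_eq_zpow_emod n (show (ModularGroup.T * ModularGroup.S⁻¹ : SL(2, ℤ)) ^ (3 : ℤ) = 1 from by
    rw [show ((3 : ℤ)) = ((3 : ℕ) : ℤ) from rfl, zpow_natCast]; exact tau_pow_three')]
  have h0 : 0 ≤ n % 3 := Int.emod_nonneg n (by norm_num)
  have h1 : n % 3 < 3 := Int.emod_lt_of_pos n (by norm_num)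
  obtain ⟨m, hm⟩ := Int.eq_ofNat_of_zero_le h0
  rw [hm, zpow_natCast]
  have hm3 : m < 3 := by omega
  interval_cases m
  · decide
  · decide
  · decide

/-- Cayley–Hamilton in trace `0`: `g ^ 2 = -1`. -/
theorem sq_eq_neg_one_of_tr_eq_zero (g : SL(2, ℤ)) (h : tr g = 0) : g ^ 2 = -1 := by
  have hdet : g 0 0 * g 1 1 - g 0 1 * g 1 0 = 1 := by
    have := g.det_coe
    rwa [Matrix.det_fin_two] at this
  have ht : g 0 0 + g 1 1 = 0 := by
    have := h
    unfold tr at this
    rwa [Matrix.trace_fin_two] at this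
  apply Subtype.ext
  rw [Matrix.SpecialLinearGroup.coe_pow, Matrix.SpecialLinearGroup.coe_neg,
    Matrix.SpecialLinearGroup.coe_one, pow_two]
  ext i j
  fin_cases i <;> fin_cases j
  · simp only [Matrix.mul_apply, Fin.sum_univ_two, Fin.zero_eta, Fin.isValue, Matrix.neg_apply,
      Matrix.one_apply_eq]
    linear_combination g 0 0 * ht - hdet
  · simp only [Matrix.mul_apply, Fin.sum_univ_two, Fin.zero_eta, Fin.mk_one, Fin.isValue,
      Matrix.neg_apply, ne_eq, zero_ne_one, not_false_eq_true, Matrix.one_apply_ne, neg_zero]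
    linear_combination g 0 1 * ht
  · simp only [Matrix.mul_apply, Fin.sum_univ_two, Fin.zero_eta, Fin.mk_one, Fin.isValue,
      Matrix.neg_apply, ne_eq, one_ne_zero, not_false_eq_true, Matrix.one_apply_ne, neg_zero]
    linear_combination g 1 0 * ht
  · simp only [Matrix.mul_apply, Fin.sum_univ_two, Fin.mk_one, Fin.isValue, Matrix.neg_apply,
      Matrix.one_apply_eq]
    linear_combination g 1 1 * ht - hdet

/-! ### CUSP -/

/-- **CUSP**: cuspidal ↔ kills the conjugates of the powers of `S`, `T`, `T S⁻¹`. -/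
theorem stmt_CUSP : Stmt_CUSP := by
  intro H _ k _ j h2 hneg φ
  constructor
  · intro hφ
    refine ⟨fun x n h hh => hφ h ?_, fun x n h hh => hφ h ?_, fun x n h hh => hφ h ?_⟩
    · show tr (j h) ^ 2 ≤ 4
      rw [hh, tr_conj]
      exact tr_S_zpow_sq_le n
    · show tr (j h) ^ 2 ≤ 4
      rw [hh, tr_conj, tr_T_zpow]
      norm_num
    · show tr (j h) ^ 2 ≤ 4
      rw [hh, tr_conj]
      exact tr_tau_zpow_sq_le n
  · rintro ⟨hS, hT, hτ⟩ h hh
    have hh' : tr (j h) ^ 2 ≤ 4 := hh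
    obtain ⟨z, hz⟩ := hneg
    -- `φ z = 0`
    have hφz : φ (Additive.ofMul z) = 0 := by
      refine hS 1 2 z ?_
      rw [hz, inv_one, one_mul, mul_one, show ((2 : ℤ)) = ((2 : ℕ) : ℤ) from rfl, zpow_natCast,
        S_sq_eq_neg_one]
    have hjhz : j (h * z) = -(j h) := by
      rw [map_mul, hz]
      apply Subtype.ext
      simp
    have hφhz : φ (Additive.ofMul (h * z)) = φ (Additive.ofMul h) := by
      rw [ofMul_mul, map_add, hφz, add_zero]
    -- the five possible traces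
    have hlo : -2 ≤ tr (j h) := by nlinarith
    have hhi : tr (j h) ≤ 2 := by nlinarith
    have hcases : tr (j h) = -2 ∨ tr (j h) = -1 ∨ tr (j h) = 0 ∨ tr (j h) = 1 ∨ tr (j h) = 2 := by
      omega
    rcases hcases with h' | h' | h' | h' | h'
    · -- trace `-2`: `-g` is parabolic
      have h'' : tr (j (h * z)) = 2 := by rw [hjhz, tr_neg, h']; norm_num
      obtain ⟨x, n, hx⟩ := stmt_PAR (j (h * z)) h''
      rw [← hφhz]
      exact hT x n (h * z) hx
    · -- trace `-1`
      obtain ⟨x, hx | hx⟩ := stmt_C3 (j h) h'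
      · refine hτ x 1 h ?_
        rw [zpow_one]
        exact hx
      · refine hτ x (-1) h ?_
        rw [zpow_neg, zpow_one]
        exact hx
    · -- trace `0`: `g ^ 2 = -1`
      have hsq := sq_eq_neg_one_of_tr_eq_zero (j h) h'
      have h3 : φ (Additive.ofMul (h ^ 2)) = 0 := by
        refine hS 1 2 (h ^ 2) ?_
        rw [map_pow, hsq, inv_one, one_mul, mul_one, show ((2 : ℤ)) = ((2 : ℕ) : ℤ) from rfl,
          zpow_natCast, S_sq_eq_neg_one]
      rw [ofMul_pow, map_nsmul, nsmul_eq_mul] at h3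
      rcases mul_eq_zero.mp h3 with h4 | h4
      · exact absurd (by exact_mod_cast h4) h2
      · exact h4
    · -- trace `1`: `-g` has trace `-1`
      have h'' : tr (j (h * z)) = -1 := by rw [hjhz, tr_neg, h']
      rw [← hφhz]
      obtain ⟨x, hx | hx⟩ := stmt_C3 (j (h * z)) h''
      · refine hτ x 1 (h * z) ?_
        rw [zpow_one]
        exact hx
      · refine hτ x (-1) (h * z) ?_
        rw [zpow_neg, zpow_one]
        exact hx
    · -- trace `2`
      obtain ⟨x, n, hx⟩ := stmt_PAR (j h) h'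
      exact hT x n h hx

end Fermat.Agent.S41.H96
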