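/-
helper96: S41 package P, leaf B3: the sum over the `T`-orbits on `SL(2,ℤ) ⧸ range j` equals the
sum over the conjugacy classes of primitive positive parabolic elements.

* `conj_T_zpow_entries`, `isPosPar_conj_T_zpow`, `exists_of_isPosPar`: positive parabolic
  elements are the conjugates `x⁻¹ T ^ n x`, `n ≥ 1`;
* `eq_of_mul_T_zpow`: `y T ^ a = T ^ b y`, `a ≠ 0` ⇒ `a = b` and `y = ± T ^ s`;
* `stmt_B3`.
-/
import Mathlib
import Fermat.Agent.S41.H96_Cusp

set_option autoImplicit false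

open scoped MatrixGroups

namespace Fermat.Agent.S41.H96

open Fermat.Agent.S41.H94 Fermat.Agent.S41.Lead

/-! ### Conjugates of powers of `T` -/

theorem det_eq_one' (x : SL(2, ℤ)) : x 0 0 * x 1 1 - x 0 1 * x 1 0 = 1 := by
  have := x.det_coe
  rwa [Matrix.det_fin_two] at this

theorem T_zpow_apply (n : ℤ) :
    ((ModularGroup.T ^ n : SL(2, ℤ)) : Matrix (Fin 2) (Fin 2) ℤ) = !![1, n; 0, 1] :=
  ModularGroup.coe_T_zpow n

/-- The entries of `x⁻¹ T ^ n x`. -/
theorem conj_T_zpow_entries (x : SL(2, ℤ)) (n : ℤ) :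
    (x⁻¹ * ModularGroup.T ^ n * x) 0 1 = n * (x 1 1) ^ 2 ∧
    (x⁻¹ * ModularGroup.T ^ n * x) 1 0 = -(n * (x 1 0) ^ 2) ∧
    (x⁻¹ * ModularGroup.T ^ n * x) 0 0 = 1 + n * (x 1 0 * x 1 1) ∧
    (x⁻¹ * ModularGroup.T ^ n * x) 1 1 = 1 - n * (x 1 0 * x 1 1) := by
  have hdet := det_eq_one' x
  simp only [Matrix.SpecialLinearGroup.coe_mul, Matrix.SpecialLinearGroup.coe_inv,
    T_zpow_apply, Matrix.adjugate_fin_two, Matrix.mul_apply, Fin.sum_univ_two, Matrix.of_apply,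
    Matrix.cons_val_zero, Matrix.cons_val_one, Matrix.cons_val', Matrix.cons_val_fin_one]
  refine ⟨?_, ?_, ?_, ?_⟩
  · ring
  · ring
  · linear_combination hdet
  · linear_combination hdet

theorem row_ne_zero (x : SL(2, ℤ)) : x 1 0 ≠ 0 ∨ x 1 1 ≠ 0 := by
  by_contra hcon
  push Not at hcon
  have hdet := det_eq_one' x
  rw [hcon.1, hcon.2] at hdet
  simp at hdet

theorem conj_T_zpow_ne_one (x : SL(2, ℤ)) {n : ℤ} (hn : n ≠ 0) :
    x⁻¹ * ModularGroup.T ^ n * x ≠ 1 := by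
  intro h
  have h1 : ModularGroup.T ^ n = 1 := by
    have : ModularGroup.T ^ n = x * (x⁻¹ * ModularGroup.T ^ n * x) * x⁻¹ := by group
    rw [this, h]; group
  have h2 : ((ModularGroup.T ^ n : SL(2, ℤ)) : Matrix (Fin 2) (Fin 2) ℤ) 0 1
      = ((1 : SL(2, ℤ)) : Matrix (Fin 2) (Fin 2) ℤ) 0 1 := by rw [h1]
  have h3 : ((ModularGroup.T ^ n : SL(2, ℤ)) : Matrix (Fin 2) (Fin 2) ℤ) 0 1 = n := by
    rw [T_zpow_apply]; rfl
  have h4 : ((1 : SL(2, ℤ)) : Matrix (Fin 2) (Fin 2) ℤ) 0 1 = 0 := by simp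
  rw [h3, h4] at h2
  exact hn h2

/-- A conjugate of `T ^ n`, `n ≥ 1`, is positive parabolic. -/
theorem isPosPar_conj_T_zpow (x : SL(2, ℤ)) {n : ℤ} (hn : 0 < n) :
    IsPosPar (x⁻¹ * ModularGroup.T ^ n * x) := by
  obtain ⟨h01, h10, h00, h11⟩ := conj_T_zpow_entries x n
  refine ⟨?_, conj_T_zpow_ne_one x hn.ne', ?_, ?_⟩
  · rw [Matrix.trace_fin_two]
    rw [h00, h11]; ring
  · rw [h01]; positivity
  · rw [h10]
    have : 0 ≤ n * (x 1 0) ^ 2 := by positivity
    linarith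

/-- A positive parabolic element is a conjugate of `T ^ n` with `n ≥ 1`. -/
theorem exists_of_isPosPar {g : SL(2, ℤ)} (hg : IsPosPar g) :
    ∃ (x : SL(2, ℤ)) (n : ℕ), 0 < n ∧ g = x⁻¹ * ModularGroup.T ^ (n : ℤ) * x := by
  obtain ⟨htr, hne, h01, h10⟩ := hg
  obtain ⟨x, n, hx⟩ := stmt_PAR g htr
  obtain ⟨e01, e10, -, -⟩ := conj_T_zpow_entries x n
  have hn0 : n ≠ 0 := by
    rintro rfl
    apply hne
    rw [hx]; simp
  rcases lt_or_gt_of_ne hn0 with hneg | hpos
  · exfalso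
    rw [hx, e01] at h01
    rw [hx, e10] at h10
    rcases row_ne_zero x with hc | hd
    · have : 0 < (x 1 0) ^ 2 := by positivity
      nlinarith
    · have : 0 < (x 1 1) ^ 2 := by positivity
      nlinarith
  · refine ⟨x, n.toNat, by omega, ?_⟩
    rw [Int.toNat_of_nonneg hpos.le]
    exact hx

/-- If `y T ^ a = T ^ b y` with `a ≠ 0` then `a = b` and `y = ± T ^ s`. -/
theorem eq_of_mul_T_zpow (y : SL(2, ℤ)) (a b : ℤ) (ha : a ≠ 0)
    (h : y * ModularGroup.T ^ a = ModularGroup.T ^ b * y) :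
    a = b ∧ ∃ s : ℤ, y = ModularGroup.T ^ s ∨ y = -ModularGroup.T ^ s := by
  have hdet := det_eq_one' y
  have hm := congrArg (fun g : SL(2, ℤ) => (g : Matrix (Fin 2) (Fin 2) ℤ)) h
  simp only [Matrix.SpecialLinearGroup.coe_mul, T_zpow_apply] at hm
  have e11 := congrFun (congrFun hm 1) 1
  have e01 := congrFun (congrFun hm 0) 1
  simp only [Matrix.mul_apply, Fin.sum_univ_two, Matrix.of_apply, Matrix.cons_val_zero,
    Matrix.cons_val_one, Matrix.cons_val', Matrix.cons_val_fin_one] at e11 e01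
  have hc : y 1 0 = 0 := by
    have : y 1 0 * a = 0 := by linarith
    rcases mul_eq_zero.mp this with h1 | h1
    · exact h1
    · exact absurd h1 ha
  rw [hc, mul_zero, sub_zero] at hdet
  have hunit : y 0 0 = 1 ∧ y 1 1 = 1 ∨ y 0 0 = -1 ∧ y 1 1 = -1 := by
    rcases Int.eq_one_or_neg_one_of_mul_eq_one' hdet with h1 | h1
    · exact Or.inl h1
    · exact Or.inr h1
  rcases hunit with ⟨h00, h11⟩ | ⟨h00, h11⟩
  · refine ⟨by rw [h00, h11] at e01; linarith, y 0 1, Or.inl ?_⟩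
    apply Subtype.ext
    rw [T_zpow_apply]
    ext i j
    fin_cases i <;> fin_cases j <;> simp [h00, h11, hc]
  · refine ⟨by rw [h00, h11] at e01; linarith, -(y 0 1), Or.inr ?_⟩
    apply Subtype.ext
    rw [Matrix.SpecialLinearGroup.coe_neg, T_zpow_apply]
    ext i j
    fin_cases i <;> fin_cases j <;> simp [h00, h11, hc]

theorem conj_pow_inv {G : Type*} [Group G] (y b : G) (m : ℕ) :
    (y⁻¹ * b * y) ^ m = y⁻¹ * b ^ m * y := by
  have := conj_pow (a := y⁻¹) (b := b) (i := m)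
  rwa [inv_inv] at this

/-! ### The action of `T` on `SL(2,ℤ) ⧸ Γ` -/

section Orbits

variable {H : Type} [Group H] (j : H →* SL(2, ℤ))

/-- `T ^ n` fixes the coset `x Γ` iff `x⁻¹ T ^ n x ∈ Γ`. -/
theorem zpow_smul_mk_eq_iff (x : SL(2, ℤ)) (n : ℤ) :
    (ModularGroup.T ^ n : SL(2, ℤ)) • (x : SL(2, ℤ) ⧸ j.range) = (x : SL(2, ℤ) ⧸ j.range) ↔
      x⁻¹ * ModularGroup.T ^ n * x ∈ j.range := by
  rw [MulAction.Quotient.smul_mk, QuotientGroup.eq, smul_eq_mul]
  have : (ModularGroup.T ^ n * x)⁻¹ * x = (x⁻¹ * ModularGroup.T ^ n * x)⁻¹ := by group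
  rw [this, inv_mem_iff]

theorem isPeriodicPt_iff (x : SL(2, ℤ)) (n : ℕ) :
    Function.IsPeriodicPt (fun p : SL(2, ℤ) ⧸ j.range => ModularGroup.T • p) n
        (x : SL(2, ℤ) ⧸ j.range) ↔
      x⁻¹ * ModularGroup.T ^ (n : ℤ) * x ∈ j.range := by
  unfold Function.IsPeriodicPt Function.IsFixedPt
  rw [smul_iterate_apply, ← zpow_smul_mk_eq_iff, zpow_natCast]

/-- The width of the cusp `x⁻¹ ∞` of `Γ`. -/
noncomputable def width (x : SL(2, ℤ)) : ℕ :=
  Function.minimalPeriod (fun p : SL(2, ℤ) ⧸ j.range => ModularGroup.T • p)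
    (x : SL(2, ℤ) ⧸ j.range)

theorem width_pos [j.range.FiniteIndex] (x : SL(2, ℤ)) : 0 < width j x :=
  Function.minimalPeriod_pos_of_mem_periodicPts
    (Function.Injective.mem_periodicPts (MulAction.injective ModularGroup.T) _)

theorem conj_width_mem (x : SL(2, ℤ)) :
    x⁻¹ * ModularGroup.T ^ (width j x : ℤ) * x ∈ j.range :=
  (isPeriodicPt_iff j x _).mp (Function.isPeriodicPt_minimalPeriod _ _)

theorem width_dvd (x : SL(2, ℤ)) (n : ℕ)
    (h : x⁻¹ * ModularGroup.T ^ (n : ℤ) * x ∈ j.range) : width j x ∣ n :=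
  Function.IsPeriodicPt.minimalPeriod_dvd ((isPeriodicPt_iff j x n).mpr h)

/-- The generator of the stabiliser of a cusp is primitive positive parabolic. -/
theorem isPrimPosPar_of_width [j.range.FiniteIndex] (x : SL(2, ℤ)) (h : H)
    (hh : j h = x⁻¹ * ModularGroup.T ^ (width j x : ℤ) * x) : IsPrimPosPar j h := by
  have hw := width_pos j x
  have hpos : IsPosPar (j h) := by
    rw [hh]
    exact isPosPar_conj_T_zpow x (by exact_mod_cast hw)
  refine ⟨hpos, fun h' m hh' hm => ?_⟩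
  obtain ⟨y, n, hn, hy⟩ := exists_of_isPosPar hh'
  have hm0 : m ≠ 0 := by
    rintro rfl
    rw [pow_zero] at hm
    apply hpos.2.1
    rw [← hm, map_one]
  -- `y⁻¹ T ^ (n m) y = x⁻¹ T ^ w x`
  have h1 : y⁻¹ * ModularGroup.T ^ ((n : ℤ) * m) * y
      = x⁻¹ * ModularGroup.T ^ (width j x : ℤ) * x := by
    rw [← hh, ← hm, map_pow, hy, zpow_mul, zpow_natCast (ModularGroup.T ^ (n : ℤ)) m, conj_pow_inv]
  have h2 : (x * y⁻¹) * ModularGroup.T ^ ((n : ℤ) * m)
      = ModularGroup.T ^ (width j x : ℤ) * (x * y⁻¹) := by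
    have : ModularGroup.T ^ (width j x : ℤ)
        = x * (x⁻¹ * ModularGroup.T ^ (width j x : ℤ) * x) * x⁻¹ := by group
    rw [this, ← h1]
    group
  have hnm0 : (n : ℤ) * m ≠ 0 := by
    have : 0 < (n : ℤ) * m := by positivity
    exact this.ne'
  obtain ⟨heq, s, hs⟩ := eq_of_mul_T_zpow (x * y⁻¹) _ _ hnm0 h2
  -- `n` is a period of `x Γ`
  have h3 : x⁻¹ * ModularGroup.T ^ (n : ℤ) * x = y⁻¹ * ModularGroup.T ^ (n : ℤ) * y := by
    have hx : x = (x * y⁻¹) * y := by group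
    rcases hs with hs | hs
    · rw [hx, hs]; group
    · rw [hx, hs]
      simp only [neg_mul, mul_neg, inv_neg, neg_neg, mul_inv_rev]
      group
  have h4 : width j x ∣ n := by
    apply width_dvd
    rw [h3, ← hy]
    exact ⟨h', rfl⟩
  obtain ⟨t, ht⟩ := h4
  have h5 : (n : ℤ) * m = (width j x : ℤ) := heq
  have h6 : n * m = width j x := by exact_mod_cast h5
  rw [ht, mul_assoc] at h6
  have h7 : t * m = 1 := by
    have := Nat.eq_of_mul_eq_mul_left hw (h6.trans (mul_one _).symm)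
    exact this
  exact Nat.dvd_one.mp ⟨t, by rw [mul_comm]; exact h7.symm⟩

/-- If the generators of the stabilisers of two cusps are conjugate in `Γ` then the cusps lie in
the same `T`-orbit. -/
theorem same_orbit_of_conj (hneg : (-1 : SL(2, ℤ)) ∈ j.range) (x x' : SL(2, ℤ)) (w w' : ℤ)
    (hw : w ≠ 0) (γ : SL(2, ℤ)) (hγ : γ ∈ j.range)
    (h : γ * (x⁻¹ * ModularGroup.T ^ w * x) * γ⁻¹ = x'⁻¹ * ModularGroup.T ^ w' * x') :
    ∃ s : ℤ, (x' : SL(2, ℤ) ⧸ j.range)
      = (ModularGroup.T ^ s : SL(2, ℤ)) • (x : SL(2, ℤ) ⧸ j.range) := by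
  have h2 : (x' * γ * x⁻¹) * ModularGroup.T ^ w = ModularGroup.T ^ w' * (x' * γ * x⁻¹) := by
    have : ModularGroup.T ^ w' = x' * (x'⁻¹ * ModularGroup.T ^ w' * x') * x'⁻¹ := by group
    rw [this, ← h]
    group
  obtain ⟨-, s, hs⟩ := eq_of_mul_T_zpow _ _ _ hw h2
  refine ⟨s, ?_⟩
  rw [MulAction.Quotient.smul_mk, smul_eq_mul, QuotientGroup.eq]
  rcases hs with hs | hs
  · have : x'⁻¹ * (ModularGroup.T ^ s * x) = γ := by
      rw [← hs]; group
    rw [this]
    exact hγ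
  · have : x'⁻¹ * (ModularGroup.T ^ s * x) = -γ := by
      have h3 : ModularGroup.T ^ s = -(x' * γ * x⁻¹) := by rw [hs, neg_neg]
      rw [h3]
      simp only [neg_mul, mul_neg]
      congr 1
      group
    rw [this]
    have : -γ = (-1) * γ := by simp
    rw [this]
    exact mul_mem hneg hγ

/-- Every primitive positive parabolic element of `Γ` is conjugate in `Γ` to the generator of the
stabiliser of the chosen representative of its cusp. -/
theorem exists_conj_of_isPrimPosPar (hinj : Function.Injective j) [j.range.FiniteIndex]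
    (h : H) (hh : IsPrimPosPar j h) (y : SL(2, ℤ)) (n : ℕ)
    (hy : j h = y⁻¹ * ModularGroup.T ^ (n : ℤ) * y)
    (x : SL(2, ℤ)) (s : ℤ)
    (hx : (x : SL(2, ℤ) ⧸ j.range) = (ModularGroup.T ^ s : SL(2, ℤ)) • (y : SL(2, ℤ) ⧸ j.range))
    (hc : H) (hhc : j hc = x⁻¹ * ModularGroup.T ^ (width j x : ℤ) * x) :
    ∃ γ : H, γ * hc * γ⁻¹ = h := by
  have hw := width_pos j x
  -- `x = T ^ s y j(γ₀)`
  rw [MulAction.Quotient.smul_mk, smul_eq_mul, eq_comm, QuotientGroup.eq] at hx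
  obtain ⟨γ₀, hγ₀⟩ := hx
  have hxe : x = ModularGroup.T ^ s * y * j γ₀ := by
    rw [hγ₀]; group
  have hconj : ∀ m : ℤ, x⁻¹ * ModularGroup.T ^ m * x
      = (j γ₀)⁻¹ * (y⁻¹ * ModularGroup.T ^ m * y) * j γ₀ := by
    intro m
    rw [hxe]
    have hcomm : ModularGroup.T ^ m * ModularGroup.T ^ s
        = ModularGroup.T ^ s * ModularGroup.T ^ m := by
      rw [← zpow_add, ← zpow_add, add_comm]
    calc (ModularGroup.T ^ s * y * j γ₀)⁻¹ * ModularGroup.T ^ m * (ModularGroup.T ^ s * y * j γ₀)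
        = (j γ₀)⁻¹ * y⁻¹ * (ModularGroup.T ^ s)⁻¹ * (ModularGroup.T ^ m * ModularGroup.T ^ s)
            * y * j γ₀ := by group
      _ = (j γ₀)⁻¹ * y⁻¹ * (ModularGroup.T ^ s)⁻¹ * (ModularGroup.T ^ s * ModularGroup.T ^ m)
            * y * j γ₀ := by rw [hcomm]
      _ = (j γ₀)⁻¹ * (y⁻¹ * ModularGroup.T ^ m * y) * j γ₀ := by group
  -- `n` is a period of `x Γ`
  have hdvd : width j x ∣ n := by
    apply width_dvd
    rw [hconj, ← hy]
    exact ⟨γ₀⁻¹ * h * γ₀, by rw [map_mul, map_mul, map_inv]⟩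
  obtain ⟨t, ht⟩ := hdvd
  -- `h₀ = γ₀ hc γ₀⁻¹`
  have h0 : j (γ₀ * hc * γ₀⁻¹) = y⁻¹ * ModularGroup.T ^ (width j x : ℤ) * y := by
    rw [map_mul, map_mul, map_inv, hhc, hconj]
    group
  have hpos : IsPosPar (j (γ₀ * hc * γ₀⁻¹)) := by
    rw [h0]
    exact isPosPar_conj_T_zpow y (by exact_mod_cast hw)
  have hpow : (γ₀ * hc * γ₀⁻¹) ^ t = h := by
    apply hinj
    rw [map_pow, h0, hy, conj_pow_inv, ← zpow_natCast (ModularGroup.T ^ (width j x : ℤ)) t,
      ← zpow_mul, ht]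
    push_cast
    rfl
  have ht1 : t = 1 := hh.2 _ t hpos hpow
  rw [ht1, pow_one] at hpow
  exact ⟨γ₀, hpow⟩

end Orbits

/-! ### B3 -/

/-- **B3**: the sum over the `T`-orbits on `SL(2,ℤ) ⧸ range j` equals the sum over the conjugacy
classes of primitive positive parabolic elements. -/
theorem stmt_B3 : Stmt_B3 := by
  intro H _ k _ j _ hinj hfin hneg b hb c hc
  have := hfin
  have hout : ∀ q : MulAction.orbitRel.Quotient (Subgroup.zpowers ModularGroup.T)
      (SL(2, ℤ) ⧸ j.range), ((q.out.out : SL(2, ℤ)) : SL(2, ℤ) ⧸ j.range) = q.out :=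
    fun q => QuotientGroup.out_eq' _
  have hcw : ∀ q : MulAction.orbitRel.Quotient (Subgroup.zpowers ModularGroup.T)
      (SL(2, ℤ) ⧸ j.range),
      j (c q) = q.out.out⁻¹ * ModularGroup.T ^ (width j q.out.out : ℤ) * q.out.out := by
    intro q
    rw [hc q, zpow_natCast]
    unfold width
    rw [hout q]
  have hprim : ∀ q, IsPrimPosPar j (c q) := fun q => isPrimPosPar_of_width j _ _ (hcw q)
  let e : MulAction.orbitRel.Quotient (Subgroup.zpowers ModularGroup.T) (SL(2, ℤ) ⧸ j.range) →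
      Quotient (conjSetoid (IsPrimPosPar j)) := fun q => Quotient.mk _ ⟨c q, hprim q⟩
  have he : Function.Bijective e := by
    constructor
    · intro q q' hqq
      obtain ⟨γ, hγ⟩ := Quotient.exact hqq
      have hγ' : γ * c q * γ⁻¹ = c q' := hγ
      have h1 : j γ * (q.out.out⁻¹ * ModularGroup.T ^ (width j q.out.out : ℤ) * q.out.out)
          * (j γ)⁻¹
          = q'.out.out⁻¹ * ModularGroup.T ^ (width j q'.out.out : ℤ) * q'.out.out := by
        rw [← hcw, ← hcw, ← map_inv, ← map_mul, ← map_mul, hγ']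
      have hw0 : (width j q.out.out : ℤ) ≠ 0 := by
        have := width_pos j q.out.out
        exact_mod_cast this.ne'
      obtain ⟨s, hs⟩ := same_orbit_of_conj j hneg _ _ _ _ hw0 (j γ) ⟨γ, rfl⟩ h1
      rw [hout, hout] at hs
      rw [← Quotient.out_eq q, ← Quotient.out_eq q']
      apply Quotient.sound
      show MulAction.orbitRel _ _ q.out q'.out
      rw [MulAction.orbitRel_apply, MulAction.mem_orbit_iff]
      refine ⟨⟨ModularGroup.T ^ (-s), ⟨-s, rfl⟩⟩, ?_⟩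
      rw [hs]
      show (ModularGroup.T ^ (-s) : SL(2, ℤ)) • ((ModularGroup.T ^ s : SL(2, ℤ)) • q.out) = q.out
      rw [smul_smul, ← zpow_add, neg_add_cancel, zpow_zero, one_smul]
    · intro C
      induction C using Quotient.inductionOn with
      | _ a =>
        obtain ⟨h, hh⟩ := a
        obtain ⟨y, n, hn, hy⟩ := exists_of_isPosPar hh.1
        let q : MulAction.orbitRel.Quotient (Subgroup.zpowers ModularGroup.T)
            (SL(2, ℤ) ⧸ j.range) := Quotient.mk _ (y : SL(2, ℤ) ⧸ j.range)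
        have hrel : MulAction.orbitRel (Subgroup.zpowers ModularGroup.T) (SL(2, ℤ) ⧸ j.range)
            q.out (y : SL(2, ℤ) ⧸ j.range) := Quotient.exact (Quotient.out_eq q)
        rw [MulAction.orbitRel_apply, MulAction.mem_orbit_iff] at hrel
        obtain ⟨⟨t, ⟨s, hs⟩⟩, hts⟩ := hrel
        have hts' : (ModularGroup.T ^ s : SL(2, ℤ)) • (y : SL(2, ℤ) ⧸ j.range) = q.out := by
          rw [← hts]
          show (ModularGroup.T ^ s : SL(2, ℤ)) • (y : SL(2, ℤ) ⧸ j.range)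
            = t • (y : SL(2, ℤ) ⧸ j.range)
          have : ModularGroup.T ^ s = t := hs
          rw [this]
        obtain ⟨γ, hγ⟩ := exists_conj_of_isPrimPosPar j hinj h hh y n hy q.out.out s
          (by rw [hout]; exact hts'.symm) (c q) (hcw q)
        exact ⟨q, Quotient.sound ⟨γ, hγ⟩⟩
  unfold classSum
  rw [← finsum_eq_sum_of_fintype]
  apply finsum_eq_of_bijective e he
  intro q
  obtain ⟨γ, hγ⟩ := Quotient.mk_out (s := conjSetoid (IsPrimPosPar j)) ⟨c q, hprim q⟩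
  have hγ' : γ * (e q).out.1 * γ⁻¹ = c q := hγ
  rw [← hγ']
  exact hb γ _ (e q).out.2.1

end Fermat.Agent.S41.H96
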