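import Mathlib
import Fermat.Agent.S41.H94_Dual
import Fermat.Agent.S41.H41_PSL
import Fermat.Agent.S41.Lead_C3
import Fermat.Agent.S41.Lead_PAR
import Fermat.Agent.S41.H77_Surj
import Fermat.Agent.S41.H77_B2
import Fermat.Agent.S41.H78_Adj1
import Fermat.Agent.S41.H96_B1
import Fermat.Agent.S41.H96_B3
import Fermat.Agent.S41.H96_Cusp

/-!
# S41, package P: all leaves are proved; unconditional statements

* `leaves : Leaves`
* `dual_ihara_of_ihara : Stmt_IHARA → Stmt_DUAL` (dual Ihara, the output of package P)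
* unconditional forms of the pairing API on `Hom_cusp(Gamma0 M, k)`.
-/

set_option autoImplicit false

open scoped MatrixGroups
open CongruenceSubgroup

namespace Fermat.Agent.S41.H94

/-- All leaves of package P. -/
theorem leaves : Leaves where
  psl := H41.stmt_PSL
  c3 := Lead.stmt_C3
  par := Lead.stmt_PAR
  surj := H77.stmt_SURJ
  adj1 := H78.stmt_ADJ1
  b1 := H96.stmt_B1
  b2 := H77.stmt_B2
  b3 := H96.stmt_B3
  cusp := H96.stmt_CUSP
  ml := H96.stmt_ML

section Main

open WeierstrassCurve WeierstrassCurve.Affine WeierstrassCurve.Affine.Point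

/-- **Dual Ihara** as a `Prop`: the eigensystem of `W` does not occur in the cokernel of
`(cor1, cor2) : V_{N q'} → V_N × V_N` (`V_M` = cuspidal homs `Gamma0 M → ZMod p`). -/
def Stmt_DUAL : Prop :=
  ∀ (E : WeierstrassCurve ℚ) [E.IsElliptic] (W : WeierstrassCurve ℤ), W.IsIntegralModelOf E →
    ∀ (p N q' : ℕ), p.Prime → p ≠ 2 → 0 < N → q'.Prime → ¬ q' ∣ N → q' ≠ p →
    GaloisRepIsIrreducible (K := AlgebraicClosure ℚ) ℚ E p →
    ∀ v₁ v₂ : Additive (Gamma0 N) →+ ZMod p,
    IsCuspidalHom (Gamma0 N) v₁ → IsCuspidalHom (Gamma0 N) v₂ →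
    (v₁, v₂) ∈ Submodule.span (ZMod p) (dualSet W p N q')

/-- Dual Ihara from Ihara's lemma (package P, unconditional in the leaves). -/
theorem dual_ihara_of_ihara (hI : Stmt_IHARA) : Stmt_DUAL :=
  fun E _ W hW p N q' hp hp2 hN hq' hq'N hq'p hirr v₁ v₂ h₁ h₂ =>
    dual_ihara leaves hI E W hW p N q' hp hp2 hN hq' hq'N hq'p hirr v₁ v₂ h₁ h₂

end Main

end Fermat.Agent.S41.H94
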