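import Fermat.Agent.S41.H77_CorComp
import Fermat.Agent.S41.H94_Leaves
import Fermat.Agent.GTor.H77_TorsLift

/-!
# S41 / L-LIFT: the lattice of integral cuspidal classes

* `cuspZ M`             : cuspidal homs `Gamma0 M → ℤ` as a `ℤ`-submodule,
* `redHom p`            : reduction mod `p` of homs,
* `exists_eq_smul_of_red_eq_zero` : the kernel of the reduction is `p • Hom`,
* `cor1_cuspZ, cor2_cuspZ, res2_cuspZ, Tcoh_cuspZ` : the degeneracy maps keep cuspidality over `ℤ`,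
* `exists_cusp_lift`    : TORSLIFT in the `IsCuspidalHom` shape,
* `finite_cuspZ`        : `cuspZ M` is a finitely generated `ℤ`-module.
-/

set_option autoImplicit false

open scoped MatrixGroups
open CongruenceSubgroup ModularCurve.Period

namespace Fermat.Agent.S41.H77

open Fermat.Agent.S41

/-! ### cuspidal versus parabolic over `ℤ` -/

theorem isCuspidal_of_parabolic_int {M : ℕ} {φ : Additive (Gamma0 M) →+ ℤ}
    (h : IsParabolicHom (Gamma0 M) φ) : IsCuspidalHom (Gamma0 M) φ := by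
  intro γ hγ
  rcases hγ.lt_or_eq with hlt | heq
  · have h12 : (γ : SL(2, ℤ)) ^ 12 = 1 := Fermat.Agent.S16.H38.pow_twelve_eq_one_of_trace _ hlt
    have h12' : γ ^ 12 = 1 := Subtype.ext h12
    have : (12 : ℕ) • φ (Additive.ofMul γ) = 0 := by
      rw [← map_nsmul, ← ofMul_pow, h12', ofMul_one, map_zero]
    simpa using this
  · exact h γ heq

theorem isParabolic_of_cuspidal {M : ℕ} {A : Type*} [AddCommGroup A]
    {φ : Additive (Gamma0 M) →+ A}
    (h : IsCuspidalHom (Gamma0 M) φ) : IsParabolicHom (Gamma0 M) φ :=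
  fun γ hγ => h γ hγ.le

/-! ### the submodule of cuspidal classes -/

/-- The cuspidal homs `Gamma0 M → ℤ`. -/
def cuspZ (M : ℕ) : Submodule ℤ (Additive (Gamma0 M) →+ ℤ) where
  carrier := {φ | IsCuspidalHom (Gamma0 M) φ}
  add_mem' := fun {a b} ha hb γ hγ => by
    rw [AddMonoidHom.add_apply, ha γ hγ, hb γ hγ, add_zero]
  zero_mem' := fun _ _ => rfl
  smul_mem' := fun c φ hφ γ hγ => by
    rw [AddMonoidHom.smul_apply, hφ γ hγ, smul_zero]

theorem mem_cuspZ {M : ℕ} {φ : Additive (Gamma0 M) →+ ℤ} :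
    φ ∈ cuspZ M ↔ IsCuspidalHom (Gamma0 M) φ := Iff.rfl

/-! ### reduction mod `p` -/

section Red

variable {G : Type*} [Group G]

/-- Reduction mod `p` of a hom to `ℤ`. -/
def redHom (p : ℕ) (φ : Additive G →+ ℤ) : Additive G →+ ZMod p :=
  (Int.castAddHom (ZMod p)).comp φ

@[simp] theorem redHom_apply (p : ℕ) (φ : Additive G →+ ℤ) (g : Additive G) :
    redHom p φ g = ((φ g : ℤ) : ZMod p) := rfl

theorem redHom_add (p : ℕ) (φ ψ : Additive G →+ ℤ) :
    redHom p (φ + ψ) = redHom p φ + redHom p ψ := by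
  ext g; simp

theorem redHom_sub (p : ℕ) (φ ψ : Additive G →+ ℤ) :
    redHom p (φ - ψ) = redHom p φ - redHom p ψ := by
  ext g; simp

theorem redHom_zsmul (p : ℕ) (n : ℤ) (φ : Additive G →+ ℤ) :
    redHom p (n • φ) = (n : ZMod p) • redHom p φ := by
  ext g; simp

theorem redHom_zero (p : ℕ) : redHom p (0 : Additive G →+ ℤ) = 0 := by
  ext g; simp

/-- The kernel of the reduction mod `p` is `p • Hom`. -/
theorem exists_eq_smul_of_red_eq_zero {p : ℕ} (hp : p ≠ 0) (φ : Additive G →+ ℤ)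
    (h : redHom p φ = 0) : ∃ ψ : Additive G →+ ℤ, φ = (p : ℤ) • ψ := by
  have hdvd : ∀ g, (p : ℤ) ∣ φ g := by
    intro g
    have := DFunLike.congr_fun h g
    rw [redHom_apply, AddMonoidHom.zero_apply] at this
    exact (ZMod.intCast_zmod_eq_zero_iff_dvd _ _).mp this
  have hp' : (p : ℤ) ≠ 0 := by exact_mod_cast hp
  refine ⟨AddMonoidHom.mk' (fun g => φ g / (p : ℤ)) ?_, ?_⟩
  · intro a b
    apply mul_left_cancel₀ hp'
    rw [mul_add, Int.mul_ediv_cancel' (hdvd _), Int.mul_ediv_cancel' (hdvd _),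
      Int.mul_ediv_cancel' (hdvd _), map_add]
  · refine AddMonoidHom.ext fun g => ?_
    show φ g = (p : ℤ) • (φ g / (p : ℤ))
    rw [smul_eq_mul, Int.mul_ediv_cancel' (hdvd _)]

end Red

theorem cusp_of_smul_cusp {M : ℕ} {n : ℤ} (hn : n ≠ 0) {ψ : Additive (Gamma0 M) →+ ℤ}
    (h : IsCuspidalHom (Gamma0 M) (n • ψ)) : IsCuspidalHom (Gamma0 M) ψ := by
  intro γ hγ
  have := h γ hγ
  rw [AddMonoidHom.smul_apply, smul_eq_mul] at this
  rcases mul_eq_zero.mp this with h0 | h0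
  · exact absurd h0 hn
  · exact h0

theorem redHom_cusp {M : ℕ} (p : ℕ) {φ : Additive (Gamma0 M) →+ ℤ}
    (h : IsCuspidalHom (Gamma0 M) φ) : IsCuspidalHom (Gamma0 M) (redHom p φ) := by
  intro γ hγ
  rw [redHom_apply, h γ hγ, Int.cast_zero]

/-! ### coefficient change for the degeneracy maps -/

section Coeff

variable {A B : Type*} [AddCommGroup A] [AddCommGroup B]

theorem cor1_map (N q : ℕ) (f : A →+ B) (φ : Additive (Gamma0 (N * q)) →+ A) :
    cor1 N q B (f.comp φ) = f.comp (cor1 N q A φ) := corAlong_map _ f φ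

theorem cor2_map (N q : ℕ) (f : A →+ B) (φ : Additive (Gamma0 (N * q)) →+ A) :
    cor2 N q B (f.comp φ) = f.comp (cor2 N q A φ) := corAlong_map _ f φ

theorem res2_map (N q : ℕ) (f : A →+ B) (φ : Additive (Gamma0 N) →+ A) :
    res2 N q B (f.comp φ) = f.comp (res2 N q A φ) := rfl

theorem Tcoh_map (N ℓ : ℕ) (f : A →+ B) (φ : Additive (Gamma0 N) →+ A) :
    Tcoh N B ℓ (f.comp φ) = f.comp (Tcoh N A ℓ φ) := by
  unfold Tcoh
  rw [res2_map, cor1_map]

theorem cor1_red (N q p : ℕ) (φ : Additive (Gamma0 (N * q)) →+ ℤ) :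
    cor1 N q (ZMod p) (redHom p φ) = redHom p (cor1 N q ℤ φ) := cor1_map N q _ φ

theorem cor2_red (N q p : ℕ) (φ : Additive (Gamma0 (N * q)) →+ ℤ) :
    cor2 N q (ZMod p) (redHom p φ) = redHom p (cor2 N q ℤ φ) := cor2_map N q _ φ

theorem Tcoh_red (N ℓ p : ℕ) (φ : Additive (Gamma0 N) →+ ℤ) :
    Tcoh N (ZMod p) ℓ (redHom p φ) = redHom p (Tcoh N ℤ ℓ φ) := Tcoh_map N ℓ _ φ

end Coeff

/-! ### the degeneracy maps keep cuspidality over `ℤ` (through `ℚ`) -/

section Cusp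

theorem two_ne_zero_rat : (2 : ℚ) ≠ 0 := by norm_num

theorem ratHom_cusp {M : ℕ} {φ : Additive (Gamma0 M) →+ ℤ}
    (h : IsCuspidalHom (Gamma0 M) φ) :
    IsCuspidalHom (Gamma0 M) ((Int.castAddHom ℚ).comp φ) := by
  intro γ hγ
  show ((φ (Additive.ofMul γ) : ℤ) : ℚ) = 0
  rw [h γ hγ, Int.cast_zero]

theorem cusp_of_ratHom_cusp {M : ℕ} {φ : Additive (Gamma0 M) →+ ℤ}
    (h : IsCuspidalHom (Gamma0 M) ((Int.castAddHom ℚ).comp φ)) :
    IsCuspidalHom (Gamma0 M) φ := by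
  intro γ hγ
  have : ((φ (Additive.ofMul γ) : ℤ) : ℚ) = 0 := h γ hγ
  exact_mod_cast this

theorem cor1_cuspZ (N q : ℕ) (hN : N ≠ 0) (hq : q ≠ 0) {ψ : Additive (Gamma0 (N * q)) →+ ℤ}
    (hψ : IsCuspidalHom (Gamma0 (N * q)) ψ) : IsCuspidalHom (Gamma0 N) (cor1 N q ℤ ψ) := by
  apply cusp_of_ratHom_cusp
  rw [← cor1_map]
  exact H94.cor1_cusp H94.leaves two_ne_zero_rat N q hN hq (ratHom_cusp hψ)

theorem cor2_cuspZ (N q : ℕ) (hN : N ≠ 0) (hq : q ≠ 0) {ψ : Additive (Gamma0 (N * q)) →+ ℤ}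
    (hψ : IsCuspidalHom (Gamma0 (N * q)) ψ) : IsCuspidalHom (Gamma0 N) (cor2 N q ℤ ψ) := by
  apply cusp_of_ratHom_cusp
  rw [← cor2_map]
  exact H94.cor2_cusp H94.leaves two_ne_zero_rat N q hN hq (ratHom_cusp hψ)

theorem res2_cuspZ (N q : ℕ) (hN : N ≠ 0) (hq : q ≠ 0) {φ : Additive (Gamma0 N) →+ ℤ}
    (hφ : IsCuspidalHom (Gamma0 N) φ) : IsCuspidalHom (Gamma0 (N * q)) (res2 N q ℤ φ) := by
  apply cusp_of_ratHom_cusp
  rw [← res2_map]
  exact H94.res2_cusp H94.leaves two_ne_zero_rat N q hN hq (ratHom_cusp hφ)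

theorem Tcoh_cuspZ (N ℓ : ℕ) (hN : N ≠ 0) (hℓ : ℓ ≠ 0) {φ : Additive (Gamma0 N) →+ ℤ}
    (hφ : IsCuspidalHom (Gamma0 N) φ) : IsCuspidalHom (Gamma0 N) (Tcoh N ℤ ℓ φ) :=
  cor1_cuspZ N ℓ hN hℓ (res2_cuspZ N ℓ hN hℓ hφ)

end Cusp

/-! ### TORSLIFT -/

/-- TORSLIFT: cuspidal classes mod `p` lift to integral cuspidal classes. -/
theorem exists_cusp_lift (M : ℕ) (hM : M ≠ 0) (p : ℕ) (χ : Additive (Gamma0 M) →+ ZMod p)
    (hχ : IsCuspidalHom (Gamma0 M) χ) :
    ∃ φ : Additive (Gamma0 M) →+ ℤ, IsCuspidalHom (Gamma0 M) φ ∧ redHom p φ = χ := by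
  have : NeZero M := ⟨hM⟩
  obtain ⟨φ, hφ, h⟩ := Fermat.Agent.GTor.H77.stmt_TorsLift_S16 M p χ hχ
  refine ⟨φ, isCuspidal_of_parabolic_int hφ, ?_⟩
  ext g
  exact h (Additive.toMul g)

/-! ### finiteness -/

section Fin

theorem isNoetherian_hom_int (G : Type*) [Group G] [Group.FG G] :
    IsNoetherian ℤ (Additive G →+ ℤ) := by
  obtain ⟨S, hS, hfin⟩ := Group.fg_iff.mp (inferInstance : Group.FG G)
  have : Finite S := hfin
  let F : (Additive G →+ ℤ) →ₗ[ℤ] (S → ℤ) :=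
    { toFun := fun φ s => φ (Additive.ofMul (s : G))
      map_add' := fun _ _ => rfl
      map_smul' := fun _ _ => rfl }
  refine isNoetherian_of_injective F ?_
  intro φ ψ h
  have hmon : AddMonoidHom.toMultiplicativeRight φ = AddMonoidHom.toMultiplicativeRight ψ := by
    apply MonoidHom.eq_of_eqOn_top
    rw [← hS]
    apply MonoidHom.eqOn_closure
    intro s hs
    have := congrFun h ⟨s, hs⟩
    exact congrArg Multiplicative.ofAdd this
  exact AddMonoidHom.toMultiplicativeRight.injective hmon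

theorem finite_cuspZ (M : ℕ) (hM : M ≠ 0) : Module.Finite ℤ (cuspZ M) := by
  have : NeZero M := ⟨hM⟩
  have : Group.FG (Gamma0 M) := H94.fg_Gamma0 M
  have := isNoetherian_hom_int (Gamma0 M)
  infer_instance

end Fin

end Fermat.Agent.S41.H77
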