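import Mathlib
import Fermat.Agent.S41.H94_Leaves
import Fermat.Agent.S41.H19_IharaFinal

/-!
# S41, package P: dual Ihara, unconditional

`stmt_DUAL : Stmt_DUAL`: for `E[p]` irreducible, `p` odd, `q' ∤ N` prime, `q' ≠ p`, every pair `(v₁, v₂)` of cuspidal
homs `Gamma0 N → ZMod p` lies in the `ZMod p`-span of the pairs `(cor1 y, cor2 y)` (`y` cuspidal of level `N q'`),
`((T_ℓ - a_ℓ(W)) u, 0)` and `(0, (T_ℓ - a_ℓ(W)) u)` (`u` cuspidal of level `N`, `ℓ` good, `ℓ ∤ N q'`, `ℓ ≠ p`).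
-/

set_option autoImplicit false

namespace Fermat.Agent.S41.H94

/-- **Dual Ihara**, unconditional. -/
theorem stmt_DUAL : Stmt_DUAL := dual_ihara_of_ihara Ihara.stmt_IHARA

end Fermat.Agent.S41.H94
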