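import Fermat.Agent.S41.H77_AlgDI
import Fermat.Agent.S41.H77_LLiftBase
import Fermat.Agent.S41.H94_DualFinal
import Fermat.Agent.S41.H20_NewLiftDefs
import Fermat.Agent.S41.H19_RelDeg

/-!
# S41 / NEWLIFT: package L-LIFT

`llift_of_F4 : Stmt_F4 → H20.Stmt_LLIFT`, where `Stmt_F4` says that the trace maps `cor1, cor2`
commute with the Hecke operators `Tcoh ℓ` (`ℓ` prime, `ℓ ∤ N q`) on integral cuspidal classes.

Proof: TORSLIFT gives an integral cuspidal lift `yt` of `y`; `cor yt = p m₀`; dual Ihara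
(`H94.stmt_DUAL`) + TORSLIFT give `M = cor(L') + p M + Σ (T_ℓ - a_ℓ) M` for the lattice
`M = cuspZ N × cuspZ N`; the `T_ℓ` commute on `M` (from F4 and `H19.Tcoh_res2`); Nakayama
(`exists_lift_ker`) gives `x₂` with `cor (yt - p x₂) = 0`.
-/

set_option autoImplicit false

open scoped MatrixGroups
open WeierstrassCurve WeierstrassCurve.Affine WeierstrassCurve.Affine.Point
open CongruenceSubgroup ModularCurve.Period

namespace Fermat.Agent.S41.H77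

open Fermat.Agent.S41

/-- F4: the trace maps commute with the Hecke operators on integral cuspidal classes. -/
def Stmt_F4 : Prop :=
  ∀ (N q ℓ : ℕ), 0 < N → q.Prime → ¬ q ∣ N → ℓ.Prime → ¬ ℓ ∣ N * q →
    ∀ y : Additive (Gamma0 (N * q)) →+ ℤ, IsCuspidalHom (Gamma0 (N * q)) y →
      cor1 N q ℤ (Tcoh (N * q) ℤ ℓ y) = Tcoh N ℤ ℓ (cor1 N q ℤ y) ∧
      cor2 N q ℤ (Tcoh (N * q) ℤ ℓ y) = Tcoh N ℤ ℓ (cor2 N q ℤ y)

section Maps

theorem Tcoh_add' {A : Type*} [AddCommGroup A] (N ℓ : ℕ) (φ ψ : Additive (Gamma0 N) →+ A) :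
    Tcoh N A ℓ (φ + ψ) = Tcoh N A ℓ φ + Tcoh N A ℓ ψ := by
  unfold Tcoh cor1 res2
  rw [← H19.corAlong_add]
  rfl

theorem Tcoh_zsmul' (N ℓ : ℕ) (c : ℤ) (φ : Additive (Gamma0 N) →+ ℤ) :
    Tcoh N ℤ ℓ (c • φ) = c • Tcoh N ℤ ℓ φ := by
  unfold Tcoh cor1 res2
  rw [← H19.corAlong_smul]
  rfl

/-- `cor1` on integral cuspidal classes -/
noncomputable def corZ1 (N q : ℕ) (hN : N ≠ 0) (hq : q ≠ 0) : cuspZ (N * q) →ₗ[ℤ] cuspZ N where
  toFun y := ⟨cor1 N q ℤ y.1, cor1_cuspZ N q hN hq y.2⟩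
  map_add' x y := Subtype.ext (H19.corAlong_add _ x.1 y.1)
  map_smul' c x := Subtype.ext (H19.corAlong_smul _ c x.1)

/-- `cor2` on integral cuspidal classes -/
noncomputable def corZ2 (N q : ℕ) (hN : N ≠ 0) (hq : q ≠ 0) : cuspZ (N * q) →ₗ[ℤ] cuspZ N where
  toFun y := ⟨cor2 N q ℤ y.1, cor2_cuspZ N q hN hq y.2⟩
  map_add' x y := Subtype.ext (H19.corAlong_add _ x.1 y.1)
  map_smul' c x := Subtype.ext (H19.corAlong_smul _ c x.1)

/-- `T_ℓ` on integral cuspidal classes -/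
noncomputable def TZ (N ℓ : ℕ) (hN : N ≠ 0) (hℓ : ℓ ≠ 0) : cuspZ N →ₗ[ℤ] cuspZ N where
  toFun x := ⟨Tcoh N ℤ ℓ x.1, Tcoh_cuspZ N ℓ hN hℓ x.2⟩
  map_add' x y := Subtype.ext (Tcoh_add' N ℓ x.1 y.1)
  map_smul' c x := Subtype.ext (Tcoh_zsmul' N ℓ c x.1)

@[simp] theorem corZ1_coe (N q : ℕ) (hN : N ≠ 0) (hq : q ≠ 0) (y : cuspZ (N * q)) :
    (corZ1 N q hN hq y : Additive (Gamma0 N) →+ ℤ) = cor1 N q ℤ y.1 := rfl

@[simp] theorem corZ2_coe (N q : ℕ) (hN : N ≠ 0) (hq : q ≠ 0) (y : cuspZ (N * q)) :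
    (corZ2 N q hN hq y : Additive (Gamma0 N) →+ ℤ) = cor2 N q ℤ y.1 := rfl

@[simp] theorem TZ_coe (N ℓ : ℕ) (hN : N ≠ 0) (hℓ : ℓ ≠ 0) (x : cuspZ N) :
    (TZ N ℓ hN hℓ x : Additive (Gamma0 N) →+ ℤ) = Tcoh N ℤ ℓ x.1 := rfl

/-- The Hecke operators at distinct primes not dividing `N` commute on integral cuspidal classes. -/
theorem TZ_comm (hF4 : Stmt_F4) (N ℓ ℓ' : ℕ) (hN : 0 < N) (hℓ : ℓ.Prime) (hℓ' : ℓ'.Prime)
    (hℓN : ¬ ℓ ∣ N) (hℓ'N : ¬ ℓ' ∣ N) (x : cuspZ N) :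
    TZ N ℓ hN.ne' hℓ.ne_zero (TZ N ℓ' hN.ne' hℓ'.ne_zero x)
      = TZ N ℓ' hN.ne' hℓ'.ne_zero (TZ N ℓ hN.ne' hℓ.ne_zero x) := by
  rcases eq_or_ne ℓ ℓ' with h | h
  · subst h; rfl
  · apply Subtype.ext
    show Tcoh N ℤ ℓ (Tcoh N ℤ ℓ' x.1) = Tcoh N ℤ ℓ' (Tcoh N ℤ ℓ x.1)
    have hd : ¬ ℓ ∣ N * ℓ' := by
      intro hd
      rcases (Nat.Prime.dvd_mul hℓ).mp hd with h1 | h1
      · exact hℓN h1
      · exact h ((Nat.prime_dvd_prime_iff_eq hℓ hℓ').mp h1)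
    have h1 := (hF4 N ℓ' ℓ hN hℓ' hℓ'N hℓ hd (res2 N ℓ' ℤ x.1)
      (res2_cuspZ N ℓ' hN.ne' hℓ'.ne_zero x.2)).1
    rw [H19.Tcoh_res2 hN hℓ' hℓ hℓN h] at h1
    exact h1.symm

end Maps

section Main

/-- `p • m = 0 → m = 0` on pairs of integral classes. -/
theorem cuspZ_prod_torsionFree (N : ℕ) {p : ℤ} (hp : p ≠ 0) (m : cuspZ N × cuspZ N)
    (h : p • m = 0) : m = 0 := by
  have h1 : p • m.1 = 0 := congrArg Prod.fst h
  have h2 : p • m.2 = 0 := congrArg Prod.snd h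
  have key : ∀ x : cuspZ N, p • x = 0 → x = 0 := by
    intro x hx
    apply Subtype.ext
    refine AddMonoidHom.ext fun g => ?_
    have := DFunLike.congr_fun (congrArg Subtype.val hx) g
    have h3 : p * (x.1 g) = 0 := by simpa using this
    exact (mul_eq_zero.mp h3).resolve_left hp
  exact Prod.ext (key _ h1) (key _ h2)

/-- An integral cuspidal class whose reduction mod `p` vanishes is `p` times an integral cuspidal
class. -/
theorem exists_cuspZ_smul {M : ℕ} {p : ℕ} (hp : p ≠ 0) (x : cuspZ M) (h : redHom p x.1 = 0) :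
    ∃ z : cuspZ M, x = (p : ℤ) • z := by
  obtain ⟨ψ, hψ⟩ := exists_eq_smul_of_red_eq_zero hp x.1 h
  have hp' : (p : ℤ) ≠ 0 := by exact_mod_cast hp
  have hc : IsCuspidalHom (Gamma0 M) ψ := cusp_of_smul_cusp hp' (hψ ▸ x.2)
  exact ⟨⟨ψ, hc⟩, Subtype.ext hψ⟩

/-- The reduction of a pair of integral cuspidal classes. -/
def redPair (N p : ℕ) (m : cuspZ N × cuspZ N) :
    (Additive (Gamma0 N) →+ ZMod p) × (Additive (Gamma0 N) →+ ZMod p) :=
  (redHom p m.1.1, redHom p m.2.1)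

theorem redPair_add (N p : ℕ) (m m' : cuspZ N × cuspZ N) :
    redPair N p (m + m') = redPair N p m + redPair N p m' := by
  unfold redPair
  exact Prod.ext (redHom_add p _ _) (redHom_add p _ _)

theorem redPair_zsmul (N p : ℕ) (n : ℤ) (m : cuspZ N × cuspZ N) :
    redPair N p (n • m) = (n : ZMod p) • redPair N p m := by
  unfold redPair
  exact Prod.ext (redHom_zsmul p _ _) (redHom_zsmul p _ _)

theorem redPair_zero (N p : ℕ) : redPair N p 0 = 0 := by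
  unfold redPair
  exact Prod.ext (redHom_zero p) (redHom_zero p)

end Main

section Dual

variable (W : WeierstrassCurve ℤ) (p N q' : ℕ)

/-- The index type: good primes `ℓ ∤ M`, `ℓ ≠ p`. -/
abbrev GoodIdx (W : WeierstrassCurve ℤ) (p M : ℕ) : Type :=
  {ℓ : ℕ // ℓ.Prime ∧ W.IsGoodPrimeFor ℓ ∧ ¬ ℓ ∣ M ∧ ℓ ≠ p}

/-- `T_ℓ` on pairs. -/
noncomputable def TT (hN : N ≠ 0) (i : GoodIdx W p (N * q')) :
    Module.End ℤ (cuspZ N × cuspZ N) :=
  LinearMap.prodMap (TZ N i.1 hN i.2.1.ne_zero) (TZ N i.1 hN i.2.1.ne_zero)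

/-- `(cor1, cor2)` on integral cuspidal classes. -/
noncomputable def cc (hN : N ≠ 0) (hq' : q' ≠ 0) : cuspZ (N * q') →ₗ[ℤ] cuspZ N × cuspZ N :=
  LinearMap.prod (corZ1 N q' hN hq') (corZ2 N q' hN hq')

/-- The submodule `cor(L') + p M + Σ (T_ℓ - a_ℓ) M`. -/
noncomputable def DD (hN : N ≠ 0) (hq' : q' ≠ 0) : Submodule ℤ (cuspZ N × cuspZ N) :=
  LinearMap.range (cc N q' hN hq') ⊔
    (LinearMap.range (((p : ℤ)) • (1 : Module.End ℤ (cuspZ N × cuspZ N))) ⊔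
      ⨆ i : GoodIdx W p (N * q'), LinearMap.range
        (TT W p N q' hN i - ((W.apOfModel i.1 : ℤ)) • (1 : Module.End ℤ (cuspZ N × cuspZ N))))

variable {W p N q'}

theorem mem_DD_of_cc (hN : N ≠ 0) (hq' : q' ≠ 0) (y : cuspZ (N * q')) :
    cc N q' hN hq' y ∈ DD W p N q' hN hq' :=
  Submodule.mem_sup_left ⟨y, rfl⟩

theorem mem_DD_of_p (hN : N ≠ 0) (hq' : q' ≠ 0) (m : cuspZ N × cuspZ N) :
    (p : ℤ) • m ∈ DD W p N q' hN hq' :=
  Submodule.mem_sup_right (Submodule.mem_sup_left ⟨m, rfl⟩)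

theorem mem_DD_of_T (hN : N ≠ 0) (hq' : q' ≠ 0) (i : GoodIdx W p (N * q'))
    (m : cuspZ N × cuspZ N) :
    TT W p N q' hN i m - (W.apOfModel i.1 : ℤ) • m ∈ DD W p N q' hN hq' :=
  Submodule.mem_sup_right (Submodule.mem_sup_right
    (Submodule.mem_iSup_of_mem i ⟨m, rfl⟩))

/-- Every element of the span of `dualSet` is the reduction of an element of `DD`. -/
theorem exists_mem_DD_red (hp : p.Prime) (hN : N ≠ 0) (hq' : q' ≠ 0)
    (z : (Additive (Gamma0 N) →+ ZMod p) × (Additive (Gamma0 N) →+ ZMod p))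
    (hz : z ∈ Submodule.span (ZMod p) (H94.dualSet W p N q')) :
    ∃ m ∈ DD W p N q' hN hq', redPair N p m = z := by
  have hNq : N * q' ≠ 0 := Nat.mul_ne_zero hN hq'
  induction hz using Submodule.span_induction with
  | mem z hz =>
    rcases hz with (⟨y, hy, rfl⟩ | ⟨ℓ, u, hℓ, hg, hd, hne, hu, rfl⟩) | ⟨ℓ, u, hℓ, hg, hd, hne, hu, rfl⟩
    · obtain ⟨yt, hyt, hred⟩ := exists_cusp_lift (N * q') hNq p y hy
      refine ⟨cc N q' hN hq' ⟨yt, hyt⟩, mem_DD_of_cc hN hq' _, ?_⟩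
      unfold redPair
      refine Prod.ext ?_ ?_
      · show redHom p (cor1 N q' ℤ yt) = cor1 N q' (ZMod p) y
        rw [← cor1_red, hred]
      · show redHom p (cor2 N q' ℤ yt) = cor2 N q' (ZMod p) y
        rw [← cor2_red, hred]
    · obtain ⟨ut, hut, hred⟩ := exists_cusp_lift N hN p u hu
      refine ⟨_, mem_DD_of_T hN hq' ⟨ℓ, hℓ, hg, hd, hne⟩ (⟨ut, hut⟩, 0), ?_⟩
      unfold redPair
      refine Prod.ext ?_ ?_
      · show redHom p (Tcoh N ℤ ℓ ut - (W.apOfModel ℓ : ℤ) • ut) = _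
        rw [redHom_sub, redHom_zsmul, ← Tcoh_red, hred]
      · show redHom p ((TZ N ℓ hN hℓ.ne_zero 0 - (W.apOfModel ℓ : ℤ) • (0 : cuspZ N) : cuspZ N) :
          Additive (Gamma0 N) →+ ℤ) = 0
        rw [_root_.map_zero, smul_zero, sub_zero]
        exact redHom_zero p
    · obtain ⟨ut, hut, hred⟩ := exists_cusp_lift N hN p u hu
      refine ⟨_, mem_DD_of_T hN hq' ⟨ℓ, hℓ, hg, hd, hne⟩ (0, ⟨ut, hut⟩), ?_⟩
      unfold redPair
      refine Prod.ext ?_ ?_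
      · show redHom p ((TZ N ℓ hN hℓ.ne_zero 0 - (W.apOfModel ℓ : ℤ) • (0 : cuspZ N) : cuspZ N) :
          Additive (Gamma0 N) →+ ℤ) = 0
        rw [_root_.map_zero, smul_zero, sub_zero]
        exact redHom_zero p
      · show redHom p (Tcoh N ℤ ℓ ut - (W.apOfModel ℓ : ℤ) • ut) = _
        rw [redHom_sub, redHom_zsmul, ← Tcoh_red, hred]
  | zero => exact ⟨0, Submodule.zero_mem _, redPair_zero N p⟩
  | add x y _ _ hx hy =>
    obtain ⟨m, hm, rfl⟩ := hx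
    obtain ⟨m', hm', rfl⟩ := hy
    exact ⟨m + m', Submodule.add_mem _ hm hm', redPair_add N p m m'⟩
  | smul c x _ hx =>
    obtain ⟨m, hm, rfl⟩ := hx
    have : NeZero p := ⟨hp.ne_zero⟩
    refine ⟨(c.cast : ℤ) • m, Submodule.smul_mem _ _ hm, ?_⟩
    rw [redPair_zsmul, ZMod.intCast_cast, ZMod.cast_id', id]

/-- The integral form of dual Ihara: `M = cor(L') + p M + Σ (T_ℓ - a_ℓ) M`. -/
theorem mem_DD (hp : p.Prime) (hN : N ≠ 0) (hq' : q' ≠ 0)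
    (hdual : ∀ v₁ v₂ : Additive (Gamma0 N) →+ ZMod p,
      IsCuspidalHom (Gamma0 N) v₁ → IsCuspidalHom (Gamma0 N) v₂ →
      (v₁, v₂) ∈ Submodule.span (ZMod p) (H94.dualSet W p N q'))
    (m : cuspZ N × cuspZ N) : m ∈ DD W p N q' hN hq' := by
  obtain ⟨m', hm', hred⟩ := exists_mem_DD_red hp hN hq' (redPair N p m)
    (hdual _ _ (redHom_cusp p m.1.2) (redHom_cusp p m.2.2))
  have h1 : redHom p (m.1 - m'.1 : cuspZ N).1 = 0 := by
    show redHom p (m.1.1 - m'.1.1) = 0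
    rw [redHom_sub, sub_eq_zero]
    exact (congrArg Prod.fst hred).symm
  have h2 : redHom p (m.2 - m'.2 : cuspZ N).1 = 0 := by
    show redHom p (m.2.1 - m'.2.1) = 0
    rw [redHom_sub, sub_eq_zero]
    exact (congrArg Prod.snd hred).symm
  obtain ⟨z₁, hz₁⟩ := exists_cuspZ_smul hp.ne_zero _ h1
  obtain ⟨z₂, hz₂⟩ := exists_cuspZ_smul hp.ne_zero _ h2
  have : m = m' + (p : ℤ) • ((z₁, z₂) : cuspZ N × cuspZ N) := by
    refine Prod.ext ?_ ?_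
    · show m.1 = m'.1 + (p : ℤ) • z₁
      rw [← hz₁]; abel
    · show m.2 = m'.2 + (p : ℤ) • z₂
      rw [← hz₂]; abel
  rw [this]
  exact Submodule.add_mem _ hm' (mem_DD_of_p hN hq' _)

end Dual

section Final

/-- **L-LIFT**, given F4. -/
theorem llift_of_F4 (hF4 : Stmt_F4) : H20.Stmt_LLIFT := by
  intro E _ W hW p N q' hp hp2 hN hq' hq'N hq'p hirr y _ hycusp hyeig hc1 hc2
  have hN0 : N ≠ 0 := hN.ne'
  have hq0 : q' ≠ 0 := hq'.ne_zero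
  have hNq : N * q' ≠ 0 := Nat.mul_ne_zero hN0 hq0
  have hNqpos : 0 < N * q' := Nat.pos_of_ne_zero hNq
  have hpZ : (p : ℤ) ≠ 0 := by exact_mod_cast hp.ne_zero
  have hdual := H94.stmt_DUAL E W hW p N q' hp hp2 hN hq' hq'N hq'p hirr
  have hfin : Module.Finite ℤ (cuspZ N) := finite_cuspZ N hN0
  -- the lift of `y`
  obtain ⟨yt, hyt, hred⟩ := exists_cusp_lift (N * q') hNq p y hycusp
  -- the operators
  have hndvd : ∀ i : GoodIdx W p (N * q'), ¬ i.1 ∣ N := fun i h =>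
    i.2.2.2.1 (dvd_mul_of_dvd_left h _)
  have hcomm : ∀ i j : GoodIdx W p (N * q'), TT W p N q' hN0 i * TT W p N q' hN0 j
      = TT W p N q' hN0 j * TT W p N q' hN0 i := by
    intro i j
    refine LinearMap.ext fun m => Prod.ext ?_ ?_
    · exact TZ_comm hF4 N i.1 j.1 hN i.2.1 j.2.1 (hndvd i) (hndvd j) m.1
    · exact TZ_comm hF4 N i.1 j.1 hN i.2.1 j.2.1 (hndvd i) (hndvd j) m.2
  have hcT : ∀ (i : GoodIdx W p (N * q')) (x : cuspZ (N * q')),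
      cc N q' hN0 hq0 (TZ (N * q') i.1 hNq i.2.1.ne_zero x)
        = TT W p N q' hN0 i (cc N q' hN0 hq0 x) := by
    intro i x
    obtain ⟨h1, h2⟩ := hF4 N q' i.1 hN hq' hq'N i.2.1 i.2.2.2.1 x.1 x.2
    exact Prod.ext (Subtype.ext h1) (Subtype.ext h2)
  obtain ⟨x₂, hx₂⟩ := exists_lift_ker
    (fun i : GoodIdx W p (N * q') => TZ (N * q') i.1 hNq i.2.1.ne_zero)
    (fun i : GoodIdx W p (N * q') => TT W p N q' hN0 i) hcomm (cc N q' hN0 hq0) hcT (p : ℤ)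
    (fun m hm => cuspZ_prod_torsionFree N hpZ m hm)
    (fun i : GoodIdx W p (N * q') => (W.apOfModel i.1 : ℤ))
    (fun m => mem_DD (W := W) hp hN0 hq0 hdual m)
    ⟨yt, hyt⟩
    (by
      have h1 : redHom p (corZ1 N q' hN0 hq0 ⟨yt, hyt⟩).1 = 0 := by
        show redHom p (cor1 N q' ℤ yt) = 0
        rw [← cor1_red, hred, hc1]
      have h2 : redHom p (corZ2 N q' hN0 hq0 ⟨yt, hyt⟩).1 = 0 := by
        show redHom p (cor2 N q' ℤ yt) = 0
        rw [← cor2_red, hred, hc2]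
      obtain ⟨z₁, hz₁⟩ := exists_cuspZ_smul hp.ne_zero _ h1
      obtain ⟨z₂, hz₂⟩ := exists_cuspZ_smul hp.ne_zero _ h2
      exact ⟨(z₁, z₂), Prod.ext hz₁ hz₂⟩)
    (by
      intro i
      have h1 : redHom p (TZ (N * q') i.1 hNq i.2.1.ne_zero ⟨yt, hyt⟩
          - (W.apOfModel i.1 : ℤ) • (⟨yt, hyt⟩ : cuspZ (N * q')) : cuspZ (N * q')).1 = 0 := by
        show redHom p (Tcoh (N * q') ℤ i.1 yt - (W.apOfModel i.1 : ℤ) • yt) = 0
        rw [redHom_sub, redHom_zsmul, ← Tcoh_red, hred,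
          hyeig i.1 i.2.1 i.2.2.1 i.2.2.2.1 i.2.2.2.2, sub_self]
      exact exists_cuspZ_smul hp.ne_zero _ h1)
  -- the corrected lift
  set y₁ : cuspZ (N * q') := ⟨yt, hyt⟩ - (p : ℤ) • x₂ with hy₁
  have hy₁c : IsCuspidalHom (Gamma0 (N * q')) y₁.1 := y₁.2
  refine ⟨y₁.1, isParabolic_of_cuspidal hy₁c, ?_, ?_, ?_⟩
  · exact congrArg Subtype.val (congrArg Prod.fst hx₂)
  · exact congrArg Subtype.val (congrArg Prod.snd hx₂)
  · intro γ
    show ((yt γ - ((p : ℤ) • x₂.1) γ : ℤ) : ZMod p) = y γ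
    rw [AddMonoidHom.smul_apply, smul_eq_mul]
    push_cast
    rw [ZMod.natCast_self, zero_mul, sub_zero, ← hred]
    rfl

end Final

end Fermat.Agent.S41.H77
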