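import Mathlib
import Fermat.Agent.S41.H94_Leaves

/-!
# S41: the trace maps commute with the Hecke operators on cuspidal classes (F4)

For `y` cuspidal of level `N q` and a prime `ℓ ∤ N q`:
`cor_i N q (Tcoh (N q) ℓ y) = Tcoh N ℓ (cor_i N q y)`, `i = 1, 2`;
over every field with `2 ≠ 0` (by adjointness, from `Tcoh_res_i` of helper19 and the nondegenerate
pairing of package P), and over `ℤ` (embed `ℤ` in `ℚ`).
-/

set_option autoImplicit false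

open scoped MatrixGroups
open CongruenceSubgroup

namespace Fermat.Agent.S41.H94

/-! ### Change of coefficients -/

section Coeff

variable {H G : Type*} [Group H] [Group G] {A B : Type*} [AddCommGroup A] [AddCommGroup B]

theorem corAlong_coeff (f : H →* G) (ι : A →+ B) (φ : Additive H →+ A) :
    corAlong B f (ι.comp φ) = ι.comp (corAlong A f φ) := by
  by_cases h : Function.Injective f ∧ f.range.FiniteIndex
  · have := h.2
    letI : Fintype (G ⧸ f.range) := Fintype.ofFinite _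
    refine DFunLike.ext _ _ (fun g => ?_)
    obtain ⟨σ, hh, hsol⟩ := (H19.isReps_out f).exists_sol (Additive.toMul g)
    have e1 := H19.corAlong_eq_sum f h.1 _ (H19.isReps_out f) (ι.comp φ) (Additive.toMul g) σ hh
      hsol
    have e2 := H19.corAlong_eq_sum f h.1 _ (H19.isReps_out f) φ (Additive.toMul g) σ hh hsol
    rw [ofMul_toMul] at e1 e2
    rw [e1, AddMonoidHom.comp_apply, e2, map_sum]
    rfl
  · rw [H19.corAlong_of_not h, H19.corAlong_of_not h, AddMonoidHom.comp_zero]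

theorem resAlong_coeff (f : H →* G) (ι : A →+ B) (φ : Additive G →+ A) :
    resAlong B f (ι.comp φ) = ι.comp (resAlong A f φ) := rfl

theorem Tcoh_coeff (N ℓ : ℕ) (ι : A →+ B) (φ : Additive (Gamma0 N) →+ A) :
    Tcoh N B ℓ (ι.comp φ) = ι.comp (Tcoh N A ℓ φ) := by
  unfold Tcoh cor1 res2
  rw [resAlong_coeff, corAlong_coeff]

theorem isCuspidalHom_coeff {M : ℕ} (ι : A →+ B) {φ : Additive (Gamma0 M) →+ A}
    (hφ : IsCuspidalHom (Gamma0 M) φ) : IsCuspidalHom (Gamma0 M) (ι.comp φ) := by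
  intro γ hγ
  rw [AddMonoidHom.comp_apply, hφ γ hγ, map_zero]

end Coeff

/-! ### F4 over a field -/

section Field

variable {k : Type} [Field k]

theorem cor1_Tcoh_field (h2 : (2 : k) ≠ 0) {N q ℓ : ℕ} (hN : 0 < N) (hq : q.Prime) (hℓ : ℓ.Prime)
    (hℓNq : ¬ ℓ ∣ N * q) {y : Additive (Gamma0 (N * q)) →+ k}
    (hy : IsCuspidalHom (Gamma0 (N * q)) y) :
    cor1 N q k (Tcoh (N * q) k ℓ y) = Tcoh N k ℓ (cor1 N q k y) := by
  have hℓN : ¬ ℓ ∣ N := fun h => hℓNq (dvd_mul_of_dvd_left h _)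
  have hℓq : ℓ ≠ q := fun h => hℓNq (h ▸ dvd_mul_left _ _)
  have hNq : 0 < N * q := Nat.mul_pos hN hq.pos
  haveI : NeZero N := ⟨hN.ne'⟩
  haveI : NeZero (N * q) := ⟨hNq.ne'⟩
  let Y : cuspSub k (N * q) := ⟨y, hy⟩
  have key : corL1 leaves h2 N q hN.ne' hq.ne_zero (TL leaves h2 (N * q) ℓ hNq.ne' hℓ.ne_zero Y)
      = TL leaves h2 N ℓ hN.ne' hℓ.ne_zero (corL1 leaves h2 N q hN.ne' hq.ne_zero Y) := by
    rw [← sub_eq_zero]
    apply BL_nondeg leaves h2 N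
    intro x
    rw [BL_skew, neg_eq_zero, map_sub, BL_TL leaves h2 N ℓ hN hℓ hℓN, ← BL_adj1, ← BL_adj1,
      BL_TL leaves h2 (N * q) ℓ hNq hℓ hℓNq, sub_eq_zero]
    congr 2
    exact Subtype.ext (H19.Tcoh_res1 hN hq hℓ hℓN hℓq x.1)
  exact congrArg Subtype.val key

theorem cor2_Tcoh_field (h2 : (2 : k) ≠ 0) {N q ℓ : ℕ} (hN : 0 < N) (hq : q.Prime) (hℓ : ℓ.Prime)
    (hℓNq : ¬ ℓ ∣ N * q) {y : Additive (Gamma0 (N * q)) →+ k}
    (hy : IsCuspidalHom (Gamma0 (N * q)) y) :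
    cor2 N q k (Tcoh (N * q) k ℓ y) = Tcoh N k ℓ (cor2 N q k y) := by
  have hℓN : ¬ ℓ ∣ N := fun h => hℓNq (dvd_mul_of_dvd_left h _)
  have hℓq : ℓ ≠ q := fun h => hℓNq (h ▸ dvd_mul_left _ _)
  have hNq : 0 < N * q := Nat.mul_pos hN hq.pos
  haveI : NeZero N := ⟨hN.ne'⟩
  haveI : NeZero (N * q) := ⟨hNq.ne'⟩
  let Y : cuspSub k (N * q) := ⟨y, hy⟩
  have key : corL2 leaves h2 N q hN.ne' hq.ne_zero (TL leaves h2 (N * q) ℓ hNq.ne' hℓ.ne_zero Y)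
      = TL leaves h2 N ℓ hN.ne' hℓ.ne_zero (corL2 leaves h2 N q hN.ne' hq.ne_zero Y) := by
    rw [← sub_eq_zero]
    apply BL_nondeg leaves h2 N
    intro x
    rw [BL_skew, neg_eq_zero, map_sub, BL_TL leaves h2 N ℓ hN hℓ hℓN, ← BL_adj2, ← BL_adj2,
      BL_TL leaves h2 (N * q) ℓ hNq hℓ hℓNq, sub_eq_zero]
    congr 2
    exact Subtype.ext (H19.Tcoh_res2 hN hq hℓ hℓN hℓq x.1)
  exact congrArg Subtype.val key

end Field

/-! ### F4 over `ℤ` -/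

section Int

theorem comp_castAddHom_injective {G : Type*} [AddZeroClass G] {φ ψ : G →+ ℤ}
    (h : (Int.castAddHom ℚ).comp φ = (Int.castAddHom ℚ).comp ψ) : φ = ψ := by
  refine DFunLike.ext _ _ (fun g => ?_)
  have := DFunLike.congr_fun h g
  simpa using this

/-- **F4** for `cor1`, integral coefficients. -/
theorem cor1_Tcoh_int {N q ℓ : ℕ} (hN : 0 < N) (hq : q.Prime) (hℓ : ℓ.Prime)
    (hℓNq : ¬ ℓ ∣ N * q) {y : Additive (Gamma0 (N * q)) →+ ℤ}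
    (hy : IsCuspidalHom (Gamma0 (N * q)) y) :
    cor1 N q ℤ (Tcoh (N * q) ℤ ℓ y) = Tcoh N ℤ ℓ (cor1 N q ℤ y) := by
  apply comp_castAddHom_injective
  have h := cor1_Tcoh_field (k := ℚ) two_ne_zero hN hq hℓ hℓNq
    (isCuspidalHom_coeff (Int.castAddHom ℚ) hy)
  unfold cor1 at h ⊢
  rw [Tcoh_coeff, corAlong_coeff, corAlong_coeff, Tcoh_coeff] at h
  exact h

/-- **F4** for `cor2`, integral coefficients. -/
theorem cor2_Tcoh_int {N q ℓ : ℕ} (hN : 0 < N) (hq : q.Prime) (hℓ : ℓ.Prime)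
    (hℓNq : ¬ ℓ ∣ N * q) {y : Additive (Gamma0 (N * q)) →+ ℤ}
    (hy : IsCuspidalHom (Gamma0 (N * q)) y) :
    cor2 N q ℤ (Tcoh (N * q) ℤ ℓ y) = Tcoh N ℤ ℓ (cor2 N q ℤ y) := by
  apply comp_castAddHom_injective
  have h := cor2_Tcoh_field (k := ℚ) two_ne_zero hN hq hℓ hℓNq
    (isCuspidalHom_coeff (Int.castAddHom ℚ) hy)
  unfold cor2 at h ⊢
  rw [Tcoh_coeff, corAlong_coeff, corAlong_coeff, Tcoh_coeff] at h
  exact h

/-- `cor1` keeps cuspidality, integral coefficients. -/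
theorem cor1_cusp_int {N q : ℕ} (hN : N ≠ 0) (hq : q ≠ 0) {y : Additive (Gamma0 (N * q)) →+ ℤ}
    (hy : IsCuspidalHom (Gamma0 (N * q)) y) : IsCuspidalHom (Gamma0 N) (cor1 N q ℤ y) := by
  have h := cor1_cusp (k := ℚ) leaves two_ne_zero N q hN hq
    (isCuspidalHom_coeff (Int.castAddHom ℚ) hy)
  unfold cor1 at h ⊢
  rw [corAlong_coeff] at h
  intro γ hγ
  have := h γ hγ
  simpa using this

/-- `cor2` keeps cuspidality, integral coefficients. -/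
theorem cor2_cusp_int {N q : ℕ} (hN : N ≠ 0) (hq : q ≠ 0) {y : Additive (Gamma0 (N * q)) →+ ℤ}
    (hy : IsCuspidalHom (Gamma0 (N * q)) y) : IsCuspidalHom (Gamma0 N) (cor2 N q ℤ y) := by
  have h := cor2_cusp (k := ℚ) leaves two_ne_zero N q hN hq
    (isCuspidalHom_coeff (Int.castAddHom ℚ) hy)
  unfold cor2 at h ⊢
  rw [corAlong_coeff] at h
  intro γ hγ
  have := h γ hγ
  simpa using this

/-- `Tcoh` keeps cuspidality, integral coefficients. -/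
theorem Tcoh_cusp_int {N ℓ : ℕ} (hN : N ≠ 0) (hℓ : ℓ ≠ 0) {y : Additive (Gamma0 N) →+ ℤ}
    (hy : IsCuspidalHom (Gamma0 N) y) : IsCuspidalHom (Gamma0 N) (Tcoh N ℤ ℓ y) := by
  have h := Tcoh_cusp (k := ℚ) leaves two_ne_zero N ℓ hN hℓ
    (isCuspidalHom_coeff (Int.castAddHom ℚ) hy)
  rw [Tcoh_coeff] at h
  intro γ hγ
  have := h γ hγ
  simpa using this

/-- `res1` keeps cuspidality, integral coefficients. -/
theorem res1_cusp_int {N q : ℕ} (hN : N ≠ 0) (hq : q ≠ 0) {x : Additive (Gamma0 N) →+ ℤ}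
    (hx : IsCuspidalHom (Gamma0 N) x) : IsCuspidalHom (Gamma0 (N * q)) (res1 N q ℤ x) := by
  have h := res1_cusp (k := ℚ) leaves two_ne_zero N q hN hq
    (isCuspidalHom_coeff (Int.castAddHom ℚ) hx)
  intro γ hγ
  have := h γ hγ
  change ((x (Additive.ofMul (inclG N q γ)) : ℤ) : ℚ) = 0 at this
  exact_mod_cast this

/-- `res2` keeps cuspidality, integral coefficients. -/
theorem res2_cusp_int {N q : ℕ} (hN : N ≠ 0) (hq : q ≠ 0) {x : Additive (Gamma0 N) →+ ℤ}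
    (hx : IsCuspidalHom (Gamma0 N) x) : IsCuspidalHom (Gamma0 (N * q)) (res2 N q ℤ x) := by
  have h := res2_cusp (k := ℚ) leaves two_ne_zero N q hN hq
    (isCuspidalHom_coeff (Int.castAddHom ℚ) hx)
  intro γ hγ
  have := h γ hγ
  change ((x (Additive.ofMul (conjG N q γ)) : ℤ) : ℚ) = 0 at this
  exact_mod_cast this

end Int

/-! ### The Hecke operators commute on cuspidal classes -/

section Comm

theorem Tcoh_comm_field {k : Type} [Field k] (h2 : (2 : k) ≠ 0) {N ℓ ℓ' : ℕ} (hN : 0 < N)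
    (hℓ : ℓ.Prime) (hℓ' : ℓ'.Prime) (hℓN : ¬ ℓ ∣ N) (hne : ℓ ≠ ℓ')
    {x : Additive (Gamma0 N) →+ k} (hx : IsCuspidalHom (Gamma0 N) x) :
    Tcoh N k ℓ (Tcoh N k ℓ' x) = Tcoh N k ℓ' (Tcoh N k ℓ x) := by
  have hℓNℓ' : ¬ ℓ ∣ N * ℓ' := fun h =>
    (Nat.Prime.dvd_mul hℓ).mp h |>.elim hℓN
      (fun h' => hne ((Nat.prime_dvd_prime_iff_eq hℓ hℓ').mp h'))
  have e1 := cor1_Tcoh_field h2 hN hℓ' hℓ hℓNℓ'
    (res2_cusp leaves h2 N ℓ' hN.ne' hℓ'.ne_zero hx)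
  have e2 := H19.Tcoh_res2 (A := k) hN hℓ' hℓ hℓN hne x
  change Tcoh N k ℓ (cor1 N ℓ' k (res2 N ℓ' k x)) = cor1 N ℓ' k (res2 N ℓ' k (Tcoh N k ℓ x))
  rw [← e1, e2]

theorem Tcoh_comm_int {N ℓ ℓ' : ℕ} (hN : 0 < N)
    (hℓ : ℓ.Prime) (hℓ' : ℓ'.Prime) (hℓN : ¬ ℓ ∣ N) (hne : ℓ ≠ ℓ')
    {x : Additive (Gamma0 N) →+ ℤ} (hx : IsCuspidalHom (Gamma0 N) x) :
    Tcoh N ℤ ℓ (Tcoh N ℤ ℓ' x) = Tcoh N ℤ ℓ' (Tcoh N ℤ ℓ x) := by
  have hℓNℓ' : ¬ ℓ ∣ N * ℓ' := fun h =>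
    (Nat.Prime.dvd_mul hℓ).mp h |>.elim hℓN
      (fun h' => hne ((Nat.prime_dvd_prime_iff_eq hℓ hℓ').mp h'))
  have e1 := cor1_Tcoh_int hN hℓ' hℓ hℓNℓ' (res2_cusp_int hN.ne' hℓ'.ne_zero hx)
  have e2 := H19.Tcoh_res2 (A := ℤ) hN hℓ' hℓ hℓN hne x
  change Tcoh N ℤ ℓ (cor1 N ℓ' ℤ (res2 N ℓ' ℤ x)) = cor1 N ℓ' ℤ (res2 N ℓ' ℤ (Tcoh N ℤ ℓ x))
  rw [← e1, e2]

end Comm

end Fermat.Agent.S41.H94
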