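import Fermat.Agent.S41.H77_LLift
import Fermat.Agent.S41.H94_F4

/-!
# S41 / NEWLIFT: package L-LIFT, unconditional

`stmt_LLIFT : H20.Stmt_LLIFT` from `llift_of_F4` and F4 (`H94.cor1_Tcoh_int`, `H94.cor2_Tcoh_int`).
-/

set_option autoImplicit false

namespace Fermat.Agent.S41.H77

open Fermat.Agent.S41

/-- F4 (helper94). -/
theorem stmt_F4 : Stmt_F4 :=
  fun _ _ _ hN hq _ hℓ hd _ hy =>
    ⟨H94.cor1_Tcoh_int hN hq hℓ hd hy, H94.cor2_Tcoh_int hN hq hℓ hd hy⟩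

/-- **L-LIFT**, unconditional. -/
theorem stmt_LLIFT : H20.Stmt_LLIFT := llift_of_F4 stmt_F4

end Fermat.Agent.S41.H77
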