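import Mathlib

/-!
# S41, package S (helper98): the pure algebra of the reduction of an eigensystem

* `exists_common_eigenvector` : a commutative ring `R` acting on a finite dimensional vector space
  `V` over a field `F` through `φ : R →+* End_F V`, and a ring homomorphism `ρ : R →+* F` which kills
  the kernel of `φ` (and such that the scalars lift to `R`) have a common eigenvector:
  `φ τ w = ρ τ • w` for all `τ`.
* `exists_eigenvector_mod` : commuting integer matrices `M (t i)` with a common complex eigenvector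
  whose eigenvalues `χ (t i)` are congruent to integers `c i` modulo a maximal ideal `𝔪` over `p`
  have a common eigenvector modulo `p` with eigenvalues `c i`.
-/

set_option autoImplicit false

namespace Fermat.Agent.S41.H98

open Polynomial

section LemmaE

variable {F : Type*} [Field F] {V : Type*} [AddCommGroup V] [Module F V]
  {R : Type*} [CommRing R] (φ : R →+* Module.End F V) (ρ : R →+* F)

/-- A subspace stable under the action of `R`. -/
def IsStableSub (U : Submodule F V) : Prop := ∀ τ : R, ∀ x ∈ U, φ τ x ∈ U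

/-- A subspace whose annihilator is contained in the kernel of `ρ`. -/
def IsSuppSub (U : Submodule F V) : Prop := ∀ τ : R, (∀ x ∈ U, φ τ x = 0) → ρ τ = 0

variable {φ ρ}

theorem exists_poly_lift
    (hscal : ∀ c : F, ∃ τ : R, φ τ = algebraMap F (Module.End F V) c ∧ ρ τ = c)
    (n : R) (h : F[X]) : ∃ τ : R, φ τ = aeval (φ n) h ∧ ρ τ = h.eval (ρ n) := by
  induction h using Polynomial.induction_on' with
  | add f g hf hg =>
    obtain ⟨a, ha1, ha2⟩ := hf
    obtain ⟨b, hb1, hb2⟩ := hg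
    exact ⟨a + b, by rw [map_add, ha1, hb1, map_add], by rw [map_add, ha2, hb2, eval_add]⟩
  | monomial j c =>
    obtain ⟨a, ha1, ha2⟩ := hscal c
    refine ⟨a * n ^ j, ?_, ?_⟩
    · rw [map_mul, map_pow, ha1, aeval_monomial]
    · rw [map_mul, map_pow, ha2, eval_monomial]

theorem isStableSub_inf_ker {U : Submodule F V} (hU : IsStableSub φ U) (n : R) (m : ℕ) :
    IsStableSub φ (U ⊓ LinearMap.ker ((φ n) ^ m)) := by
  intro τ x hx
  have hx' := Submodule.mem_inf.mp hx
  refine Submodule.mem_inf.mpr ⟨hU τ x hx'.1, ?_⟩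
  have h1 : (φ n) ^ m * φ τ = φ τ * (φ n) ^ m := by
    rw [← map_pow, ← map_mul, ← map_mul, mul_comm]
  rw [LinearMap.mem_ker]
  have h2 : ((φ n) ^ m * φ τ) x = (φ τ * (φ n) ^ m) x := by rw [h1]
  rw [Module.End.mul_apply, Module.End.mul_apply] at h2
  rw [h2, LinearMap.mem_ker.mp hx'.2, map_zero]

variable [FiniteDimensional F V]

theorem isSuppSub_inf_ker
    (hscal : ∀ c : F, ∃ τ : R, φ τ = algebraMap F (Module.End F V) c ∧ ρ τ = c)
    {U : Submodule F V} (hU : IsStableSub φ U) (hS : IsSuppSub φ ρ U) (n : R) (hn : ρ n = 0) :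
    ∃ m : ℕ, IsSuppSub φ ρ (U ⊓ LinearMap.ker ((φ n) ^ m)) := by
  have hint : IsIntegral F (φ n) := Algebra.IsIntegral.isIntegral _
  have hμ0 : minpoly F (φ n) ≠ 0 := minpoly.ne_zero hint
  obtain ⟨h, hμ, hh⟩ := exists_eq_pow_rootMultiplicity_mul_and_not_dvd (minpoly F (φ n)) hμ0 (0 : F)
  refine ⟨rootMultiplicity 0 (minpoly F (φ n)), ?_⟩
  intro a ha
  obtain ⟨τ, hτ1, hτ2⟩ := exists_poly_lift hscal n h
  have hprod : (φ n) ^ (rootMultiplicity 0 (minpoly F (φ n))) * aeval (φ n) h = 0 := by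
    have h1 := minpoly.aeval F (φ n)
    rw [hμ] at h1
    simpa [map_mul, map_pow, map_sub, aeval_X, aeval_C] using h1
  have hkill : ∀ x ∈ U, φ (a * τ) x = 0 := by
    intro x hx
    rw [map_mul, Module.End.mul_apply]
    apply ha
    refine Submodule.mem_inf.mpr ⟨hU τ x hx, ?_⟩
    rw [LinearMap.mem_ker, hτ1, ← Module.End.mul_apply, hprod, LinearMap.zero_apply]
  have h3 := hS (a * τ) hkill
  rw [map_mul, hτ2, hn] at h3
  have hh0 : h.eval 0 ≠ 0 := by
    intro h0
    apply hh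
    rw [C_0, sub_zero, X_dvd_iff, coeff_zero_eq_eval_zero]
    exact h0
  exact (mul_eq_zero.mp h3).resolve_right hh0

/-- **Common eigenvector.** -/
theorem exists_common_eigenvector
    (hscal : ∀ c : F, ∃ τ : R, φ τ = algebraMap F (Module.End F V) c ∧ ρ τ = c)
    (hker : ∀ τ : R, φ τ = 0 → ρ τ = 0) :
    ∃ w : V, w ≠ 0 ∧ ∀ τ : R, φ τ w = ρ τ • w := by
  classical
  -- a stable supported subspace of minimal dimension
  have hex : ∃ d : ℕ, ∃ U : Submodule F V, IsStableSub φ U ∧ IsSuppSub φ ρ U ∧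
      Module.finrank F U = d := by
    refine ⟨_, ⊤, fun τ x _ => Submodule.mem_top, fun τ hτ => hker τ ?_, rfl⟩
    ext x
    exact hτ x Submodule.mem_top
  obtain ⟨U, hU, hS, hUd⟩ := Nat.find_spec hex
  have hmin : ∀ U' : Submodule F V, U' ≤ U → IsStableSub φ U' → IsSuppSub φ ρ U' → U' = U := by
    intro U' hle h1 h2
    refine Submodule.eq_of_le_of_finrank_le hle ?_
    rw [hUd]
    exact Nat.find_min' hex ⟨U', h1, h2, rfl⟩
  have hU0 : U ≠ ⊥ := by
    intro h0
    have := hS 1 (fun x hx => by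
      rw [h0, Submodule.mem_bot] at hx
      rw [hx, map_zero])
    rw [map_one] at this
    exact one_ne_zero this
  -- nilpotency
  have hnil : ∀ n : R, ρ n = 0 → ∃ m : ℕ, ∀ x ∈ U, ((φ n) ^ m) x = 0 := by
    intro n hn
    obtain ⟨m, hm⟩ := isSuppSub_inf_ker hscal hU hS n hn
    refine ⟨m, fun x hx => ?_⟩
    have := hmin _ inf_le_left (isStableSub_inf_ker hU n m) hm
    rw [← this] at hx
    exact LinearMap.mem_ker.mp (Submodule.mem_inf.mp hx).2
  -- elements outside the kernel of `ρ` are injective on `U`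
  have hinj : ∀ a : R, ρ a ≠ 0 → ∀ x ∈ U, φ a x = 0 → x = 0 := by
    intro a ha x hx hax
    obtain ⟨τ, hτ1, hτ2⟩ := hscal (ρ a)
    obtain ⟨m, hm⟩ := hnil (a - τ) (by rw [map_sub, hτ2, sub_self])
    have h1 : φ (a - τ) x = (-(ρ a)) • x := by
      rw [map_sub, LinearMap.sub_apply, hax, hτ1, Module.algebraMap_end_apply, zero_sub, neg_smul]
    have h2 : ∀ j : ℕ, ((φ (a - τ)) ^ j) x = ((-(ρ a)) ^ j) • x := by
      intro j
      induction j with
      | zero => simp
      | succ j ih =>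
        rw [pow_succ, Module.End.mul_apply, h1, map_smul, ih, smul_smul, pow_succ, mul_comm]
    have h3 := hm x hx
    rw [h2 m] at h3
    rcases smul_eq_zero.mp h3 with h4 | h4
    · exact absurd h4 (pow_ne_zero m (neg_ne_zero.mpr ha))
    · exact h4
  -- the kernel of `ρ` kills `U`
  have hkill : ∀ n : R, ρ n = 0 → ∀ x ∈ U, φ n x = 0 := by
    intro n hn
    obtain ⟨m, hm⟩ := hnil n hn
    have hst : IsStableSub φ (U ⊓ LinearMap.ker (φ n)) := by
      have := isStableSub_inf_ker hU n 1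
      rwa [pow_one] at this
    -- `U ⊓ ker (φ n) ≠ ⊥`
    have hne : ∃ y ∈ U, y ≠ 0 ∧ φ n y = 0 := by
      obtain ⟨x, hxU, hx0⟩ := (Submodule.ne_bot_iff U).mp hU0
      have hex2 : ∃ j : ℕ, ((φ n) ^ j) x = 0 := ⟨m, hm x hxU⟩
      have hj0 : Nat.find hex2 ≠ 0 := by
        intro h0
        have := Nat.find_spec hex2
        rw [h0, pow_zero] at this
        exact hx0 this
      obtain ⟨j, hj⟩ := Nat.exists_eq_succ_of_ne_zero hj0
      refine ⟨((φ n) ^ j) x, ?_, ?_, ?_⟩
      · have : ∀ i : ℕ, ((φ n) ^ i) x ∈ U := by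
          intro i
          rw [← map_pow]
          exact hU _ x hxU
        exact this j
      · exact Nat.find_min hex2 (by rw [hj]; exact Nat.lt_succ_self j)
      · have := Nat.find_spec hex2
        rw [hj, pow_succ', Module.End.mul_apply] at this
        exact this
    have hsu : IsSuppSub φ ρ (U ⊓ LinearMap.ker (φ n)) := by
      intro a ha
      by_contra hρ
      obtain ⟨y, hyU, hy0, hy⟩ := hne
      exact hy0 (hinj a hρ y hyU (ha y (Submodule.mem_inf.mpr ⟨hyU, LinearMap.mem_ker.mpr hy⟩)))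
    have := hmin _ inf_le_left hst hsu
    intro x hx
    rw [← this] at hx
    exact LinearMap.mem_ker.mp (Submodule.mem_inf.mp hx).2
  obtain ⟨w, hwU, hw0⟩ := (Submodule.ne_bot_iff U).mp hU0
  refine ⟨w, hw0, fun τ => ?_⟩
  obtain ⟨σ, hσ1, hσ2⟩ := hscal (ρ τ)
  have := hkill (τ - σ) (by rw [map_sub, hσ2, sub_self]) w hwU
  rw [map_sub, LinearMap.sub_apply, hσ1, Module.algebraMap_end_apply, sub_eq_zero] at this
  exact this

end LemmaE

section Reduction

open Matrix

variable {R : Type*} [CommRing R] {r : ℕ}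

/-- An eigenvalue of an integer matrix is an algebraic integer. -/
theorem isIntegral_of_eigen (S : Matrix (Fin r) (Fin r) ℤ) (v : Fin r → ℂ) (hv : v ≠ 0) (μ : ℂ)
    (h : (S.map (Int.cast : ℤ → ℂ)).mulVec v = μ • v) : IsIntegral ℤ μ := by
  refine ⟨S.charpoly, Matrix.charpoly_monic S, ?_⟩
  have h1 : (S.map (Int.castRingHom ℂ)).charpoly = S.charpoly.map (Int.castRingHom ℂ) :=
    Matrix.charpoly_map S (Int.castRingHom ℂ)
  have h2 : ((S.map (Int.castRingHom ℂ)).charpoly).eval μ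
      = (Matrix.scalar (Fin r) μ - S.map (Int.castRingHom ℂ)).det :=
    Matrix.eval_charpoly _ μ
  have h3 : (Matrix.scalar (Fin r) μ - S.map (Int.castRingHom ℂ)).det = 0 := by
    rw [← Matrix.exists_mulVec_eq_zero_iff]
    refine ⟨v, hv, ?_⟩
    rw [Matrix.sub_mulVec]
    have h4 : (S.map (Int.castRingHom ℂ)).mulVec v = μ • v := h
    rw [h4]
    have h5 : (Matrix.scalar (Fin r) μ).mulVec v = μ • v := by
      ext i
      simp [Matrix.scalar, Matrix.mulVec, dotProduct, Matrix.diagonal_apply]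
    rw [h5, sub_self]
  rw [h1, h3, Polynomial.eval_map] at h2
  exact h2

/-- If `M τ` is divisible by `p` then the eigenvalue `χ τ` lies in `𝔪`. -/
theorem chi_mem_of_dvd (M : R →+* Matrix (Fin r) (Fin r) ℤ) (χ : R →+* integralClosure ℤ ℂ)
    (v : Fin r → ℂ) (hv : v ≠ 0)
    (hev : ∀ t, ((M t).map (Int.cast : ℤ → ℂ)).mulVec v = ((χ t : integralClosure ℤ ℂ) : ℂ) • v)
    (𝔪 : Ideal (integralClosure ℤ ℂ)) {p : ℕ} (hp0 : p ≠ 0) (hp : (p : integralClosure ℤ ℂ) ∈ 𝔪)
    (τ : R) (hτ : ∀ i j, (p : ℤ) ∣ M τ i j) : χ τ ∈ 𝔪 := by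
  set S : Matrix (Fin r) (Fin r) ℤ := Matrix.of fun i j => M τ i j / (p : ℤ) with hS
  have hMS : ∀ i j, M τ i j = (p : ℤ) * S i j := fun i j => by
    rw [hS, Matrix.of_apply, Int.mul_ediv_cancel' (hτ i j)]
  have hpC : (p : ℂ) ≠ 0 := by exact_mod_cast hp0
  have h1 : (S.map (Int.cast : ℤ → ℂ)).mulVec v
      = (((χ τ : integralClosure ℤ ℂ) : ℂ) / p) • v := by
    have h2 := hev τ
    have h3 : (M τ).map (Int.cast : ℤ → ℂ) = (p : ℂ) • S.map (Int.cast : ℤ → ℂ) := by
      ext i j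
      simp only [Matrix.map_apply, Matrix.smul_apply, smul_eq_mul]
      rw [hMS i j]
      push_cast
      ring
    rw [h3, Matrix.smul_mulVec] at h2
    have h4 : (S.map (Int.cast : ℤ → ℂ)).mulVec v
        = (p : ℂ)⁻¹ • ((p : ℂ) • (S.map (Int.cast : ℤ → ℂ)).mulVec v) := by
      rw [smul_smul, inv_mul_cancel₀ hpC, one_smul]
    rw [h4, h2, smul_smul]
    congr 1
    field_simp
  have h5 : IsIntegral ℤ (((χ τ : integralClosure ℤ ℂ) : ℂ) / p) :=
    isIntegral_of_eigen S v hv _ h1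
  have h6 : χ τ = (p : integralClosure ℤ ℂ) * ⟨_, h5⟩ := by
    apply Subtype.ext
    push_cast
    field_simp
  rw [h6]
  exact 𝔪.mul_mem_right _ hp

/-- **Reduction of an eigensystem.** -/
theorem exists_eigenvector_mod (M : R →+* Matrix (Fin r) (Fin r) ℤ)
    (χ : R →+* integralClosure ℤ ℂ) (v : Fin r → ℂ) (hv : v ≠ 0)
    (hev : ∀ t, ((M t).map (Int.cast : ℤ → ℂ)).mulVec v = ((χ t : integralClosure ℤ ℂ) : ℂ) • v)
    (𝔪 : Ideal (integralClosure ℤ ℂ)) (h𝔪 : 𝔪 ≠ ⊤) {p : ℕ} [Fact p.Prime]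
    (hp : (p : integralClosure ℤ ℂ) ∈ 𝔪)
    {ι : Type*} (t : ι → R) (c : ι → ℤ)
    (hc : ∀ i, χ (t i) - ((c i : ℤ) : integralClosure ℤ ℂ) ∈ 𝔪) :
    ∃ w : Fin r → ZMod p, w ≠ 0 ∧
      ∀ i, ((M (t i)).map (Int.cast : ℤ → ZMod p)).mulVec w = ((c i : ℤ) : ZMod p) • w := by
  classical
  have hpp : p.Prime := Fact.out
  let ev : MvPolynomial ι ℤ →+* R := MvPolynomial.eval₂Hom (Int.castRingHom R) t
  let Mp : Matrix (Fin r) (Fin r) ℤ →+* Matrix (Fin r) (Fin r) (ZMod p) :=
    (Int.castRingHom (ZMod p)).mapMatrix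
  let toE : Matrix (Fin r) (Fin r) (ZMod p) →+* Module.End (ZMod p) (Fin r → ZMod p) :=
    (Matrix.toLinAlgEquiv' : Matrix (Fin r) (Fin r) (ZMod p) ≃ₐ[ZMod p] _).toAlgHom.toRingHom
  let φ : MvPolynomial ι ℤ →+* Module.End (ZMod p) (Fin r → ZMod p) :=
    toE.comp (Mp.comp (M.comp ev))
  let evc : MvPolynomial ι ℤ →+* ℤ := MvPolynomial.eval₂Hom (RingHom.id ℤ) c
  let ρ : MvPolynomial ι ℤ →+* ZMod p := (Int.castRingHom (ZMod p)).comp evc
  have hscal : ∀ a : ZMod p, ∃ τ : MvPolynomial ι ℤ,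
      φ τ = algebraMap (ZMod p) (Module.End (ZMod p) (Fin r → ZMod p)) a ∧ ρ τ = a := by
    intro a
    refine ⟨((a.val : ℕ) : MvPolynomial ι ℤ), ?_, ?_⟩
    · rw [map_natCast]
      conv_rhs => rw [← ZMod.natCast_zmod_val a]
      rw [map_natCast]
    · rw [map_natCast, ZMod.natCast_zmod_val]
  have hker : ∀ τ : MvPolynomial ι ℤ, φ τ = 0 → ρ τ = 0 := by
    intro P hP
    have h1 : Mp (M (ev P)) = 0 := by
      have : toE (Mp (M (ev P))) = toE 0 := by rw [map_zero]; exact hP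
      exact (Matrix.toLinAlgEquiv' : Matrix (Fin r) (Fin r) (ZMod p) ≃ₐ[ZMod p] _).injective this
    have h2 : ∀ i j, (p : ℤ) ∣ M (ev P) i j := by
      intro i j
      have := congrFun (congrFun h1 i) j
      rw [RingHom.mapMatrix_apply, Matrix.map_apply] at this
      exact (ZMod.intCast_zmod_eq_zero_iff_dvd _ _).mp this
    have h3 : χ (ev P) ∈ 𝔪 := chi_mem_of_dvd M χ v hv hev 𝔪 hpp.ne_zero hp (ev P) h2
    -- compare the two homomorphisms into the quotient
    have h4 : (Ideal.Quotient.mk 𝔪).comp (χ.comp ev)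
        = (Int.castRingHom (integralClosure ℤ ℂ ⧸ 𝔪)).comp evc := by
      apply MvPolynomial.ringHom_ext
      · intro a
        simp [ev, evc]
      · intro i
        simp only [RingHom.comp_apply, ev, evc, MvPolynomial.eval₂Hom_X']
        rw [eq_intCast, ← map_intCast (Ideal.Quotient.mk 𝔪)]
        exact Ideal.Quotient.eq.mpr (hc i)
    have h5 : ((evc P : ℤ) : integralClosure ℤ ℂ) ∈ 𝔪 := by
      have h6 := congrArg (fun f => f P) h4
      simp only [RingHom.comp_apply] at h6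
      rw [Ideal.Quotient.eq_zero_iff_mem.mpr h3, eq_intCast,
        ← map_intCast (Ideal.Quotient.mk 𝔪)] at h6
      exact Ideal.Quotient.eq_zero_iff_mem.mp h6.symm
    have h7 : (p : ℤ) ∣ evc P := by
      by_contra hnd
      have hcop : IsCoprime (p : ℤ) (evc P) :=
        (Nat.prime_iff_prime_int.mp hpp).irreducible.coprime_iff_not_dvd.mpr hnd
      obtain ⟨a, b, hab⟩ := hcop
      apply h𝔪
      rw [Ideal.eq_top_iff_one]
      have h8 : ((a * (p : ℤ) + b * evc P : ℤ) : integralClosure ℤ ℂ) = 1 := by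
        rw [hab]; simp
      rw [← h8]
      push_cast
      exact 𝔪.add_mem (𝔪.mul_mem_left _ hp) (𝔪.mul_mem_left _ h5)
    show (Int.castRingHom (ZMod p)) (evc P) = 0
    rw [eq_intCast]
    exact (ZMod.intCast_zmod_eq_zero_iff_dvd _ _).mpr h7
  obtain ⟨w, hw0, hw⟩ := exists_common_eigenvector (φ := φ) (ρ := ρ) hscal hker
  refine ⟨w, hw0, fun i => ?_⟩
  have h1 := hw (MvPolynomial.X i)
  have h2 : φ (MvPolynomial.X i) w = ((M (t i)).map (Int.cast : ℤ → ZMod p)).mulVec w := by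
    show Matrix.toLinAlgEquiv' (Mp (M (ev (MvPolynomial.X i)))) w = _
    rw [Matrix.toLinAlgEquiv'_apply]
    simp [ev, Mp, RingHom.mapMatrix_apply]
  have h3 : ρ (MvPolynomial.X i) = ((c i : ℤ) : ZMod p) := by
    simp [ρ, evc]
  rw [h2, h3] at h1
  exact h1

end Reduction

end Fermat.Agent.S41.H98
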