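import Fermat.Agent.S41.Interfaces

/-!
# S41 (level raising): wiring

`result_of_inputs`: the frozen statement S41 from `Stmt_SUPP`, `Stmt_REL`, `Stmt_IHARA`, `Stmt_NEWLIFT`.
-/

set_option autoImplicit false

open scoped MatrixGroups
open WeierstrassCurve WeierstrassCurve.Affine WeierstrassCurve.Affine.Point
open CongruenceSubgroup

namespace Fermat.Agent.S41

theorem isCuspidalHom_smul {A : Type*} [AddCommGroup A] {R : Type*} [Semiring R] [Module R A]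
    {Γ : Subgroup SL(2, ℤ)} {φ : Additive Γ →+ A} (c : R) (h : IsCuspidalHom Γ φ) :
    IsCuspidalHom Γ (c • φ) := by
  intro γ hγ
  show c • φ (Additive.ofMul γ) = 0
  rw [h γ hγ, smul_zero]

theorem res2_smul (N q : ℕ) {A : Type*} [AddCommGroup A] {R : Type*} [Semiring R] [Module R A]
    (c : R) (φ : Additive (Gamma0 N) →+ A) :
    res2 N q A (c • φ) = c • res2 N q A φ := rfl

theorem isEigenOf_mono {W : WeierstrassCurve ℤ} {p M M' N : ℕ} (h : M ∣ M')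
    {x : Additive (Gamma0 N) →+ ZMod p} (hx : IsEigenOf W p M N x) : IsEigenOf W p M' N x :=
  fun ℓ hℓ hg hd hp => hx ℓ hℓ hg (fun hd' => hd (dvd_trans hd' h)) hp

theorem result_of_inputs (hSUPP : Stmt_SUPP) (hREL : Stmt_REL) (hIHARA : Stmt_IHARA)
    (hNEWLIFT : Stmt_NEWLIFT)
    (E : WeierstrassCurve ℚ) [E.IsElliptic] {W : WeierstrassCurve ℤ} (hW : W.IsIntegralModelOf E)
    {p N q' : ℕ} (hp : p.Prime) (hp2 : p ≠ 2) (hN : 0 < N) (hq' : q'.Prime) (hq'N : ¬ q' ∣ N) (hq'p : q' ≠ p)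
    (hirr : GaloisRepIsIrreducible (K := AlgebraicClosure ℚ) ℚ E p)
    (f : CuspForm (CongruenceSubgroup.Gamma0 N) 2) (𝔪 : Ideal (integralClosure ℤ ℂ))
    (hf : f.IsNormalizedEigenform) (hmax : 𝔪.IsMaximal) (hpm : (p : integralClosure ℤ ℂ) ∈ 𝔪)
    (hcong : ∀ ℓ : ℕ, ℓ.Prime → W.IsGoodPrimeFor ℓ → ¬ ℓ ∣ N → ℓ ≠ p →
      ∃ a : integralClosure ℤ ℂ, (a : ℂ) = ModularFormClass.qCoeff f ℓ ∧
        a - ((W.apOfModel ℓ : ℤ) : integralClosure ℤ ℂ) ∈ 𝔪)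
    (hLR : ∃ a : integralClosure ℤ ℂ, (a : ℂ) = ModularFormClass.qCoeff f q' ∧
      a ^ 2 - ((q' : integralClosure ℤ ℂ) + 1) ^ 2 ∈ 𝔪) :
    ∃ (g : CuspForm (CongruenceSubgroup.Gamma0 (N * q')) 2) (𝔪' : Ideal (integralClosure ℤ ℂ)),
      g.IsNormalizedEigenform ∧ 𝔪'.IsMaximal ∧ (p : integralClosure ℤ ℂ) ∈ 𝔪' ∧
      (∀ ℓ : ℕ, ℓ.Prime → W.IsGoodPrimeFor ℓ → ¬ ℓ ∣ N * q' → ℓ ≠ p →
        ∃ a : integralClosure ℤ ℂ, (a : ℂ) = ModularFormClass.qCoeff g ℓ ∧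
          a - ((W.apOfModel ℓ : ℤ) : integralClosure ℤ ℂ) ∈ 𝔪') ∧
      g.IsNewAt q' := by
  obtain ⟨ε, x, hε, hx0, hxc, hxe, hxT⟩ :=
    hSUPP W p N q' hp hp2 hN hq' hq'N hq'p f 𝔪 hf hmax hpm hcong hLR
  obtain ⟨hyc, hye, hy1, hy2⟩ := hREL W p N q' hp hN hq' hq'N hq'p ε hε x hxc hxe hxT
  have hy0 : res1 N q' (ZMod p) x - (ε : ZMod p) • res2 N q' (ZMod p) x ≠ 0 := by
    intro h0
    apply hx0
    refine hIHARA E W hW p N q' hp hp2 hN hq' hq'N hq'p hirr x (-(ε : ZMod p) • x) hxc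
      (isCuspidalHom_smul _ hxc) (isEigenOf_mono (dvd_mul_right N q') hxe) ?_
    rw [res2_smul, neg_smul, ← sub_eq_add_neg]
    exact h0
  exact hNEWLIFT hIHARA E W hW p N q' hp hp2 hN hq' hq'N hq'p hirr _ hy0 hyc hye hy1 hy2

end Fermat.Agent.S41
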